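/-
PROJECT R (S43), gate (G), cut C1 = S34' (helper13): the `X₁` twin of `S34/Z1X0`.

Slice (Z1), the INSTANCE at `E'' = ℚ̄(X₁(N; r))` (`r` prime, `r ∤ N`, `A` a valuation subring of `ℚ̄`
over `r`): the two Gauss valuation rings `V₁`, `V₂` of `E''` over the Gauss ring `O` of
`F = ℚ̄(X₁(N))` (`C1/TwoGaussX1.setupX1` + `S34/TwoExt`) satisfy all hypotheses of `S34/Z1Abstract`
for the coefficientwise action of an element `σ` of the inertia group of `A`:

* `V1X1`, `V2X1`, `isExt_V1X1`, `isExt_V2X1` : the two valuation rings;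
* `arch_gaussDatum1`, `gaussDatum1_ne_top`, `arch_V1`, `V_ne_top1`, `V1X1_ne_V2X1`;
* `smul_sub_mem_nonunits₁1/₂1` : inertia acts trivially on both residue fields;
  `smul_mem_V1X1_iff`, `smul_mem_V2X1_iff`;
* `exists_valuation_eq_const1` : the value groups are attained on the constants `ℚ̄`;
* `exists_kummer_decomposition_X1` : **(Z1)**: `σ f = h ^ n * u * f` with `u ≡ 1` mod `𝔪₁`, `𝔪₂`;
* `sq_eq_zero_of_coreZ_X1`.
-/
import Mathlib
import Fermat.Agent.S43.LG1.C1.TwoGaussX1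
import Fermat.Agent.S34.TwoExtConst
import Fermat.Agent.S34.ArchGauss
import Fermat.Agent.S34.Z1Abstract

set_option autoImplicit false
set_option linter.unusedSectionVars false
set_option linter.style.haveILetI false
set_option synthInstance.maxHeartbeats 400000

noncomputable section

namespace Fermat.Agent.S43.LG1.C1.Z1X1

open Polynomial ModularCurve AlgebraicCurve IsLocalRing
open Fermat.Agent.S48.B.Defs.Model Fermat.Agent.S48.B.B1.Seams
open Fermat.Agent.S48.B.ES.DegreeBeta1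
open Fermat.Agent.S34
open Fermat.Agent.S34.WeakApprox Fermat.Agent.S34.Z1Abstract
open Fermat.Agent.S43.LG1.C1.Seam Fermat.Agent.S43.LG1.C1.PowerBasisX1
open Fermat.Agent.S43.LG1.C1.TwoGaussX1

local notation "Kb" => AlgebraicClosure ℚ

attribute [local instance] algShortcut1

variable {r : ℕ} [hrF : Fact r.Prime] {N : ℕ} [NeZero N] {A : ValuationSubring Kb}
variable (hr : r.Prime) (hA : A.LiesOverPrime r) (hrN : ¬ r ∣ N) [NeZero r]

attribute [local instance] algFE1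

/-! ### Generalities on `E'' / F` -/

theorem isScalarTower_FE1 : IsScalarTower Kb ↥(F1Bar N) ↥(F1pBar N r) :=
  isScalarTower_along (alpha1 N r Kb)

include hr hrN in
theorem isAlgebraic_FE1 : Algebra.IsAlgebraic ↥(F1Bar N) ↥(F1pBar N r) :=
  haveI := finite_FE1 (r := r) hr hrN
  Algebra.IsAlgebraic.of_finite _ _

/-! ### The Gauss ring of `F` is archimedean and proper -/

theorem arch_gaussDatum1 : Arch (gaussDatum1 N A hr hA hrN).O :=
  Fermat.Agent.S34.ArchGauss.arch_O _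
    (Fermat.Agent.S34.ArchGauss.arch_of_liesOverPrime_Kb hr A hA)

theorem gaussDatum1_ne_top : (gaussDatum1 N A hr hA hrN).O ≠ ⊤ :=
  Fermat.Agent.S34.ArchGauss.O_ne_top _
    (Fermat.Agent.S34.ArchGauss.ne_top_of_liesOverPrime hr A hA)

/-! ### The two valuation rings -/

/-- the first Gauss valuation ring of `E''` (`j_r ≡ j^r`) -/
def V1X1 : ValuationSubring ↥(F1pBar N r) :=
  Classical.choose (setupX1 hr hA hrN).exists_isExt₁

/-- the second Gauss valuation ring of `E''` (`j_r^r ≡ j`) -/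
def V2X1 : ValuationSubring ↥(F1pBar N r) :=
  Classical.choose (setupX1 hr hA hrN).exists_isExt₂

theorem isExt_V1X1 : (setupX1 hr hA hrN).IsExt (setupX1 hr hA hrN).G₁ (V1X1 hr hA hrN) :=
  Classical.choose_spec (setupX1 hr hA hrN).exists_isExt₁

theorem isExt_V2X1 : (setupX1 hr hA hrN).IsExt (setupX1 hr hA hrN).G₂ (V2X1 hr hA hrN) :=
  Classical.choose_spec (setupX1 hr hA hrN).exists_isExt₂

theorem V1X1_ne_V2X1 : V1X1 hr hA hrN ≠ V2X1 hr hA hrN :=
  Fermat.Agent.S34.ArchGauss.ne_of_isExt _ (isExt_V1X1 hr hA hrN) (isExt_V2X1 hr hA hrN)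

section Over

variable {V : ValuationSubring ↥(F1pBar N r)}
  (hV : V.comap (algebraMap ↥(F1Bar N) ↥(F1pBar N r)) = (gaussDatum1 N A hr hA hrN).O)

include hV in
/-- every valuation ring of `E''` over the Gauss ring is archimedean -/
theorem arch_V1 : Arch V :=
  haveI := isAlgebraic_FE1 (r := r) (N := N) hr hrN
  Fermat.Agent.S34.ArchGauss.arch_of_comap_eq hV (arch_gaussDatum1 hr hA hrN)

include hV in
theorem V_ne_top1 : V ≠ ⊤ :=
  Fermat.Agent.S34.ArchGauss.ne_top_of_comap_eq hV (gaussDatum1_ne_top hr hA hrN)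

include hV in
/-- the value group of `V` is attained on the constants -/
theorem exists_valuation_eq_const1 {f : ↥(F1pBar N r)} (hf : f ≠ 0) :
    ∃ a : Kb, a ≠ 0 ∧ V.valuation f = V.valuation (algebraMap Kb ↥(F1pBar N r) a) := by
  haveI := isScalarTower_FE1 (N := N) (r := r)
  refine Fermat.Agent.S34.TwoExtConst.exists_val_eq_val_const (K := Kb) hV ?_ ?_ hf
    (isIntegral_FE1 hr hrN f).isAlgebraic
  · intro x hx
    obtain ⟨c, hc, u, hu⟩ := (gaussDatum1 N A hr hA hrN).exists_const_mul_unit x hx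
    refine ⟨c, hc, ?_⟩
    rw [hu, map_mul, ValuationSubring.valuation_unit, mul_one]
  · intro c n hn
    exact IsAlgClosed.exists_pow_nat_eq c hn

end Over

/-! ### Inertia -/

section Inertia

variable {σ : Kb ≃ₐ[ℚ] Kb} (hσ : σ ∈ A.inertiaSubgroupIn ℚ)

include hσ in
/-- inertia acts trivially on the residue field of `V₁` -/
theorem smul_sub_mem_nonunits₁1 {x : ↥(F1pBar N r)} (hx : x ∈ V1X1 hr hA hrN) :
    arithmeticGalois (F1p N r) σ • x - x ∈ (V1X1 hr hA hrN).nonunits :=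
  (ValuationSubring.mem_nonunits_iff _).mpr
    ((setupX1 hr hA hrN).sub_lt_one_of_fix₁ (isInertial1 hr hA hrN hσ) (isExt_V1X1 hr hA hrN) hx)

include hσ in
/-- inertia acts trivially on the residue field of `V₂` -/
theorem smul_sub_mem_nonunits₂1 {x : ↥(F1pBar N r)} (hx : x ∈ V2X1 hr hA hrN) :
    arithmeticGalois (F1p N r) σ • x - x ∈ (V2X1 hr hA hrN).nonunits :=
  (ValuationSubring.mem_nonunits_iff _).mpr
    ((setupX1 hr hA hrN).sub_lt_one_of_fix₂ (isInertial1 hr hA hrN hσ) (isExt_V2X1 hr hA hrN) hx)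

include hσ in
/-- inertia preserves `V₁` -/
theorem smul_mem_V1X1_iff (x : ↥(F1pBar N r)) :
    arithmeticGalois (F1p N r) σ • x ∈ V1X1 hr hA hrN ↔ x ∈ V1X1 hr hA hrN :=
  (setupX1 hr hA hrN).sigma_mem_iff₁ (isInertial1 hr hA hrN hσ) (isExt_V1X1 hr hA hrN) x

include hσ in
/-- inertia preserves `V₂` -/
theorem smul_mem_V2X1_iff (x : ↥(F1pBar N r)) :
    arithmeticGalois (F1p N r) σ • x ∈ V2X1 hr hA hrN ↔ x ∈ V2X1 hr hA hrN :=
  (setupX1 hr hA hrN).sigma_mem_iff₂ (isInertial1 hr hA hrN hσ) (isExt_V2X1 hr hA hrN) x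

end Inertia

/-! ### (Z1) and the reduction of (U) to (Core-Z) -/

/-- the family `(V₁, V₂)` -/
def VX1 : Fin 2 → ValuationSubring ↥(F1pBar N r) :=
  ![V1X1 hr hA hrN, V2X1 hr hA hrN]

@[simp] theorem VX1_zero : VX1 hr hA hrN 0 = V1X1 hr hA hrN := rfl

@[simp] theorem VX1_one : VX1 hr hA hrN 1 = V2X1 hr hA hrN := rfl

theorem comap_VX1 (i : Fin 2) :
    (VX1 hr hA hrN i).comap (algebraMap ↥(F1Bar N) ↥(F1pBar N r)) =
      (gaussDatum1 N A hr hA hrN).O := by
  fin_cases i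
  · exact (isExt_V1X1 hr hA hrN).comap
  · exact (isExt_V2X1 hr hA hrN).comap

theorem arch_VX1 (i : Fin 2) : Arch (VX1 hr hA hrN i) :=
  arch_V1 hr hA hrN (comap_VX1 hr hA hrN i)

theorem not_le_VX1 (i j : Fin 2) (hij : i ≠ j) : ¬ VX1 hr hA hrN i ≤ VX1 hr hA hrN j := by
  intro hle
  have heq : VX1 hr hA hrN i = VX1 hr hA hrN j :=
    le_antisymm hle ((arch_VX1 hr hA hrN i).le_of_le hle
      (V_ne_top1 hr hA hrN (comap_VX1 hr hA hrN j)))
  fin_cases i <;> fin_cases j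
  · exact hij rfl
  · exact V1X1_ne_V2X1 hr hA hrN heq
  · exact V1X1_ne_V2X1 hr hA hrN heq.symm
  · exact hij rfl

section Main

variable {σ : Kb ≃ₐ[ℚ] Kb} (hσ : σ ∈ A.inertiaSubgroupIn ℚ)

include hσ in
theorem htriv_VX1 (i : Fin 2) (x : ↥(F1pBar N r)) (hx : x ∈ VX1 hr hA hrN i) :
    arithmeticGalois (F1p N r) σ • x - x ∈ (VX1 hr hA hrN i).nonunits := by
  fin_cases i
  · exact smul_sub_mem_nonunits₁1 hr hA hrN hσ hx
  · exact smul_sub_mem_nonunits₂1 hr hA hrN hσ hx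

theorem hval_VX1 (i : Fin 2) (f : ↥(F1pBar N r)) (hf : f ≠ 0) :
    ∃ c : Kb, (VX1 hr hA hrN i).valuation f =
      (VX1 hr hA hrN i).valuation (algebraMap Kb ↥(F1pBar N r) c) := by
  obtain ⟨a, -, ha⟩ := exists_valuation_eq_const1 hr hA hrN (comap_VX1 hr hA hrN i) hf
  exact ⟨a, ha⟩

include hσ in
/-- **(Z1) at level `(N; r)`**: for `σ` in the inertia group at `r` and every `f ≠ 0`,
`σ f = h ^ n * u * f` with `u ≡ 1` modulo the maximal ideals of both Gauss valuation rings. -/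
theorem exists_kummer_decomposition_X1 (n : ℕ) (hn : n ≠ 0) (f : ↥(F1pBar N r)) (hf : f ≠ 0) :
    ∃ h u : ↥(F1pBar N r), h ≠ 0 ∧ u ≠ 0 ∧
      IsOneUnit (V1X1 hr hA hrN) u ∧ IsOneUnit (V2X1 hr hA hrN) u ∧
      arithmeticGalois (F1p N r) σ • f = h ^ n * u * f := by
  obtain ⟨h, u, hh, hu, hone, hgf⟩ :=
    exists_kummer_decomposition (VX1 hr hA hrN) (arithmeticGalois (F1p N r) σ) n
      (arch_VX1 hr hA hrN) (not_le_VX1 hr hA hrN) (htriv_VX1 hr hA hrN hσ) (hval_VX1 hr hA hrN)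
      (fun c => IsAlgClosed.exists_pow_nat_eq c (Nat.pos_of_ne_zero hn)) f hf
  exact ⟨h, u, hh, hu, hone 0, hone 1, hgf⟩

include hσ in
/-- **(U) at level `(N; r)` is reduced to (Core-Z)**. -/
theorem sq_eq_zero_of_coreZ_X1 (n : ℕ) (hn : n ≠ 0)
    (hcore : ∀ u : ↥(F1pBar N r), KummerZ.Hn (K := Kb) n u →
      IsOneUnit (V1X1 hr hA hrN) u → IsOneUnit (V2X1 hr hA hrN) u →
      ∃ (c : Kb) (h : ↥(F1pBar N r)), c ≠ 0 ∧ h ≠ 0 ∧
        arithmeticGalois (F1p N r) σ • u = algebraMap Kb ↥(F1pBar N r) c * h ^ n * u)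
    (y : Pic0 Kb ↥(F1pBar N r)) (hy : (n : ℤ) • y = 0) :
    arithmeticGalois (F1p N r) σ • (arithmeticGalois (F1p N r) σ • y) + y =
      2 • (arithmeticGalois (F1p N r) σ • y) :=
  sq_eq_zero_of_coreZ (VX1 hr hA hrN) (arithmeticGalois (F1p N r) σ) n hn
    (arch_VX1 hr hA hrN) (not_le_VX1 hr hA hrN) (htriv_VX1 hr hA hrN hσ) (hval_VX1 hr hA hrN)
    (fun c => IsAlgClosed.exists_pow_nat_eq c (Nat.pos_of_ne_zero hn))
    (fun u hu hone => hcore u hu (hone 0) (hone 1)) y hy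

end Main

end Fermat.Agent.S43.LG1.C1.Z1X1

end
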