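/-
PROJECT R (S43), gate (G), cut C1 = S34' (helper13): the `X₁` twin of helper6's `S34/CoreZX0Datum`.
(Core-Z) AT `E'' = ℚ̄(X₁(N; r))` IN DIVISOR LANGUAGE FROM A NODAL DATUM OF `E''`.

`X1Datum hr hA hrN` bundles exactly what the `X₁(N; r)` instantiation files have to deliver for one
valuation subring `A ∣ r` of `ℚ̄` (`r ∤ N`); everything else is discharged here from main
(`S48/B` seams, `S34/CoreZOfInertia`) and from `C1/Z1X1` (the inertia lemmas at `V1X1`, `V2X1`):

* the node set `S` and a nodal datum `Nd` of `E''` over `κ = κ(A)(X₁(N))` indexed by `S`, whose two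
  Gauss rings are the concrete `V1X1`, `V2X1` of `C1/Z1X1`;
* (NC) `g(E'') + 1 ≤ 2 g(κ) + #S` (Euler), `1 ≤ #S`, injectivity of the nodes on the second
  component, finiteness of admissible sets;
* two functions `x₁`, `x₂` reducing to `j̄`, and one place of type 1 over a good place;
* invariance of the two partial specialisation maps under inertia.

THE TWIST of `X₁(N; r)` (the reduced diamond in `red₂ ∘ α`) lives in the DATUM (how the nodes
`e1`, `e2` are matched); inertia acts trivially on BOTH reductions (`Z1X1`), so the untwisted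
`S34/CoreZOfInertia.principal_of_inertia` of main applies verbatim.

* `principal_of_datum` : the divisor statement for one `A`, one `σ` in the inertia group;
* `finite_not_simple_of_eq_jC1`, `natCast_pow_ne_zero1`, `hasPrincipalDivisors_F1pBar`,
  `hasPrincipalDivisors_F1C`, `deg_eq_one_F1pBar` : the small inputs at level `(N; r)`.
-/
import Mathlib
import Fermat.Agent.S34.CoreZOfInertia
import Fermat.Agent.S34.CoreZX0Datum
import Fermat.Agent.S48.B.Red.Fibre1
import Fermat.Agent.S48.B.Hecke.Wire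
import Fermat.Agent.S43.LG1.C1.Z1X1

set_option autoImplicit false
set_option linter.unusedSectionVars false
set_option linter.style.haveILetI false
set_option synthInstance.maxHeartbeats 400000

noncomputable section

namespace Fermat.Agent.S43.LG1.C1.CoreZX1Datum

open ModularCurve AlgebraicCurve IsLocalRing
open Fermat.Agent.S48.B.Defs.Model Fermat.Agent.S48.B.B1.Seams Fermat.Agent.S48.B.B1.Seams2
open Fermat.Agent.S48.B.ES.DegreeBeta1
open scoped IntermediateField
open Fermat.Agent.S18.NonSpecial Fermat.Agent.S34.NodalDefs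
open Fermat.Agent.S34.Z1Abstract
open Fermat.Agent.S34.CoreZX0Datum (red_eq_zero_of_mem_nonunits red_eq_one_of_isOneUnit
  red_smul_eq)
open Fermat.Agent.S43.LG1.C1.Seam Fermat.Agent.S43.LG1.C1.Z1X1

local notation "Kb" => AlgebraicClosure ℚ

attribute [local instance] algShortcut1

variable {r : ℕ} [hrF : Fact r.Prime] {N : ℕ} [NeZero N] {A : ValuationSubring Kb}
variable (hr : r.Prime) (hA : A.LiesOverPrime r) (hrN : ¬ r ∣ N) [NeZero r]

/-! ### the small inputs at level `(N; r)` -/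

include hr hrN in
/-- `j` is a separating variable of `E'' = ℚ̄(X₁(N; r))` -/
theorem isFF_jgen1p1 : Fermat.Agent.S24.FF.IsFF Kb (jgen1p N r) :=
  Fermat.Agent.S48.B.Hecke.Wire.isFF_jgen1p hr hrN (Fermat.Agent.S48.B.B1.Main.deg1 N)
    (Fermat.Agent.S48.B.B1.Main.deg1p N r)

include hr hrN in
/-- principal divisors exist on `E''` -/
theorem hasPrincipalDivisors_F1pBar : HasPrincipalDivisors Kb ↥(F1pBar N r) :=
  Fermat.Agent.S48.B.Inj.Basics.hasPrincipalDivisors_L (isFF_jgen1p1 (N := N) hr hrN)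

include hr hrN in
/-- the places of `E''` have degree one -/
theorem deg_eq_one_F1pBar (P : Place Kb ↥(F1pBar N r)) : P.deg = 1 :=
  Fermat.Agent.S24.Ord.deg_eq_one (isFF_jgen1p1 (N := N) hr hrN) P

include hr hrN hA in
/-- principal divisors exist on `κ(A)(X₁(N))` -/
theorem hasPrincipalDivisors_F1C :
    HasPrincipalDivisors (ResidueField ↥A) ↥(F1C N (ResidueField ↥A)) := by
  haveI : IsAlgClosed (ResidueField ↥A) :=
    Fermat.Agent.S18.ResidueBasics.isAlgClosed_residueField A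
  haveI : FiniteDimensional
      ↥(ResidueField ↥A)⟮Fermat.Agent.S48.B.Inj.Basics.jC
        (Fermat.Agent.S48.B.Red.Seams.jqModC_mem_F1C N (ResidueField ↥A))⟯
      ↥(F1C N (ResidueField ↥A)) := (igusaDegN N r hr hrN A hA).1
  exact Fermat.Agent.S48.B.Inj.Basics.hasPrincipalDivisors_k
    (Fermat.Agent.S48.B.Red.Seams.jqModC_mem_F1C N (ResidueField ↥A))

include hrF hA in
/-- a power of a prime `p ≠ r` is invertible in the residue field -/
theorem natCast_pow_ne_zero1 {p : ℕ} (hp : p.Prime) (hpr : p ≠ r) (n : ℕ) :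
    ((p ^ n : ℕ) : ResidueField ↥A) ≠ 0 :=
  Fermat.Agent.S34.NodalCoreX0.natCast_pow_ne_zero hA hp hpr n

include hr hrN hA in
/-- **`hunram`** for a function reducing to `j̄`. -/
theorem finite_not_simple_of_eq_jC1 {x : ↥(F1C N (ResidueField ↥A))}
    (hx : x = Fermat.Agent.S48.B.Red.Seams.jC N (ResidueField ↥A)) :
    {Q : Place (ResidueField ↥A) ↥(F1C N (ResidueField ↥A)) |
      ¬ ∃ γ : ResidueField ↥A,
        Q.ord (x - algebraMap (ResidueField ↥A) ↥(F1C N (ResidueField ↥A)) γ) = 1}.Finite := by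
  haveI : IsAlgClosed (ResidueField ↥A) :=
    Fermat.Agent.S18.ResidueBasics.isAlgClosed_residueField A
  rw [hx]
  exact Fermat.Agent.S18.A.Unram.finite_not_simple
    (Fermat.Agent.S48.B.Red.Fibre1.isFF_jC₁ (igusaDegN N) hr hrN hA)
    (Fermat.Agent.S48.B.Red.Fibre1.isSeparable_jC₁ (igusaDegN N) hr hrN hA)

/-! ### the datum -/

set_option maxHeartbeats 1600000 in
/-- **What the `X₁(N; r)` instantiation has to deliver** (for one `A ∣ r`). -/
structure X1Datum (hr : r.Prime) (hA : A.LiesOverPrime r) (hrN : ¬ r ∣ N) where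
  /-- the nodes, as places of the second component -/
  S : Finset (Place (ResidueField ↥A) ↥(F1C N (ResidueField ↥A)))
  /-- the nodal datum -/
  Nd : GNodalDatum A (residue ↥A) ↥(F1pBar N r)
    ↥(F1C N (ResidueField ↥A)) ↥(F1C N (ResidueField ↥A)) {b // b ∈ S}
  O1_eq : Nd.R1.O = V1X1 hr hA hrN
  O2_eq : Nd.R2.O = V2X1 hr hA hrN
  e2_injective : Function.Injective Nd.e2
  adm_finite : ∀ S1 S2, Nd.Adm S1 S2 → S1.Finite ∧ S2.Finite
  /-- the genus of `E''` -/
  g : ℕ
  /-- the genus of `κ` -/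
  gk : ℕ
  HL : RiemannHyp Kb ↥(F1pBar N r) g
  Hk : RiemannHyp (ResidueField ↥A) ↥(F1C N (ResidueField ↥A)) gk
  /-- (NC), Euler characteristic -/
  hNC : (g : ℤ) + 1 ≤ gk + gk + S.card
  /-- the nodes exist (from (NC) and `2 g(κ) ≤ g(E'')`) -/
  hcard : 1 ≤ S.card
  x1 : Nd.R1.O
  hx1 : Nd.R1.red x1 = Fermat.Agent.S48.B.Red.Seams.jC N (ResidueField ↥A)
  x2 : Nd.R2.O
  hx2 : Nd.R2.red x2 = Fermat.Agent.S48.B.Red.Seams.jC N (ResidueField ↥A)
  Pstar : Place Kb ↥(F1pBar N r)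
  Qstar : Place (ResidueField ↥A) ↥(F1C N (ResidueField ↥A))
  hQstar : Qstar ∈ Nd.R1.good
  hstar : Nd.R1.r Pstar = some Qstar
  /-- inertia preserves the partial specialisation maps -/
  r1_smul : ∀ σ ∈ A.inertiaSubgroupIn ℚ, ∀ P : Place Kb ↥(F1pBar N r),
    Nd.R1.r (arithmeticGalois (F1p N r) σ • P) = Nd.R1.r P
  r2_smul : ∀ σ ∈ A.inertiaSubgroupIn ℚ, ∀ P : Place Kb ↥(F1pBar N r),
    Nd.R2.r (arithmeticGalois (F1p N r) σ • P) = Nd.R2.r P

/-! ### The final statement -/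

set_option maxHeartbeats 1600000 in
/-- **(Core-Z) at `E'' = ℚ̄(X₁(N; r))` in divisor language, from the nodal data**, for one `A ∣ r`
and one `σ` in its inertia group. -/
theorem principal_of_datum {p : ℕ} (hp : p.Prime) (hpr : p ≠ r)
    (X : X1Datum (N := N) (A := A) hr hA hrN)
    {σ : Kb ≃ₐ[ℚ] Kb} (hσ : σ ∈ A.inertiaSubgroupIn ℚ) (e : ℕ)
    (u : ↥(F1pBar N r)) (D : Divisor Kb ↥(F1pBar N r)) (_hu0 : u ≠ 0)
    (h1 : IsOneUnit (V1X1 hr hA hrN) u) (h2 : IsOneUnit (V2X1 hr hA hrN) u)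
    (hD0 : Divisor.degree D = 0)
    (hD : ∀ w : Place Kb ↥(F1pBar N r), w.ord u = ((p ^ e : ℕ) : ℤ) * D w) :
    arithmeticGalois (F1p N r) σ • D - D ∈
      Divisor.principal (K := Kb) (F := ↥(F1pBar N r)) := by
  haveI := hasPrincipalDivisors_F1pBar (N := N) hr hrN
  haveI := hasPrincipalDivisors_F1C (N := N) hr hA hrN
  have hNC' : (X.g : ℤ) + 1 ≤ X.gk + X.gk + Fintype.card {b // b ∈ X.S} := by
    rw [Fintype.card_coe]
    exact X.hNC
  have hcard : 1 ≤ Fintype.card {b // b ∈ X.S} := by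
    rw [Fintype.card_coe]
    exact X.hcard
  haveI : Nonempty {b // b ∈ X.S} := Fintype.card_pos_iff.mp (by omega)
  have hg : X.g ≤ X.gk + (X.gk + Fintype.card {b // b ∈ X.S} - 1) := by omega
  -- the one-unit `u`
  have h1' : IsOneUnit X.Nd.R1.O u := by rw [X.O1_eq]; exact h1
  have h2' : IsOneUnit X.Nd.R2.O u := by rw [X.O2_eq]; exact h2
  obtain ⟨hu1, hred1⟩ := red_eq_one_of_isOneUnit X.Nd.R1.toBranch h1'
  obtain ⟨hu2, hred2⟩ := red_eq_one_of_isOneUnit X.Nd.R2.toBranch h2'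
  -- inertia on the two Gauss rings
  have hm1 : ∀ x : ↥(F1pBar N r),
      arithmeticGalois (F1p N r) σ • x ∈ X.Nd.R1.O ↔ x ∈ X.Nd.R1.O := by
    intro x
    rw [X.O1_eq]
    exact smul_mem_V1X1_iff hr hA hrN hσ x
  have hm2 : ∀ x : ↥(F1pBar N r),
      arithmeticGalois (F1p N r) σ • x ∈ X.Nd.R2.O ↔ x ∈ X.Nd.R2.O := by
    intro x
    rw [X.O2_eq]
    exact smul_mem_V2X1_iff hr hA hrN hσ x
  have hs1 : ∀ x : ↥(F1pBar N r), x ∈ X.Nd.R1.O →
      arithmeticGalois (F1p N r) σ • x - x ∈ X.Nd.R1.O.nonunits := by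
    intro x hx
    rw [X.O1_eq] at hx ⊢
    exact smul_sub_mem_nonunits₁1 hr hA hrN hσ hx
  have hs2 : ∀ x : ↥(F1pBar N r), x ∈ X.Nd.R2.O →
      arithmeticGalois (F1p N r) σ • x - x ∈ X.Nd.R2.O.nonunits := by
    intro x hx
    rw [X.O2_eq] at hx ⊢
    exact smul_sub_mem_nonunits₂1 hr hA hrN hσ hx
  exact Fermat.Agent.S34.CoreZOfInertia.principal_of_inertia X.Nd
    (deg_eq_one_F1pBar (N := N) hr hrN)
    (fun e => X.Hk.deg_one _) (fun e => X.Hk.deg_one _) X.adm_finite
    residue_surjective (p ^ e) (natCast_pow_ne_zero1 hA hp hpr e)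
    X.x1 (finite_not_simple_of_eq_jC1 hr hA hrN X.hx1)
    X.x2 (finite_not_simple_of_eq_jC1 hr hA hrN X.hx2)
    (Fermat.Agent.S18.NonSpecialAdapter.riemannGe_of_riemannHyp X.HL hg)
    (Fermat.Agent.S34.NodalRigidOfRiemann.nodalRigid X.Hk X.Hk X.Nd.e2 X.e2_injective)
    X.Pstar X.Qstar X.hQstar X.hstar
    (arithmeticGalois (F1p N r) σ)
    (red_smul_eq X.Nd.R1.toBranch _ (fun x hx => (hm1 x).mpr hx) hs1)
    (fun y hy => (hm1 y).mp hy)
    (red_smul_eq X.Nd.R2.toBranch _ (fun x hx => (hm2 x).mpr hx) hs2)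
    (fun y hy => (hm2 y).mp hy)
    (X.r1_smul σ hσ) (X.r2_smul σ hσ) hu1 hu2 hred1 hred2 D hD0 hD

end Fermat.Agent.S43.LG1.C1.CoreZX1Datum

end
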