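/-
PROJECT R (S43), block G, brick C1 (= S34', the `X₁`-twin of S34's `X₀` instance layer), helper18:
**THE TWIN OF `S34/CoreZX0OfPrincipal`** (+ the literal of `S34/UOfCoreZ.CoreZHyp`) at
`E'' = ℚ̄(X₁(N; r)) = F1pBar N r` (level `Γ₁(N) ∩ Γ₀(r)`, `r` prime, `r ∤ N`).

`PrincipalHyp1 N r p` is (Core-Z) in divisor language, at the concrete Gauss valuation rings
`V1X1`, `V2X1` of helper13's `C1/Z1X1`: for `σ` in the inertia group of `A ∣ r` and every `u ≠ 0`
which is a one-unit of both `V1X1` and `V2X1` and whose divisor is `p ^ k • D` (`deg D = 0`), the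
divisor `σ • D - D` is principal (the literal conclusion of helper2's twisted nodal core
`LG1/CoreZOfInertiaTw`).  `CoreZHyp1 N r p` is the same in function language
(`σ u = c · h ^ (p ^ k) · u`): the shape consumed by the gate.

* `isFF_jgen1p`, `hasPrincipalDivisors_E1` : the function-field basics of `E''` (main's S48 stock);
* `exists_const_of_ord_eq_zero1` : a function on `X₁(N; r)` without zeros and poles is constant;
* `coreZHyp1_of_principalHyp1 : PrincipalHyp1 N r p → CoreZHyp1 N r p` (`p ≠ 0`).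
-/
import Fermat.Agent.S34.CoreZOfPrincipal
import Fermat.Agent.S18.A.RiemannBasic
import Fermat.Agent.S48.B.ES.RelPic1
import Fermat.Agent.S48.B.B1.Main
import Fermat.Agent.S48.B.Inj.Basics
import Fermat.Agent.S43.LG1.C1.Z1X1

set_option autoImplicit false
set_option linter.unusedSectionVars false
set_option linter.style.haveILetI false
set_option synthInstance.maxHeartbeats 400000

noncomputable section

namespace Fermat.Agent.S43.LG1.C1.CoreZX1OfPrincipal

open ModularCurve AlgebraicCurve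
open Fermat.Agent.S48.B.Defs.Model Fermat.Agent.S48.B.B1.Seams Fermat.Agent.S48.B.B1.Seams2
open Fermat.Agent.S48.B.ES.DegreeBeta1
open Fermat.Agent.S34.Z1Abstract Fermat.Agent.S34.KummerZ Fermat.Agent.S34.CoreZOfPrincipal
open Fermat.Agent.S43.LG1.C1.Z1X1

local notation "Kb" => AlgebraicClosure ℚ

/-- **(Core-Z) in divisor language** at `E'' = ℚ̄(X₁(N; r))`. -/
def PrincipalHyp1 (N r p : ℕ) [NeZero N] [Fact r.Prime] [NeZero r] : Prop :=
  ∀ (A : ValuationSubring Kb) (hr : r.Prime) (hA : A.LiesOverPrime r) (hrN : ¬ r ∣ N),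
    ∀ σ ∈ A.inertiaSubgroupIn ℚ, ∀ k : ℕ,
      ∀ (u : ↥(F1pBar N r)) (D : Divisor Kb ↥(F1pBar N r)), u ≠ 0 →
        IsOneUnit (V1X1 hr hA hrN) u → IsOneUnit (V2X1 hr hA hrN) u →
        Divisor.degree D = 0 →
        (∀ w : Place Kb ↥(F1pBar N r), w.ord u = ((p ^ k : ℕ) : ℤ) * D w) →
        arithmeticGalois (F1p N r) σ • D - D ∈
          Divisor.principal (K := Kb) (F := ↥(F1pBar N r))

/-- **(Core-Z) in function language** at `E'' = ℚ̄(X₁(N; r))` (twin of `S34/UOfCoreZ.CoreZHyp`). -/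
def CoreZHyp1 (N r p : ℕ) [NeZero N] [Fact r.Prime] [NeZero r] : Prop :=
  ∀ (A : ValuationSubring Kb) (hr : r.Prime) (hA : A.LiesOverPrime r) (hrN : ¬ r ∣ N),
    ∀ σ ∈ A.inertiaSubgroupIn ℚ, ∀ k : ℕ,
      ∀ u : ↥(F1pBar N r), Hn (K := Kb) (p ^ k) u →
        IsOneUnit (V1X1 hr hA hrN) u → IsOneUnit (V2X1 hr hA hrN) u →
        ∃ (c : Kb) (h : ↥(F1pBar N r)), c ≠ 0 ∧ h ≠ 0 ∧
          arithmeticGalois (F1p N r) σ • u =
            algebraMap Kb ↥(F1pBar N r) c * h ^ (p ^ k) * u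

section Basics

variable (N r : ℕ) [NeZero N] [NeZero r]

/-- `j` is a separating variable of `E''` -/
theorem isFF_jgen1p (hr : r.Prime) (hrN : ¬ r ∣ N) :
    Fermat.Agent.S24.FF.IsFF Kb (jgen1p N r) :=
  Fermat.Agent.S48.B.ES.RelPic1.isFF_jgen1p hr hrN (Fermat.Agent.S48.B.B1.Main.deg1 N)
    (Fermat.Agent.S48.B.B1.Main.deg1p N r)

/-- principal divisors exist on `E''` -/
theorem hasPrincipalDivisors_E1 (hr : r.Prime) (hrN : ¬ r ∣ N) :
    HasPrincipalDivisors Kb ↥(F1pBar N r) :=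
  Fermat.Agent.S48.B.Inj.Basics.hasPrincipalDivisors_L (isFF_jgen1p N r hr hrN)

/-- a function on `X₁(N; r)` over `ℚ̄` without zeros and poles is a nonzero constant -/
theorem exists_const_of_ord_eq_zero1 (hr : r.Prime) (hrN : ¬ r ∣ N) (f : ↥(F1pBar N r))
    (hf : f ≠ 0) (h : ∀ w : Place Kb ↥(F1pBar N r), w.ord f = 0) :
    ∃ c : Kb, c ≠ 0 ∧ f = algebraMap Kb ↥(F1pBar N r) c := by
  obtain ⟨g, hR, -⟩ := Fermat.Agent.S48.B.Inj.Basics.exists_genus_L (isFF_jgen1p N r hr hrN)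
  haveI := hasPrincipalDivisors_E1 N r hr hrN
  haveI : Nonempty (Place Kb ↥(F1pBar N r)) := by
    haveI := hR.infinite
    infer_instance
  have hmem : f ∈ riemannRochSpace (0 : Divisor Kb ↥(F1pBar N r)) := by
    rw [Fermat.Agent.S18.A.Riemann.mem_iff_of_ne_zero hf]
    intro w
    rw [h w]
    simp
  obtain ⟨c, hc⟩ := (Fermat.Agent.S18.A.Riemann.mem_rr_zero_iff hR.deg_one).mp hmem
  refine ⟨c, ?_, hc⟩
  rintro rfl
  rw [map_zero] at hc
  exact hf hc

end Basics

/-- **`CoreZHyp1` from principal-ness.** -/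
theorem coreZHyp1_of_principalHyp1 {N r p : ℕ} [NeZero N] [Fact r.Prime] [NeZero r] (hp : p ≠ 0)
    (h : PrincipalHyp1 N r p) : CoreZHyp1 N r p := by
  intro A hr hA hrN σ hσ k u hu h1 h2
  haveI := hasPrincipalDivisors_E1 N r hr hrN
  exact coreZ_of_principal (exists_const_of_ord_eq_zero1 N r hr hrN)
    (arithmeticGalois (F1p N r) σ) (p ^ k) (pow_ne_zero k hp) hu
    (fun D hdeg hD => h A hr hA hrN σ hσ k u D hu.1 h1 h2 hdeg hD)

end Fermat.Agent.S43.LG1.C1.CoreZX1OfPrincipal
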