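/-
PROJECT R (S43), gate (G), cut C1 = S34' (helper13): the generic twin of main's
`S37/Equivariance/GaussEquiv` (helper3) in the vocabulary of `S48/B/Red/GaussG`:
the pair `(modularFunctionFieldFull N, modularFunctionFieldFullC k N)` is replaced by
`(F₀, Fk)` with `Fk` coefficientwise stable (`CoeffAut1.CoeffStable Fk`).

For a compatibility datum `Compat A π σ σA sbar` (main's structure, imported):
`mem_OwV`, `mem_OwV_iff`, `redV_map`, `redV_smul`, `smul_OwV`; for the decomposition group: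
`redV_smul_decomposition`, `redV_smul_inertia`, `redV_smul_frobenius`.
-/
import Mathlib
import Fermat.Agent.S37.Equivariance.GaussEquiv
import Fermat.Agent.S48.B.Red.GaussG
import Fermat.Agent.S48.B.Red.CoeffAut1

set_option autoImplicit false
set_option linter.unusedSectionVars false

noncomputable section

namespace Fermat.Agent.S43.LG1.C1.GaussEquivG

open HahnSeries IntermediateField AlgebraicCurve ModularCurve
open Fermat.Agent.S48.B.Red.GaussG Fermat.Agent.S48.B.Red.CoeffAut1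
open Fermat.Agent.S37.Equivariance.GaussEquiv
open Fermat.Agent.S37.Equivariance.CoeffAut (frobAut)

open scoped Pointwise

section Abstract

variable {L : Type*} [Field L] [Algebra ℚ L] {A : ValuationSubring L}
variable {k : Type*} [Field k] {π : A →+* k}
variable {F₀ : IntermediateField ℚ (LaurentSeries ℚ)} {Fk : IntermediateField k (LaurentSeries k)}
variable (hst : CoeffStable Fk)
variable {σ : L ≃ₐ[ℚ] L} {σA : A ≃+* A} {sbar : k ≃+* k}

include hst in
theorem mem_intRing_of_compat (h : Compat A π σ σA sbar) {y : LaurentSeries A}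
    (hy : y ∈ intRing A π F₀ Fk) : coeffMap (σA : A →+* A) y ∈ intRing A π F₀ Fk := by
  rw [mem_intRing] at hy ⊢
  refine ⟨?_, ?_⟩
  · rw [h.coeffMap_subtype]
    exact coeffMap_mem_laurentBaseChange σ hy.1
  · rw [h.coeffMap_res]
    exact hst _ _ hy.2

/-- `σ` on integral elements -/
def mapI (h : Compat A π σ σA sbar) : ↥(intRing A π F₀ Fk) →+* ↥(intRing A π F₀ Fk) where
  toFun y := ⟨coeffMap (σA : A →+* A) y.1, mem_intRing_of_compat hst h y.2⟩
  map_one' := Subtype.ext (map_one _)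
  map_mul' _ _ := Subtype.ext (map_mul _ _ _)
  map_zero' := Subtype.ext (map_zero _)
  map_add' _ _ := Subtype.ext (map_add _ _ _)

theorem toFL_mapI (h : Compat A π σ σA sbar) (y : ↥(intRing A π F₀ Fk)) :
    toFL A π F₀ Fk (mapI hst h y) = arithmeticRingAut F₀ σ (toFL A π F₀ Fk y) :=
  Subtype.ext (h.coeffMap_subtype y.1)

theorem red_mapI (h : Compat A π σ σA sbar) (y : ↥(intRing A π F₀ Fk)) :
    red A π F₀ Fk (mapI hst h y) = coeffRingAut hst sbar (red A π F₀ Fk y) :=
  Subtype.ext (h.coeffMap_res y.1)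

/-- `σ` preserves `Ow`, with the presentation transported -/
theorem inOw_of_compat (h : Compat A π σ σA sbar) {f : ↥(laurentBaseChange L F₀)}
    {a b : ↥(intRing A π F₀ Fk)}
    (hb : red A π F₀ Fk b ≠ 0) (hab : f * toFL A π F₀ Fk b = toFL A π F₀ Fk a) :
    red A π F₀ Fk (mapI hst h b) ≠ 0 ∧
      arithmeticRingAut F₀ σ f * toFL A π F₀ Fk (mapI hst h b)
        = toFL A π F₀ Fk (mapI hst h a) := by
  refine ⟨?_, ?_⟩
  · rw [red_mapI]
    exact (map_ne_zero_iff _ (coeffRingAut hst sbar).injective).mpr hb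
  · rw [toFL_mapI, toFL_mapI, ← map_mul, hab]

include hst in
theorem mem_Ow_of_compat (h : Compat A π σ σA sbar) {f : ↥(laurentBaseChange L F₀)}
    (hf : f ∈ Ow A π F₀ Fk) : arithmeticRingAut F₀ σ f ∈ Ow A π F₀ Fk := by
  obtain ⟨a, b, hb, hab⟩ := hf
  exact ⟨mapI hst h a, mapI hst h b, (inOw_of_compat hst h hb hab).1,
    (inOw_of_compat hst h hb hab).2⟩

include hst in
theorem mem_Ow_iff_of_compat (h : Compat A π σ σA sbar) {f : ↥(laurentBaseChange L F₀)} :
    arithmeticRingAut F₀ σ f ∈ Ow A π F₀ Fk ↔ f ∈ Ow A π F₀ Fk := by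
  refine ⟨fun hf => ?_, mem_Ow_of_compat hst h⟩
  have h2 := mem_Ow_of_compat (F₀ := F₀) hst h.symm hf
  have h3 : arithmeticRingAut F₀ σ.symm (arithmeticRingAut F₀ σ f) = f := by
    apply Subtype.ext
    show coeffMap (σ.symm : L →+* L) (coeffMap (σ : L →+* L) (f : LaurentSeries L))
      = (f : LaurentSeries L)
    rw [coeffMap_coeffMap,
      coeffMap_congr (g := RingHom.id L) (RingHom.ext fun a => σ.symm_apply_apply a)
        (f : LaurentSeries L),
      coeffMap_id]
  rwa [h3] at h2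

/-- **(E2) for `redw`** -/
theorem redw_map (h : Compat A π σ σA sbar) (f : ↥(Ow A π F₀ Fk)) :
    redw A π F₀ Fk ⟨arithmeticRingAut F₀ σ f.1, mem_Ow_of_compat hst h f.2⟩
      = coeffRingAut hst sbar (redw A π F₀ Fk f) := by
  obtain ⟨a, b, hb, hab⟩ := f.2
  have h1 := inOw_of_compat hst h hb hab
  rw [redw_eq f hb hab,
    redw_eq (⟨arithmeticRingAut F₀ σ f.1, mem_Ow_of_compat hst h f.2⟩ : ↥(Ow A π F₀ Fk))
      h1.1 h1.2, red_mapI, red_mapI, map_div₀]

section OwV

variable (hrep : HasRep A π F₀ Fk)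

include hst in
theorem mem_OwV_of_compat (h : Compat A π σ σA sbar) {f : ↥(laurentBaseChange L F₀)}
    (hf : f ∈ OwV A π F₀ Fk hrep) : arithmeticRingAut F₀ σ f ∈ OwV A π F₀ Fk hrep :=
  mem_Ow_of_compat hst h hf

include hst in
theorem mem_OwV_iff_of_compat (h : Compat A π σ σA sbar) {f : ↥(laurentBaseChange L F₀)} :
    arithmeticRingAut F₀ σ f ∈ OwV A π F₀ Fk hrep ↔ f ∈ OwV A π F₀ Fk hrep :=
  mem_Ow_iff_of_compat hst h

/-- **(E2)**: `redV (σ f) = sbar (redV f)`. -/
theorem redV_map (h : Compat A π σ σA sbar) (f : ↥(OwV A π F₀ Fk hrep)) :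
    redV A π F₀ Fk hrep ⟨arithmeticRingAut F₀ σ f.1, mem_OwV_of_compat hst hrep h f.2⟩
      = coeffRingAut hst sbar (redV A π F₀ Fk hrep f) :=
  redw_map hst h ⟨f.1, f.2⟩

/-- the same with the `SemilinearAut` actions `arithmeticGalois` and `coeffAut` -/
theorem redV_smul (h : Compat A π σ σA sbar) (f : ↥(OwV A π F₀ Fk hrep))
    (hf : arithmeticGalois F₀ σ • (f : ↥(laurentBaseChange L F₀)) ∈ OwV A π F₀ Fk hrep) :
    redV A π F₀ Fk hrep ⟨arithmeticGalois F₀ σ • (f : ↥(laurentBaseChange L F₀)), hf⟩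
      = coeffAut hst sbar • redV A π F₀ Fk hrep f :=
  redV_map hst hrep h f

include hst in
/-- `σ` maps the Gauss valuation ring onto itself (pointwise action on valuation subrings) -/
theorem smul_OwV (h : Compat A π σ σA sbar) :
    arithmeticGalois F₀ σ • OwV A π F₀ Fk hrep = OwV A π F₀ Fk hrep := by
  ext f
  rw [ValuationSubring.mem_smul_pointwise_iff_exists]
  constructor
  · rintro ⟨g, hg, rfl⟩
    exact mem_OwV_of_compat hst hrep h hg
  · intro hf
    refine ⟨(arithmeticGalois F₀ σ)⁻¹ • f, ?_, smul_inv_smul _ _⟩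
    rw [← mem_OwV_iff_of_compat hst hrep h]
    have : arithmeticRingAut F₀ σ ((arithmeticGalois F₀ σ)⁻¹ • f) = f :=
      smul_inv_smul (arithmeticGalois F₀ σ) f
    rwa [this]

end OwV

end Abstract

/-! ### the decomposition group -/

section Decomposition

variable {L : Type*} [Field L] [Algebra ℚ L] (A : ValuationSubring L)
variable {F₀ : IntermediateField ℚ (LaurentSeries ℚ)}
  {Fk : IntermediateField (IsLocalRing.ResidueField A) (LaurentSeries (IsLocalRing.ResidueField A))}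
  (hst : CoeffStable Fk) (hrep : HasRep A (IsLocalRing.residue A) F₀ Fk)

/-- **(E2) for the decomposition group**: `redV (σ f) = σ̄ (redV f)`. -/
theorem redV_smul_decomposition (g : A.decompositionSubgroup ℚ)
    (f : ↥(OwV A (IsLocalRing.residue A) F₀ Fk hrep)) :
    ∃ hf : arithmeticGalois F₀ (g : L ≃ₐ[ℚ] L) • (f : ↥(laurentBaseChange L F₀))
          ∈ OwV A (IsLocalRing.residue A) F₀ Fk hrep,
      redV A (IsLocalRing.residue A) F₀ Fk hrep ⟨_, hf⟩
        = coeffAut hst (resAut A g) • redV A (IsLocalRing.residue A) F₀ Fk hrep f :=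
  ⟨mem_OwV_of_compat hst hrep (compat A g) f.2, redV_map hst hrep (compat A g) f⟩

include hst in
/-- inertia: `redV (σ f) = redV f`. -/
theorem redV_smul_inertia {σ : L ≃ₐ[ℚ] L} (hσ : σ ∈ A.inertiaSubgroupIn ℚ)
    (f : ↥(OwV A (IsLocalRing.residue A) F₀ Fk hrep)) :
    ∃ hf : arithmeticGalois F₀ σ • (f : ↥(laurentBaseChange L F₀))
          ∈ OwV A (IsLocalRing.residue A) F₀ Fk hrep,
      redV A (IsLocalRing.residue A) F₀ Fk hrep ⟨_, hf⟩ =
        redV A (IsLocalRing.residue A) F₀ Fk hrep f := by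
  obtain ⟨g, rfl, hg⟩ := exists_of_mem_inertiaSubgroupIn A hσ
  obtain ⟨hf, h⟩ := redV_smul_decomposition A hst hrep g f
  refine ⟨hf, ?_⟩
  rw [h, hg, map_one, one_smul]

/-- Frobenius: `redV (σ f) = Frob (redV f)` (coefficientwise `ℓ`-th powers). -/
theorem redV_smul_frobenius (ℓ : ℕ) [Fact ℓ.Prime] [CharP (IsLocalRing.ResidueField A) ℓ]
    [PerfectField (IsLocalRing.ResidueField A)] {σ : L ≃ₐ[ℚ] L} (hσ : A.IsFrobeniusAt σ ℓ)
    (f : ↥(OwV A (IsLocalRing.residue A) F₀ Fk hrep)) :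
    ∃ hf : arithmeticGalois F₀ σ • (f : ↥(laurentBaseChange L F₀))
          ∈ OwV A (IsLocalRing.residue A) F₀ Fk hrep,
      redV A (IsLocalRing.residue A) F₀ Fk hrep ⟨_, hf⟩
        = coeffAut hst (frobAut (IsLocalRing.ResidueField A) ℓ) •
            redV A (IsLocalRing.residue A) F₀ Fk hrep f := by
  have h := redV_smul_decomposition A hst hrep ⟨σ, hσ.mem_decompositionSubgroup⟩ f
  rw [resAut_eq_frobAut A ℓ hσ] at h
  exact h

end Decomposition

end Fermat.Agent.S43.LG1.C1.GaussEquivG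

end
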