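/-
PROJECT R (S43), gate (G), cut C1 = S34' : THE LEVEL DATA OF `E'' = ℚ̄(X₁(N; r))` (helper13).

`F = F1Bar N = ℚ̄(X₁(N))`, `E'' = F1pBar N r = ℚ̄(X₁(N; r))` (level `Γ₁(N) ∩ Γ₀(r)`), `r` prime,
`r ∤ N`, `α = alpha1` (inclusion), `β = beta1` (`V : q ↦ q^r`).  Everything here is
hypothesis-free (main's `S48/B/*`).

* `delta1` : the diamond automorphism `⟨r⁻¹⟩^*` of `F` (main's `diamondAut`), `isDiamondAut_delta1`,
  `delta1_jgen1`;
* `W1`, `rho1` : the Atkin-Lehner automorphism of `E''` and the second embedding, with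
  `W1_beta : W (β x) = α x`, `W1_alpha : W (α x) = β (δ x)`, `rho1_beta : ρ (β x) = V x`,
  `rho1_alpha : ρ (α x) = V (V (δ x))`, `qExpand_W1 : V (W y) = ρ y`.  **`W1` is NOT an involution**:
  `W (W (α x)) = α (δ x)`, `W (W (β x)) = β (δ x)`;
* `jr = β j`, `coe_jr`, `W1_jr : W j_r = α j`, `W1_alpha_jgen1 : W (α j) = j_r`;
* `ringHom_ext_alpha_beta1` : ring homomorphisms out of `E''` are determined on `α F` and `β F`;
* the Gauss datum of `F` at `A ∣ r` : `igusaDegN`, `hasRep1`, `gaussDatum1` (= main's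
  `Bases1.gaussDatumIgusa`), `red_surjective1`, `jgen1_mem_O1`, `red_jgen1`, `ob1`.
-/
import Mathlib
import Fermat.Agent.S48.B.B1.Main
import Fermat.Agent.S48.B.Igusa.Main
import Fermat.Agent.S48.B.ES.Descent
import Fermat.Agent.S48.B.ES.DiamondUnique
import Fermat.Agent.S48.B.ES.DegreeBridge1
import Fermat.Agent.S48.B.ES.NormAlpha1
import Fermat.Agent.S48.B.Hecke.Swap.Aut
import Fermat.Agent.S48.B.Red.Bases1

set_option autoImplicit false
set_option linter.unusedSectionVars false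
set_option linter.style.haveILetI false
set_option synthInstance.maxHeartbeats 400000

noncomputable section

namespace Fermat.Agent.S43.LG1.C1.Seam

open ModularCurve AlgebraicCurve IntermediateField IsLocalRing
open Fermat.Agent.S48.B.Defs.Model Fermat.Agent.S48.B.B1.Seams
open Fermat.Agent.S48.B.ES.RhoSeam Fermat.Agent.S48.B.ES.DegreeBeta1
open Fermat.Agent.S48.B.Red.Seams (jC coe_jC IgusaDeg)
open Fermat.Agent.S48.B.Red.GaussG Fermat.Agent.S48.B.Red.DatumG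
open Fermat.Agent.S37.Deuring.Core (GaussDatum)

local notation "Kb" => AlgebraicClosure ℚ

variable {N r : ℕ} [NeZero N] [NeZero r]

/-! ### the diamond automorphism `⟨r⁻¹⟩^*` -/

theorem coprime_of (hr : r.Prime) (hrN : ¬ r ∣ N) : r.Coprime N :=
  (Nat.Prime.coprime_iff_not_dvd hr).mpr hrN

/-- `δ = ⟨r⁻¹⟩^*` on `F = ℚ̄(X₁(N))` -/
def delta1 (N r : ℕ) [NeZero N] [NeZero r] (hr : r.Prime) (hrN : ¬ r ∣ N) :
    ↥(F1Bar N) ≃ₐ[Kb] ↥(F1Bar N) :=
  diamondAut N Kb (ZMod.unitOfCoprime r (coprime_of hr hrN))⁻¹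

variable (hr : r.Prime) (hrN : ¬ r ∣ N)

theorem isDiamondAut_delta1 :
    IsDiamondAut N Kb (ZMod.unitOfCoprime r (coprime_of hr hrN))⁻¹ (delta1 N r hr hrN) :=
  Fermat.Agent.S48.B.B1.Main.isDiamondAut_diamondAut N Kb _

theorem coe_jgen1 : ((jgen1 N : ↥(F1Bar N)) : LaurentSeries Kb) = jqModC Kb :=
  Fermat.Agent.S48.B.ES.DegreeBridge1.coe_jgen1 N

theorem jgen1_eq_jF : jgen1 N = Fermat.Agent.S48.B.ES.NormAlpha1.jF N :=
  Subtype.ext (by rw [coe_jgen1, Fermat.Agent.S48.B.ES.NormAlpha1.coe_jF])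

/-- the diamond automorphisms fix `j` -/
theorem delta1_jgen1 : delta1 N r hr hrN (jgen1 N) = jgen1 N := by
  rw [jgen1_eq_jF]
  exact Fermat.Agent.S48.B.ES.NormAlpha1.isDiamondAut_jF (isDiamondAut_delta1 hr hrN)

/-! ### the Atkin-Lehner automorphism and the second embedding -/

theorem hasRhoB1 : HasRhoB N r (coprime_of hr hrN) :=
  Fermat.Agent.S48.B.ES.Descent.hasRhoB_of (coprime_of hr hrN)
    (Fermat.Agent.S48.B.B1.Main.repLe N) (Fermat.Agent.S48.B.B1.Main.diamondAn N)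
    (Fermat.Agent.S48.B.B1.Main.diamondExists N)

/-- ring homomorphisms out of `E''` into a division ring are determined on `α F` and `β F` -/
theorem ringHom_ext_alpha_beta1 {E' : Type*} [DivisionRing E']
    (φ ψ : ↥(F1pBar N r) →+* E')
    (hα : ∀ g : ↥(F1Bar N), φ (alpha1 N r Kb g) = ψ (alpha1 N r Kb g))
    (hβ : ∀ g : ↥(F1Bar N), φ (beta1 N r Kb g) = ψ (beta1 N r Kb g)) : φ = ψ := by
  ext y
  exact Fermat.Agent.S48.B.Hecke.Swap.Aut.mem_of_gen' N r (RingHom.eqLocusField φ ψ) hα hβ y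

include hr hrN in
theorem exists_W1 :
    ∃ (W : ↥(F1pBar N r) ≃ₐ[Kb] ↥(F1pBar N r)) (ρ : ↥(F1pBar N r) →+* LaurentSeries Kb),
      (∀ x : ↥(F1Bar N), W (beta1 N r Kb x) = alpha1 N r Kb x) ∧
      (∀ x : ↥(F1Bar N), W (alpha1 N r Kb x) = beta1 N r Kb (delta1 N r hr hrN x)) ∧
      (∀ x : ↥(F1Bar N), ρ (beta1 N r Kb x) = qExpand Kb r (x : LaurentSeries Kb)) ∧
      (∀ x : ↥(F1Bar N), ρ (alpha1 N r Kb x) =
        qExpand Kb r (qExpand Kb r ((delta1 N r hr hrN x : ↥(F1Bar N)) : LaurentSeries Kb))) ∧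
      ∀ y : ↥(F1pBar N r),
        qExpand Kb r ((W y : ↥(F1pBar N r)) : LaurentSeries Kb) = ρ y := by
  have hB := hasRhoB1 (N := N) hr hrN
  obtain ⟨ρ, δ₀, hδ₀, hρβ, hρα⟩ := hB
  obtain ⟨W, δ₁, hδ₁, hWβ, hWα⟩ :=
    Fermat.Agent.S48.B.Hecke.Swap.Aut.exists_atkinLehner (coprime_of hr hrN)
      (hasRhoB1 (N := N) hr hrN)
  have e₀ : δ₀ = delta1 N r hr hrN :=
    Fermat.Agent.S48.B.ES.DiamondUnique.isDiamondAut_unique hδ₀ (isDiamondAut_delta1 hr hrN)
  have e₁ : δ₁ = delta1 N r hr hrN :=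
    Fermat.Agent.S48.B.ES.DiamondUnique.isDiamondAut_unique hδ₁ (isDiamondAut_delta1 hr hrN)
  subst e₀
  refine ⟨W, ρ, hWβ, fun x => by rw [hWα, e₁], hρβ, hρα, ?_⟩
  have h := ringHom_ext_alpha_beta1
    ((qExpand Kb r).comp (((F1pBar N r).val : ↥(F1pBar N r) →+* LaurentSeries Kb).comp
      (W : ↥(F1pBar N r) →+* ↥(F1pBar N r)))) ρ
    (fun g => by
      show qExpand Kb r ((W (alpha1 N r Kb g) : ↥(F1pBar N r)) : LaurentSeries Kb) = _
      rw [hWα, e₁, hρα, coe_beta1])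
    (fun g => by
      show qExpand Kb r ((W (beta1 N r Kb g) : ↥(F1pBar N r)) : LaurentSeries Kb) = _
      rw [hWβ, hρβ, coe_alpha1])
  exact fun y => RingHom.congr_fun h y

/-- **the Atkin-Lehner automorphism** `W` of `E'' = ℚ̄(X₁(N; r))` -/
def W1 (N r : ℕ) [NeZero N] [NeZero r] (hr : r.Prime) (hrN : ¬ r ∣ N) :
    ↥(F1pBar N r) ≃ₐ[Kb] ↥(F1pBar N r) :=
  Classical.choose (exists_W1 (N := N) hr hrN)

/-- the second embedding `ρ = V ∘ W` of `E''` in `ℚ̄((q))` -/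
def rho1 (N r : ℕ) [NeZero N] [NeZero r] (hr : r.Prime) (hrN : ¬ r ∣ N) :
    ↥(F1pBar N r) →+* LaurentSeries Kb :=
  Classical.choose (Classical.choose_spec (exists_W1 (N := N) hr hrN))

theorem W1_beta (x : ↥(F1Bar N)) : W1 N r hr hrN (beta1 N r Kb x) = alpha1 N r Kb x :=
  (Classical.choose_spec (Classical.choose_spec (exists_W1 (N := N) hr hrN))).1 x

theorem W1_alpha (x : ↥(F1Bar N)) :
    W1 N r hr hrN (alpha1 N r Kb x) = beta1 N r Kb (delta1 N r hr hrN x) :=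
  (Classical.choose_spec (Classical.choose_spec (exists_W1 (N := N) hr hrN))).2.1 x

theorem rho1_beta (x : ↥(F1Bar N)) :
    rho1 N r hr hrN (beta1 N r Kb x) = qExpand Kb r (x : LaurentSeries Kb) :=
  (Classical.choose_spec (Classical.choose_spec (exists_W1 (N := N) hr hrN))).2.2.1 x

theorem rho1_alpha (x : ↥(F1Bar N)) :
    rho1 N r hr hrN (alpha1 N r Kb x) =
      qExpand Kb r (qExpand Kb r ((delta1 N r hr hrN x : ↥(F1Bar N)) : LaurentSeries Kb)) :=
  (Classical.choose_spec (Classical.choose_spec (exists_W1 (N := N) hr hrN))).2.2.2.1 x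

theorem qExpand_W1 (y : ↥(F1pBar N r)) :
    qExpand Kb r ((W1 N r hr hrN y : ↥(F1pBar N r)) : LaurentSeries Kb) = rho1 N r hr hrN y :=
  (Classical.choose_spec (Classical.choose_spec (exists_W1 (N := N) hr hrN))).2.2.2.2 y

/-- `W` as a ring homomorphism -/
def W1Hom (N r : ℕ) [NeZero N] [NeZero r] (hr : r.Prime) (hrN : ¬ r ∣ N) :
    ↥(F1pBar N r) →+* ↥(F1pBar N r) :=
  (W1 N r hr hrN).toRingEquiv.toRingHom

@[simp] theorem W1Hom_apply (x : ↥(F1pBar N r)) : W1Hom N r hr hrN x = W1 N r hr hrN x := rfl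

/-- **`W ∘ W = ⟨r⁻¹⟩^*` on `α F`** -/
theorem W1_W1_alpha (x : ↥(F1Bar N)) :
    W1 N r hr hrN (W1 N r hr hrN (alpha1 N r Kb x)) = alpha1 N r Kb (delta1 N r hr hrN x) := by
  rw [W1_alpha, W1_beta]

/-- **`W ∘ W = ⟨r⁻¹⟩^*` on `β F`** -/
theorem W1_W1_beta (x : ↥(F1Bar N)) :
    W1 N r hr hrN (W1 N r hr hrN (beta1 N r Kb x)) = beta1 N r Kb (delta1 N r hr hrN x) := by
  rw [W1_beta, W1_alpha]

/-- uniqueness of `W` -/
theorem W1_unique (w : ↥(F1pBar N r) →ₐ[Kb] ↥(F1pBar N r))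
    (hα : ∀ g : ↥(F1Bar N), w (alpha1 N r Kb g) = beta1 N r Kb (delta1 N r hr hrN g))
    (hβ : ∀ g : ↥(F1Bar N), w (beta1 N r Kb g) = alpha1 N r Kb g) (x : ↥(F1pBar N r)) :
    w x = W1 N r hr hrN x := by
  have h := ringHom_ext_alpha_beta1 (N := N) (r := r) w.toRingHom (W1Hom N r hr hrN)
    (fun g => by
      show w _ = W1 N r hr hrN _
      rw [hα, W1_alpha])
    (fun g => by
      show w _ = W1 N r hr hrN _
      rw [hβ, W1_beta])
  exact DFunLike.congr_fun h x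

/-! ### `j_r = β j = j(q^r)` -/

/-- `j_r = β j = j(q^r)` as an element of `E'' = ℚ̄(X₁(N; r))` -/
def jr (N r : ℕ) [NeZero N] [NeZero r] : ↥(F1pBar N r) := beta1 N r Kb (jgen1 N)

theorem coe_jr : ((jr N r : ↥(F1pBar N r)) : LaurentSeries Kb) = qExpand Kb r (jqModC Kb) := by
  rw [jr, coe_beta1, coe_jgen1]

theorem W1_jr : W1 N r hr hrN (jr N r) = alpha1 N r Kb (jgen1 N) := by
  rw [jr, W1_beta]

theorem W1_alpha_jgen1 : W1 N r hr hrN (alpha1 N r Kb (jgen1 N)) = jr N r := by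
  rw [jr, W1_alpha, delta1_jgen1]

/-! ### degrees -/

include hr hrN in
/-- `[E'' : α F] = r + 1` -/
theorem finrankAlong_alpha1N : finrankAlong Kb (alpha1 N r Kb) = r + 1 :=
  Fermat.Agent.S48.B.ES.DegreeBridge1.finrankAlong_alpha1_of_seams hr hrN
    (Fermat.Agent.S48.B.B1.Main.deg1 N) (Fermat.Agent.S48.B.B1.Main.deg1p N r)

include hr hrN in
/-- `[E'' : β F] = r + 1` -/
theorem finrankAlong_beta1N : finrankAlong Kb (beta1 N r Kb) = r + 1 :=
  Fermat.Agent.S48.B.ES.DegreeBridge1.finrankAlong_beta1_of_seams hr hrN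
    (Fermat.Agent.S48.B.B1.Main.deg1 N) (Fermat.Agent.S48.B.B1.Main.deg1p N r)

/-! ### instance shortcut -/

/-- instance shortcut (as in main's `S48/B/Red/Equiv1/PlaceEquiv1.algShortcut`): the default search
for this instance costs more than a second per occurrence.  Use
`attribute [local instance] Fermat.Agent.S43.LG1.C1.Seam.algShortcut1`. -/
@[reducible] def algShortcut1 (N : ℕ) [NeZero N] (A : ValuationSubring Kb) :
    Algebra (ResidueField ↥A) ↥(F1C N (ResidueField ↥A)) :=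
  SubalgebraClass.toAlgebra (F1C N (ResidueField ↥A))

attribute [local instance] algShortcut1

/-! ### the Gauss datum of `F = ℚ̄(X₁(N))` at `A ∣ r` -/

/-- block B2 of main's S48: `IgusaDeg N` -/
theorem igusaDegN (N : ℕ) [NeZero N] : IgusaDeg N := Fermat.Agent.S48.B.Igusa.Main.igusaDeg N

variable {A : ValuationSubring Kb} (hA : A.LiesOverPrime r)

include hr hrN hA in
theorem hasRep1 : HasRep A (residue ↥A) (F1 N) (F1C N (ResidueField ↥A)) :=
  Fermat.Agent.S48.B.Red.Bases1.hasRep_of_igusa (igusaDegN N) hr hrN hA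

/-- **The Gauss datum of `ℚ̄(X₁(N))` at `A`** (`A` over `r ∤ N`). -/
def gaussDatum1 (N : ℕ) [NeZero N] {r : ℕ} (A : ValuationSubring Kb) (hr : r.Prime)
    (hA : A.LiesOverPrime r) (hrN : ¬ r ∣ N) :
    GaussDatum A (residue ↥A) ↥(F1Bar N) ↥(F1C N (ResidueField ↥A)) :=
  Fermat.Agent.S48.B.Red.Bases1.gaussDatumIgusa (igusaDegN N) hr hrN hA

theorem gaussDatum1_O :
    (gaussDatum1 N A hr hA hrN).O =
      OwV A (residue ↥A) (F1 N) (F1C N (ResidueField ↥A)) (hasRep1 hr hrN hA) := rfl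

theorem gaussDatum1_red :
    (gaussDatum1 N A hr hA hrN).red =
      redV A (residue ↥A) (F1 N) (F1C N (ResidueField ↥A)) (hasRep1 hr hrN hA) := rfl

theorem red_surjective1 : Function.Surjective (gaussDatum1 N A hr hA hrN).red :=
  Fermat.Agent.S48.B.Red.Bases1.red_surjective_igusa (igusaDegN N) hr hrN hA

theorem jgen1_mem_O1 : jgen1 N ∈ (gaussDatum1 N A hr hA hrN).O :=
  Fermat.Agent.S48.B.Red.Bases1.jgen1_mem_O_igusa (igusaDegN N) hr hrN hA

theorem red_jgen1 :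
    (gaussDatum1 N A hr hA hrN).red ⟨jgen1 N, jgen1_mem_O1 hr hrN hA⟩ =
      jC N (ResidueField ↥A) :=
  Fermat.Agent.S48.B.Red.Bases1.red_jgen1_igusa (igusaDegN N) hr hrN hA

theorem ob1 : (gaussDatum1 N A hr hA hrN).OB :=
  Fermat.Agent.S48.B.Red.Bases1.ob_igusa (igusaDegN N) hr hrN hA

/-- integral elements lie in the Gauss valuation ring -/
theorem toFL_mem_O1 (a : ↥(intRing A (residue ↥A) (F1 N) (F1C N (ResidueField ↥A)))) :
    toFL A (residue ↥A) (F1 N) (F1C N (ResidueField ↥A)) a ∈ (gaussDatum1 N A hr hA hrN).O :=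
  toFL_mem_OwV (hasRep1 hr hrN hA) a

/-- on integral elements the reduction is the coefficientwise reduction -/
theorem red_toFL1 (a : ↥(intRing A (residue ↥A) (F1 N) (F1C N (ResidueField ↥A)))) :
    (gaussDatum1 N A hr hA hrN).red
        ⟨toFL A (residue ↥A) (F1 N) (F1C N (ResidueField ↥A)) a, toFL_mem_O1 hr hrN hA a⟩ =
      red A (residue ↥A) (F1 N) (F1C N (ResidueField ↥A)) a :=
  redV_toFL (hasRep1 hr hrN hA) a

end Fermat.Agent.S43.LG1.C1.Seam

end
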