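/-
PROJECT R (S43), gate (G), cut C1 = S34' (helper13): THE REDUCED DIAMOND at level `N`, `A ∣ r`.

The twist of `X₁(N; r)` is `δ = ⟨r⁻¹⟩^* = Seam.delta1` on `F = ℚ̄(X₁(N))` (`W (α x) = β (δ x)`).
This file discharges, from main's `S48/B/Red/{Unique1, Diamond1, Diamond1/Final}`, everything the
C1 files take as hypotheses about `δ` and its reduction `d̄` on `κ = κ(A)(X₁(N))`:

* `smul_O1_of_fix` : every automorphism of `F` fixing `j` preserves the Gauss ring of `F` at `A`;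
* `redFix δ hδ : F1C N κ ≃ₐ[κ] F1C N κ`, `redFix_red`, `redFix_jC` (any `δ` fixing `j`);
* `dbar1 hr hA hrN := redFix (delta1 ..)` : **the reduced diamond**;
  `delta1_mem_O1_iff`, `red_delta1 : red (δ x) = d̄ (red x)`, `dbar1_jC : d̄ j̄ = j̄`  (= `hdj`);
* `dbar1_coeffRingAut_resAut`, `dbar1_frobAut`, `dbar1_frobAut_symm` : `d̄` commutes with the
  coefficientwise action of the decomposition group, in particular with the coefficientwise
  Frobenius and its inverse (`dbar1_frobAut_symm` IS the hypothesis `hdψ` of `FrobKGen.Twist`,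
  since `FrobKGen.psi hC q = coeffRingAut hC (frobAut k q).symm` by definition);
* `placeMap_smul_delta1` : Deuring's place map of `F` is equivariant:
  `placeMap H (δ • P) = d̄ • placeMap H P` (the `hr` of `Generic/SwapX1`).
-/
import Mathlib
import Fermat.Agent.Lib.FrobeniusExists
import Fermat.Agent.S48.B.Red.Diamond1.Final
import Fermat.Agent.S43.LG1.C1.Seam
import Fermat.Agent.S43.LG1.C1.GaussEquivG

set_option autoImplicit false
set_option linter.unusedSectionVars false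
set_option linter.style.haveILetI false
set_option synthInstance.maxHeartbeats 400000

noncomputable section

namespace Fermat.Agent.S43.LG1.C1.DiamondRed1

open AlgebraicCurve AlgebraicCurve.SemilinearAut ModularCurve IsLocalRing IntermediateField
open Fermat.Agent.S48.B.Defs.Model Fermat.Agent.S48.B.B1.Seams
open Fermat.Agent.S48.B.Red.Seams (jC)
open Fermat.Agent.S48.B.Red.GaussG Fermat.Agent.S48.B.Red.CoeffAut1
open Fermat.Agent.S48.B.Red.Diamond1 (redAut₁ redAut₁_red redAut₁_jC)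
open Fermat.Agent.S37.Equivariance.CoeffAut (frobAut)
open Fermat.Agent.S37.Equivariance.GaussEquiv (resAut resAut_eq_frobAut)
open Fermat.Agent.S37.Deuring.Core
open Fermat.Agent.S43.LG1.C1.Seam
open scoped Pointwise

local notation "Kb" => AlgebraicClosure ℚ

attribute [local instance] algShortcut1

variable {r : ℕ} {N : ℕ} [NeZero N] [NeZero r] {A : ValuationSubring Kb}
variable (hr : r.Prime) (hA : A.LiesOverPrime r) (hrN : ¬ r ∣ N)

/-! ### automorphisms fixing `j` -/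

/-- **every automorphism of `ℚ̄(X₁(N))` fixing `j` preserves the Gauss ring at `A ∣ r`** -/
theorem smul_O1_of_fix (δ : ↥(F1Bar N) ≃ₐ[Kb] ↥(F1Bar N)) (hδ : δ (jgen1 N) = jgen1 N) :
    δ • (gaussDatum1 N A hr hA hrN).O = (gaussDatum1 N A hr hA hrN).O := by
  obtain ⟨hrep, h⟩ := (Fermat.Agent.S48.B.Red.Diamond1.Final.stableHyp1_of_igusa (igusaDegN N)
    (Fermat.Agent.S48.B.B1.Main.deg1 N) hr hrN hA).exists_rep
  exact h δ hδ

/-- the automorphism of `κ(A)(X₁(N))` induced by an automorphism of `ℚ̄(X₁(N))` fixing `j` -/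
def redFix (δ : ↥(F1Bar N) ≃ₐ[Kb] ↥(F1Bar N)) (hδ : δ (jgen1 N) = jgen1 N) :
    ↥(F1C N (ResidueField ↥A)) ≃ₐ[ResidueField ↥A] ↥(F1C N (ResidueField ↥A)) :=
  redAut₁ (hasRep1 hr hrN hA) δ (smul_O1_of_fix hr hA hrN δ hδ)

theorem apply_mem_O1_iff (δ : ↥(F1Bar N) ≃ₐ[Kb] ↥(F1Bar N)) (hδ : δ (jgen1 N) = jgen1 N)
    (x : ↥(F1Bar N)) :
    δ x ∈ (gaussDatum1 N A hr hA hrN).O ↔ x ∈ (gaussDatum1 N A hr hA hrN).O :=
  Fermat.Agent.S48.B.Red.Unique1.apply_mem_iff (smul_O1_of_fix hr hA hrN δ hδ) x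

/-- `red (δ x) = δ̄ (red x)` -/
theorem redFix_red (δ : ↥(F1Bar N) ≃ₐ[Kb] ↥(F1Bar N)) (hδ : δ (jgen1 N) = jgen1 N)
    (x : ↥(gaussDatum1 N A hr hA hrN).O) :
    (gaussDatum1 N A hr hA hrN).red
        ⟨δ (x : ↥(F1Bar N)), (apply_mem_O1_iff hr hA hrN δ hδ _).2 x.2⟩ =
      redFix hr hA hrN δ hδ ((gaussDatum1 N A hr hA hrN).red x) :=
  (redAut₁_red (hasRep1 hr hrN hA) δ (smul_O1_of_fix hr hA hrN δ hδ) x).symm

/-- `δ̄ j̄ = j̄` -/
theorem redFix_jC (δ : ↥(F1Bar N) ≃ₐ[Kb] ↥(F1Bar N)) (hδ : δ (jgen1 N) = jgen1 N) :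
    redFix hr hA hrN δ hδ (jC N (ResidueField ↥A)) = jC N (ResidueField ↥A) :=
  redAut₁_jC (hasRep1 hr hrN hA) δ (smul_O1_of_fix hr hA hrN δ hδ) hδ

/-! ### the reduced diamond -/

/-- **the reduced diamond** `d̄ = ⟨r⁻¹⟩^*` on `κ(A)(X₁(N))` -/
def dbar1 : ↥(F1C N (ResidueField ↥A)) ≃ₐ[ResidueField ↥A] ↥(F1C N (ResidueField ↥A)) :=
  redFix hr hA hrN (delta1 N r hr hrN) (delta1_jgen1 hr hrN)

/-- the diamond preserves the Gauss ring of `F` -/
theorem delta1_smul_O1 :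
    delta1 N r hr hrN • (gaussDatum1 N A hr hA hrN).O = (gaussDatum1 N A hr hA hrN).O :=
  smul_O1_of_fix hr hA hrN _ (delta1_jgen1 hr hrN)

theorem delta1_mem_O1_iff (x : ↥(F1Bar N)) :
    delta1 N r hr hrN x ∈ (gaussDatum1 N A hr hA hrN).O ↔ x ∈ (gaussDatum1 N A hr hA hrN).O :=
  apply_mem_O1_iff hr hA hrN _ (delta1_jgen1 hr hrN) x

theorem delta1_mem_O1 {x : ↥(F1Bar N)} (hx : x ∈ (gaussDatum1 N A hr hA hrN).O) :
    delta1 N r hr hrN x ∈ (gaussDatum1 N A hr hA hrN).O :=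
  (delta1_mem_O1_iff hr hA hrN x).2 hx

/-- **`red (δ x) = d̄ (red x)`** -/
theorem red_delta1 (x : ↥(gaussDatum1 N A hr hA hrN).O) :
    (gaussDatum1 N A hr hA hrN).red
        ⟨delta1 N r hr hrN (x : ↥(F1Bar N)), delta1_mem_O1 hr hA hrN x.2⟩ =
      dbar1 hr hA hrN ((gaussDatum1 N A hr hA hrN).red x) :=
  redFix_red hr hA hrN _ (delta1_jgen1 hr hrN) x

/-- **`d̄ j̄ = j̄`** (the hypothesis `hdj` of `FrobKGen.Twist`) -/
theorem dbar1_jC : dbar1 hr hA hrN (jC N (ResidueField ↥A)) = jC N (ResidueField ↥A) :=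
  redFix_jC hr hA hrN _ (delta1_jgen1 hr hrN)

/-! ### commutation with the coefficientwise Galois action -/

/-- the diamond commutes with the coefficientwise Galois action on `F` -/
theorem delta1_smul (σ : Kb ≃ₐ[ℚ] Kb) (x : ↥(F1Bar N)) :
    delta1 N r hr hrN (arithmeticGalois (F1 N) σ • x) =
      arithmeticGalois (F1 N) σ • delta1 N r hr hrN x := by
  have h := Fermat.Agent.S48.B.Red.Diamond1.arithmeticGalois_mul_ofAlgAut
    (Fermat.Agent.S48.B.B1.Main.diamondExists N)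
    (ZMod.unitOfCoprime r (coprime_of hr hrN))⁻¹ σ
  have h2 := congrArg (fun g : SemilinearAut Kb ↥(F1Bar N) => g • x) h
  simp only [mul_smul, ofAlgAut_smul] at h2
  exact h2.symm

/-- **`d̄` commutes with the coefficientwise action of the decomposition group of `A`** -/
theorem dbar1_coeffRingAut_resAut (g : A.decompositionSubgroup ℚ)
    (y : ↥(F1C N (ResidueField ↥A))) :
    dbar1 hr hA hrN (coeffRingAut (coeffStable_F1C N (ResidueField ↥A)) (resAut A g) y) =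
      coeffRingAut (coeffStable_F1C N (ResidueField ↥A)) (resAut A g) (dbar1 hr hA hrN y) := by
  obtain ⟨f, rfl⟩ := red_surjective1 hr hrN hA y
  obtain ⟨hf, hred⟩ := Fermat.Agent.S43.LG1.C1.GaussEquivG.redV_smul_decomposition A
    (coeffStable_F1C N (ResidueField ↥A)) (hasRep1 hr hrN hA) g f
  obtain ⟨hf', hred'⟩ := Fermat.Agent.S43.LG1.C1.GaussEquivG.redV_smul_decomposition A
    (coeffStable_F1C N (ResidueField ↥A)) (hasRep1 hr hrN hA) g
    ⟨delta1 N r hr hrN (f : ↥(F1Bar N)), delta1_mem_O1 hr hA hrN f.2⟩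
  have e1 : coeffRingAut (coeffStable_F1C N (ResidueField ↥A)) (resAut A g)
      ((gaussDatum1 N A hr hA hrN).red f) =
      (gaussDatum1 N A hr hA hrN).red
        ⟨arithmeticGalois (F1 N) (g : Kb ≃ₐ[ℚ] Kb) • (f : ↥(F1Bar N)), hf⟩ := hred.symm
  have e2 : coeffRingAut (coeffStable_F1C N (ResidueField ↥A)) (resAut A g)
      ((gaussDatum1 N A hr hA hrN).red
        ⟨delta1 N r hr hrN (f : ↥(F1Bar N)), delta1_mem_O1 hr hA hrN f.2⟩) =
      (gaussDatum1 N A hr hA hrN).red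
        ⟨arithmeticGalois (F1 N) (g : Kb ≃ₐ[ℚ] Kb) • delta1 N r hr hrN (f : ↥(F1Bar N)), hf'⟩ :=
    hred'.symm
  rw [e1, ← red_delta1 hr hA hrN f, e2,
    ← red_delta1 hr hA hrN ⟨arithmeticGalois (F1 N) (g : Kb ≃ₐ[ℚ] Kb) • (f : ↥(F1Bar N)), hf⟩]
  congr 1
  exact Subtype.ext (delta1_smul hr hrN (g : Kb ≃ₐ[ℚ] Kb) (f : ↥(F1Bar N)))

section Frob

variable [Fact r.Prime] [CharP (ResidueField ↥A) r] [PerfectField (ResidueField ↥A)]

/-- **`d̄` commutes with the coefficientwise Frobenius** -/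
theorem dbar1_frobAut (y : ↥(F1C N (ResidueField ↥A))) :
    dbar1 hr hA hrN
        (coeffRingAut (coeffStable_F1C N (ResidueField ↥A)) (frobAut (ResidueField ↥A) r) y) =
      coeffRingAut (coeffStable_F1C N (ResidueField ↥A)) (frobAut (ResidueField ↥A) r)
        (dbar1 hr hA hrN y) := by
  obtain ⟨σ, hσ⟩ :=
    Fermat.Agent.Lib.FrobeniusExists.exists_isFrobeniusAt_algebraicClosure A hr hA
  have h := dbar1_coeffRingAut_resAut hr hA hrN ⟨σ, hσ.mem_decompositionSubgroup⟩ y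
  rw [resAut_eq_frobAut A r hσ] at h
  exact h

/-- **`d̄` commutes with the coefficientwise `r`-th root** (the hypothesis `hdψ` of
`FrobKGen.Twist`: `FrobKGen.psi hC r = coeffRingAut hC (frobAut κ r).symm`) -/
theorem dbar1_frobAut_symm (y : ↥(F1C N (ResidueField ↥A))) :
    dbar1 hr hA hrN
        (coeffRingAut (coeffStable_F1C N (ResidueField ↥A)) (frobAut (ResidueField ↥A) r).symm y) =
      coeffRingAut (coeffStable_F1C N (ResidueField ↥A)) (frobAut (ResidueField ↥A) r).symm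
        (dbar1 hr hA hrN y) := by
  set τ := coeffRingAut (coeffStable_F1C N (ResidueField ↥A)) (frobAut (ResidueField ↥A) r)
    with hτ
  have hsymm : ∀ z : ↥(F1C N (ResidueField ↥A)),
      coeffRingAut (coeffStable_F1C N (ResidueField ↥A)) (frobAut (ResidueField ↥A) r).symm z =
        τ.symm z := fun z => rfl
  rw [hsymm, hsymm]
  apply τ.injective
  rw [RingEquiv.apply_symm_apply, ← dbar1_frobAut hr hA hrN, RingEquiv.apply_symm_apply]

end Frob

/-! ### Deuring's place map -/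

section PlaceMap

open Fermat.Agent.S48.B.Defs.Reduction
open Fermat.Agent.S48.B.Red.Bases1 Fermat.Agent.S48.B.Red.DatumG

variable [HasPrincipalDivisors Kb ↥(F1Bar N)]
variable [HasPrincipalDivisors (ResidueField ↥A) ↥(F1C N (ResidueField ↥A))]
variable [Infinite (ResidueField ↥A)]
variable {gL gk : ℕ}

/-- **Deuring's place map of `F` at `A` is equivariant for every automorphism fixing `j`** -/
theorem placeMap_smul_of_fix (H : Hyp (gaussDatum1 N A hr hA hrN) gL gk)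
    (δ : ↥(F1Bar N) ≃ₐ[Kb] ↥(F1Bar N)) (hδ : δ (jgen1 N) = jgen1 N)
    (P : Place Kb ↥(F1Bar N)) :
    placeMap H (ofAlgAut δ • P) = ofAlgAut (redFix hr hA hrN δ hδ) • placeMap H P :=
  Fermat.Agent.S48.B.Red.Diamond1.placeMap_smul_aut (hasRep1 hr hrN hA) δ
    (smul_O1_of_fix hr hA hrN δ hδ)
    (Fermat.Agent.S48.B.Red.Fibre1.fibreHyp1_of (igusaDegN N)
      (Fermat.Agent.S48.B.B1.Main.deg1 N) hr hrN hA) hδ
    (isPlaceReductionAlongG_of_hyp (hasRep1 hr hrN hA) (gaussDatum1 N A hr hA hrN)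
      (fun _ => Iff.rfl) (fun _ _ _ => rfl) H)
    (principalGeneratedByIntegralG_of_hasRep (hasRep1 hr hrN hA)) P

/-- **`placeMap H (δ • P) = d̄ • placeMap H P`** -/
theorem placeMap_smul_delta1 (H : Hyp (gaussDatum1 N A hr hA hrN) gL gk)
    (P : Place Kb ↥(F1Bar N)) :
    placeMap H (ofAlgAut (delta1 N r hr hrN) • P) =
      ofAlgAut (dbar1 hr hA hrN) • placeMap H P :=
  placeMap_smul_of_fix hr hA hrN H _ (delta1_jgen1 hr hrN) P

end PlaceMap

end Fermat.Agent.S43.LG1.C1.DiamondRed1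

end
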