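/-
PROJECT R (S43), block G, brick C1 (= S34', the `X₁`-twin of S34's `X₀` instance layer), helper7:
**CUSPS REDUCE TO CUSPS at `X₁(N)`** — the twin of `S34/CuspRedX0` (helper22).

The abstract part of `S34/CuspRedX0` (`pole_to_pole'`, `regOn_of_nonneg'`, `zero_to_zero'`,
`regOn_inv_of_nonpos'`, `inv_mem'`, `red_inv'`) is generic in the fields and IMPORTED from main.
Here it is instantiated at the Gauss datum of `ℚ̄(X₁(N))` of S48's part B:

`h : IgusaDeg N` (a theorem: `S48/B/Igusa/Main.igusaDeg N`), `r ∤ N` prime, `A` over `r`,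
`G := Bases1.gaussDatumIgusa h hr hrN hA`, `H : S37.Deuring.Core.Hyp G gL gk`, `R := redDatum H`,
place map `placeMap H`, `x := j = jgen1 N`, `red x = j̄ = jC N κ(A)`; the degree equality is
`Bases1.finrank_eq_igusa`, the two separabilities are `Inj/Basics.isSeparable_of_isFF` and
`Red/Fibre1.isSeparable_jC₁`.

* `jO1`, `coe_jO1`, `red_jO1` : `j` in the Gauss valuation ring;
* `pole_to_pole_jgen1`, `regOn_jgen1`, `zero_to_zero_jgen1`, `regOn_inv_jgen1`;
* `inv_jgen1_mem_O`, `red_inv_jgen1`;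
* `cuspDiv1 N = (j)_∞`, `cuspDiv1_apply`, `cuspDiv1_ne_zero_iff`, `cuspDiv1_nonneg`,
  `degree_cuspDiv1`, `degree_cuspDiv1_pos`, `placeMap_mem_cusp1`.
-/
import Mathlib
import Fermat.Agent.S34.CuspRedX0
import Fermat.Agent.S48.B.Red.Bases1
import Fermat.Agent.S48.B.Red.Fibre1
import Fermat.Agent.S48.B.B1.Main
import Fermat.Agent.S48.B.Inj.Basics

set_option autoImplicit false
set_option linter.unusedSectionVars false

noncomputable section

namespace Fermat.Agent.S43.LG1.C1.CuspRedX1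

open AlgebraicCurve IntermediateField ModularCurve IsLocalRing
open Fermat.Agent.S24.FF Fermat.Agent.S24.Ord
open Fermat.Agent.S18.CoreDefs Fermat.Agent.S18.Disc Fermat.Agent.S18.A.FibreSep
open Fermat.Agent.S37.Deuring.Core
open Fermat.Agent.S34.CuspRedX0
open Fermat.Agent.S48.B.Defs.Model
open Fermat.Agent.S48.B.B1.Seams (jgen1 Deg1)
open Fermat.Agent.S48.B.Red.Seams (jC IgusaDeg)
open Fermat.Agent.S48.B.Red.Bases1 (gaussDatumIgusa jgen1_mem_O_igusa red_jgen1_igusa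
  finrank_eq_igusa)

local notation "Kb" => AlgebraicClosure ℚ

/-! ### the two separating variables -/

/-- `j` is a function-field generator of `ℚ̄(X₁(N))` -/
theorem isFF_jgen1 (N : ℕ) [NeZero N] : IsFF Kb (jgen1 N) :=
  (Fermat.Agent.S48.B.B1.Main.deg1 N).1

/-- `ℚ̄(X₁(N)) / ℚ̄(j)` is separable -/
theorem isSeparable_jgen1 (N : ℕ) [NeZero N] : Algebra.IsSeparable Kb⟮jgen1 N⟯ ↥(F1Bar N) :=
  Fermat.Agent.S48.B.Inj.Basics.isSeparable_of_isFF (isFF_jgen1 N)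

/-! ### the cusp divisor -/

section CuspDiv

variable {N : ℕ} [NeZero N]

/-- the cusp divisor `(j)_∞` of `ℚ̄(X₁(N))` -/
def cuspDiv1 (N : ℕ) [NeZero N] : Divisor Kb ↥(F1Bar N) :=
  poleDiv (isFF_jgen1 N) (isSeparable_jgen1 N)

theorem cuspDiv1_apply (P : Place Kb ↥(F1Bar N)) :
    cuspDiv1 N P = max (-P.ord (jgen1 N)) 0 :=
  poleDiv_apply _ _ P

theorem cuspDiv1_ne_zero_iff (P : Place Kb ↥(F1Bar N)) :
    cuspDiv1 N P ≠ 0 ↔ P.ord (jgen1 N) < 0 := by
  rw [cuspDiv1_apply]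
  omega

theorem cuspDiv1_nonneg : 0 ≤ cuspDiv1 N := by
  rw [Finsupp.le_def]
  intro P
  rw [cuspDiv1_apply]
  simp

theorem degree_cuspDiv1 :
    Divisor.degree (cuspDiv1 N) = (Module.finrank Kb⟮jgen1 N⟯ ↥(F1Bar N) : ℤ) :=
  degree_poleDiv _ _

theorem degree_cuspDiv1_pos : 0 < Divisor.degree (cuspDiv1 N) := by
  rw [degree_cuspDiv1]
  have := (isFF_jgen1 N).finite
  exact_mod_cast (Module.finrank_pos : 0 < Module.finrank Kb⟮jgen1 N⟯ ↥(F1Bar N))

end CuspDiv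

/-! ### `X₁(N)` at `A` -/

section X1

variable {N : ℕ} [NeZero N] {r : ℕ} {A : ValuationSubring Kb}
variable (h : IgusaDeg N) (hr : r.Prime) (hrN : ¬ r ∣ N) (hA : A.LiesOverPrime r)

/-- `j` as an element of the Gauss valuation ring of `ℚ̄(X₁(N))` at `A` -/
def jO1 : ↥(gaussDatumIgusa h hr hrN hA).O := ⟨jgen1 N, jgen1_mem_O_igusa h hr hrN hA⟩

theorem coe_jO1 : ((jO1 h hr hrN hA : ↥(gaussDatumIgusa h hr hrN hA).O) : ↥(F1Bar N)) = jgen1 N :=
  rfl

theorem red_jO1 : (gaussDatumIgusa h hr hrN hA).red (jO1 h hr hrN hA) = jC N (ResidueField ↥A) :=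
  red_jgen1_igusa h hr hrN hA

include h hr hrN hA in
/-- `j̄` is a function-field generator of `κ(A)(X₁(N))` -/
theorem isFF_jC1 : IsFF (ResidueField ↥A) (jC N (ResidueField ↥A)) :=
  Fermat.Agent.S48.B.Red.Fibre1.isFF_jC₁ h hr hrN hA

include h hr hrN hA in
/-- `κ(A)(X₁(N)) / κ(A)(j̄)` is separable -/
theorem isSeparable_jC1 :
    Algebra.IsSeparable ↥(ResidueField ↥A)⟮jC N (ResidueField ↥A)⟯ ↥(F1C N (ResidueField ↥A)) :=
  Fermat.Agent.S48.B.Red.Fibre1.isSeparable_jC₁ h hr hrN hA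

include h hr hrN hA in
/-- the degree equality, in the direction of `S34/CuspRedX0` -/
theorem finrank_eq1 :
    Module.finrank ↥Kb⟮jgen1 N⟯ ↥(F1Bar N) =
      Module.finrank ↥(ResidueField ↥A)⟮jC N (ResidueField ↥A)⟯ ↥(F1C N (ResidueField ↥A)) :=
  (finrank_eq_igusa h hr hrN hA).symm

variable [HasPrincipalDivisors Kb ↥(F1Bar N)]
  [HasPrincipalDivisors (ResidueField ↥A) ↥(F1C N (ResidueField ↥A))]
  [Infinite (ResidueField ↥A)]
variable {gL gk : ℕ} (H : Hyp (gaussDatumIgusa h hr hrN hA) gL gk)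

/-- **cusps reduce to cusps**: every pole of `j` specialises to a pole of `j̄`. -/
theorem pole_to_pole_jgen1 (P : Place Kb ↥(F1Bar N)) (hP : P.ord (jgen1 N) < 0) :
    (placeMap H P).ord (jC N (ResidueField ↥A)) < 0 := by
  have : IsAlgClosed (ResidueField ↥A) := Fermat.Agent.S18.ResidueBasics.isAlgClosed_residueField A
  exact pole_to_pole' (redDatum H) (jO1 h hr hrN hA) (coe_jO1 h hr hrN hA) (red_jO1 h hr hrN hA)
    (isFF_jgen1 N) (isSeparable_jgen1 N) (isFF_jC1 h hr hrN hA) (isSeparable_jC1 h hr hrN hA)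
    (finrank_eq1 h hr hrN hA) P hP

/-- `j` is regular on every non-cuspidal residue disc. -/
theorem regOn_jgen1 (Q : Place (ResidueField ↥A) ↥(F1C N (ResidueField ↥A)))
    (hQ : 0 ≤ Q.ord (jC N (ResidueField ↥A))) : RegOn (placeMap H) (jgen1 N) Q := by
  have : IsAlgClosed (ResidueField ↥A) := Fermat.Agent.S18.ResidueBasics.isAlgClosed_residueField A
  exact regOn_of_nonneg' (redDatum H) (jO1 h hr hrN hA) (coe_jO1 h hr hrN hA)
    (red_jO1 h hr hrN hA) (isFF_jgen1 N) (isSeparable_jgen1 N) (isFF_jC1 h hr hrN hA)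
    (isSeparable_jC1 h hr hrN hA) (finrank_eq1 h hr hrN hA) Q hQ

/-- every zero of `j` specialises to a zero of `j̄`. -/
theorem zero_to_zero_jgen1 (P : Place Kb ↥(F1Bar N)) (hP : 0 < P.ord (jgen1 N)) :
    0 < (placeMap H P).ord (jC N (ResidueField ↥A)) := by
  have : IsAlgClosed (ResidueField ↥A) := Fermat.Agent.S18.ResidueBasics.isAlgClosed_residueField A
  exact zero_to_zero' (redDatum H) (jO1 h hr hrN hA) (coe_jO1 h hr hrN hA) (red_jO1 h hr hrN hA)
    (isFF_jgen1 N) (isSeparable_jgen1 N) (isFF_jC1 h hr hrN hA) (isSeparable_jC1 h hr hrN hA)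
    (finrank_eq1 h hr hrN hA) P hP

/-- `1 / j` is regular on the residue disc of every place at which `j̄` has no zero (in particular
on the cuspidal discs). -/
theorem regOn_inv_jgen1 (Q : Place (ResidueField ↥A) ↥(F1C N (ResidueField ↥A)))
    (hQ : Q.ord (jC N (ResidueField ↥A)) ≤ 0) : RegOn (placeMap H) (jgen1 N)⁻¹ Q := by
  have : IsAlgClosed (ResidueField ↥A) := Fermat.Agent.S18.ResidueBasics.isAlgClosed_residueField A
  exact regOn_inv_of_nonpos' (redDatum H) (jO1 h hr hrN hA) (coe_jO1 h hr hrN hA)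
    (red_jO1 h hr hrN hA) (isFF_jgen1 N) (isSeparable_jgen1 N) (isFF_jC1 h hr hrN hA)
    (isSeparable_jC1 h hr hrN hA) (finrank_eq1 h hr hrN hA) Q hQ

include H in
/-- `1 / j` is Gauss-integral. -/
theorem inv_jgen1_mem_O : (jgen1 N)⁻¹ ∈ (gaussDatumIgusa h hr hrN hA).O := by
  have : IsAlgClosed (ResidueField ↥A) := Fermat.Agent.S18.ResidueBasics.isAlgClosed_residueField A
  exact inv_mem' (redDatum H) (jO1 h hr hrN hA) (coe_jO1 h hr hrN hA) (red_jO1 h hr hrN hA)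
    (isFF_jgen1 N) (isSeparable_jgen1 N) (isFF_jC1 h hr hrN hA) (isSeparable_jC1 h hr hrN hA)
    (finrank_eq1 h hr hrN hA)

include H in
/-- `1 / j` reduces to `1 / j̄`. -/
theorem red_inv_jgen1 (hmem : (jgen1 N)⁻¹ ∈ (gaussDatumIgusa h hr hrN hA).O) :
    (gaussDatumIgusa h hr hrN hA).red ⟨(jgen1 N)⁻¹, hmem⟩ = (jC N (ResidueField ↥A))⁻¹ := by
  have : IsAlgClosed (ResidueField ↥A) := Fermat.Agent.S18.ResidueBasics.isAlgClosed_residueField A
  exact red_inv' (redDatum H) (jO1 h hr hrN hA) (coe_jO1 h hr hrN hA) (red_jO1 h hr hrN hA)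
    (isFF_jgen1 N) (isSeparable_jgen1 N) (isFF_jC1 h hr hrN hA) (isSeparable_jC1 h hr hrN hA)
    (finrank_eq1 h hr hrN hA) hmem

/-- the `hcusp` of `MultOfAlpha.mult_of_alpha` for `C := cuspDiv1 N`,
`cusp := {Q | Q.ord j̄ < 0}` -/
theorem placeMap_mem_cusp1 (PM : Place Kb ↥(F1Bar N)) (hPM : cuspDiv1 N PM ≠ 0) :
    placeMap H PM ∈ {Q : Place (ResidueField ↥A) ↥(F1C N (ResidueField ↥A)) |
      Q.ord (jC N (ResidueField ↥A)) < 0} :=
  pole_to_pole_jgen1 h hr hrN hA H PM ((cuspDiv1_ne_zero_iff PM).mp hPM)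

end X1

end Fermat.Agent.S43.LG1.C1.CuspRedX1

end
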