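/-
PROJECT R (S43), gate (G), cut C1 = S34' (helper13): the `X₁` twin of `S34/PowerBasisX0`.

`F = F1Bar N = ℚ̄(X₁(N))`, `E'' = F1pBar N r = ℚ̄(X₁(N; r))`, `r` prime, `r ∤ N`, along `α = alpha1`.

* characteristic `r` : `X^r - j̄` is irreducible over `F1C N k`, the two factors `X - j̄^r`,
  `X^r - j̄` are coprime, Kronecker's congruence at `j̄ = jC N k`;
* characteristic zero : `j_r = β j = j(q^r)` has a minimal polynomial of degree `r + 1` over `F`
  (`natDegree_minpoly_jr` : the `r + 1` embeddings `ρ ∘ W`, `q ↦ ζ^b q ∘ W` of `E''` agree on `α F`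
  and separate `j_r`), `adjoin_jr_eq_top`, `minpoly_jr` (`= Φ_r(X, j)`), `exists_modPoly1`.
-/
import Mathlib
import Fermat.Agent.S34.PowerBasisX0
import Fermat.Agent.S43.LG1.C1.Seam

set_option autoImplicit false
set_option linter.unusedSectionVars false
set_option linter.style.haveILetI false
set_option synthInstance.maxHeartbeats 400000

noncomputable section

namespace Fermat.Agent.S43.LG1.C1.PowerBasisX1

open Polynomial ModularCurve AlgebraicCurve IntermediateField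
open Fermat.Agent.S28.LaurentRescale Fermat.Agent.S28.ModPoly
open Fermat.Agent.S37.ES.HeckeRho
open Fermat.Agent.S48.B.Defs.Model Fermat.Agent.S48.B.B1.Seams
open Fermat.Agent.S48.B.ES.DegreeBeta1
open Fermat.Agent.S48.B.Red.Seams (jC coe_jC)
open Fermat.Agent.S34.PowerBasisX0 (order_jqModC pow_ne_jqModC)
open Fermat.Agent.S43.LG1.C1.Seam

local notation "Kb" => AlgebraicClosure ℚ

/-! ### Characteristic `ℓ`: the two factors -/

section CharL

variable (k : Type*) [Field k] (N : ℕ) [NeZero N] (ℓ : ℕ) [hℓ : Fact ℓ.Prime]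

/-- `j̄` is not an `ℓ`-th power in `F1C N k`. -/
theorem pow_ne_jC (b : ↥(F1C N k)) : b ^ ℓ ≠ jC N k := by
  intro h
  exact pow_ne_jqModC k ℓ (b : LaurentSeries k) (by
    have := congrArg Subtype.val h
    simpa using this)

/-- **`X^ℓ - j̄` is irreducible over `F1C N k`.** -/
theorem irreducible_X_pow_sub_C_jC :
    Irreducible (X ^ ℓ - C (jC N k) : Polynomial ↥(F1C N k)) :=
  (X_pow_sub_C_irreducible_iff_of_prime hℓ.out).2 (pow_ne_jC k N ℓ)

/-- `j̄^(ℓ²) ≠ j̄`. -/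
theorem jC_pow_sq_ne : jC N k ^ (ℓ ^ 2) ≠ jC N k := by
  intro h
  have h0 := congrArg (fun x : ↥(F1C N k) => (x : LaurentSeries k)) h
  simp only [SubmonoidClass.coe_pow, coe_jC] at h0
  have h1 := congrArg HahnSeries.order h0
  rw [HahnSeries.order_pow, order_jqModC] at h1
  have hℓ2 : 2 ≤ ℓ := hℓ.out.two_le
  have : (4 : ℤ) ≤ ((ℓ ^ 2 : ℕ) : ℤ) := by
    have : 4 ≤ ℓ ^ 2 := by nlinarith
    exact_mod_cast this
  simp only [nsmul_eq_mul, mul_neg, mul_one, neg_inj] at h1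
  omega

/-- **The two factors are coprime.** -/
theorem isCoprime_factors1 :
    IsCoprime (X - C (jC N k ^ ℓ) : Polynomial ↥(F1C N k)) (X ^ ℓ - C (jC N k)) := by
  rw [(irreducible_X_sub_C (jC N k ^ ℓ)).coprime_iff_not_dvd, dvd_iff_isRoot, IsRoot.def]
  simp only [eval_sub, eval_pow, eval_X, eval_C]
  rw [← pow_mul, sub_eq_zero, ← sq]
  exact jC_pow_sq_ne k N ℓ

/-- The modular polynomial evaluated at `j̄ ∈ F1C N k` factors (Kronecker). -/
theorem map_aeval_jC_of_kronecker (k : Type) [Field k] (N : ℕ) [NeZero N] (ℓ : ℕ)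
    {Φ : Polynomial (Polynomial ℤ)}
    (hΦ : Φ.map (Polynomial.mapRingHom (Int.castRingHom k)) = (X - C (X ^ ℓ)) * (X ^ ℓ - C X)) :
    Φ.map ((aeval (jC N k) : Polynomial ℤ →ₐ[ℤ] ↥(F1C N k)) : Polynomial ℤ →+* ↥(F1C N k)) =
      (X - C (jC N k ^ ℓ)) * (X ^ ℓ - C (jC N k)) := by
  have hcomp : ((aeval (jC N k) : Polynomial ℤ →ₐ[ℤ] ↥(F1C N k)) :
        Polynomial ℤ →+* ↥(F1C N k)) =
      ((aeval (jC N k) : Polynomial k →ₐ[k] ↥(F1C N k)) : Polynomial k →+* ↥(F1C N k)).comp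
        (Polynomial.mapRingHom (Int.castRingHom k)) := by
    apply Polynomial.ringHom_ext
    · intro a
      simp
    · simp
  rw [hcomp, ← Polynomial.map_map, hΦ]
  simp

end CharL

/-! ### Characteristic zero: `j(q^r)` generates `E''` over `F` -/

section Main

variable {N : ℕ} {r : ℕ} [NeZero N] [NeZero r]

/-- **The minimal polynomial of `j_r` over `F` (along `α`) has degree `r + 1`.** -/
theorem natDegree_minpoly_jr (hr : r.Prime) (hrN : ¬ r ∣ N) :
    letI := algebraAlong (alpha1 N r Kb)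
    (minpoly ↥(F1Bar N) (jr N r)).natDegree = r + 1 := by
  classical
  letI algFE := algebraAlong (alpha1 N r Kb)
  have hfr : Module.finrank ↥(F1Bar N) ↥(F1pBar N r) = r + 1 := finrankAlong_alpha1N hr hrN
  haveI hfin : Module.Finite ↥(F1Bar N) ↥(F1pBar N r) :=
    FiniteDimensional.of_finrank_pos (by rw [hfr]; omega)
  apply le_antisymm
  · rw [← hfr]
    exact minpoly.natDegree_le _
  -- the `r + 1` embeddings
  have hrk : ((r : ℕ) : Kb) ≠ 0 := Nat.cast_ne_zero.mpr hr.ne_zero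
  obtain ⟨ζ, hζ⟩ := Fermat.Agent.S28.StepDeg.exists_isPrimitiveRoot_units (k := Kb) (p := r) hrk
  set w := W1 N r hr hrN with hw
  set ρ := rho1 N r hr hrN with hρ
  set δ := delta1 N r hr hrN with hδ
  have hwα : ∀ g : ↥(F1Bar N), w (alpha1 N r Kb g) = beta1 N r Kb (δ g) := W1_alpha hr hrN
  have hwβ : ∀ g : ↥(F1Bar N), w (beta1 N r Kb g) = alpha1 N r Kb g := W1_beta hr hrN
  set m := minpoly ↥(F1Bar N) (jr N r) with hm
  set ι : ↥(F1Bar N) →+* LaurentSeries Kb :=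
    (qExpand Kb r).comp ((F1Bar N).val.toRingHom.comp
      (δ : ↥(F1Bar N) →+* ↥(F1Bar N))) with hι
  have hιinj : Function.Injective ι :=
    (qExpand_injective r).comp ((F1Bar N).val.toRingHom.injective.comp δ.injective)
  have hιapp : ∀ g : ↥(F1Bar N), ι g = qExpand Kb r ((δ g : ↥(F1Bar N)) : LaurentSeries Kb) :=
    fun g => rfl
  have hmdeg : (m.map ι).natDegree = m.natDegree := natDegree_map_eq_of_injective hιinj m
  have hm0 : m.map ι ≠ 0 := by
    rw [Ne, Polynomial.map_eq_zero_iff hιinj]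
    exact minpoly.ne_zero (IsIntegral.of_finite _ _)
  -- generic root statement
  have hroot : ∀ τ : ↥(F1pBar N r) →+* LaurentSeries Kb,
      (∀ g : ↥(F1Bar N), τ (alpha1 N r Kb g) = ι g) → (m.map ι).IsRoot (τ (jr N r)) := by
    intro τ hτ
    have h0 : aeval (jr N r) m = 0 := minpoly.aeval _ _
    have h1 := congrArg τ h0
    rw [map_zero, aeval_def, hom_eval₂] at h1
    have hcomp : τ.comp (algebraMap ↥(F1Bar N) ↥(F1pBar N r)) = ι := RingHom.ext fun g => hτ g
    rw [hcomp] at h1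
    rw [IsRoot.def, eval_map]
    exact h1
  -- `τ₀ = ρ ∘ w`
  have hr0 : (m.map ι).IsRoot (qExpand Kb r (qExpand Kb r (jqModC Kb))) := by
    have := hroot ((ρ : ↥(F1pBar N r) →+* LaurentSeries Kb).comp
      (w : ↥(F1pBar N r) →+* ↥(F1pBar N r)))
      (fun g => by
        show ρ (w (alpha1 N r Kb g)) = _
        rw [hwα, hρ, rho1_beta, hιapp])
    have hval : ((ρ : ↥(F1pBar N r) →+* LaurentSeries Kb).comp
      (w : ↥(F1pBar N r) →+* ↥(F1pBar N r))) (jr N r) =
        qExpand Kb r (qExpand Kb r (jqModC Kb)) := by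
      show ρ (w (beta1 N r Kb (jgen1 N))) = _
      rw [hwβ, hρ, rho1_alpha, delta1_jgen1, coe_jgen1]
    rwa [hval] at this
  -- `τ_b = rescaleU (ζ^b) ∘ val ∘ w`
  have hζr : ζ ^ r = 1 := hζ.pow_eq_one
  have hrb : ∀ b : ℕ, (m.map ι).IsRoot (rescaleU (ζ ^ b) (jqModC Kb)) := by
    intro b
    have hpow : (ζ ^ b) ^ r = 1 := by rw [← pow_mul, mul_comm, pow_mul, hζr, one_pow]
    have := hroot (((rescaleU (ζ ^ b) : LaurentSeries Kb ≃+* LaurentSeries Kb) :
        LaurentSeries Kb →+* LaurentSeries Kb).comp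
      ((F1pBar N r).val.toRingHom.comp (w : ↥(F1pBar N r) →+* ↥(F1pBar N r))))
      (fun g => by
        show rescaleU (ζ ^ b) ((w (alpha1 N r Kb g) : ↥(F1pBar N r)) : LaurentSeries Kb) = _
        rw [hwα, coe_beta1, rescaleU_qExpand_of_pow_eq_one r hpow, hιapp])
    have hval : (((rescaleU (ζ ^ b) : LaurentSeries Kb ≃+* LaurentSeries Kb) :
        LaurentSeries Kb →+* LaurentSeries Kb).comp
      ((F1pBar N r).val.toRingHom.comp (w : ↥(F1pBar N r) →+* ↥(F1pBar N r))))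
        (jr N r) = rescaleU (ζ ^ b) (jqModC Kb) := by
      show rescaleU (ζ ^ b) ((w (beta1 N r Kb (jgen1 N)) : ↥(F1pBar N r)) :
        LaurentSeries Kb) = _
      rw [hwβ, coe_alpha1, coe_jgen1]
    rwa [hval] at this
  -- the roots are pairwise distinct
  have hr1 : ¬ r ∣ 1 := fun h => hr.one_lt.ne' (Nat.dvd_one.1 h)
  have hnotmem : ∀ b : ℕ, rescaleU (ζ ^ b) (jqModC Kb) ∉ Set.range (qExpand Kb r) := by
    intro b
    have := qExpand_rescaleU_jqModC_not_mem (k := Kb) (ℓ := r) (d := 1) hr1 (ζ ^ b)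
    rwa [qExpand_one_apply] at this
  have hinjb : Set.InjOn (fun b : ℕ => rescaleU (ζ ^ b) (jqModC Kb)) (Finset.range r : Set ℕ) := by
    intro b hb b' hb' h
    have h1 : ζ ^ b = ζ ^ b' :=
      eq_of_rescaleU_eq (by rw [coeff_neg_one_jqModC]; exact one_ne_zero) h
    exact hζ.pow_inj (Finset.mem_range.1 hb) (Finset.mem_range.1 hb') h1
  set S : Finset (LaurentSeries Kb) :=
    insert (qExpand Kb r (qExpand Kb r (jqModC Kb)))
      ((Finset.range r).image fun b : ℕ => rescaleU (ζ ^ b) (jqModC Kb)) with hS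
  have hScard : S.card = r + 1 := by
    rw [hS, Finset.card_insert_of_notMem, Finset.card_image_of_injOn hinjb, Finset.card_range]
    intro hmem
    obtain ⟨b, -, hb⟩ := Finset.mem_image.1 hmem
    exact hnotmem b (hb ▸ ⟨_, rfl⟩)
  have hSroots : S.val ⊆ (m.map ι).roots := by
    intro x hx
    rw [Finset.mem_val, hS, Finset.mem_insert, Finset.mem_image] at hx
    rw [mem_roots hm0]
    rcases hx with rfl | ⟨b, -, rfl⟩
    · exact hr0
    · exact hrb b
  have := card_le_degree_of_subset_roots hSroots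
  rw [hScard, hmdeg] at this
  exact this

/-- **`j_r` is a primitive element of `E'' / F`.** -/
theorem adjoin_jr_eq_top (hr : r.Prime) (hrN : ¬ r ∣ N) :
    letI := algebraAlong (alpha1 N r Kb)
    (↥(F1Bar N))⟮jr N r⟯ = ⊤ := by
  letI algFE := algebraAlong (alpha1 N r Kb)
  have hfr : Module.finrank ↥(F1Bar N) ↥(F1pBar N r) = r + 1 := finrankAlong_alpha1N hr hrN
  haveI hfin : Module.Finite ↥(F1Bar N) ↥(F1pBar N r) :=
    FiniteDimensional.of_finrank_pos (by rw [hfr]; omega)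
  rw [Field.primitive_element_iff_minpoly_natDegree_eq, hfr]
  exact natDegree_minpoly_jr hr hrN

/-- The modular polynomial with coefficients in `F`: `Φ_r(X, j)`. -/
def modPolyF1 (N : ℕ) [NeZero N] (Φ : Polynomial (Polynomial ℤ)) : Polynomial ↥(F1Bar N) :=
  Φ.map ((aeval (jgen1 N) : Polynomial ℤ →ₐ[ℤ] ↥(F1Bar N)) : Polynomial ℤ →+* ↥(F1Bar N))

theorem modPolyF1_monic {Φ : Polynomial (Polynomial ℤ)} (hΦ : Φ.Monic) : (modPolyF1 N Φ).Monic :=
  hΦ.map _

theorem natDegree_modPolyF1 {Φ : Polynomial (Polynomial ℤ)} (hΦ : Φ.Monic) :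
    (modPolyF1 N Φ).natDegree = Φ.natDegree :=
  hΦ.natDegree_map _

/-- The coefficients of `Φ_r(X, j)` lie in every subring of `F` containing `j`. -/
theorem modPolyF1_mem_lifts (Φ : Polynomial (Polynomial ℤ)) (S : Subring ↥(F1Bar N))
    (hS : jgen1 N ∈ S) : modPolyF1 N Φ ∈ Polynomial.lifts S.subtype := by
  refine ⟨Φ.map ((aeval (⟨jgen1 N, hS⟩ : S) : Polynomial ℤ →ₐ[ℤ] S) : Polynomial ℤ →+* S), ?_⟩
  rw [Polynomial.coe_mapRingHom, Polynomial.map_map, modPolyF1]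
  congr 1
  apply Polynomial.ringHom_ext
  · intro a
    simp
  · simp

/-- `Φ_r(j_r, j) = 0` in `E''`, where `Φ(X, j(q)) = rPoly r ℤ` over `ℤ((q))`. -/
theorem aeval_jr_modPolyF1 {Φ : Polynomial (Polynomial ℤ)}
    (hΦ : Φ.map (evalL ℤ (jqModC ℤ)) = rPoly r ℤ) :
    letI := algebraAlong (alpha1 N r Kb)
    aeval (jr N r) (modPolyF1 N Φ) = 0 := by
  letI algFE := algebraAlong (alpha1 N r Kb)
  set v : ↥(F1pBar N r) →+* LaurentSeries Kb := (F1pBar N r).val.toRingHom with hv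
  have hinj : Function.Injective v := v.injective
  apply hinj
  rw [map_zero, aeval_def, hom_eval₂, modPolyF1, eval₂_map]
  -- the coefficient hom is `P ↦ P(j(q))`
  have hcomp : ((v.comp (algebraMap ↥(F1Bar N) ↥(F1pBar N r))).comp
        ((aeval (jgen1 N) : Polynomial ℤ →ₐ[ℤ] ↥(F1Bar N)) : Polynomial ℤ →+* ↥(F1Bar N))) =
      (coeffMap (Int.castRingHom Kb)).comp (evalL ℤ (jqModC ℤ)) := by
    apply Polynomial.ringHom_ext
    · intro a
      simp only [RingHom.comp_apply, evalL_C]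
      rw [show ((aeval (jgen1 N) : Polynomial ℤ →ₐ[ℤ] ↥(F1Bar N)) :
          Polynomial ℤ →+* ↥(F1Bar N)) (C a) = ((a : ℤ) : ↥(F1Bar N)) by simp]
      rw [map_intCast, map_intCast]
      rw [Fermat.Agent.S18.B.Basic.coeffMap_C, eq_intCast]
      simp
    · simp only [RingHom.comp_apply, evalL_X]
      rw [show ((aeval (jgen1 N) : Polynomial ℤ →ₐ[ℤ] ↥(F1Bar N)) :
          Polynomial ℤ →+* ↥(F1Bar N)) X = jgen1 N by simp]
      rw [coeffMap_jqModC]
      show ((alpha1 N r Kb (jgen1 N) : ↥(F1pBar N r)) : LaurentSeries Kb) = _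
      rw [coe_alpha1, coe_jgen1]
  rw [hcomp, ← eval₂_map, hΦ, ← eval_map, map_rPoly]
  show eval ((jr N r : ↥(F1pBar N r)) : LaurentSeries Kb) (rPoly r Kb) = 0
  rw [coe_jr, rPoly, eval_mul, eval_sub, eval_X, eval_C, sub_self, zero_mul]

/-- **The minimal polynomial of `j_r` over `F` is the modular polynomial `Φ_r(X, j)`.** -/
theorem minpoly_jr (hr : r.Prime) (hrN : ¬ r ∣ N) {Φ : Polynomial (Polynomial ℤ)}
    (hmonic : Φ.Monic) (hdeg : Φ.natDegree = r + 1)
    (hΦ : Φ.map (evalL ℤ (jqModC ℤ)) = rPoly r ℤ) :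
    letI := algebraAlong (alpha1 N r Kb)
    minpoly ↥(F1Bar N) (jr N r) = modPolyF1 N Φ := by
  letI algFE := algebraAlong (alpha1 N r Kb)
  have hfr : Module.finrank ↥(F1Bar N) ↥(F1pBar N r) = r + 1 := finrankAlong_alpha1N hr hrN
  haveI hfin : Module.Finite ↥(F1Bar N) ↥(F1pBar N r) :=
    FiniteDimensional.of_finrank_pos (by rw [hfr]; omega)
  have hdvd : minpoly ↥(F1Bar N) (jr N r) ∣ modPolyF1 N Φ :=
    minpoly.dvd _ _ (aeval_jr_modPolyF1 hΦ)
  refine (Polynomial.eq_of_monic_of_dvd_of_natDegree_le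
    (minpoly.monic (IsIntegral.of_finite _ _)) (modPolyF1_monic hmonic) hdvd ?_).symm
  rw [natDegree_modPolyF1 hmonic, hdeg, natDegree_minpoly_jr hr hrN]

/-- **Summary**: the `X₁` twin of `S34/PowerBasisX0.exists_modPoly`. -/
theorem exists_modPoly1 (hr : r.Prime) (hrN : ¬ r ∣ N) :
    ∃ Φ : Polynomial (Polynomial ℤ), Φ.Monic ∧ Φ.natDegree = r + 1 ∧
      (letI := algebraAlong (alpha1 N r Kb);
        minpoly ↥(F1Bar N) (jr N r) = modPolyF1 N Φ) ∧
      (∀ S : Subring ↥(F1Bar N), jgen1 N ∈ S → modPolyF1 N Φ ∈ Polynomial.lifts S.subtype) ∧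
      ∀ (k : Type) [Field k] [CharP k r],
        Φ.map ((aeval (jC N k) : Polynomial ℤ →ₐ[ℤ] ↥(F1C N k)) :
            Polynomial ℤ →+* ↥(F1C N k)) =
          (X - C (jC N k ^ r)) * (X ^ r - C (jC N k)) := by
  haveI : Fact r.Prime := ⟨hr⟩
  obtain ⟨Φ, hmonic, hdeg, hΦ, hchar⟩ := Fermat.Agent.S34.Kronecker.kronecker r
  refine ⟨Φ, hmonic, hdeg, minpoly_jr hr hrN hmonic hdeg hΦ,
    fun S hS => modPolyF1_mem_lifts Φ S hS, ?_⟩
  intro k _ _
  exact map_aeval_jC_of_kronecker k N r (hchar k)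

end Main

end Fermat.Agent.S43.LG1.C1.PowerBasisX1

end
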