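/-
PROJECT R (S43), gate (G), cut C1 = S34' (helper13): the `X₁` twin of `S34/PowerBasisX0Beta`,
the `β`-side twin of `C1/PowerBasisX1`.

`E'' = ℚ̄(X₁(N; r))` is also an extension of `F = ℚ̄(X₁(N))` along `β = beta1` (`g(q) ↦ g(q^r)`), of
degree `r + 1`; for this structure `α j = j(q)` is a primitive element, and its minimal polynomial
over `F` is THE SAME modular polynomial `Φ_r(X, j) = modPolyF1 N Φ` as on the `α`-side (transport
along the Atkin-Lehner automorphism `W1`: `W ∘ β = α`, `W ∘ α = β ∘ δ`, and `Φ_r(X, j)` has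
`δ`-invariant coefficients: `map_delta1_modPolyF1`).

* `aeval_alpha_jgen1_modPolyF1`, `minpoly_alpha_jgen1`, `natDegree_minpoly_alpha_jgen1`,
  `adjoin_alpha_jgen1_eq_top`, `finite_beta1`, `isIntegral_alpha_jgen1`, `pbX1Beta`, `pbX1Beta_gen`.
-/
import Mathlib
import Fermat.Agent.S43.LG1.C1.PowerBasisX1
import Fermat.Agent.S34.TwoExt

set_option autoImplicit false
set_option linter.unusedSectionVars false
set_option linter.style.haveILetI false

noncomputable section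

namespace Fermat.Agent.S43.LG1.C1.PowerBasisX1Beta

open Polynomial ModularCurve AlgebraicCurve IntermediateField
open Fermat.Agent.S28.ModPoly
open Fermat.Agent.S48.B.Defs.Model Fermat.Agent.S48.B.B1.Seams
open Fermat.Agent.S48.B.ES.DegreeBeta1
open Fermat.Agent.S43.LG1.C1.Seam Fermat.Agent.S43.LG1.C1.PowerBasisX1

local notation "Kb" => AlgebraicClosure ℚ

variable {N r : ℕ} [NeZero N] [NeZero r]

/-- `Φ_r(X, j)` has `δ`-invariant coefficients -/
theorem map_delta1_modPolyF1 (hr : r.Prime) (hrN : ¬ r ∣ N) (Φ : Polynomial (Polynomial ℤ)) :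
    (modPolyF1 N Φ).map ((delta1 N r hr hrN : ↥(F1Bar N) ≃ₐ[Kb] ↥(F1Bar N)) :
      ↥(F1Bar N) →+* ↥(F1Bar N)) = modPolyF1 N Φ := by
  rw [modPolyF1, Polynomial.map_map]
  congr 1
  apply Polynomial.ringHom_ext
  · intro a
    simp
  · simp [delta1_jgen1]

/-- evaluation along `β` is the `W`-transport of evaluation along `α`, up to `δ` -/
theorem eval₂_beta_eq1 (hr : r.Prime) (hrN : ¬ r ∣ N)
    (P : Polynomial ↥(F1Bar N)) (x : ↥(F1pBar N r)) :
    (P.map ((delta1 N r hr hrN : ↥(F1Bar N) ≃ₐ[Kb] ↥(F1Bar N)) :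
        ↥(F1Bar N) →+* ↥(F1Bar N))).eval₂
        ((beta1 N r Kb : _ →ₐ[Kb] ↥(F1pBar N r)) : _ →+* _) (W1 N r hr hrN x) =
      W1 N r hr hrN
        (P.eval₂ ((alpha1 N r Kb : _ →ₐ[Kb] ↥(F1pBar N r)) : _ →+* _) x) := by
  have h := Polynomial.hom_eval₂ P
    ((alpha1 N r Kb : _ →ₐ[Kb] ↥(F1pBar N r)) : _ →+* _) (W1Hom N r hr hrN) x
  rw [W1Hom_apply, W1Hom_apply] at h
  rw [h, Polynomial.eval₂_map]
  congr 1
  refine RingHom.ext fun g => ?_
  exact (W1_alpha hr hrN g).symm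

/-- evaluation along `α` is the `W`-transport of evaluation along `β` -/
theorem eval₂_alpha_eq1 (hr : r.Prime) (hrN : ¬ r ∣ N)
    (P : Polynomial ↥(F1Bar N)) (x : ↥(F1pBar N r)) :
    P.eval₂ ((alpha1 N r Kb : _ →ₐ[Kb] ↥(F1pBar N r)) : _ →+* _) (W1 N r hr hrN x) =
      W1 N r hr hrN
        (P.eval₂ ((beta1 N r Kb : _ →ₐ[Kb] ↥(F1pBar N r)) : _ →+* _) x) := by
  have h := Polynomial.hom_eval₂ P
    ((beta1 N r Kb : _ →ₐ[Kb] ↥(F1pBar N r)) : _ →+* _) (W1Hom N r hr hrN) x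
  rw [W1Hom_apply, W1Hom_apply] at h
  rw [h]
  congr 1
  refine RingHom.ext fun g => ?_
  exact (W1_beta hr hrN g).symm

/-- `Φ_r(α j, j) = 0` for the `β`-structure: `Φ_r(j(q), j(q^r)) = 0`. -/
theorem aeval_alpha_jgen1_modPolyF1 (hr : r.Prime) (hrN : ¬ r ∣ N)
    {Φ : Polynomial (Polynomial ℤ)} (hΦ : Φ.map (evalL ℤ (jqModC ℤ)) = rPoly r ℤ) :
    letI := algebraAlong (beta1 N r Kb)
    aeval (alpha1 N r Kb (jgen1 N)) (modPolyF1 N Φ) = 0 := by
  letI algFE := algebraAlong (beta1 N r Kb)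
  have h0 : (modPolyF1 N Φ).eval₂
      ((alpha1 N r Kb : _ →ₐ[Kb] ↥(F1pBar N r)) : _ →+* _) (jr N r) = 0 := by
    have := aeval_jr_modPolyF1 (N := N) (r := r) hΦ
    exact this
  have h1 := eval₂_beta_eq1 hr hrN (modPolyF1 N Φ) (jr N r)
  rw [h0, map_zero, W1_jr, map_delta1_modPolyF1] at h1
  exact h1

/-- **The minimal polynomial of `α j` over `F` along `β` is the modular polynomial `Φ_r(X, j)`.** -/
theorem minpoly_alpha_jgen1 (hr : r.Prime) (hrN : ¬ r ∣ N) {Φ : Polynomial (Polynomial ℤ)}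
    (hmonic : Φ.Monic) (hdeg : Φ.natDegree = r + 1)
    (hΦ : Φ.map (evalL ℤ (jqModC ℤ)) = rPoly r ℤ) :
    letI := algebraAlong (beta1 N r Kb)
    minpoly ↥(F1Bar N) (alpha1 N r Kb (jgen1 N)) = modPolyF1 N Φ := by
  letI algβ := algebraAlong (beta1 N r Kb)
  have hfr : Module.finrank ↥(F1Bar N) ↥(F1pBar N r) = r + 1 := finrankAlong_beta1N hr hrN
  haveI hfin : Module.Finite ↥(F1Bar N) ↥(F1pBar N r) :=
    FiniteDimensional.of_finrank_pos (by rw [hfr]; omega)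
  have hint : IsIntegral ↥(F1Bar N) (alpha1 N r Kb (jgen1 N)) := IsIntegral.of_finite _ _
  set m := minpoly ↥(F1Bar N) (alpha1 N r Kb (jgen1 N)) with hm
  -- `m ∣ Φ(X, j)`
  have hdvd : m ∣ modPolyF1 N Φ := minpoly.dvd _ _ (aeval_alpha_jgen1_modPolyF1 hr hrN hΦ)
  -- `Φ(X, j) ∣ m`: transport `m(α j) = 0` back along `W`
  have hm0 : m.eval₂ ((beta1 N r Kb : _ →ₐ[Kb] ↥(F1pBar N r)) : _ →+* _)
      (alpha1 N r Kb (jgen1 N)) = 0 := minpoly.aeval _ _
  have h1 := eval₂_alpha_eq1 hr hrN m (alpha1 N r Kb (jgen1 N))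
  rw [hm0, map_zero, W1_alpha_jgen1] at h1
  have hdvd' : modPolyF1 N Φ ∣ m := by
    have hmin := minpoly_jr (N := N) hr hrN hmonic hdeg hΦ
    have h2 : @minpoly ↥(F1Bar N) ↥(F1pBar N r) _ _
        (algebraAlong (alpha1 N r Kb)) (jr N r) ∣ m :=
      @minpoly.dvd ↥(F1Bar N) ↥(F1pBar N r) _ _
        (algebraAlong (alpha1 N r Kb)) (jr N r) m h1
    rwa [hmin] at h2
  exact Polynomial.eq_of_monic_of_associated (minpoly.monic hint) (modPolyF1_monic hmonic)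
    (associated_of_dvd_dvd hdvd hdvd')

theorem natDegree_minpoly_alpha_jgen1 (hr : r.Prime) (hrN : ¬ r ∣ N) :
    letI := algebraAlong (beta1 N r Kb)
    (minpoly ↥(F1Bar N) (alpha1 N r Kb (jgen1 N))).natDegree = r + 1 := by
  haveI : Fact r.Prime := ⟨hr⟩
  obtain ⟨Φ, hmonic, hdeg, hΦ, -⟩ := Fermat.Agent.S34.Kronecker.kronecker r
  rw [minpoly_alpha_jgen1 hr hrN hmonic hdeg hΦ, natDegree_modPolyF1 hmonic, hdeg]

include N in
theorem finite_beta1 (hr : r.Prime) (hrN : ¬ r ∣ N) :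
    letI := algebraAlong (beta1 N r Kb)
    Module.Finite ↥(F1Bar N) ↥(F1pBar N r) := by
  letI algβ := algebraAlong (beta1 N r Kb)
  have hfr : Module.finrank ↥(F1Bar N) ↥(F1pBar N r) = r + 1 := finrankAlong_beta1N hr hrN
  exact FiniteDimensional.of_finrank_pos (by rw [hfr]; omega)

/-- **`α j` generates `E''` over `F` along `β`.** -/
theorem adjoin_alpha_jgen1_eq_top (hr : r.Prime) (hrN : ¬ r ∣ N) :
    letI := algebraAlong (beta1 N r Kb)
    IntermediateField.adjoin ↥(F1Bar N) {alpha1 N r Kb (jgen1 N)} = ⊤ := by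
  letI algβ := algebraAlong (beta1 N r Kb)
  have hfr : Module.finrank ↥(F1Bar N) ↥(F1pBar N r) = r + 1 := finrankAlong_beta1N hr hrN
  haveI hfin : Module.Finite ↥(F1Bar N) ↥(F1pBar N r) :=
    FiniteDimensional.of_finrank_pos (by rw [hfr]; omega)
  rw [Field.primitive_element_iff_minpoly_natDegree_eq, hfr]
  exact natDegree_minpoly_alpha_jgen1 hr hrN

/-- `α j` is integral over `F` along `β`. -/
theorem isIntegral_alpha_jgen1 (hr : r.Prime) (hrN : ¬ r ∣ N) :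
    letI := algebraAlong (beta1 N r Kb)
    IsIntegral ↥(F1Bar N) (alpha1 N r Kb (jgen1 N)) := by
  letI algβ := algebraAlong (beta1 N r Kb)
  haveI := finite_beta1 (N := N) hr hrN
  exact IsIntegral.of_finite _ _

/-- The power basis `1, α j, …, (α j)^r` of `E'' / F` along `β`. -/
def pbX1Beta (hr : r.Prime) (hrN : ¬ r ∣ N) :
    letI := algebraAlong (beta1 N r Kb)
    PowerBasis ↥(F1Bar N) ↥(F1pBar N r) :=
  letI := algebraAlong (beta1 N r Kb)
  Fermat.Agent.S34.TwoExt.Setup.powerBasisOfAdjoinEqTop (isIntegral_alpha_jgen1 hr hrN)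
    (adjoin_alpha_jgen1_eq_top hr hrN)

theorem pbX1Beta_gen (hr : r.Prime) (hrN : ¬ r ∣ N) :
    letI := algebraAlong (beta1 N r Kb)
    (pbX1Beta (N := N) hr hrN).gen = alpha1 N r Kb (jgen1 N) := by
  letI := algebraAlong (beta1 N r Kb)
  exact Fermat.Agent.S34.TwoExt.Setup.powerBasisOfAdjoinEqTop_gen _ _

end Fermat.Agent.S43.LG1.C1.PowerBasisX1Beta

end
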