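/-
PROJECT R (S43), gate (G), cut C1 = S34' (helper13): the `X₁` twin of `S34/TwoGaussX0`.

The data of "Dedekind-Kummer for valuation rings" over the Gauss valuation ring `O` of
`F = ℚ̄(X₁(N))` at a valuation subring `A` of `ℚ̄` over a prime `r ∤ N`, for the extension
`E'' = ℚ̄(X₁(N; r))` of `F` (along `α = alpha1`):

* `jO1`, `PhiO1 Φ`, `G1O1 = X - j^r`, `G2O1 = X^r - j` in `O[X]`; `resEquiv1 : κ(O) ≃+* F1C N κ(A)`;
* `map_subtype_PhiO1_modPolyZ`, `map_red_PhiO1_modPolyZ` (Kronecker), irreducibility, coprimality;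
* `algFE1`, `finrank_FE1`, `finite_FE1`, `isIntegral_FE1`, `pbX1`, `pbX1_gen`,
  `setupX1 : TwoExt.Setup O E''` (`t = j_r`);
* the Galois side: `smul_jr`, `smul_alpha1`, `smul_beta1`, `smul_mem_O_of_inertia1`,
  `smul_mem_O_of_decomposition1`, `isInertial1`, `exists_pow_valuation_eq1`.

Binders: `(hr : r.Prime) (hA : A.LiesOverPrime r) (hrN : ¬ r ∣ N)`; `modPolyZ` is main's
(`S34/TwoGaussX0.modPolyZ`, level free) and needs `[Fact r.Prime]`.
-/
import Mathlib
import Fermat.Agent.S34.TwoGaussX0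
import Fermat.Agent.S48.B.Arith.HeckeGalois1
import Fermat.Agent.S48.B.Red.Equiv1.PlaceEquiv1
import Fermat.Agent.S43.LG1.C1.PowerBasisX1
import Fermat.Agent.S43.LG1.C1.GaussEquivG

set_option autoImplicit false
set_option linter.unusedSectionVars false
set_option linter.style.haveILetI false
set_option synthInstance.maxHeartbeats 400000

noncomputable section

namespace Fermat.Agent.S43.LG1.C1.TwoGaussX1

open Polynomial ModularCurve AlgebraicCurve IsLocalRing
open Fermat.Agent.S48.B.Defs.Model Fermat.Agent.S48.B.B1.Seams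
open Fermat.Agent.S48.B.ES.DegreeBeta1
open Fermat.Agent.S48.B.Red.Seams (jC coe_jC)
open Fermat.Agent.S48.B.Red.GaussG Fermat.Agent.S48.B.Red.CoeffAut1
open Fermat.Agent.S34
open Fermat.Agent.S34.TwoGaussX0 (modPolyZ modPolyZ_monic natDegree_modPolyZ map_evalL_modPolyZ
  map_modPolyZ_char)
open Fermat.Agent.S43.LG1.C1.Seam Fermat.Agent.S43.LG1.C1.PowerBasisX1

local notation "Kb" => AlgebraicClosure ℚ

attribute [local instance] algShortcut1

variable {r : ℕ} [hrF : Fact r.Prime] {N : ℕ} [NeZero N] {A : ValuationSubring Kb}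
variable (hr : r.Prime) (hA : A.LiesOverPrime r) (hrN : ¬ r ∣ N)

/-! ### The polynomials over the Gauss ring -/

/-- `j` as an element of the Gauss ring. -/
def jO1 : ↥(gaussDatum1 N A hr hA hrN).O := ⟨jgen1 N, jgen1_mem_O1 hr hrN hA⟩

@[simp] theorem coe_jO1 : ((jO1 hr hA hrN : ↥(gaussDatum1 N A hr hA hrN).O) : ↥(F1Bar N)) =
    jgen1 N := rfl

theorem red_jO1 : (gaussDatum1 N A hr hA hrN).red (jO1 hr hA hrN) = jC N (ResidueField ↥A) :=
  red_jgen1 hr hrN hA

/-- `Φ(X, j)` with coefficients in the Gauss ring `O`. -/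
def PhiO1 (Φ : Polynomial (Polynomial ℤ)) : Polynomial ↥(gaussDatum1 N A hr hA hrN).O :=
  Φ.map ((aeval (jO1 hr hA hrN) : Polynomial ℤ →ₐ[ℤ] ↥(gaussDatum1 N A hr hA hrN).O) :
    Polynomial ℤ →+* ↥(gaussDatum1 N A hr hA hrN).O)

theorem PhiO1_monic {Φ : Polynomial (Polynomial ℤ)} (hΦ : Φ.Monic) : (PhiO1 hr hA hrN Φ).Monic :=
  hΦ.map _

theorem natDegree_PhiO1 {Φ : Polynomial (Polynomial ℤ)} (hΦ : Φ.Monic) :
    (PhiO1 hr hA hrN Φ).natDegree = Φ.natDegree :=
  hΦ.natDegree_map _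

theorem map_subtype_PhiO1 (Φ : Polynomial (Polynomial ℤ)) :
    (PhiO1 hr hA hrN Φ).map (gaussDatum1 N A hr hA hrN).O.subtype = modPolyF1 N Φ := by
  rw [PhiO1, Polynomial.map_map, modPolyF1]
  congr 1
  apply Polynomial.ringHom_ext
  · intro a
    simp
  · simp

theorem map_red_PhiO1 (Φ : Polynomial (Polynomial ℤ)) :
    (PhiO1 hr hA hrN Φ).map (gaussDatum1 N A hr hA hrN).red =
      Φ.map ((aeval (jC N (ResidueField ↥A)) :
        Polynomial ℤ →ₐ[ℤ] ↥(F1C N (ResidueField ↥A))) :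
          Polynomial ℤ →+* ↥(F1C N (ResidueField ↥A))) := by
  rw [PhiO1, Polynomial.map_map]
  congr 1
  apply Polynomial.ringHom_ext
  · intro a
    simp
  · simp [red_jO1]

/-- the first factor `X - j^r` -/
def G1O1 : Polynomial ↥(gaussDatum1 N A hr hA hrN).O := X - C (jO1 hr hA hrN ^ r)

/-- the second factor `X^r - j` -/
def G2O1 : Polynomial ↥(gaussDatum1 N A hr hA hrN).O := X ^ r - C (jO1 hr hA hrN)

theorem G1O1_monic : (G1O1 hr hA hrN).Monic := monic_X_sub_C _

theorem G2O1_monic : (G2O1 hr hA hrN).Monic :=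
  monic_X_pow_sub_C _ hr.ne_zero

theorem natDegree_G1O1 : (G1O1 hr hA hrN).natDegree = 1 := natDegree_X_sub_C _

theorem natDegree_G2O1 : (G2O1 hr hA hrN).natDegree = r :=
  natDegree_X_pow_sub_C

theorem map_red_G1O1 : (G1O1 hr hA hrN).map (gaussDatum1 N A hr hA hrN).red =
    X - C (jC N (ResidueField ↥A) ^ r) := by
  simp [G1O1, red_jO1]

theorem map_red_G2O1 : (G2O1 hr hA hrN).map (gaussDatum1 N A hr hA hrN).red =
    X ^ r - C (jC N (ResidueField ↥A)) := by
  simp [G2O1, red_jO1]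

/-! ### The residue field of the Gauss ring is `F1C N κ(A)` -/

section ResEquiv

theorem ker_red1 : RingHom.ker (gaussDatum1 N A hr hA hrN).red =
    maximalIdeal ↥(gaussDatum1 N A hr hA hrN).O := by
  ext x
  rw [RingHom.mem_ker, (gaussDatum1 N A hr hA hrN).red_eq_zero_iff, mem_maximalIdeal,
    mem_nonunits_iff]

/-- `κ(O) ≃ F1C N κ(A)`, induced by the reduction of the Gauss datum -/
def resEquiv1 : ResidueField ↥(gaussDatum1 N A hr hA hrN).O ≃+*
    ↥(F1C N (ResidueField ↥A)) :=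
  (Ideal.quotEquivOfEq (ker_red1 hr hA hrN).symm).trans
    (RingHom.quotientKerEquivOfSurjective (red_surjective1 hr hrN hA))

theorem resEquiv1_residue (x : ↥(gaussDatum1 N A hr hA hrN).O) :
    resEquiv1 hr hA hrN (residue _ x) = (gaussDatum1 N A hr hA hrN).red x := rfl

theorem map_resEquiv1_red (p : Polynomial ↥(gaussDatum1 N A hr hA hrN).O) :
    (TwoExt.red (gaussDatum1 N A hr hA hrN).O p).map (resEquiv1 hr hA hrN : _ →+* _) =
      p.map (gaussDatum1 N A hr hA hrN).red := by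
  rw [TwoExt.red_apply, Polynomial.map_map]
  congr 1

theorem mapEquiv_resEquiv1_red (p : Polynomial ↥(gaussDatum1 N A hr hA hrN).O) :
    Polynomial.mapEquiv (resEquiv1 hr hA hrN) (TwoExt.red (gaussDatum1 N A hr hA hrN).O p) =
      p.map (gaussDatum1 N A hr hA hrN).red :=
  map_resEquiv1_red hr hA hrN p

theorem red_eq_mul_of_map1 {p s t : Polynomial ↥(gaussDatum1 N A hr hA hrN).O}
    (h : p.map (gaussDatum1 N A hr hA hrN).red =
      s.map (gaussDatum1 N A hr hA hrN).red * t.map (gaussDatum1 N A hr hA hrN).red) :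
    TwoExt.red (gaussDatum1 N A hr hA hrN).O p =
      TwoExt.red (gaussDatum1 N A hr hA hrN).O s * TwoExt.red (gaussDatum1 N A hr hA hrN).O t := by
  apply (Polynomial.mapEquiv (resEquiv1 hr hA hrN)).injective
  rw [map_mul, mapEquiv_resEquiv1_red, mapEquiv_resEquiv1_red, mapEquiv_resEquiv1_red, h]

theorem irreducible_red_of_map1 {p : Polynomial ↥(gaussDatum1 N A hr hA hrN).O}
    (h : Irreducible (p.map (gaussDatum1 N A hr hA hrN).red)) :
    Irreducible (TwoExt.red (gaussDatum1 N A hr hA hrN).O p) := by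
  rw [← mapEquiv_resEquiv1_red] at h
  exact (MulEquiv.irreducible_iff (Polynomial.mapEquiv (resEquiv1 hr hA hrN))).mp h

set_option maxHeartbeats 1600000 in
theorem isCoprime_red_of_map1 {p s : Polynomial ↥(gaussDatum1 N A hr hA hrN).O}
    (h : IsCoprime (p.map (gaussDatum1 N A hr hA hrN).red)
      (s.map (gaussDatum1 N A hr hA hrN).red)) :
    IsCoprime (TwoExt.red (gaussDatum1 N A hr hA hrN).O p)
      (TwoExt.red (gaussDatum1 N A hr hA hrN).O s) := by
  rw [← mapEquiv_resEquiv1_red, ← mapEquiv_resEquiv1_red] at h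
  obtain ⟨a, b, hab⟩ := h
  refine ⟨(Polynomial.mapEquiv (resEquiv1 hr hA hrN)).symm a,
    (Polynomial.mapEquiv (resEquiv1 hr hA hrN)).symm b, ?_⟩
  apply (Polynomial.mapEquiv (resEquiv1 hr hA hrN)).injective
  rw [map_add, map_mul, map_mul, RingEquiv.apply_symm_apply, RingEquiv.apply_symm_apply, map_one]
  exact hab

end ResEquiv

/-! ### The factor data -/

section FactorData

variable [NeZero r]

/-- `Φ_r(X, j)`, with coefficients in `O`, is the minimal polynomial of `j_r` over `F` -/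
theorem map_subtype_PhiO1_modPolyZ :
    letI := algebraAlong (alpha1 N r Kb)
    (PhiO1 hr hA hrN (modPolyZ r)).map (gaussDatum1 N A hr hA hrN).O.subtype =
      minpoly ↥(F1Bar N) (jr N r) := by
  rw [map_subtype_PhiO1]
  exact (minpoly_jr hr hrN modPolyZ_monic natDegree_modPolyZ map_evalL_modPolyZ).symm

/-- Kronecker's congruence over the residue field of the Gauss ring -/
theorem map_red_PhiO1_modPolyZ :
    (PhiO1 hr hA hrN (modPolyZ r)).map (gaussDatum1 N A hr hA hrN).red =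
      (G1O1 hr hA hrN).map (gaussDatum1 N A hr hA hrN).red *
        (G2O1 hr hA hrN).map (gaussDatum1 N A hr hA hrN).red := by
  haveI : CharP (ResidueField ↥A) r := Fermat.Agent.S18.ResidueBasics.charP_residueField A hA
  rw [map_red_PhiO1, map_red_G1O1, map_red_G2O1]
  exact map_aeval_jC_of_kronecker (ResidueField ↥A) N r (map_modPolyZ_char (ResidueField ↥A))

theorem irreducible_map_red_G1O1 :
    Irreducible ((G1O1 hr hA hrN).map (gaussDatum1 N A hr hA hrN).red) := by
  rw [map_red_G1O1]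
  exact irreducible_X_sub_C _

theorem irreducible_map_red_G2O1 :
    Irreducible ((G2O1 hr hA hrN).map (gaussDatum1 N A hr hA hrN).red) := by
  rw [map_red_G2O1]
  exact irreducible_X_pow_sub_C_jC (ResidueField ↥A) N r

theorem isCoprime_map_red_G1O1_G2O1 :
    IsCoprime ((G1O1 hr hA hrN).map (gaussDatum1 N A hr hA hrN).red)
      ((G2O1 hr hA hrN).map (gaussDatum1 N A hr hA hrN).red) := by
  haveI : CharP (ResidueField ↥A) r := Fermat.Agent.S18.ResidueBasics.charP_residueField A hA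
  rw [map_red_G1O1, map_red_G2O1]
  exact isCoprime_factors1 (ResidueField ↥A) N r

end FactorData

/-! ### The Dedekind-Kummer setup -/

section Setup

variable [NeZero r]

/-- the algebra structure of `E'' = ℚ̄(X₁(N; r))` over `F = ℚ̄(X₁(N))` along `α` -/
@[reducible] def algFE1 (N r : ℕ) [NeZero N] [NeZero r] :
    Algebra ↥(F1Bar N) ↥(F1pBar N r) :=
  algebraAlong (alpha1 N r Kb)

attribute [local instance] algFE1

theorem algebraMap_FE1 (x : ↥(F1Bar N)) :
    algebraMap ↥(F1Bar N) ↥(F1pBar N r) x = alpha1 N r Kb x := rfl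

include hr hrN in
theorem finrank_FE1 : Module.finrank ↥(F1Bar N) ↥(F1pBar N r) = r + 1 :=
  finrankAlong_alpha1N hr hrN

include hr hrN in
theorem finite_FE1 : Module.Finite ↥(F1Bar N) ↥(F1pBar N r) :=
  FiniteDimensional.of_finrank_pos (by rw [finrank_FE1 hr hrN]; omega)

include hr hrN in
theorem isIntegral_FE1 (x : ↥(F1pBar N r)) : IsIntegral ↥(F1Bar N) x :=
  haveI := finite_FE1 (r := r) hr hrN
  IsIntegral.of_finite _ _

/-- the power basis `1, j_r, …, j_r^r` of `E'' / F` -/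
def pbX1 : PowerBasis ↥(F1Bar N) ↥(F1pBar N r) :=
  TwoExt.Setup.powerBasisOfAdjoinEqTop (isIntegral_FE1 hr hrN (jr N r)) (adjoin_jr_eq_top hr hrN)

theorem pbX1_gen : (pbX1 (r := r) hr hrN).gen = jr N r :=
  TwoExt.Setup.powerBasisOfAdjoinEqTop_gen _ _

/-- **The Dedekind-Kummer setup for `ℚ̄(X₁(N; r)) / ℚ̄(X₁(N))` over the Gauss ring at `r`.** -/
def setupX1 : TwoExt.Setup (gaussDatum1 N A hr hA hrN).O ↥(F1pBar N r) :=
  TwoExt.Setup.ofPowerBasis (pbX1 hr hrN) (PhiO1 hr hA hrN (modPolyZ r)) (G1O1 hr hA hrN)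
    (G2O1 hr hA hrN)
    (PhiO1_monic hr hA hrN modPolyZ_monic)
    (by rw [pbX1_gen]; exact (map_subtype_PhiO1_modPolyZ hr hA hrN).symm)
    (red_eq_mul_of_map1 hr hA hrN (map_red_PhiO1_modPolyZ hr hA hrN))
    (irreducible_red_of_map1 hr hA hrN (irreducible_map_red_G1O1 hr hA hrN))
    (irreducible_red_of_map1 hr hA hrN (irreducible_map_red_G2O1 hr hA hrN))
    (isCoprime_red_of_map1 hr hA hrN (isCoprime_map_red_G1O1_G2O1 hr hA hrN))

@[simp] theorem setupX1_t : (setupX1 hr hA hrN).t = jr N r := pbX1_gen hr hrN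

@[simp] theorem setupX1_G₁ : (setupX1 hr hA hrN).G₁ = G1O1 hr hA hrN := rfl

@[simp] theorem setupX1_G₂ : (setupX1 hr hA hrN).G₂ = G2O1 hr hA hrN := rfl

@[simp] theorem setupX1_Φ : (setupX1 hr hA hrN).Φ = PhiO1 hr hA hrN (modPolyZ r) := rfl

end Setup

/-! ### The Galois side -/

section Galois

variable [NeZero r] (σ : Kb ≃ₐ[ℚ] Kb)

/-- the coefficientwise Galois actions on `E''` and `F` are compatible along `α` -/
theorem smul_alpha1 (x : ↥(F1Bar N)) :
    arithmeticGalois (F1p N r) σ • alpha1 N r Kb x =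
      alpha1 N r Kb (arithmeticGalois (F1 N) σ • x) :=
  Fermat.Agent.S48.B.Arith.HeckeGalois1.intertwines_alpha1 (L := Kb) N r σ x

/-- the coefficientwise Galois actions on `E''` and `F` are compatible along `β` -/
theorem smul_beta1 (x : ↥(F1Bar N)) :
    arithmeticGalois (F1p N r) σ • beta1 N r Kb x =
      beta1 N r Kb (arithmeticGalois (F1 N) σ • x) :=
  Fermat.Agent.S48.B.Arith.HeckeGalois1.intertwines_beta1 (L := Kb) N r σ x

/-- the coefficientwise Galois action fixes `j_r = j(q^r)` -/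
theorem smul_jr : arithmeticGalois (F1p N r) σ • jr N r = jr N r := by
  rw [jr, smul_beta1, Fermat.Agent.S48.B.Red.Equiv1.PlaceEquiv1.smul_jgen1]

/-- inertia preserves the Gauss ring of `F` and acts trivially on its residue field -/
theorem smul_mem_O_of_inertia1 (hσ : σ ∈ A.inertiaSubgroupIn ℚ)
    (f : ↥(gaussDatum1 N A hr hA hrN).O) :
    ∃ hf : arithmeticGalois (F1 N) σ • (f : ↥(F1Bar N)) ∈ (gaussDatum1 N A hr hA hrN).O,
      (gaussDatum1 N A hr hA hrN).red ⟨_, hf⟩ = (gaussDatum1 N A hr hA hrN).red f :=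
  Fermat.Agent.S43.LG1.C1.GaussEquivG.redV_smul_inertia A
    (coeffStable_F1C N (ResidueField ↥A)) (hasRep1 hr hrN hA) hσ f

/-- decomposition group: the Gauss ring of `F` is preserved and the action on its residue field
`F1C N κ(A)` is the coefficientwise action of the induced automorphism of `κ(A)` -/
theorem smul_mem_O_of_decomposition1 (g : A.decompositionSubgroup ℚ)
    (f : ↥(gaussDatum1 N A hr hA hrN).O) :
    ∃ hf : arithmeticGalois (F1 N) (g : Kb ≃ₐ[ℚ] Kb) • (f : ↥(F1Bar N)) ∈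
        (gaussDatum1 N A hr hA hrN).O,
      (gaussDatum1 N A hr hA hrN).red ⟨_, hf⟩ =
        coeffAut₁ N (ResidueField ↥A)
          (Fermat.Agent.S37.Equivariance.GaussEquiv.resAut A g) •
            (gaussDatum1 N A hr hA hrN).red f :=
  Fermat.Agent.S43.LG1.C1.GaussEquivG.redV_smul_decomposition A
    (coeffStable_F1C N (ResidueField ↥A)) (hasRep1 hr hrN hA) g f

end Galois

/-! ### Inertia, divisibility of the value group, constants -/

section Inertial

variable [NeZero r]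

attribute [local instance] algFE1

/-- **Inertia at `r` is inertial for the setup.** -/
theorem isInertial1 {σ : Kb ≃ₐ[ℚ] Kb} (hσ : σ ∈ A.inertiaSubgroupIn ℚ) :
    (setupX1 hr hA hrN).IsInertial
      (SemilinearAut.toRingAut (arithmeticGalois (F1p N r) σ))
      ((SemilinearAut.toRingAut (arithmeticGalois (F1 N) σ)).toRingHom) where
  comm x := smul_alpha1 σ x
  mem_iff x := by
    constructor
    · intro h
      have hσ' : σ⁻¹ ∈ A.inertiaSubgroupIn ℚ := inv_mem hσ
      obtain ⟨hf, -⟩ := smul_mem_O_of_inertia1 hr hA hrN σ⁻¹ hσ' ⟨_, h⟩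
      have h1 : arithmeticGalois (F1 N) σ⁻¹ • (arithmeticGalois (F1 N) σ • x) = x := by
        rw [map_inv, inv_smul_smul]
      rw [← h1]
      exact hf
    · intro h
      exact (smul_mem_O_of_inertia1 hr hA hrN σ hσ ⟨x, h⟩).1
  sub_lt x hx := by
    obtain ⟨hf, hred⟩ := smul_mem_O_of_inertia1 hr hA hrN σ hσ ⟨x, hx⟩
    have hmem : ((⟨_, hf⟩ : ↥(gaussDatum1 N A hr hA hrN).O) - ⟨x, hx⟩) ∈
        maximalIdeal ↥(gaussDatum1 N A hr hA hrN).O := by
      rw [← ker_red1 hr hA hrN, RingHom.mem_ker, map_sub, hred, sub_self]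
    exact (ValuationSubring.valuation_lt_one_iff _ _).mp hmem
  fix_t := by
    rw [setupX1_t]
    exact smul_jr σ

/-- the value group of the Gauss ring is divisible -/
theorem exists_pow_valuation_eq1 (a : ↥(F1Bar N)) (ha : a ≠ 0) (n : ℕ) (hn : 0 < n) :
    ∃ c : ↥(F1Bar N), c ≠ 0 ∧
      (gaussDatum1 N A hr hA hrN).O.valuation (c ^ n) =
        (gaussDatum1 N A hr hA hrN).O.valuation a := by
  obtain ⟨c0, hc0, u, rfl⟩ := (gaussDatum1 N A hr hA hrN).exists_const_mul_unit a ha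
  obtain ⟨d, hd⟩ := IsAlgClosed.exists_pow_nat_eq c0 hn
  have hd0 : d ≠ 0 := by
    rintro rfl
    rw [zero_pow hn.ne'] at hd
    exact hc0 hd.symm
  refine ⟨algebraMap Kb _ d, (_root_.map_ne_zero _).mpr hd0, ?_⟩
  rw [← map_pow, hd, map_mul, ValuationSubring.valuation_unit, mul_one]

end Inertial

end Fermat.Agent.S43.LG1.C1.TwoGaussX1

end
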