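/-
S43 (row 37), PROJECT R, block `LG1`, brick `C1` (twin of `S34` at `X₁(N)`), file `LevelSurjGen`
(helper23).

**Level-`M` surjectivity of the reduction, charts `u` and `u⁻¹`, for ANY Gauss datum.**

The generic content of main's `S34/LevelMSurjX0`: `G` a Gauss datum (`S37/Deuring/Core`) satisfying
Deuring's hypotheses `H : Hyp G gL gk`, `r = placeMap H`, `u ∈ G.O` a Gauss-integral function which
is a separating variable on both sides (`IsFF` + separable for `u` and for `G.red u`) with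
`[FL : L(u)] ≤ [Fk : k(red u)]`.

* `mapDomain_poleDiv_u` : `r_* (u)_∞ = (ū)_∞`; `mapDomain_zeroDiv_u` : `r_* (u)_0 = (ū)_0`;
* `exists_lift_off_poles` : every `ȳ ∈ Fk` regular off the poles of `ū` is `G.red g` for some
  `g ∈ G.O` regular off the poles of `u`;
* `exists_lift_off_zeros` : the same off the zeros of `ū`, resp. of `u`.
-/
import Mathlib
import Fermat.Agent.S34.LevelMSurj
import Fermat.Agent.S18.A.FibreSep

set_option autoImplicit false
set_option linter.unusedSectionVars false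

noncomputable section

namespace Fermat.Agent.S43.LG1.C1.LevelSurjGen

open AlgebraicCurve IntermediateField
open Fermat.Agent.S18.NonSpecial Fermat.Agent.S37.Deuring.Core Fermat.Agent.S34.LevelMSurj
open Fermat.Agent.S18.A Fermat.Agent.S24.FF

universe u u' w w'

variable {L : Type w} [Field L] [IsAlgClosed L] {k : Type w'} [Field k] [IsAlgClosed k]
variable {A : ValuationSubring L} {π : A →+* k}
variable {FL : Type u} [Field FL] [Algebra L FL] {Fk : Type u'} [Field Fk] [Algebra k Fk]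
variable {G : GaussDatum A π FL Fk} {gL gk : ℕ}
variable [HasPrincipalDivisors L FL] [HasPrincipalDivisors k Fk] [Infinite k]

theorem red_ne_zero_of_isFF {u : G.O} (hk : IsFF k (G.red u)) : G.red u ≠ 0 := fun h =>
  hk.transcendental (h ▸ isAlgebraic_zero)

variable (H : Hyp G gL gk) (u : G.O)
variable (hu : IsFF L ((u : G.O) : FL)) (hsep : Algebra.IsSeparable L⟮((u : G.O) : FL)⟯ FL)
variable (hk : IsFF k (G.red u)) (hsepk : Algebra.IsSeparable k⟮G.red u⟯ Fk)
variable (hdeg : Module.finrank L⟮((u : G.O) : FL)⟯ FL ≤ Module.finrank k⟮G.red u⟯ Fk)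

include hdeg in
/-- `r_* (u)_∞ = (ū)_∞` -/
theorem mapDomain_poleDiv_u :
    Finsupp.mapDomain (placeMap H) (FibreSep.poleDiv hu hsep) = FibreSep.poleDiv hk hsepk := by
  refine mapDomain_poleDiv H u (red_ne_zero_of_isFF hk) ?_ ?_ ?_
  · intro v
    rw [FibreSep.poleDiv_apply, max_comm]
  · intro v
    rw [FibreSep.poleDiv_apply, max_comm]
  · rw [FibreSep.degree_poleDiv, FibreSep.degree_poleDiv]
    exact_mod_cast hdeg

include hdeg in
/-- `r_* (u)_0 = (ū)_0` -/
theorem mapDomain_zeroDiv_u :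
    Finsupp.mapDomain (placeMap H) (FibreSep.zeroDiv hu hsep) = FibreSep.zeroDiv hk hsepk := by
  refine mapDomain_poleDiv H (invOf _ u (red_ne_zero_of_isFF hk))
    (red_invOf_ne_zero _ (red_ne_zero_of_isFF hk)) ?_ ?_ ?_
  · intro v
    rw [FibreSep.zeroDiv_apply, max_comm, coe_invOf, Place.ord_inv, neg_neg]
  · intro v
    rw [FibreSep.zeroDiv_apply, max_comm, red_invOf, Place.ord_inv, neg_neg]
  · rw [FibreSep.degree_zeroDiv, FibreSep.degree_zeroDiv]
    exact_mod_cast hdeg

include hu in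
theorem finrank_pos_of_isFF : 0 < Module.finrank L⟮((u : G.O) : FL)⟯ FL := by
  have := hu.finite
  exact Module.finrank_pos

include H hu hsep hk hsepk hdeg in
/-- **Chart `u ≠ ∞`**: every `ȳ ∈ Fk` regular off the poles of `ū` is `G.red g` for some `g ∈ G.O`
regular off the poles of `u`. -/
theorem exists_lift_off_poles (y : Fk)
    (hy : ∀ Q : Place k Fk, 0 ≤ Q.ord (G.red u) → y = 0 ∨ 0 ≤ Q.ord y) :
    ∃ f : G.O, G.red f = y ∧
      ∀ P : Place L FL, 0 ≤ P.ord ((u : G.O) : FL) → (f : FL) = 0 ∨ 0 ≤ P.ord (f : FL) := by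
  refine exists_lift_of_poles H u (red_ne_zero_of_isFF hk)
    (Du := FibreSep.poleDiv hu hsep) (Dy := FibreSep.poleDiv hk hsepk) ?_ ?_ ?_ ?_ y hy
  · intro v
    rw [FibreSep.poleDiv_apply, max_comm]
  · intro v
    rw [FibreSep.poleDiv_apply, max_comm]
  · rw [FibreSep.degree_poleDiv, FibreSep.degree_poleDiv]
    exact_mod_cast hdeg
  · rw [FibreSep.degree_poleDiv]
    exact_mod_cast finrank_pos_of_isFF u hu

include H hu hsep hk hsepk hdeg in
/-- **Chart `u ≠ 0`**: every `ȳ ∈ Fk` regular off the zeros of `ū` is `G.red g` for some `g ∈ G.O`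
regular off the zeros of `u`. -/
theorem exists_lift_off_zeros (y : Fk)
    (hy : ∀ Q : Place k Fk, Q.ord (G.red u) ≤ 0 → y = 0 ∨ 0 ≤ Q.ord y) :
    ∃ f : G.O, G.red f = y ∧
      ∀ P : Place L FL, P.ord ((u : G.O) : FL) ≤ 0 → (f : FL) = 0 ∨ 0 ≤ P.ord (f : FL) := by
  refine exists_lift_of_zeros H u (red_ne_zero_of_isFF hk)
    (Zu := FibreSep.zeroDiv hu hsep) (Zy := FibreSep.zeroDiv hk hsepk) ?_ ?_ ?_ ?_ y hy
  · intro v
    rw [FibreSep.zeroDiv_apply, max_comm, Place.ord_inv, neg_neg]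
  · intro v
    rw [FibreSep.zeroDiv_apply, max_comm, Place.ord_inv, neg_neg]
  · rw [FibreSep.degree_zeroDiv, FibreSep.degree_zeroDiv]
    exact_mod_cast hdeg
  · rw [FibreSep.degree_zeroDiv]
    exact_mod_cast finrank_pos_of_isFF u hu

end Fermat.Agent.S43.LG1.C1.LevelSurjGen
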