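/-
S43 (row 37), PROJECT R, block `LG1`, brick `C1` (twin of `S34` at `X₁(N)`), file `LevelMSurjX1`
(helper23): twin of main's `S34/LevelMSurjX0`.

**Level-`N` surjectivity of the reduction at `X₁(N)`, charts `j` and `j⁻¹`.**

`A` a valuation ring of `ℚ̄` over a prime `r ∤ N`, `κ = κ(A)`, `h : IgusaDeg N` ANY proof of the
degree seam (a variable: `Igusa/Main.igusaDeg N` on main), `G = Bases1.gaussDatumIgusa h hr hrN hA`
the Gauss datum of `ℚ̄(X₁(N)) = F1Bar N` with residue function field `F1C N κ`, `H : Hyp G gL gk`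
Deuring's hypotheses, `r = placeMap H`.  The two instances `HasPrincipalDivisors` (both sides) are
instance ARGUMENTS (propositions; providers: `Inj/Basics`); `Infinite κ` is Mathlib's instance for
the algebraically closed field `κ`.

* `jO1`, `red_jO1`, `isFF_jgen1`, `isSeparable_jgen1`, `isFF_jC1`, `isSeparable_jC1`, `finrank_le1`;
* `mapDomain_poleDiv_j1` : `r_* (j)_∞ = (j̄)_∞`; `mapDomain_zeroDiv_j1` : `r_* (j)_0 = (j̄)_0`;
* `exists_lift_off_cusps1` : every `ḡ ∈ F1C N κ` regular off the cusps (poles of `j̄`) is `G.red g`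
  for some `g ∈ G.O` regular off the cusps (poles of `j`);
* `exists_lift_off_zeros1` : the same off the zeros of `j̄`, resp. of `j`;
* `placeMap_surjective_X1`.
-/
import Mathlib
import Fermat.Agent.S43.LG1.C1.LevelSurjGen
import Fermat.Agent.S48.B.Red.Bases1
import Fermat.Agent.S48.B.Inj.Basics
import Fermat.Agent.S48.B.B1.Main
import Fermat.Agent.S18.ResidueBasics

set_option autoImplicit false
set_option linter.unusedSectionVars false

noncomputable section

namespace Fermat.Agent.S43.LG1.C1.LevelMSurjX1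

open AlgebraicCurve ModularCurve IsLocalRing IntermediateField
open Fermat.Agent.S18.NonSpecial Fermat.Agent.S37.Deuring.Core Fermat.Agent.S34.LevelMSurj
open Fermat.Agent.S18.A Fermat.Agent.S24.FF
open Fermat.Agent.S48.B.Defs.Model
open Fermat.Agent.S48.B.B1.Seams (jgen1 Deg1)
open Fermat.Agent.S48.B.Red.Seams (jC IgusaDeg)
open Fermat.Agent.S48.B.Red.Bases1
open Fermat.Agent.S48.B.Inj

local notation "Kb" => AlgebraicClosure ℚ

set_option synthInstance.maxHeartbeats 400000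

/-- the residue field of a valuation ring of `ℚ̄` is algebraically closed (local instance, so that
`FibreSep.poleDiv` on the `κ`-side can be stated) -/
local instance isAlgClosedRes (A : ValuationSubring Kb) : IsAlgClosed (ResidueField ↥A) :=
  Fermat.Agent.S18.ResidueBasics.isAlgClosed_residueField A

/-- shortcut instance (the instance found by instance search, stated once: the search is slow);
the other files of `C1` switch it on by `attribute [local instance]` -/
local instance algKappa {N : ℕ} [NeZero N] {A : ValuationSubring Kb} :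
    Algebra (ResidueField ↥A) ↥(F1C N (ResidueField ↥A)) :=
  SubalgebraClass.toAlgebra (F1C N (ResidueField ↥A))

variable {r : ℕ} {N : ℕ} [NeZero N] {A : ValuationSubring Kb}
variable (h : IgusaDeg N) (hr : r.Prime) (hrN : ¬ r ∣ N) (hA : A.LiesOverPrime r)

/-- `j` as an element of the Gauss valuation ring -/
def jO1 : ↥(gaussDatumIgusa h hr hrN hA).O := ⟨jgen1 N, jgen1_mem_O_igusa h hr hrN hA⟩

theorem coe_jO1 : ((jO1 h hr hrN hA : ↥(gaussDatumIgusa h hr hrN hA).O) : ↥(F1Bar N)) = jgen1 N :=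
  rfl

theorem red_jO1 : (gaussDatumIgusa h hr hrN hA).red (jO1 h hr hrN hA) = jC N (ResidueField ↥A) :=
  red_jgen1_igusa h hr hrN hA

/-- `j` is a separating variable of `ℚ̄(X₁(N))` -/
theorem isFF_jgen1 (N : ℕ) [NeZero N] : IsFF Kb (jgen1 N) :=
  (Fermat.Agent.S48.B.B1.Main.deg1 N).1

theorem isSeparable_jgen1 (N : ℕ) [NeZero N] : Algebra.IsSeparable ↥Kb⟮jgen1 N⟯ ↥(F1Bar N) :=
  Basics.isSeparable_of_isFF (isFF_jgen1 N)

include h hr hrN hA in
/-- `j̄` is a separating variable of `κ(X₁(N))` -/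
theorem isFF_jC1 : IsFF (ResidueField ↥A) (jC N (ResidueField ↥A)) :=
  ⟨Basics.transcendental_jC (Fermat.Agent.S48.B.Red.Seams.jqModC_mem_F1C N (ResidueField ↥A)),
    finiteDimensional_igusa h hr hrN hA⟩

include h hr hrN hA in
theorem isSeparable_jC1 :
    Algebra.IsSeparable ↥(ResidueField ↥A)⟮jC N (ResidueField ↥A)⟯ ↥(F1C N (ResidueField ↥A)) :=
  have : FiniteDimensional
      ↥(ResidueField ↥A)⟮Basics.jC
        (Fermat.Agent.S48.B.Red.Seams.jqModC_mem_F1C N (ResidueField ↥A))⟯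
      ↥(F1C N (ResidueField ↥A)) := finiteDimensional_igusa h hr hrN hA
  Basics.isSeparable_jC (Fermat.Agent.S48.B.Red.Seams.jqModC_mem_F1C N (ResidueField ↥A))

theorem jC_ne_zero : jC N (ResidueField ↥A) ≠ 0 := fun h0 =>
  Basics.transcendental_jC (Fermat.Agent.S48.B.Red.Seams.jqModC_mem_F1C N (ResidueField ↥A))
    ((show Basics.jC (Fermat.Agent.S48.B.Red.Seams.jqModC_mem_F1C N (ResidueField ↥A)) = 0 from h0)
      ▸ isAlgebraic_zero)

theorem red_jO1_ne_zero : (gaussDatumIgusa h hr hrN hA).red (jO1 h hr hrN hA) ≠ 0 := by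
  rw [red_jO1]
  exact jC_ne_zero

include h hr hrN hA in
/-- the degrees of `j` and `j̄` agree -/
theorem finrank_le1 :
    Module.finrank ↥Kb⟮jgen1 N⟯ ↥(F1Bar N) ≤
      Module.finrank ↥(ResidueField ↥A)⟮jC N (ResidueField ↥A)⟯ ↥(F1C N (ResidueField ↥A)) :=
  (finrank_eq_igusa h hr hrN hA).ge

variable {gL gk : ℕ}
variable [HasPrincipalDivisors Kb ↥(F1Bar N)]
variable [HasPrincipalDivisors (ResidueField ↥A) ↥(F1C N (ResidueField ↥A))]

section Main

variable (H : Hyp (gaussDatumIgusa h hr hrN hA) gL gk)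

/-- the hypotheses of `LevelSurjGen` at `u = j`: `IsFF` of `G.red j` -/
theorem isFF_red_jO1 : IsFF (ResidueField ↥A) ((gaussDatumIgusa h hr hrN hA).red (jO1 h hr hrN hA)) := by
  rw [red_jO1]
  exact isFF_jC1 h hr hrN hA

theorem isSeparable_red_jO1 :
    Algebra.IsSeparable
      ↥(ResidueField ↥A)⟮(gaussDatumIgusa h hr hrN hA).red (jO1 h hr hrN hA)⟯
      ↥(F1C N (ResidueField ↥A)) := by
  rw [red_jO1]
  exact isSeparable_jC1 h hr hrN hA

theorem finrank_le_red_jO1 :
    Module.finrank ↥Kb⟮((jO1 h hr hrN hA : ↥(gaussDatumIgusa h hr hrN hA).O) : ↥(F1Bar N))⟯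
        ↥(F1Bar N) ≤
      Module.finrank ↥(ResidueField ↥A)⟮(gaussDatumIgusa h hr hrN hA).red (jO1 h hr hrN hA)⟯
        ↥(F1C N (ResidueField ↥A)) := by
  rw [red_jO1]
  exact finrank_le1 h hr hrN hA

/-- `r_* (j)_∞ = (j̄)_∞` -/
theorem mapDomain_poleDiv_j1 :
    Finsupp.mapDomain (placeMap H) (FibreSep.poleDiv (isFF_jgen1 N) (isSeparable_jgen1 N)) =
      FibreSep.poleDiv (isFF_red_jO1 h hr hrN hA) (isSeparable_red_jO1 h hr hrN hA) :=
  LevelSurjGen.mapDomain_poleDiv_u H (jO1 h hr hrN hA) (isFF_jgen1 N) (isSeparable_jgen1 N)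
    (isFF_red_jO1 h hr hrN hA) (isSeparable_red_jO1 h hr hrN hA) (finrank_le_red_jO1 h hr hrN hA)

/-- `r_* (j)_0 = (j̄)_0` -/
theorem mapDomain_zeroDiv_j1 :
    Finsupp.mapDomain (placeMap H) (FibreSep.zeroDiv (isFF_jgen1 N) (isSeparable_jgen1 N)) =
      FibreSep.zeroDiv (isFF_red_jO1 h hr hrN hA) (isSeparable_red_jO1 h hr hrN hA) :=
  LevelSurjGen.mapDomain_zeroDiv_u H (jO1 h hr hrN hA) (isFF_jgen1 N) (isSeparable_jgen1 N)
    (isFF_red_jO1 h hr hrN hA) (isSeparable_red_jO1 h hr hrN hA) (finrank_le_red_jO1 h hr hrN hA)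

/-- Deuring's place map of `X₁(N)` at `r ∤ N` is onto. -/
theorem placeMap_surjective_X1 : Function.Surjective (placeMap H) :=
  placeMap_surjective H (red_surjective_igusa h hr hrN hA)

include H in
/-- **Chart `j ≠ ∞`**: every `ḡ ∈ F1C N κ` regular off the cusps (the poles of `j̄`) is `G.red g`
for some `g ∈ G.O` regular off the cusps (the poles of `j`, as places of `ℚ̄(X₁(N))`). -/
theorem exists_lift_off_cusps1 (y : ↥(F1C N (ResidueField ↥A)))
    (hy : ∀ Q : Place (ResidueField ↥A) ↥(F1C N (ResidueField ↥A)),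
      0 ≤ Q.ord (jC N (ResidueField ↥A)) → y = 0 ∨ 0 ≤ Q.ord y) :
    ∃ f : ↥(gaussDatumIgusa h hr hrN hA).O, (gaussDatumIgusa h hr hrN hA).red f = y ∧
      ∀ P : Place Kb ↥(F1Bar N), 0 ≤ P.ord (jgen1 N) →
        (f : ↥(F1Bar N)) = 0 ∨ 0 ≤ P.ord (f : ↥(F1Bar N)) := by
  exact LevelSurjGen.exists_lift_off_poles H (jO1 h hr hrN hA) (isFF_jgen1 N)
    (isSeparable_jgen1 N) (isFF_red_jO1 h hr hrN hA) (isSeparable_red_jO1 h hr hrN hA)
    (finrank_le_red_jO1 h hr hrN hA) y (fun Q hQ => hy Q (by rwa [red_jO1] at hQ))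

include H in
/-- **Chart `j ≠ 0`**: every `ḡ ∈ F1C N κ` regular off the zeros of `j̄` is `G.red g` for some
`g ∈ G.O` regular off the zeros of `j`. -/
theorem exists_lift_off_zeros1 (y : ↥(F1C N (ResidueField ↥A)))
    (hy : ∀ Q : Place (ResidueField ↥A) ↥(F1C N (ResidueField ↥A)),
      Q.ord (jC N (ResidueField ↥A)) ≤ 0 → y = 0 ∨ 0 ≤ Q.ord y) :
    ∃ f : ↥(gaussDatumIgusa h hr hrN hA).O, (gaussDatumIgusa h hr hrN hA).red f = y ∧
      ∀ P : Place Kb ↥(F1Bar N), P.ord (jgen1 N) ≤ 0 →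
        (f : ↥(F1Bar N)) = 0 ∨ 0 ≤ P.ord (f : ↥(F1Bar N)) := by
  exact LevelSurjGen.exists_lift_off_zeros H (jO1 h hr hrN hA) (isFF_jgen1 N)
    (isSeparable_jgen1 N) (isFF_red_jO1 h hr hrN hA) (isSeparable_red_jO1 h hr hrN hA)
    (finrank_le_red_jO1 h hr hrN hA) y (fun Q hQ => hy Q (by rwa [red_jO1] at hQ))

end Main

end Fermat.Agent.S43.LG1.C1.LevelMSurjX1
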