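/-
S43 (row 37), PROJECT R, block `LG1`, brick `C1` (twin of `S34` at `X₁(N)`), file `HypX1`
(helper23): the level-`N` twins of main's `S37/ReductionInputsX0.{hyp_X0, genus_eq_X0}`,
`S34/NodalCoreX0.riemannHyp_bar_of_riemannHyp_k` and `S34/EulerNodesFinalX0.hyp_of_riemannHyp`.

**Deuring's hypotheses for the Gauss datum of `X₁(N)` at `r ∤ N`, hypothesis-free.**

`A` a valuation ring of `ℚ̄` over a prime `r ∤ N`, `κ = κ(A)`, `h : IgusaDeg N` any proof,
`G = Bases1.gaussDatumIgusa h hr hrN hA`.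

* `genusLe1_all` : `Seams.GenusLe1 N A` (tame: `Inputs1.genusLe1_tame`; `r = 2, 3`:
  `Final1.genusLeWild1` on `Igusa/U1/ActStable`);
* `hyp_X1` : `Hyp G gL gk` from Riemann's theorem on both sides (the inequality of genera is
  `genusLe1_all`, (OB) is `Bases1.ob_igusa`, (FI) is `Deuring.FundIneq.fi`);
* `genus_eq_X1` : `gk = gL`; `riemannHyp_bar_of_riemannHyp_k1` : Riemann's theorem on `ℚ̄(X₁(N))`
  with the genus of `κ(X₁(N))`; `hyp_of_riemannHyp1` : `Hyp G gM gM` from Riemann's theorem on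
  `κ(X₁(N))` alone.
-/
import Mathlib
import Fermat.Agent.S37.Deuring.FundIneq
import Fermat.Agent.S48.B.Red.Final1
import Fermat.Agent.S48.B.Igusa.Main
import Fermat.Agent.S48.B.Igusa.U1.ActStable
import Fermat.Agent.S43.LG1.C1.LevelMSurjX1

set_option autoImplicit false
set_option linter.unusedSectionVars false

noncomputable section

namespace Fermat.Agent.S43.LG1.C1.HypX1

open AlgebraicCurve ModularCurve IsLocalRing IntermediateField
open Fermat.Agent.S18.NonSpecial Fermat.Agent.S37.Deuring.Core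
open Fermat.Agent.S48.B.Defs.Model
open Fermat.Agent.S48.B.B1.Seams (jgen1)
open Fermat.Agent.S48.B.Red.Seams (jC IgusaDeg GenusLe1)
open Fermat.Agent.S48.B.Red.Bases1
open Fermat.Agent.S48.B.Inj
open Fermat.Agent.S43.LG1.C1.LevelMSurjX1

local notation "Kb" => AlgebraicClosure ℚ

set_option synthInstance.maxHeartbeats 400000

attribute [local instance] Fermat.Agent.S43.LG1.C1.LevelMSurjX1.algKappa

/-- the residue field of a valuation ring of `ℚ̄` is algebraically closed (hence infinite) -/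
local instance isAlgClosedRes (A : ValuationSubring Kb) : IsAlgClosed (ResidueField ↥A) :=
  Fermat.Agent.S18.ResidueBasics.isAlgClosed_residueField A

variable {r : ℕ} {N : ℕ} [NeZero N] {A : ValuationSubring Kb}

/-- **the inequality of genera of `X₁(N)` at every `A` over every `r ∤ N`** (including `2`, `3`) -/
theorem genusLe1_all (hr : r.Prime) (hrN : ¬ r ∣ N) (hA : A.LiesOverPrime r) : GenusLe1 N A := by
  have hI : IgusaDeg N := Fermat.Agent.S48.B.Igusa.Main.igusaDeg N
  by_cases h23 : r = 2 ∨ r = 3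
  · exact Fermat.Agent.S48.B.Red.Final1.genusLeWild1 hI
      (Fermat.Agent.S48.B.Red.Final1.cuspFamAll
        (Fermat.Agent.S48.B.Igusa.U1.ActStable.actStable N)) r hr hrN h23 A hA
  · push Not at h23
    exact Fermat.Agent.S48.B.Red.Inputs1.genusLe1_tame hI (Fermat.Agent.S48.B.B1.Main.deg1 N)
      (Fermat.Agent.S48.B.B1.Main.ram1 N) hr hrN h23.1 h23.2 hA (hasRep_of_igusa hI hr hrN hA)

variable (h : IgusaDeg N) (hr : r.Prime) (hrN : ¬ r ∣ N) (hA : A.LiesOverPrime r)
variable [HasPrincipalDivisors Kb ↥(F1Bar N)]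
variable [HasPrincipalDivisors (ResidueField ↥A) ↥(F1C N (ResidueField ↥A))]
variable {gL gk : ℕ}

/-- **Deuring's hypotheses for the Gauss datum of `X₁(N)` at `A`**, from Riemann's theorem on both
sides. -/
theorem hyp_X1 (HL : RiemannHyp Kb ↥(F1Bar N) gL)
    (HK : RiemannHyp (ResidueField ↥A) ↥(F1C N (ResidueField ↥A)) gk) :
    Hyp (gaussDatumIgusa h hr hrN hA) gL gk :=
  ⟨HL, HK, genusLe1_all hr hrN hA gL gk HL HK, ob_igusa h hr hrN hA,
    Fermat.Agent.S37.Deuring.FundIneq.fi (gaussDatumIgusa h hr hrN hA) (isFF_jgen1 N) HK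
      (red_surjective_igusa h hr hrN hA)⟩

include h hr hrN hA in
/-- **good reduction**: the genera of `ℚ̄(X₁(N))` and `κ(X₁(N))` agree -/
theorem genus_eq_X1 (HL : RiemannHyp Kb ↥(F1Bar N) gL)
    (HK : RiemannHyp (ResidueField ↥A) ↥(F1C N (ResidueField ↥A)) gk) : gk = gL :=
  genus_eq (hyp_X1 h hr hrN hA HL HK)

include h hr hrN hA in
/-- Riemann's theorem on `ℚ̄(X₁(N))` holds with the genus of `κ(X₁(N))`. -/
theorem riemannHyp_bar_of_riemannHyp_k1
    (Hk : RiemannHyp (ResidueField ↥A) ↥(F1C N (ResidueField ↥A)) gk) :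
    RiemannHyp Kb ↥(F1Bar N) gk := by
  obtain ⟨gL', HL, -⟩ := Basics.exists_genus_L (isFF_jgen1 N)
  rw [genus_eq_X1 h hr hrN hA HL Hk]
  exact HL

/-- Deuring's hypotheses at level `N`, from Riemann's theorem on `κ(X₁(N))` alone -/
theorem hyp_of_riemannHyp1 {gM : ℕ}
    (HM : RiemannHyp (ResidueField ↥A) ↥(F1C N (ResidueField ↥A)) gM) :
    Hyp (gaussDatumIgusa h hr hrN hA) gM gM :=
  hyp_X1 h hr hrN hA (riemannHyp_bar_of_riemannHyp_k1 h hr hrN hA HM) HM

end Fermat.Agent.S43.LG1.C1.HypX1
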