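/-
PROJECT R (S43), block G, brick C1 (= S34', the `X₁`-twin of S34's `X₀` instance layer), helper7:
**THE FROBENIUS PACKAGE ON A COEFFICIENTWISE STABLE SUBFIELD `Fk ⊆ k((t))`, GENERIC IN THE LEVEL**
— the twin of helper4's `S34/FrobK` with `modularFunctionFieldFullC k N` replaced by a variable
`Fk` and the hypotheses `hC : CoeffStable Fk` (helper11's `S48/B/Red/CoeffAut1`), `hJ : J(t) ∈ Fk`
— PLUS THE DIAMOND TWIST needed at `X₁(N; r)`.

`k` a perfect field of characteristic `q`.  Same names and shapes as `S34/FrobK`: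

* `psi hC q : Fk ≃+* Fk` : coefficientwise `q`-th root;
* `phi hC q : Fk →ₐ[k] Fk` : the `k`-LINEAR Frobenius pull-back `g(t) ↦ g(t^q)`, `phi g = (psi g)^q`,
  `phi_jk : phi j = j^q` (`j = jC hJ`);
* `Fr hC q : Place k Fk ≃ Place k Fk`, `ord_phi`, `ord_phi_sub_const`, `phi_mem_iff`,
  `ord_phi_iterate`;
* `ord_sub_phi_phi`, `ord_sub_phi_phi_of_pos` : the `(G3)` lemma at `Fr (Fr v) = v`;
* `fm`, `fm_ne_zero`, `ord_Fr_jk_sub`, `ord_fm_two_pos_of_Fr_Fr_eq`, `finite_Fr_Fr_fixed`,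
  `exists_finite_stable_of_place`, `exists_finite_stable`, `exists_iterate_Fr_eq`;
* `holo S`, `mem_holo_iff`, `mem_holo_iff_ord`, `phi_mem_holo_iff`, `phiHolo`.

THE TWIST (section `Twist`): `d : Fk ≃ₐ[k] Fk` commuting with `psi` (`hdψ`) and fixing `j` (`hdj`)
— at `X₁(N; r)` the reduced diamond `⟨r⁻¹⟩`.  `Dp d v := ofAlgAut d • v` on places.

* `d_phi`, `Fr_Dp` : `d` commutes with `phi`, `Dp d` with `Fr`;
* `ord_d_phi_phi` : `ord_v (d (phi (phi g))) = q² · ord_{Fr (Fr ((Dp d)⁻¹ v))} g`;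
* `ord_sub_d_phi_phi`, `ord_sub_d_phi_phi_of_pos` : the twisted `(G3)` lemma at
  `Fr (Fr ((Dp d).symm v)) = v` (equivalently `Fr (Fr v) = Dp d v`: `twisted_fixed_iff`);
* `ord_fm_two_pos_of_twisted_fixed`, `finite_twisted_fixed`;
* `ord_Dp_jk_sub` : `Dp d` preserves the `j`-values.
-/
import Mathlib
import Fermat.Agent.S37.Equivariance.CoeffAut
import Fermat.Agent.S37.ES.KummerPoly
import Fermat.Agent.S48.B.Red.CoeffAut1
import Fermat.Agent.S48.B.Inj.Basics
import Fermat.Agent.S24.Ord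
import Fermat.Agent.S18.CoreOrd

set_option autoImplicit false
set_option linter.unusedSectionVars false
set_option linter.style.haveILetI false

noncomputable section

namespace Fermat.Agent.S43.LG1.C1.FrobKGen

open AlgebraicCurve ModularCurve IntermediateField
open Fermat.Agent.S37.Equivariance.CoeffAut (frobAut frobAut_apply)
open Fermat.Agent.S48.B.Red.CoeffAut1
open Fermat.Agent.S48.B.Inj.Basics (jC transcendental_jC isFF_jC)

variable {k : Type*} [Field k] {Fk : IntermediateField k (LaurentSeries k)}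
variable (hC : CoeffStable Fk) (hJ : jqModC k ∈ Fk)
variable (q : ℕ) [hq : Fact q.Prime] [CharP k q] [PerfectField k]

include hC

/-- coefficientwise `q`-th root on `F_k` -/
def psi : ↥Fk ≃+* ↥Fk :=
  coeffRingAut hC (frobAut k q).symm

theorem coe_psi (g : ↥Fk) :
    ((psi hC q g : ↥Fk) : LaurentSeries k) =
      coeffMap (((frobAut k q).symm : k ≃+* k) : k →+* k) (g : LaurentSeries k) := rfl

theorem frob_psi (g : ↥Fk) :
    coeffRingAut hC (frobAut k q) (psi hC q g) = g :=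
  (coeffRingAut hC (frobAut k q)).apply_symm_apply g

/-! ### the `k`-linear Frobenius pull-back `phi` -/

/-- `(psi g)^q = g(t^q)` as Laurent series -/
theorem coe_psi_pow (g : ↥Fk) :
    haveI : NeZero q := ⟨hq.out.ne_zero⟩
    ((psi hC q g : ↥Fk) : LaurentSeries k) ^ q =
      qExpand k q (g : LaurentSeries k) := by
  haveI : NeZero q := ⟨hq.out.ne_zero⟩
  rw [Fermat.Agent.S37.ES.KummerPoly.pow_char_eq_qExpand q, coe_psi, coeffMap_coeffMap]
  congr 1
  have hfr : (frobenius k q).comp (((frobAut k q).symm : k ≃+* k) : k →+* k) = RingHom.id k := by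
    ext a
    simp only [RingHom.comp_apply, RingHom.coe_coe, RingHom.id_apply]
    have := (frobAut k q).apply_symm_apply a
    rw [frobAut_apply] at this
    rw [frobenius_def]
    exact this
  rw [coeffMap_congr hfr, coeffMap_id]

theorem qExpand_mem (g : ↥Fk) :
    haveI : NeZero q := ⟨hq.out.ne_zero⟩
    qExpand k q (g : LaurentSeries k) ∈ Fk := by
  haveI : NeZero q := ⟨hq.out.ne_zero⟩
  rw [← coe_psi_pow hC q g]
  exact pow_mem (psi hC q g).2 q

/-- **The `k`-linear Frobenius pull-back** `g(t) ↦ g(t^q)` of `F_k`. -/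
def phi : ↥Fk →ₐ[k] ↥Fk :=
  haveI : NeZero q := ⟨hq.out.ne_zero⟩
  AlgHom.codRestrict ((qExpandAlgHomC k q).comp Fk.val)
    Fk.toSubalgebra (fun g => qExpand_mem hC q g)

theorem coe_phi (g : ↥Fk) :
    haveI : NeZero q := ⟨hq.out.ne_zero⟩
    ((phi hC q g : ↥Fk) : LaurentSeries k) =
      qExpand k q (g : LaurentSeries k) := rfl

/-- `phi g = (psi g)^q` -/
theorem phi_eq_pow (g : ↥Fk) :
    phi hC q g = psi hC q g ^ q := by
  apply Subtype.ext
  rw [coe_phi, ← coe_psi_pow]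
  rfl

theorem phi_injective : Function.Injective (phi hC q) :=
  (phi hC q).toRingHom.injective

theorem phi_algebraMap (c : k) :
    phi hC q (algebraMap k ↥Fk c) =
      algebraMap k ↥Fk c :=
  (phi hC q).commutes c

/-- `psi` fixes `j` -/
theorem psi_jk : psi hC q (jC hJ) = jC hJ := by
  apply Subtype.ext
  rw [coe_psi]
  exact coeffMap_jqModC _

/-- `phi j = j^q` -/
theorem phi_jk : phi hC q (jC hJ) = jC hJ ^ q := by
  rw [phi_eq_pow, psi_jk]

/-! ### the Frobenius on places -/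

/-- **The Frobenius on places** of `F_k`: `O_(Fr v) = {g | psi g ∈ O_v}`. -/
def Fr : Place k ↥Fk ≃ Place k ↥Fk :=
  placeEquiv hC (frobAut k q)

theorem Fr_apply (v : Place k ↥Fk) :
    Fr hC q v = coeffAut hC (frobAut k q) • v := rfl

/-- `ord_v (psi g) = ord_(Fr v) g` -/
theorem ord_psi (v : Place k ↥Fk)
    (g : ↥Fk) :
    v.ord (psi hC q g) = (Fr hC q v).ord g := by
  have h := ord_placeEquiv hC (frobAut k q) v (psi hC q g)
  rw [frob_psi] at h
  exact h.symm

/-- **`ord_v (phi g) = q · ord_(Fr v) g`.** -/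
theorem ord_phi (v : Place k ↥Fk)
    (g : ↥Fk) :
    v.ord (phi hC q g) = (q : ℤ) * (Fr hC q v).ord g := by
  rw [phi_eq_pow, ← ord_psi, ← zpow_natCast, Place.ord_zpow]

/-- the value rule: `(phi g)(v) = c ↔ g(Fr v) = c` -/
theorem ord_phi_sub_const (v : Place k ↥Fk)
    (g : ↥Fk) (c : k) :
    v.ord (phi hC q g - algebraMap k _ c) =
      (q : ℤ) * (Fr hC q v).ord (g - algebraMap k _ c) := by
  rw [← ord_phi, map_sub, phi_algebraMap]

theorem phi_ne_zero {g : ↥Fk} (hg : g ≠ 0) : phi hC q g ≠ 0 :=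
  (map_ne_zero_iff _ (phi_injective hC q)).mpr hg

/-- `phi g ∈ O_v ↔ g ∈ O_(Fr v)` -/
theorem phi_mem_iff (v : Place k ↥Fk)
    (g : ↥Fk) :
    phi hC q g ∈ v.toValuationSubring ↔ g ∈ (Fr hC q v).toValuationSubring := by
  rcases eq_or_ne g 0 with rfl | hg
  · simp
  rw [Fermat.Agent.S24.Ord.mem_iff, Fermat.Agent.S24.Ord.mem_iff,
    ← Fermat.Agent.S24.Ord.ord_nonneg_iff v (phi_ne_zero hC q hg),
    ← Fermat.Agent.S24.Ord.ord_nonneg_iff _ hg, ord_phi]
  have hq0 : (0 : ℤ) < q := by exact_mod_cast hq.out.pos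
  constructor
  · intro h
    by_contra hneg
    rw [not_le] at hneg
    nlinarith
  · intro h
    positivity

/-- iterating: `ord_v (phi^[n] g) = q^n · ord_(Fr^[n] v) g` -/
theorem ord_phi_iterate (n : ℕ) (v : Place k ↥Fk)
    (g : ↥Fk) :
    v.ord ((phi hC q)^[n] g) = (q : ℤ) ^ n * ((Fr hC q)^[n] v).ord g := by
  induction n generalizing v with
  | zero => simp
  | succ n ih =>
    rw [Function.iterate_succ_apply', ord_phi, ih, Function.iterate_succ_apply, pow_succ]
    ring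

/-- **the `(G3)` lemma**: at a place fixed by `Fr²`, a parameter `g` gives the parameter
`g - phi (phi g)`. -/
theorem ord_sub_phi_phi (v : Place k ↥Fk)
    (hv : Fr hC q (Fr hC q v) = v) (g : ↥Fk)
    (hg : v.ord g = 1) : v.ord (g - phi hC q (phi hC q g)) = 1 := by
  have hg0 : g ≠ 0 := by
    rintro rfl
    simp at hg
  have h2 : v.ord (phi hC q (phi hC q g)) = (q : ℤ) * q := by
    rw [ord_phi, ord_phi, hv, hg]
    ring
  have hq2 : (2 : ℤ) ≤ q := by exact_mod_cast hq.out.two_le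
  have hlt : v.ord g < v.ord (-(phi hC q (phi hC q g))) := by
    rw [Fermat.Agent.S18.CoreOrd.ord_neg', h2, hg]
    nlinarith
  rw [sub_eq_add_neg, Fermat.Agent.S18.CoreOrd.ord_add_eq_of_lt v hg0
    (neg_ne_zero.mpr (phi_ne_zero hC q (phi_ne_zero hC q hg0))) hlt, hg]

/-- more generally `ord_v (g - phi (phi g)) = ord_v g` whenever `0 < ord_v g` and `Fr² v = v` -/
theorem ord_sub_phi_phi_of_pos (v : Place k ↥Fk)
    (hv : Fr hC q (Fr hC q v) = v) (g : ↥Fk)
    (hg : 0 < v.ord g) : v.ord (g - phi hC q (phi hC q g)) = v.ord g := by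
  have hg0 : g ≠ 0 := by
    rintro rfl
    simp at hg
  have h2 : v.ord (phi hC q (phi hC q g)) = (q : ℤ) * q * v.ord g := by
    rw [ord_phi, ord_phi, hv]
    ring
  have hq2 : (2 : ℤ) ≤ q := by exact_mod_cast hq.out.two_le
  have hlt : v.ord g < v.ord (-(phi hC q (phi hC q g))) := by
    rw [Fermat.Agent.S18.CoreOrd.ord_neg', h2]
    have h4 : (4 : ℤ) ≤ (q : ℤ) * q := by nlinarith
    nlinarith
  rw [sub_eq_add_neg, Fermat.Agent.S18.CoreOrd.ord_add_eq_of_lt v hg0
    (neg_ne_zero.mpr (phi_ne_zero hC q (phi_ne_zero hC q hg0))) hlt]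

/-! ### finite `Fr`-orbits -/

/-- elements of a field algebraic over its prime field are fixed by a power of Frobenius -/
theorem exists_pow_eq_self_of_isAlgebraic [Algebra (ZMod q) k] [Algebra.IsAlgebraic (ZMod q) k]
    (c : k) : ∃ m : ℕ, 0 < m ∧ c ^ q ^ m = c := by
  have hint : IsIntegral (ZMod q) c := (Algebra.IsAlgebraic.isAlgebraic c).isIntegral
  haveI : FiniteDimensional (ZMod q) (ZMod q)⟮c⟯ := adjoin.finiteDimensional hint
  haveI : Finite (ZMod q)⟮c⟯ := Module.finite_of_finite (ZMod q)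
  haveI : Fintype (ZMod q)⟮c⟯ := Fintype.ofFinite _
  have hcard : Fintype.card (ZMod q)⟮c⟯ = q ^ Module.finrank (ZMod q) (ZMod q)⟮c⟯ := by
    rw [Module.card_eq_pow_finrank (K := ZMod q) (V := (ZMod q)⟮c⟯), ZMod.card]
  refine ⟨Module.finrank (ZMod q) (ZMod q)⟮c⟯, Module.finrank_pos, ?_⟩
  have h := FiniteField.pow_card (⟨c, mem_adjoin_simple_self (ZMod q) c⟩ : (ZMod q)⟮c⟯)
  rw [hcard] at h
  exact congrArg Subtype.val h

/-- `ord_(Fr v) g = ord_v g` for `g` fixed by `psi` (e.g. any polynomial in `j` with coefficients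
in the prime field) -/
theorem ord_Fr_of_psi_eq (v : Place k ↥Fk)
    {g : ↥Fk} (hg : psi hC q g = g) :
    (Fr hC q v).ord g = v.ord g := by
  rw [← ord_psi, hg]

/-- `j^(q^m) - j`, fixed by `psi` -/
def fm (m : ℕ) : ↥Fk := jC hJ ^ q ^ m - jC hJ

theorem psi_fm (m : ℕ) : psi hC q (fm hJ q m) = fm hJ q m := by
  rw [fm, map_sub, map_pow, psi_jk]

theorem fm_ne_zero {m : ℕ} (hm : 0 < m) : fm hJ q m ≠ 0 := by
  intro h0
  have htr := transcendental_jC hJ
  apply htr
  refine ⟨Polynomial.X ^ q ^ m - Polynomial.X, ?_, ?_⟩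
  · intro h
    have hq1 : 1 < q ^ m := Nat.one_lt_pow hm.ne' hq.out.one_lt
    have := congrArg (fun p : Polynomial k => p.coeff (q ^ m)) h
    simp only [Polynomial.coeff_sub, Polynomial.coeff_X_pow, if_true, Polynomial.coeff_X,
      Polynomial.coeff_zero] at this
    rw [if_neg (by omega)] at this
    simp at this
  · simpa [fm] using h0

variable [HasPrincipalDivisors k ↥Fk] [FiniteDimensional k⟮jC hJ⟯ ↥Fk]

theorem finite_ord_ne_zero {f : ↥Fk} (hf : f ≠ 0) :
    {v : Place k ↥Fk | v.ord f ≠ 0}.Finite := by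
  obtain ⟨D, hD, -⟩ := HasPrincipalDivisors.exists_divisor (K := k) f hf
  refine D.support.finite_toSet.subset fun v hv => ?_
  rw [Finset.mem_coe, Finsupp.mem_support_iff, hD]
  exact hv

/-- transport of values: `g(Fr v) = c^q` iff `(psi-fixed) g(v) = c`; here for `g = j` -/
theorem ord_Fr_jk_sub (v : Place k ↥Fk) (c : k) :
    (Fr hC q v).ord (jC hJ - algebraMap k _ (c ^ q)) = v.ord (jC hJ - algebraMap k _ c) := by
  rw [← ord_psi, map_sub, psi_jk]
  congr 2
  have h1 := coeffRingAut_algebraMap hC (frobAut k q).symm (c ^ q)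
  have h2 : (frobAut k q).symm (c ^ q) = c := by
    rw [RingEquiv.symm_apply_eq, frobAut_apply]
  rw [h2] at h1
  exact h1

/-- **`Fr²`-fixed places are zeros of `j^(q²) - j` or poles of `j`** (so they form a finite set). -/
theorem ord_fm_two_pos_of_Fr_Fr_eq [IsAlgClosed k] (v : Place k ↥Fk)
    (hv : Fr hC q (Fr hC q v) = v) (hj : 0 ≤ v.ord (jC hJ)) : 0 < v.ord (fm hJ q 2) := by
  have htr := transcendental_jC hJ
  have hj0 : jC hJ ≠ 0 := fun h => by
    rw [h] at htr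
    exact htr ⟨Polynomial.X, Polynomial.X_ne_zero, by simp⟩
  obtain ⟨c, hc⟩ := Fermat.Agent.S24.Ord.exists_sub_lt_one
    (isFF_jC hJ) v
    ((Fermat.Agent.S24.Ord.ord_nonneg_iff v hj0).mp hj)
  have hne : ∀ d : k, jC hJ - algebraMap k _ d ≠ 0 := by
    intro d h0
    rw [sub_eq_zero.mp h0] at htr
    exact htr ⟨Polynomial.X - Polynomial.C d, Polynomial.X_sub_C_ne_zero d, by simp⟩
  have hpos : 0 < v.ord (jC hJ - algebraMap k _ c) :=
    (Fermat.Agent.S24.Ord.ord_pos_iff v (hne c)).mpr hc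
  -- the value at `Fr² v = v` is `c^(q²)`
  have hpos2 : 0 < v.ord (jC hJ - algebraMap k _ ((c ^ q) ^ q)) := by
    have h1 := ord_Fr_jk_sub hC hJ q (Fr hC q v) (c ^ q)
    rw [hv, ord_Fr_jk_sub] at h1
    rw [h1]
    exact hpos
  have hcc : (c ^ q) ^ q = c := by
    by_contra hcne
    have hd : algebraMap k ↥Fk ((c ^ q) ^ q) - algebraMap k _ c ≠ 0 := by
      rw [← map_sub]
      exact (map_ne_zero_iff _ (algebraMap k ↥Fk).injective).mpr
        (sub_ne_zero.mpr hcne)
    have h3 := Fermat.Agent.S18.CoreOrd.min_le_ord_sub v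
      (f := jC hJ - algebraMap k _ c) (g := jC hJ - algebraMap k _ ((c ^ q) ^ q))
      (by rw [sub_sub_sub_cancel_left]; exact hd)
    rw [sub_sub_sub_cancel_left, ← map_sub, Fermat.Agent.S24.Ord.ord_algebraMap] at h3
    exact absurd h3 (not_le.mpr (lt_min hpos hpos2))
  haveI : CharP ↥Fk q :=
    charP_of_injective_algebraMap (algebraMap k ↥Fk).injective q
  have hcm : c ^ q ^ 2 = c := by rw [pow_two, pow_mul, hcc]
  have hfm : fm hJ q 2 = (jC hJ - algebraMap k _ c) ^ q ^ 2 - (jC hJ - algebraMap k _ c) := by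
    rw [fm, sub_pow_char_pow, ← map_pow, hcm]
    ring
  have hfm0 := fm_ne_zero hC hJ q (m := 2) (by norm_num)
  have h1 : 0 < v.ord ((jC hJ - algebraMap k _ c) ^ q ^ 2) := by
    rw [Fermat.Agent.S18.CoreOrd.ord_pow]
    have hqm : (0 : ℤ) < ((q ^ 2 : ℕ) : ℤ) := by
      exact_mod_cast pow_pos hq.out.pos 2
    exact mul_pos hqm hpos
  have h2 := Fermat.Agent.S18.CoreOrd.min_le_ord_sub v (f := (jC hJ - algebraMap k _ c) ^ q ^ 2)
    (g := jC hJ - algebraMap k _ c) (by rw [← hfm]; exact hfm0)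
  rw [← hfm] at h2
  exact lt_of_lt_of_le (lt_min h1 hpos) h2

include hJ in
/-- the `Fr²`-fixed places form a finite set -/
theorem finite_Fr_Fr_fixed [IsAlgClosed k] :
    {v : Place k ↥Fk | Fr hC q (Fr hC q v) = v}.Finite := by
  have htr := transcendental_jC hJ
  have hj0 : jC hJ ≠ 0 := fun h => by
    rw [h] at htr
    exact htr ⟨Polynomial.X, Polynomial.X_ne_zero, by simp⟩
  have hfm0 := fm_ne_zero hC hJ q (m := 2) (by norm_num)
  refine ((finite_ord_ne_zero hC hj0).union (finite_ord_ne_zero hC hfm0)).subset fun v hv => ?_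
  by_cases hj : 0 ≤ v.ord (jC hJ)
  · exact Or.inr (ne_of_gt (ord_fm_two_pos_of_Fr_Fr_eq hC hJ q v hv hj))
  · exact Or.inl (ne_of_lt (not_le.mp hj))

include hJ in
/-- **Every place lies in a finite `Fr`-stable set of places** (`k` algebraically closed, every
element of `k` fixed by a power of Frobenius). -/
theorem exists_finite_stable_of_place [IsAlgClosed k]
    (halg : ∀ c : k, ∃ m : ℕ, 0 < m ∧ c ^ q ^ m = c)
    (v : Place k ↥Fk) :
    ∃ T : Set (Place k ↥Fk), T.Finite ∧ v ∈ T ∧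
      (∀ w, Fr hC q w ∈ T ↔ w ∈ T) := by
  by_cases hj : 0 ≤ v.ord (jC hJ)
  · -- `j` regular at `v`, value `c`
    have hj0 : jC hJ ≠ 0 := fun h => by
      have := transcendental_jC hJ
      rw [h] at this
      exact this ⟨Polynomial.X, Polynomial.X_ne_zero, by simp⟩
    obtain ⟨c, hc⟩ := Fermat.Agent.S24.Ord.exists_sub_lt_one
      (isFF_jC hJ) v
      ((Fermat.Agent.S24.Ord.ord_nonneg_iff v hj0).mp hj)
    obtain ⟨m, hm, hcm⟩ := halg c
    have hne : jC hJ - algebraMap k _ c ≠ 0 := by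
      intro h0
      have := transcendental_jC hJ
      rw [sub_eq_zero.mp h0] at this
      exact this ⟨Polynomial.X - Polynomial.C c, Polynomial.X_sub_C_ne_zero c, by simp⟩
    have hpos : 0 < v.ord (jC hJ - algebraMap k _ c) :=
      (Fermat.Agent.S24.Ord.ord_pos_iff v hne).mpr hc
    haveI : CharP ↥Fk q :=
      charP_of_injective_algebraMap (algebraMap k ↥Fk).injective q
    have hfm : fm hJ q m = (jC hJ - algebraMap k _ c) ^ q ^ m - (jC hJ - algebraMap k _ c) := by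
      rw [fm, sub_pow_char_pow, ← map_pow, hcm]
      ring
    have hfm0 := fm_ne_zero hC hJ q hm
    have hvT : 0 < v.ord (fm hJ q m) := by
      have h1 : 0 < v.ord ((jC hJ - algebraMap k _ c) ^ q ^ m) := by
        rw [Fermat.Agent.S18.CoreOrd.ord_pow]
        have hqm : (0 : ℤ) < ((q ^ m : ℕ) : ℤ) := by
          exact_mod_cast pow_pos hq.out.pos m
        exact mul_pos hqm hpos
      have h2 := Fermat.Agent.S18.CoreOrd.min_le_ord_sub v (f := (jC hJ - algebraMap k _ c) ^ q ^ m)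
        (g := jC hJ - algebraMap k _ c) (by rw [← hfm]; exact hfm0)
      rw [← hfm] at h2
      exact lt_of_lt_of_le (lt_min h1 hpos) h2
    refine ⟨{w | 0 < w.ord (fm hJ q m)}, ?_, hvT, fun w => ?_⟩
    · exact (finite_ord_ne_zero hC hfm0).subset fun w hw => ne_of_gt hw
    · show 0 < (Fr hC q w).ord (fm hJ q m) ↔ 0 < w.ord (fm hJ q m)
      rw [ord_Fr_of_psi_eq hC q w (psi_fm hC hJ q m)]
  · rw [not_le] at hj
    refine ⟨{w | w.ord (jC hJ) < 0}, ?_, hj, fun w => ?_⟩
    · have hj0 : jC hJ ≠ 0 := by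
        rintro h
        rw [h, Place.ord_zero] at hj
        exact lt_irrefl _ hj
      exact (finite_ord_ne_zero hC hj0).subset fun w hw => ne_of_lt hw
    · show (Fr hC q w).ord (jC hJ) < 0 ↔ w.ord (jC hJ) < 0
      rw [ord_Fr_of_psi_eq hC q w (psi_jk hC hJ q)]

include hJ in
/-- **Every finite set of places lies in a finite `Fr`-stable set.** -/
theorem exists_finite_stable [IsAlgClosed k]
    (halg : ∀ c : k, ∃ m : ℕ, 0 < m ∧ c ^ q ^ m = c)
    (S : Set (Place k ↥Fk)) (hS : S.Finite) :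
    ∃ T : Set (Place k ↥Fk), T.Finite ∧ S ⊆ T ∧
      (∀ w, Fr hC q w ∈ T ↔ w ∈ T) := by
  classical
  choose T hTfin hTmem hTst using fun v => exists_finite_stable_of_place hC hJ q halg v
  refine ⟨⋃ v ∈ S, T v, hS.biUnion fun v _ => hTfin v, fun v hv => ?_, fun w => ?_⟩
  · exact Set.mem_biUnion hv (hTmem v)
  · simp only [Set.mem_iUnion, exists_prop]
    exact ⟨fun ⟨v, hv, h⟩ => ⟨v, hv, (hTst v w).mp h⟩, fun ⟨v, hv, h⟩ => ⟨v, hv, (hTst v w).mpr h⟩⟩

include hJ in
/-- **Finite `Fr`-orbits**: every place is fixed by a positive iterate of `Fr`. -/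
theorem exists_iterate_Fr_eq [IsAlgClosed k]
    (halg : ∀ c : k, ∃ m : ℕ, 0 < m ∧ c ^ q ^ m = c)
    (v : Place k ↥Fk) :
    ∃ m : ℕ, 0 < m ∧ (Fr hC q)^[m] v = v := by
  obtain ⟨T, hTfin, hvT, hTst⟩ := exists_finite_stable_of_place hC hJ q halg v
  have hmem : ∀ n : ℕ, (Fr hC q)^[n] v ∈ T := by
    intro n
    induction n with
    | zero => exact hvT
    | succ n ih =>
      rw [Function.iterate_succ_apply']
      exact (hTst _).mpr ih
  obtain ⟨a, b, hab, heq⟩ : ∃ a b : ℕ, a < b ∧ (Fr hC q)^[a] v = (Fr hC q)^[b] v := by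
    by_contra hcon
    push Not at hcon
    have hinj : Function.Injective fun n : ℕ => (Fr hC q)^[n] v := by
      intro a b hab'
      by_contra hne
      rcases lt_or_gt_of_ne hne with h | h
      · exact hcon a b h hab'
      · exact hcon b a h hab'.symm
    exact Set.infinite_range_of_injective hinj (hTfin.subset (Set.range_subset_iff.mpr hmem))
  refine ⟨b - a, Nat.sub_pos_of_lt hab, ?_⟩
  have hb : b = a + (b - a) := by omega
  rw [hb, Function.iterate_add_apply] at heq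
  exact ((Fr hC q).injective.iterate a heq).symm

/-! ### holomorphy rings -/

omit [HasPrincipalDivisors k ↥Fk] in
/-- the functions regular off `S` -/
def holo (S : Set (Place k ↥Fk)) :
    Subalgebra k ↥Fk where
  carrier := {g | ∀ v : Place k ↥Fk, v ∉ S → g ∈ v.toValuationSubring}
  mul_mem' := fun ha hb v hv => mul_mem (ha v hv) (hb v hv)
  one_mem' := fun _ _ => one_mem _
  add_mem' := fun ha hb v hv => add_mem (ha v hv) (hb v hv)
  zero_mem' := fun _ _ => zero_mem _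
  algebraMap_mem' := fun c v _ => v.algebraMap_mem' c

omit hC [HasPrincipalDivisors k ↥Fk] in
theorem mem_holo_iff {S : Set (Place k ↥Fk)}
    {g : ↥Fk} :
    g ∈ holo S ↔ ∀ v : Place k ↥Fk, v ∉ S →
      g ∈ v.toValuationSubring := Iff.rfl

omit hC [HasPrincipalDivisors k ↥Fk] in
theorem mem_holo_iff_ord {S : Set (Place k ↥Fk)}
    {g : ↥Fk} :
    g ∈ holo S ↔ ∀ v : Place k ↥Fk, v ∉ S → 0 ≤ v.ord g := by
  rw [mem_holo_iff]
  refine forall₂_congr fun v _ => ?_
  rcases eq_or_ne g 0 with rfl | hg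
  · simp
  · rw [Fermat.Agent.S24.Ord.mem_iff, Fermat.Agent.S24.Ord.ord_nonneg_iff v hg]

omit [HasPrincipalDivisors k ↥Fk] in
/-- **`phi` preserves and reflects the holomorphy ring of an `Fr`-stable set.** -/
theorem phi_mem_holo_iff {S : Set (Place k ↥Fk)}
    (hS : ∀ w, Fr hC q w ∈ S ↔ w ∈ S) (g : ↥Fk) :
    phi hC q g ∈ holo S ↔ g ∈ holo S := by
  constructor
  · intro h v hv
    have hv' : (Fr hC q).symm v ∉ S := fun h' => hv (by
      have := (hS ((Fr hC q).symm v)).mpr h'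
      rwa [Equiv.apply_symm_apply] at this)
    have := (phi_mem_iff hC q ((Fr hC q).symm v) g).mp (h _ hv')
    rwa [Equiv.apply_symm_apply] at this
  · intro h v hv
    exact (phi_mem_iff hC q v g).mpr (h _ (fun h' => hv ((hS v).mp h')))

omit [HasPrincipalDivisors k ↥Fk] in
/-- `phi` restricted to the holomorphy ring of an `Fr`-stable set -/
def phiHolo {S : Set (Place k ↥Fk)}
    (hS : ∀ w, Fr hC q w ∈ S ↔ w ∈ S) : ↥(holo S) →ₐ[k] ↥(holo S) :=
  AlgHom.codRestrict ((phi hC q).comp (holo S).val) (holo S)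
    (fun g => (phi_mem_holo_iff hC q hS g.1).mpr g.2)

omit [HasPrincipalDivisors k ↥Fk] in
theorem coe_phiHolo {S : Set (Place k ↥Fk)}
    (hS : ∀ w, Fr hC q w ∈ S ↔ w ∈ S) (g : ↥(holo S)) :
    ((phiHolo hC q hS g : ↥(holo S)) : ↥Fk) =
      phi hC q (g : ↥Fk) := rfl


/-! ### the diamond twist -/

section Twist

open SemilinearAut (ofAlgAut)

omit [HasPrincipalDivisors k ↥Fk] [FiniteDimensional k⟮jC hJ⟯ ↥Fk]

variable (d : ↥Fk ≃ₐ[k] ↥Fk)

omit hC [CharP k q] [PerfectField k] in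
/-- the action of a `k`-automorphism on places -/
def Dp : Place k ↥Fk ≃ Place k ↥Fk := MulAction.toPerm (ofAlgAut d)

omit hC [PerfectField k] in
theorem Dp_apply (v : Place k ↥Fk) : Dp d v = ofAlgAut d • v := rfl

omit hC [PerfectField k] in
/-- `ord_(D v) (d f) = ord_v f` -/
theorem ord_Dp (v : Place k ↥Fk) (f : ↥Fk) : (Dp d v).ord (d f) = v.ord f :=
  SemilinearAut.ord_smul (ofAlgAut d) v f

omit hC [PerfectField k] in
/-- `ord_v (d f) = ord_(D⁻¹ v) f` -/
theorem ord_d (v : Place k ↥Fk) (f : ↥Fk) : v.ord (d f) = ((Dp d).symm v).ord f := by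
  have h1 := ord_Dp d ((Dp d).symm v) f
  rwa [Equiv.apply_symm_apply] at h1

omit hC [PerfectField k] in
/-- `D` preserves the values of a function fixed by `d` -/
theorem ord_Dp_of_fixed (v : Place k ↥Fk) {f : ↥Fk} (hf : d f = f) : (Dp d v).ord f = v.ord f := by
  have h1 := ord_Dp d v f
  rwa [hf] at h1

omit hC [PerfectField k] in
/-- `D` preserves the `j`-values -/
theorem ord_Dp_jk_sub (hdj : d (jC hJ) = jC hJ) (v : Place k ↥Fk) (c : k) :
    (Dp d v).ord (jC hJ - algebraMap k _ c) = v.ord (jC hJ - algebraMap k _ c) :=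
  ord_Dp_of_fixed d v (by rw [map_sub, hdj, AlgEquiv.commutes])

variable (hdψ : ∀ x : ↥Fk, d (psi hC q x) = psi hC q (d x))

include hdψ

/-- `d` commutes with the coefficientwise Frobenius -/
theorem d_frob (x : ↥Fk) :
    d (coeffRingAut hC (frobAut k q) x) = coeffRingAut hC (frobAut k q) (d x) := by
  have hpsi : ∀ y : ↥Fk, psi hC q (coeffRingAut hC (frobAut k q) y) = y :=
    fun y => (coeffRingAut hC (frobAut k q)).symm_apply_apply y
  have h1 := hdψ (coeffRingAut hC (frobAut k q) x)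
  rw [hpsi] at h1
  rw [h1, frob_psi]

/-- `d` commutes with `phi` -/
theorem d_phi (x : ↥Fk) : d (phi hC q x) = phi hC q (d x) := by
  rw [phi_eq_pow, phi_eq_pow, map_pow, hdψ]

/-- the two semilinear automorphisms commute -/
theorem coeffAut_mul_ofAlgAut :
    coeffAut hC (frobAut k q) * ofAlgAut d = ofAlgAut d * coeffAut hC (frobAut k q) := by
  apply Subtype.ext
  apply Prod.ext
  · apply RingEquiv.ext
    intro x
    exact (d_frob hC q d hdψ x).symm
  · rfl

/-- `D` commutes with `Fr` -/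
theorem Fr_Dp (v : Place k ↥Fk) : Fr hC q (Dp d v) = Dp d (Fr hC q v) := by
  show coeffAut hC (frobAut k q) • (ofAlgAut d • v) = ofAlgAut d • (coeffAut hC (frobAut k q) • v)
  rw [← mul_smul, ← mul_smul, coeffAut_mul_ofAlgAut hC q d hdψ]

theorem Fr_Dp_symm (v : Place k ↥Fk) :
    Fr hC q ((Dp d).symm v) = (Dp d).symm (Fr hC q v) := by
  rw [Equiv.eq_symm_apply, ← Fr_Dp hC q d hdψ, Equiv.apply_symm_apply]

/-- the twisted node condition, two spellings -/
theorem twisted_fixed_iff (v : Place k ↥Fk) :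
    Fr hC q (Fr hC q ((Dp d).symm v)) = v ↔ Fr hC q (Fr hC q v) = Dp d v := by
  rw [Fr_Dp_symm hC q d hdψ, Fr_Dp_symm hC q d hdψ, Equiv.symm_apply_eq]

/-- `ord_v (d (phi (phi g))) = q² · ord_(Fr (Fr (D⁻¹ v))) g` -/
theorem ord_d_phi_phi (v : Place k ↥Fk) (g : ↥Fk) :
    v.ord (d (phi hC q (phi hC q g))) =
      (q : ℤ) * q * (Fr hC q (Fr hC q ((Dp d).symm v))).ord g := by
  rw [ord_d, ord_phi, ord_phi]
  ring

theorem d_phi_phi_ne_zero {g : ↥Fk} (hg : g ≠ 0) : d (phi hC q (phi hC q g)) ≠ 0 :=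
  (map_ne_zero_iff _ d.injective).mpr (phi_ne_zero hC q (phi_ne_zero hC q hg))

/-- **the twisted `(G3)` lemma**: at a place with `Fr (Fr (D⁻¹ v)) = v`, a parameter `g` gives the
parameter `g - d (phi (phi g))`. -/
theorem ord_sub_d_phi_phi (v : Place k ↥Fk)
    (hv : Fr hC q (Fr hC q ((Dp d).symm v)) = v) (g : ↥Fk)
    (hg : v.ord g = 1) : v.ord (g - d (phi hC q (phi hC q g))) = 1 := by
  have hg0 : g ≠ 0 := by
    rintro rfl
    simp at hg
  have h2 : v.ord (d (phi hC q (phi hC q g))) = (q : ℤ) * q := by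
    rw [ord_d_phi_phi hC q d hdψ, hv, hg]
    ring
  have hq2 : (2 : ℤ) ≤ q := by exact_mod_cast hq.out.two_le
  have hlt : v.ord g < v.ord (-(d (phi hC q (phi hC q g)))) := by
    rw [Fermat.Agent.S18.CoreOrd.ord_neg', h2, hg]
    nlinarith
  rw [sub_eq_add_neg, Fermat.Agent.S18.CoreOrd.ord_add_eq_of_lt v hg0
    (neg_ne_zero.mpr (d_phi_phi_ne_zero hC q d hdψ hg0)) hlt, hg]

/-- more generally `ord_v (g - d (phi (phi g))) = ord_v g` whenever `0 < ord_v g` and
`Fr (Fr (D⁻¹ v)) = v` -/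
theorem ord_sub_d_phi_phi_of_pos (v : Place k ↥Fk)
    (hv : Fr hC q (Fr hC q ((Dp d).symm v)) = v) (g : ↥Fk)
    (hg : 0 < v.ord g) : v.ord (g - d (phi hC q (phi hC q g))) = v.ord g := by
  have hg0 : g ≠ 0 := by
    rintro rfl
    simp at hg
  have h2 : v.ord (d (phi hC q (phi hC q g))) = (q : ℤ) * q * v.ord g := by
    rw [ord_d_phi_phi hC q d hdψ, hv]
  have hq2 : (2 : ℤ) ≤ q := by exact_mod_cast hq.out.two_le
  have hlt : v.ord g < v.ord (-(d (phi hC q (phi hC q g)))) := by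
    rw [Fermat.Agent.S18.CoreOrd.ord_neg', h2]
    have h4 : (4 : ℤ) ≤ (q : ℤ) * q := by nlinarith
    nlinarith
  rw [sub_eq_add_neg, Fermat.Agent.S18.CoreOrd.ord_add_eq_of_lt v hg0
    (neg_ne_zero.mpr (d_phi_phi_ne_zero hC q d hdψ hg0)) hlt]

end Twist

section TwistFinite

open SemilinearAut (ofAlgAut)

variable (d : ↥Fk ≃ₐ[k] ↥Fk) (hdψ : ∀ x : ↥Fk, d (psi hC q x) = psi hC q (d x))

omit [HasPrincipalDivisors k ↥Fk] [FiniteDimensional k⟮jC hJ⟯ ↥Fk] in
/-- a place at which `j` takes the values `c` and `c^(q²)` is a zero of `j^(q²) - j` -/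
theorem ord_fm_two_pos_of_values (v : Place k ↥Fk) (c : k)
    (hpos : 0 < v.ord (jC hJ - algebraMap k _ c))
    (hpos2 : 0 < v.ord (jC hJ - algebraMap k _ ((c ^ q) ^ q))) : 0 < v.ord (fm hJ q 2) := by
  have hcc : (c ^ q) ^ q = c := by
    by_contra hcne
    have hd : algebraMap k ↥Fk ((c ^ q) ^ q) - algebraMap k _ c ≠ 0 := by
      rw [← map_sub]
      exact (map_ne_zero_iff _ (algebraMap k ↥Fk).injective).mpr
        (sub_ne_zero.mpr hcne)
    have h3 := Fermat.Agent.S18.CoreOrd.min_le_ord_sub v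
      (f := jC hJ - algebraMap k _ c) (g := jC hJ - algebraMap k _ ((c ^ q) ^ q))
      (by rw [sub_sub_sub_cancel_left]; exact hd)
    rw [sub_sub_sub_cancel_left, ← map_sub, Fermat.Agent.S24.Ord.ord_algebraMap] at h3
    exact absurd h3 (not_le.mpr (lt_min hpos hpos2))
  haveI : CharP ↥Fk q :=
    charP_of_injective_algebraMap (algebraMap k ↥Fk).injective q
  have hcm : c ^ q ^ 2 = c := by rw [pow_two, pow_mul, hcc]
  have hfm : fm hJ q 2 = (jC hJ - algebraMap k _ c) ^ q ^ 2 - (jC hJ - algebraMap k _ c) := by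
    rw [fm, sub_pow_char_pow, ← map_pow, hcm]
    ring
  have hfm0 := fm_ne_zero hC hJ q (m := 2) (by norm_num)
  have h1 : 0 < v.ord ((jC hJ - algebraMap k _ c) ^ q ^ 2) := by
    rw [Fermat.Agent.S18.CoreOrd.ord_pow]
    have hqm : (0 : ℤ) < ((q ^ 2 : ℕ) : ℤ) := by
      exact_mod_cast pow_pos hq.out.pos 2
    exact mul_pos hqm hpos
  have h2 := Fermat.Agent.S18.CoreOrd.min_le_ord_sub v (f := (jC hJ - algebraMap k _ c) ^ q ^ 2)
    (g := jC hJ - algebraMap k _ c) (by rw [← hfm]; exact hfm0)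
  rw [← hfm] at h2
  exact lt_of_lt_of_le (lt_min h1 hpos) h2

include hdψ in
/-- **twisted-fixed places are zeros of `j^(q²) - j` or poles of `j`.** -/
theorem ord_fm_two_pos_of_twisted_fixed [IsAlgClosed k] (hdj : d (jC hJ) = jC hJ)
    (v : Place k ↥Fk) (hv : Fr hC q (Fr hC q ((Dp d).symm v)) = v)
    (hj : 0 ≤ v.ord (jC hJ)) : 0 < v.ord (fm hJ q 2) := by
  have htr := transcendental_jC hJ
  have hj0 : jC hJ ≠ 0 := fun h => by
    rw [h] at htr
    exact htr ⟨Polynomial.X, Polynomial.X_ne_zero, by simp⟩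
  obtain ⟨c, hc⟩ := Fermat.Agent.S24.Ord.exists_sub_lt_one
    (isFF_jC hJ) v
    ((Fermat.Agent.S24.Ord.ord_nonneg_iff v hj0).mp hj)
  have hne : ∀ e : k, jC hJ - algebraMap k _ e ≠ 0 := by
    intro e h0
    rw [sub_eq_zero.mp h0] at htr
    exact htr ⟨Polynomial.X - Polynomial.C e, Polynomial.X_sub_C_ne_zero e, by simp⟩
  have hpos : 0 < v.ord (jC hJ - algebraMap k _ c) :=
    (Fermat.Agent.S24.Ord.ord_pos_iff v (hne c)).mpr hc
  have hv' : Fr hC q (Fr hC q v) = Dp d v := (twisted_fixed_iff hC q d hdψ v).mp hv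
  have hpos2 : 0 < v.ord (jC hJ - algebraMap k _ ((c ^ q) ^ q)) := by
    have h1 := ord_Fr_jk_sub hC hJ q (Fr hC q v) (c ^ q)
    rw [hv', ord_Fr_jk_sub, ord_Dp_jk_sub hJ d hdj] at h1
    rw [h1]
    exact hpos
  exact ord_fm_two_pos_of_values hC hJ q v c hpos hpos2

include hdψ in
/-- the twisted-fixed places form a finite set -/
theorem finite_twisted_fixed [IsAlgClosed k] (hdj : d (jC hJ) = jC hJ) :
    {v : Place k ↥Fk | Fr hC q (Fr hC q ((Dp d).symm v)) = v}.Finite := by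
  have htr := transcendental_jC hJ
  have hj0 : jC hJ ≠ 0 := fun h => by
    rw [h] at htr
    exact htr ⟨Polynomial.X, Polynomial.X_ne_zero, by simp⟩
  have hfm0 := fm_ne_zero hC hJ q (m := 2) (by norm_num)
  refine ((finite_ord_ne_zero hC hj0).union (finite_ord_ne_zero hC hfm0)).subset fun v hv => ?_
  by_cases hj : 0 ≤ v.ord (jC hJ)
  · exact Or.inr (ne_of_gt (ord_fm_two_pos_of_twisted_fixed hC hJ q d hdψ hdj v hv hj))
  · exact Or.inl (ne_of_lt (not_le.mp hj))

end TwistFinite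

end Fermat.Agent.S43.LG1.C1.FrobKGen


end
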