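/-
PROJECT R (S43), block G, brick C1 (= S34', the `X₁`-twin of S34's `X₀` instance layer), helper18:
**THE TWIN OF `S34/ResidueFrobX0`**: every finite set of places of `κ(A)(X₁(N))` lies in a finite
`Fr`-stable set (the hypothesis `hstab` of `PcgCusp.gNodalDatum`), `A ∣ q` a valuation subring of
`ℚ̄`, `Fr` the Frobenius on places of helper7's `C1/FrobKGen` at `Fk := F1C N κ(A)`.

* `exists_pow_eq_self` is level-free: IMPORTED from main (`S34/ResidueFrobX0.exists_pow_eq_self`);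
* `hC1 N k : CoeffStable (F1C N k)`, `hJ1 N k : jqModC k ∈ F1C N k` : the two standing hypotheses of
  `FrobKGen` at `F1C N k` (main's `S48/B/Red/CoeffAut1.coeffStable_F1C`, `Red/Seams.jqModC_mem_F1C`),
  named once so that every consumer writes `Fr (hC1 N k) q`;
* `exists_finite_stable_X1 hA N T hT`;
* `exists_iterate_Fr_eq_X1 hA N v` : finite `Fr`-orbits.
-/
import Fermat.Agent.S34.ResidueFrobX0
import Fermat.Agent.S43.LG1.C1.FrobKGen
import Fermat.Agent.S48.B.Red.Seams
import Fermat.Agent.S48.B.Igusa.Main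
import Fermat.Agent.S48.B.Inj.Basics

set_option autoImplicit false
set_option linter.unusedSectionVars false
set_option linter.style.haveILetI false
set_option synthInstance.maxHeartbeats 400000

noncomputable section

namespace Fermat.Agent.S43.LG1.C1.ResidueFrobX1

open IsLocalRing AlgebraicCurve ModularCurve IntermediateField
open Fermat.Agent.S48.B.Defs.Model Fermat.Agent.S48.B.Red.CoeffAut1

local notation "Kb" => AlgebraicClosure ℚ

/-- the first standing hypothesis of `C1/FrobKGen` at `F1C N k` -/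
theorem hC1 (N : ℕ) [NeZero N] (k : Type*) [Field k] : CoeffStable (F1C N k) :=
  coeffStable_F1C N k

/-- the second standing hypothesis of `C1/FrobKGen` at `F1C N k` -/
theorem hJ1 (N : ℕ) [NeZero N] (k : Type*) [Field k] : jqModC k ∈ F1C N k :=
  Fermat.Agent.S48.B.Red.Seams.jqModC_mem_F1C N k

variable {A : ValuationSubring Kb} {q : ℕ} [hq : Fact q.Prime]

/-- `κ(A)(X₁(N))` is finite over `κ(A)(j)` (`q ∤ N`; main's `S48/B/Igusa/Main.igusaDeg`) -/
theorem finiteDimensional_X1 (hA : A.LiesOverPrime q) (N : ℕ) [NeZero N] (hqN : ¬ q ∣ N) :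
    FiniteDimensional
      ↥(ResidueField ↥A)⟮Fermat.Agent.S48.B.Inj.Basics.jC (hJ1 N (ResidueField ↥A))⟯
      ↥(F1C N (ResidueField ↥A)) :=
  (Fermat.Agent.S48.B.Igusa.Main.igusaDeg N q hq.out hqN A hA).1

/-- principal divisors exist on `κ(A)(X₁(N))` (`q ∤ N`) -/
theorem hasPrincipalDivisors_X1 (hA : A.LiesOverPrime q) (N : ℕ) [NeZero N] (hqN : ¬ q ∣ N)
    [IsAlgClosed (ResidueField ↥A)] :
    HasPrincipalDivisors (ResidueField ↥A) ↥(F1C N (ResidueField ↥A)) :=
  haveI := finiteDimensional_X1 hA N hqN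
  Fermat.Agent.S48.B.Inj.Basics.hasPrincipalDivisors_k (hJ1 N (ResidueField ↥A))

/-- **finite sets of places of `κ(A)(X₁(N))` lie in finite `Fr`-stable sets** -/
theorem exists_finite_stable_X1 (hA : A.LiesOverPrime q) (N : ℕ) [NeZero N] (hqN : ¬ q ∣ N)
    [CharP (ResidueField ↥A) q] [PerfectField (ResidueField ↥A)] [IsAlgClosed (ResidueField ↥A)]
    (T : Set (Place (ResidueField ↥A) ↥(F1C N (ResidueField ↥A)))) (hT : T.Finite) :
    ∃ T' : Set (Place (ResidueField ↥A) ↥(F1C N (ResidueField ↥A))),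
      T'.Finite ∧ T ⊆ T' ∧
        ∀ Q, Fermat.Agent.S43.LG1.C1.FrobKGen.Fr (hC1 N (ResidueField ↥A)) q Q ∈ T' ↔ Q ∈ T' :=
  haveI := finiteDimensional_X1 hA N hqN
  haveI := hasPrincipalDivisors_X1 hA N hqN
  Fermat.Agent.S43.LG1.C1.FrobKGen.exists_finite_stable (hC1 N (ResidueField ↥A))
    (hJ1 N (ResidueField ↥A)) q (Fermat.Agent.S34.ResidueFrobX0.exists_pow_eq_self hA) T hT

/-- **finite `Fr`-orbits at `κ(A)(X₁(N))`** -/
theorem exists_iterate_Fr_eq_X1 (hA : A.LiesOverPrime q) (N : ℕ) [NeZero N] (hqN : ¬ q ∣ N)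
    [CharP (ResidueField ↥A) q] [PerfectField (ResidueField ↥A)] [IsAlgClosed (ResidueField ↥A)]
    (v : Place (ResidueField ↥A) ↥(F1C N (ResidueField ↥A))) :
    ∃ m : ℕ, 0 < m ∧
      (Fermat.Agent.S43.LG1.C1.FrobKGen.Fr (hC1 N (ResidueField ↥A)) q)^[m] v = v :=
  haveI := finiteDimensional_X1 hA N hqN
  haveI := hasPrincipalDivisors_X1 hA N hqN
  Fermat.Agent.S43.LG1.C1.FrobKGen.exists_iterate_Fr_eq (hC1 N (ResidueField ↥A))
    (hJ1 N (ResidueField ↥A)) q (Fermat.Agent.S34.ResidueFrobX0.exists_pow_eq_self hA) v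

end Fermat.Agent.S43.LG1.C1.ResidueFrobX1
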