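/-
PROJECT R (S43), block G, brick C1 (= S34', the `X₁`-twin of S34's `X₀` instance layer), helper18:
**TWO-MAP STABILITY** (asked by helper29 for `C1/PcgCuspTw.Adm2`): at `X₁(N; r)` the second component
of the special fibre carries `Fr' = ⟨r⟩⁻¹ ∘ Fr`, so the admissible sets of places must be stable
under `Fr` AND under the reduced diamond `Dp d`.

The two witness sets of `FrobKGen.exists_finite_stable_of_place` are cut out by functions of `j`
(`{0 < ord (j^(q^m) - j)}` and `{ord j < 0}`), so they are stable under EVERY `k`-automorphism of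
`Fk` fixing `j`:

* `exists_finite_stable2_of_place`, `exists_finite_stable2` : generic in `Fk` (the hypotheses of
  helper7's `C1/FrobKGen`): every finite set of places lies in a finite set `T` with
  `∀ w, Fr w ∈ T ↔ w ∈ T` and `∀ d, d j = j → ∀ w, Dp d w ∈ T ↔ w ∈ T`;
* `exists_finite_stable2_X1` : the instance at `Fk = F1C N κ(A)` (the twin of
  `ResidueFrobX1.exists_finite_stable_X1`);
* `stable_comp`, `stable_symm_comp` : the two shapes `Dp d ∘ Fr`, `(Dp d).symm ∘ Fr` of `Fr'`.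
-/
import Fermat.Agent.S43.LG1.C1.ResidueFrobX1

set_option autoImplicit false
set_option linter.unusedSectionVars false
set_option linter.style.haveILetI false
set_option synthInstance.maxHeartbeats 400000

noncomputable section

namespace Fermat.Agent.S43.LG1.C1.ResidueFrob2X1

open IsLocalRing AlgebraicCurve ModularCurve IntermediateField
open Fermat.Agent.S48.B.Defs.Model Fermat.Agent.S48.B.Red.CoeffAut1
open Fermat.Agent.S48.B.Inj.Basics (jC transcendental_jC isFF_jC)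
open Fermat.Agent.S43.LG1.C1.FrobKGen

local notation "Kb" => AlgebraicClosure ℚ

section Generic

variable {k : Type*} [Field k] {Fk : IntermediateField k (LaurentSeries k)}
variable (hC : CoeffStable Fk) (hJ : jqModC k ∈ Fk)
variable (q : ℕ) [hq : Fact q.Prime] [CharP k q] [PerfectField k]
variable [HasPrincipalDivisors k ↥Fk] [FiniteDimensional k⟮jC hJ⟯ ↥Fk]

/-- `fm` is fixed by every automorphism fixing `j` -/
theorem d_fm (d : ↥Fk ≃ₐ[k] ↥Fk) (hdj : d (jC hJ) = jC hJ) (m : ℕ) :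
    d (fm hJ q m) = fm hJ q m := by
  rw [fm, map_sub, map_pow, hdj]

/-- **Every place lies in a finite set of places stable under `Fr` and under every
`k`-automorphism fixing `j`.** -/
theorem exists_finite_stable2_of_place [IsAlgClosed k]
    (halg : ∀ c : k, ∃ m : ℕ, 0 < m ∧ c ^ q ^ m = c)
    (v : Place k ↥Fk) :
    ∃ T : Set (Place k ↥Fk), T.Finite ∧ v ∈ T ∧
      (∀ w, Fr hC q w ∈ T ↔ w ∈ T) ∧
      (∀ d : ↥Fk ≃ₐ[k] ↥Fk, d (jC hJ) = jC hJ → ∀ w, Dp d w ∈ T ↔ w ∈ T) := by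
  by_cases hj : 0 ≤ v.ord (jC hJ)
  · have hj0 : jC hJ ≠ 0 := fun h => by
      have := transcendental_jC hJ
      rw [h] at this
      exact this ⟨Polynomial.X, Polynomial.X_ne_zero, by simp⟩
    obtain ⟨c, hc⟩ := Fermat.Agent.S24.Ord.exists_sub_lt_one
      (isFF_jC hJ) v
      ((Fermat.Agent.S24.Ord.ord_nonneg_iff v hj0).mp hj)
    obtain ⟨m, hm, hcm⟩ := halg c
    have hne : jC hJ - algebraMap k _ c ≠ 0 := by
      intro h0
      have := transcendental_jC hJ
      rw [sub_eq_zero.mp h0] at this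
      exact this ⟨Polynomial.X - Polynomial.C c, Polynomial.X_sub_C_ne_zero c, by simp⟩
    have hpos : 0 < v.ord (jC hJ - algebraMap k _ c) :=
      (Fermat.Agent.S24.Ord.ord_pos_iff v hne).mpr hc
    haveI : CharP ↥Fk q :=
      charP_of_injective_algebraMap (algebraMap k ↥Fk).injective q
    have hfm : fm hJ q m = (jC hJ - algebraMap k _ c) ^ q ^ m - (jC hJ - algebraMap k _ c) := by
      rw [fm, sub_pow_char_pow, ← map_pow, hcm]
      ring
    have hfm0 := fm_ne_zero hC hJ q hm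
    have hvT : 0 < v.ord (fm hJ q m) := by
      have h1 : 0 < v.ord ((jC hJ - algebraMap k _ c) ^ q ^ m) := by
        rw [Fermat.Agent.S18.CoreOrd.ord_pow]
        have hqm : (0 : ℤ) < ((q ^ m : ℕ) : ℤ) := by
          exact_mod_cast pow_pos hq.out.pos m
        exact mul_pos hqm hpos
      have h2 := Fermat.Agent.S18.CoreOrd.min_le_ord_sub v (f := (jC hJ - algebraMap k _ c) ^ q ^ m)
        (g := jC hJ - algebraMap k _ c) (by rw [← hfm]; exact hfm0)
      rw [← hfm] at h2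
      exact lt_of_lt_of_le (lt_min h1 hpos) h2
    refine ⟨{w | 0 < w.ord (fm hJ q m)}, ?_, hvT, fun w => ?_, fun d hdj w => ?_⟩
    · exact (finite_ord_ne_zero hC hfm0).subset fun w hw => ne_of_gt hw
    · show 0 < (Fr hC q w).ord (fm hJ q m) ↔ 0 < w.ord (fm hJ q m)
      rw [ord_Fr_of_psi_eq hC q w (psi_fm hC hJ q m)]
    · show 0 < (Dp d w).ord (fm hJ q m) ↔ 0 < w.ord (fm hJ q m)
      rw [ord_Dp_of_fixed d w (d_fm hJ q d hdj m)]
  · rw [not_le] at hj
    refine ⟨{w | w.ord (jC hJ) < 0}, ?_, hj, fun w => ?_, fun d hdj w => ?_⟩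
    · have hj0 : jC hJ ≠ 0 := by
        rintro h
        rw [h, Place.ord_zero] at hj
        exact lt_irrefl _ hj
      exact (finite_ord_ne_zero hC hj0).subset fun w hw => ne_of_lt hw
    · show (Fr hC q w).ord (jC hJ) < 0 ↔ w.ord (jC hJ) < 0
      rw [ord_Fr_of_psi_eq hC q w (psi_jk hC hJ q)]
    · show (Dp d w).ord (jC hJ) < 0 ↔ w.ord (jC hJ) < 0
      rw [ord_Dp_of_fixed d w hdj]

/-- **Every finite set of places lies in a finite set stable under `Fr` and under every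
`k`-automorphism fixing `j`.** -/
theorem exists_finite_stable2 [IsAlgClosed k]
    (halg : ∀ c : k, ∃ m : ℕ, 0 < m ∧ c ^ q ^ m = c)
    (S : Set (Place k ↥Fk)) (hS : S.Finite) :
    ∃ T : Set (Place k ↥Fk), T.Finite ∧ S ⊆ T ∧
      (∀ w, Fr hC q w ∈ T ↔ w ∈ T) ∧
      (∀ d : ↥Fk ≃ₐ[k] ↥Fk, d (jC hJ) = jC hJ → ∀ w, Dp d w ∈ T ↔ w ∈ T) := by
  classical
  choose T hTfin hTmem hTst hTd using fun v => exists_finite_stable2_of_place hC hJ q halg v
  refine ⟨⋃ v ∈ S, T v, hS.biUnion fun v _ => hTfin v, fun v hv => ?_, fun w => ?_,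
    fun d hdj w => ?_⟩
  · exact Set.mem_biUnion hv (hTmem v)
  · simp only [Set.mem_iUnion, exists_prop]
    exact ⟨fun ⟨v, hv, h⟩ => ⟨v, hv, (hTst v w).mp h⟩, fun ⟨v, hv, h⟩ => ⟨v, hv, (hTst v w).mpr h⟩⟩
  · simp only [Set.mem_iUnion, exists_prop]
    exact ⟨fun ⟨v, hv, h⟩ => ⟨v, hv, (hTd v d hdj w).mp h⟩,
      fun ⟨v, hv, h⟩ => ⟨v, hv, (hTd v d hdj w).mpr h⟩⟩

end Generic

/-! ### the shapes of `Fr'` -/

section Shapes

variable {P : Type*} {T : Set P} {f : P → P} {D : P ≃ P}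

/-- stability under `D ∘ f` -/
theorem stable_comp (hf : ∀ w, f w ∈ T ↔ w ∈ T) (hD : ∀ w, D w ∈ T ↔ w ∈ T) (w : P) :
    D (f w) ∈ T ↔ w ∈ T := (hD _).trans (hf w)

/-- stability under `D⁻¹` -/
theorem stable_symm (hD : ∀ w, D w ∈ T ↔ w ∈ T) (w : P) : D.symm w ∈ T ↔ w ∈ T := by
  have h := hD (D.symm w)
  rw [Equiv.apply_symm_apply] at h
  exact h.symm

/-- stability under `D⁻¹ ∘ f` -/
theorem stable_symm_comp (hf : ∀ w, f w ∈ T ↔ w ∈ T) (hD : ∀ w, D w ∈ T ↔ w ∈ T) (w : P) :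
    D.symm (f w) ∈ T ↔ w ∈ T := (stable_symm hD _).trans (hf w)

/-- stability under `f ∘ D` -/
theorem stable_comp' (hf : ∀ w, f w ∈ T ↔ w ∈ T) (hD : ∀ w, D w ∈ T ↔ w ∈ T) (w : P) :
    f (D w) ∈ T ↔ w ∈ T := (hf _).trans (hD w)

end Shapes

/-! ### the instance at `κ(A)(X₁(N))` -/

open Fermat.Agent.S43.LG1.C1.ResidueFrobX1

variable {A : ValuationSubring Kb} {q : ℕ} [hq : Fact q.Prime]

/-- **finite sets of places of `κ(A)(X₁(N))` lie in finite sets stable under `Fr` and under every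
`κ(A)`-automorphism fixing `j`** (in particular the reduced diamonds) -/
theorem exists_finite_stable2_X1 (hA : A.LiesOverPrime q) (N : ℕ) [NeZero N] (hqN : ¬ q ∣ N)
    [CharP (ResidueField ↥A) q] [PerfectField (ResidueField ↥A)] [IsAlgClosed (ResidueField ↥A)]
    (T : Set (Place (ResidueField ↥A) ↥(F1C N (ResidueField ↥A)))) (hT : T.Finite) :
    ∃ T' : Set (Place (ResidueField ↥A) ↥(F1C N (ResidueField ↥A))),
      T'.Finite ∧ T ⊆ T' ∧
        (∀ Q, Fr (hC1 N (ResidueField ↥A)) q Q ∈ T' ↔ Q ∈ T') ∧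
        (∀ d : ↥(F1C N (ResidueField ↥A)) ≃ₐ[ResidueField ↥A] ↥(F1C N (ResidueField ↥A)),
          d (jC (hJ1 N (ResidueField ↥A))) = jC (hJ1 N (ResidueField ↥A)) →
            ∀ Q, Dp d Q ∈ T' ↔ Q ∈ T') :=
  haveI := finiteDimensional_X1 hA N hqN
  haveI := hasPrincipalDivisors_X1 hA N hqN
  exists_finite_stable2 (hC1 N (ResidueField ↥A))
    (hJ1 N (ResidueField ↥A)) q (Fermat.Agent.S34.ResidueFrobX0.exists_pow_eq_self hA) T hT

end Fermat.Agent.S43.LG1.C1.ResidueFrob2X1
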