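/-
PROJECT R (S43), block G, brick C1 (= S34', the `X₁`-twin of S34's `X₀` instance layer), helper18:
**THE TWIN OF `S34/CoreZX0Assembly`**: THE NODAL DATUM `CoreZX1Datum.X1Datum` OF
`E'' = ℚ̄(X₁(N; r))` FROM THE PRODUCERS' OUTPUTS, TWO-MAP FORM.

Everything is stated for one valuation subring `A ∣ r` of `ℚ̄` (`r ∤ N`) and one Deuring datum
`H : Hyp (gaussDatum1 N A hr hA hrN) gL gk` of level `N`; `r_N = placeMap H`, `α = alpha1`,
`β = beta1` the two degeneracy embeddings `ℚ̄(X₁(N)) → E''`, `W = W1` the Atkin-Lehner automorphism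
(`W ∘ β = α`, `W ∘ α = β ∘ δ`, `δ = ⟨r⁻¹⟩^*`: NOT an involution), `κ = κ(A)`, `Fk = F1C N κ`.

THE TWO MAPS on the places of `Fk`: `FrX1 = FrobKGen.Fr` (the Frobenius) and
`Fr2X1 = D⁻¹ ∘ Fr`, `D = DX1 = FrobKGen.Dp d̄`, `d̄ = DiamondRed1.dbar1` the reduced diamond.
First component: `R₁.r P = some Q ↔ Q good ∧ r_N (P ∘ α) = Q ∧ r_N (P ∘ β) = Fr Q`; second component
`R₂ = smoothRedComap R₁ W`: `R₂.r P = some Q ↔ Q good ∧ r_N (P ∘ β) = Q ∧ r_N (P ∘ α) = Fr2 Q`.

* `Inputs1 hr hA hrN H` : the first component: a branch `B₁` of `E''` with `B₁.O = V1X1`, compatible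
  with level `N` along `α`, and a cofinite set `good` of places of `Fk`, stable under `Fr` and `D`,
  without solutions of `Fr (Fr Q) = D Q`, at which `Generic.Compat.GenericAt` holds (third
  argument `Fr2⁻¹ Q`);
* `R1 X`, `R2 X`, `R1_O`, `R2_O`, `R1_r`, `R2_r_eq_some_iff`, `excl`, `r1_smul`, `r2_smul`
  (helper25's `Generic/InertiaSpSwapX1`), `exists_typeOne`, the two functions `α j`, `β j`;
* `Nodes1 X` : a nodal datum on `(R1 X, R2 X)` with the Euler characteristic inequality (the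
  producer is `C1/CoreZX1Build` on helper29's `PcgCuspTw`);
* `x1DatumOf X Y : X1Datum hr hA hrN`, `principalHyp1_of_inputs`.
-/
import Fermat.Agent.S43.LG1.C1.CoreZX1Datum
import Fermat.Agent.S43.LG1.C1.CoreZX1OfPrincipal
import Fermat.Agent.S43.LG1.C1.DiamondRed1
import Fermat.Agent.S43.LG1.C1.ResidueFrob2X1
import Fermat.Agent.S43.LG1.C1.Generic.SwapX1
import Fermat.Agent.S43.LG1.C1.Generic.FibX1
import Fermat.Agent.S43.LG1.C1.Generic.FibreHypX1
import Fermat.Agent.S43.LG1.C1.Generic.InertiaSpSwapX1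
import Fermat.Agent.S43.LG1.C1.HypX1

set_option autoImplicit false
set_option linter.unusedSectionVars false
set_option linter.style.haveILetI false
set_option synthInstance.maxHeartbeats 400000

noncomputable section

namespace Fermat.Agent.S43.LG1.C1.CoreZX1Assembly

open ModularCurve AlgebraicCurve IsLocalRing
open Fermat.Agent.S18.NonSpecial Fermat.Agent.S34.NodalDefs
open Fermat.Agent.S37.Deuring.Core
open Fermat.Agent.S34.Generic.Compat Fermat.Agent.S34.Generic.RestrAlong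
open Fermat.Agent.S34.Generic.SmoothRedOfGeneric Fermat.Agent.S34.Generic.SwapX0
open Fermat.Agent.S48.B.Defs.Model Fermat.Agent.S48.B.B1.Seams
open Fermat.Agent.S48.B.ES.DegreeBeta1
open Fermat.Agent.S43.LG1.C1.Seam Fermat.Agent.S43.LG1.C1.Z1X1
open Fermat.Agent.S43.LG1.C1.CoreZX1Datum Fermat.Agent.S43.LG1.C1.DiamondRed1
open Fermat.Agent.S43.LG1.C1.ResidueFrobX1
open Fermat.Agent.S43.LG1.C1.Generic.SwapX1 Fermat.Agent.S43.LG1.C1.Generic.FibX1

local notation "Kb" => AlgebraicClosure ℚ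

attribute [local instance] algShortcut1

/-- shortcut instances (all propositions) -/
local instance instPDBar1 (N : ℕ) [NeZero N] : HasPrincipalDivisors Kb ↥(F1Bar N) :=
  Fermat.Agent.S48.B.Inj.Basics.hasPrincipalDivisors_L
    (Fermat.Agent.S43.LG1.C1.LevelMSurjX1.isFF_jgen1 N)

local instance instACk1 (A : ValuationSubring Kb) : IsAlgClosed (ResidueField ↥A) :=
  Fermat.Agent.S18.ResidueBasics.isAlgClosed_residueField A

variable {r : ℕ} [hrF : Fact r.Prime] {N : ℕ} [NeZero N] {A : ValuationSubring Kb} [NeZero r]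
variable (hr : r.Prime) (hA : A.LiesOverPrime r) (hrN : ¬ r ∣ N)
variable [HasPrincipalDivisors Kb ↥(F1pBar N r)]
variable [HasPrincipalDivisors (ResidueField ↥A) ↥(F1C N (ResidueField ↥A))]
variable {gL gk : ℕ} (H : Hyp (gaussDatum1 N A hr hA hrN) gL gk)
variable [CharP (ResidueField ↥A) r]

/-! ### the two maps on the places of `κ(X₁(N))` -/

/-- the Frobenius on the places of `κ(A)(X₁(N))` -/
def FrX1 (A : ValuationSubring Kb) (N r : ℕ) [NeZero N] [Fact r.Prime]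
    [CharP (ResidueField ↥A) r] :
    Place (ResidueField ↥A) ↥(F1C N (ResidueField ↥A)) ≃
      Place (ResidueField ↥A) ↥(F1C N (ResidueField ↥A)) :=
  Fermat.Agent.S43.LG1.C1.FrobKGen.Fr (hC1 N (ResidueField ↥A)) r

/-- the reduced diamond `⟨r⁻¹⟩` on the places of `κ(A)(X₁(N))` -/
def DX1 : Place (ResidueField ↥A) ↥(F1C N (ResidueField ↥A)) ≃
    Place (ResidueField ↥A) ↥(F1C N (ResidueField ↥A)) :=
  Fermat.Agent.S43.LG1.C1.FrobKGen.Dp (dbar1 hr hA hrN)

/-- **the second map** `Fr' = D⁻¹ ∘ Fr` (the Frobenius seen from the second component) -/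
def Fr2X1 : Place (ResidueField ↥A) ↥(F1C N (ResidueField ↥A)) ≃
    Place (ResidueField ↥A) ↥(F1C N (ResidueField ↥A)) :=
  (FrX1 A N r).trans (DX1 hr hA hrN).symm

theorem Fr2X1_apply (Q : Place (ResidueField ↥A) ↥(F1C N (ResidueField ↥A))) :
    Fr2X1 hr hA hrN Q = (DX1 hr hA hrN).symm (FrX1 A N r Q) := rfl

theorem DX1_apply (Q : Place (ResidueField ↥A) ↥(F1C N (ResidueField ↥A))) :
    DX1 hr hA hrN Q = SemilinearAut.ofAlgAut (dbar1 hr hA hrN) • Q := rfl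

/-- `hdψ` of `FrobKGen.Twist` at `d̄` -/
theorem hdpsi1 (x : ↥(F1C N (ResidueField ↥A))) :
    dbar1 hr hA hrN (Fermat.Agent.S43.LG1.C1.FrobKGen.psi (hC1 N (ResidueField ↥A)) r x) =
      Fermat.Agent.S43.LG1.C1.FrobKGen.psi (hC1 N (ResidueField ↥A)) r (dbar1 hr hA hrN x) :=
  dbar1_frobAut_symm hr hA hrN x

/-- `hdj` of `FrobKGen.Twist` at `d̄` -/
theorem hdj1 : dbar1 hr hA hrN (Fermat.Agent.S48.B.Inj.Basics.jC (hJ1 N (ResidueField ↥A))) =
    Fermat.Agent.S48.B.Inj.Basics.jC (hJ1 N (ResidueField ↥A)) :=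
  dbar1_jC hr hA hrN

/-- `D` commutes with `Fr` -/
theorem FrX1_DX1 (Q : Place (ResidueField ↥A) ↥(F1C N (ResidueField ↥A))) :
    FrX1 A N r (DX1 hr hA hrN Q) = DX1 hr hA hrN (FrX1 A N r Q) :=
  Fermat.Agent.S43.LG1.C1.FrobKGen.Fr_Dp (hC1 N (ResidueField ↥A)) r (dbar1 hr hA hrN)
    (hdpsi1 hr hA hrN) Q

theorem FrX1_DX1_symm (Q : Place (ResidueField ↥A) ↥(F1C N (ResidueField ↥A))) :
    FrX1 A N r ((DX1 hr hA hrN).symm Q) = (DX1 hr hA hrN).symm (FrX1 A N r Q) :=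
  Fermat.Agent.S43.LG1.C1.FrobKGen.Fr_Dp_symm (hC1 N (ResidueField ↥A)) r (dbar1 hr hA hrN)
    (hdpsi1 hr hA hrN) Q

/-- `Fr' ∘ Fr = Fr ∘ Fr'` -/
theorem Fr2X1_FrX1 (Q : Place (ResidueField ↥A) ↥(F1C N (ResidueField ↥A))) :
    Fr2X1 hr hA hrN (FrX1 A N r Q) = FrX1 A N r (Fr2X1 hr hA hrN Q) := by
  rw [Fr2X1_apply, Fr2X1_apply, FrX1_DX1_symm]

/-- the place map of level `N` is equivariant for `(δ, D)` -/
theorem placeMap_delta1 (P0 : Place Kb ↥(F1Bar N)) :
    placeMap H (SemilinearAut.ofAlgAut (delta1 N r hr hrN) • P0) =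
      DX1 hr hA hrN (placeMap H P0) :=
  placeMap_smul_delta1 hr hA hrN H P0

/-! ### restrictions and the two total specialisation maps -/

/-- restriction of places along `α` -/
def raX1 : Restr Kb ((alpha1 N r Kb : ↥(F1Bar N) →ₐ[Kb] ↥(F1pBar N r)) :
    ↥(F1Bar N) →+* ↥(F1pBar N r)) :=
  restrAlong (alpha1 N r Kb) (isIntegral_alpha1 hr hrN)

/-- restriction of places along `β` -/
def rbX1 : Restr Kb ((beta1 N r Kb : ↥(F1Bar N) →ₐ[Kb] ↥(F1pBar N r)) :
    ↥(F1Bar N) →+* ↥(F1pBar N r)) :=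
  restrAlong (beta1 N r Kb) (isIntegral_beta1 hr hrN)

variable {hr hA hrN} in
/-- the total specialisation map along `α` -/
def sp1 (P : Place Kb ↥(F1pBar N r)) : Place (ResidueField ↥A) ↥(F1C N (ResidueField ↥A)) :=
  placeMap H (resAlong (alpha1 N r Kb) (isIntegral_alpha1 hr hrN) P)

variable {hr hA hrN} in
/-- the total specialisation map along `β` -/
def sp2 (P : Place Kb ↥(F1pBar N r)) : Place (ResidueField ↥A) ↥(F1C N (ResidueField ↥A)) :=
  placeMap H (resAlong (beta1 N r Kb) (isIntegral_beta1 hr hrN) P)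

/-- `W` as a ring homomorphism, in the shape of `smoothRedComap_O` -/
theorem comap_W1Hom_eq (V : ValuationSubring ↥(F1pBar N r)) :
    V.comap (W1Hom N r hr hrN) =
      V.comap ((W1 N r hr hrN : ↥(F1pBar N r) ≃ₐ[Kb] ↥(F1pBar N r)) :
        ↥(F1pBar N r) →+* ↥(F1pBar N r)) := by
  ext x
  rfl

set_option maxHeartbeats 1600000 in
/-- **The first component**: what `GaussPairX1` + `Generic/…X1` + `FiniteNonGenericX1` deliver. -/
structure Inputs1 where
  /-- the first branch -/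
  B₁ : Branch A (residue ↥A) ↥(F1pBar N r) ↥(F1C N (ResidueField ↥A))
  O_eq : B₁.O = V1X1 hr hA hrN
  α_mem : ∀ g : (redDatum H).O, alpha1 N r Kb (g : ↥(F1Bar N)) ∈ B₁.O
  red_α : ∀ g : (redDatum H).O,
    B₁.red ⟨alpha1 N r Kb (g : ↥(F1Bar N)), α_mem g⟩ = (redDatum H).red g
  β_mem : ∀ g : (redDatum H).O, beta1 N r Kb (g : ↥(F1Bar N)) ∈ B₁.O
  /-- `W` exchanges the two Gauss rings -/
  comap_eq : (V1X1 hr hA hrN).comap ((W1 N r hr hrN : ↥(F1pBar N r) ≃ₐ[Kb] ↥(F1pBar N r)) :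
      ↥(F1pBar N r) →+* ↥(F1pBar N r)) = V2X1 hr hA hrN
  /-- the generic places -/
  good : Set (Place (ResidueField ↥A) ↥(F1C N (ResidueField ↥A)))
  generic : ∀ Q ∈ good, GenericAt (r := placeMap H) (raX1 hr hrN) (rbX1 hr hrN)
    (redOneOfBranch (R := redDatum H) B₁ α_mem red_α β_mem) Q
    (FrX1 A N r Q) ((Fr2X1 hr hA hrN).symm Q)
  finite_compl : goodᶜ.Finite
  /-- no generic place solves `Fr (Fr Q) = D Q` -/
  Fr_Fr_ne : ∀ Q ∈ good, FrX1 A N r (FrX1 A N r Q) ≠ DX1 hr hA hrN Q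
  Fr_mem_iff : ∀ Q, FrX1 A N r Q ∈ good ↔ Q ∈ good
  D_mem_iff : ∀ Q, DX1 hr hA hrN Q ∈ good ↔ Q ∈ good

variable {hr hA hrN H}

/-- `good` is stable under the second map -/
theorem Inputs1.Fr2_mem_iff (X : Inputs1 hr hA hrN H)
    (Q : Place (ResidueField ↥A) ↥(F1C N (ResidueField ↥A))) :
    Fr2X1 hr hA hrN Q ∈ X.good ↔ Q ∈ X.good := by
  rw [Fr2X1_apply]
  exact Fermat.Agent.S43.LG1.C1.ResidueFrob2X1.stable_symm_comp X.Fr_mem_iff X.D_mem_iff Q

/-- the exclusion condition in the shape of `Generic/SwapX1` -/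
theorem Inputs1.Fr2_Fr_ne (X : Inputs1 hr hA hrN H)
    (Q : Place (ResidueField ↥A) ↥(F1C N (ResidueField ↥A))) (hQ : Q ∈ X.good) :
    (DX1 hr hA hrN).symm (FrX1 A N r (FrX1 A N r Q)) ≠ Q := by
  intro h
  apply X.Fr_Fr_ne Q hQ
  have h' := congrArg (DX1 hr hA hrN) h
  rwa [Equiv.apply_symm_apply] at h'

/-- the first component -/
def R1 (X : Inputs1 hr hA hrN H) :
    SmoothRed A (residue ↥A) ↥(F1pBar N r) ↥(F1C N (ResidueField ↥A)) :=
  smoothRedOfGeneric (R := redDatum H) X.B₁ X.α_mem X.red_α X.β_mem (raX1 hr hrN) (rbX1 hr hrN)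
    (FrX1 A N r) (Fr2X1 hr hA hrN).symm X.good X.generic

/-- the second component -/
def R2 (X : Inputs1 hr hA hrN H) :
    SmoothRed A (residue ↥A) ↥(F1pBar N r) ↥(F1C N (ResidueField ↥A)) :=
  smoothRedComap (R1 X) (W1 N r hr hrN)

theorem R1_O (X : Inputs1 hr hA hrN H) : (R1 X).O = V1X1 hr hA hrN := X.O_eq

theorem R2_O (X : Inputs1 hr hA hrN H) : (R2 X).O = V2X1 hr hA hrN := by
  rw [← X.comap_eq, ← X.O_eq]
  rfl

theorem R1_good (X : Inputs1 hr hA hrN H) : (R1 X).good = X.good := rfl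

theorem R2_good (X : Inputs1 hr hA hrN H) : (R2 X).good = X.good := rfl

theorem R1_r (X : Inputs1 hr hA hrN H) :
    (R1 X).r = rOne (placeMap H) (restrAlong (alpha1 N r Kb) (isIntegral_alpha1 hr hrN))
      (restrAlong (beta1 N r Kb) (isIntegral_beta1 hr hrN)) (FrX1 A N r) X.good := rfl

/-- the first partial specialisation map in closed form -/
theorem R1_r_eq_some_iff (X : Inputs1 hr hA hrN H) (P : Place Kb ↥(F1pBar N r))
    (Q : Place (ResidueField ↥A) ↥(F1C N (ResidueField ↥A))) :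
    (R1 X).r P = some Q ↔ Q ∈ X.good ∧ sp1 H P = Q ∧ sp2 H P = FrX1 A N r Q := by
  rw [R1_r, rOne_eq_some_iff]
  rfl

/-- the second partial specialisation map in closed form -/
theorem R2_r_eq_some_iff (X : Inputs1 hr hA hrN H) (P : Place Kb ↥(F1pBar N r))
    (Q : Place (ResidueField ↥A) ↥(F1C N (ResidueField ↥A))) :
    (R2 X).r P = some Q ↔ Q ∈ X.good ∧ sp2 H P = Q ∧ sp1 H P = Fr2X1 hr hA hrN Q :=
  smoothRedComap_r_eq_some_iff_delta (placeMap H) (alpha1 N r Kb) (beta1 N r Kb)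
    (isIntegral_alpha1 hr hrN) (isIntegral_beta1 hr hrN) (W1 N r hr hrN) (delta1 N r hr hrN)
    (fun g => W1_alpha hr hrN g) (fun g => W1_beta hr hrN g)
    (DX1 hr hA hrN) (DX1 hr hA hrN).symm (fun P0 => placeMap_delta1 hr hA hrN H P0)
    (fun Q => (DX1 hr hA hrN).symm_apply_apply Q) (fun Q => (DX1 hr hA hrN).apply_symm_apply Q)
    (FrX1 A N r) X.good (R1 X) (R1_r X) P Q

/-- exclusivity of the two kinds of generic residue discs -/
theorem excl (X : Inputs1 hr hA hrN H) (P : Place Kb ↥(F1pBar N r))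
    (Q1 Q2 : Place (ResidueField ↥A) ↥(F1C N (ResidueField ↥A)))
    (h1 : (R1 X).r P = some Q1) (h2 : (R2 X).r P = some Q2) : False :=
  excl_of_swap_delta (placeMap H) (alpha1 N r Kb) (beta1 N r Kb)
    (isIntegral_alpha1 hr hrN) (isIntegral_beta1 hr hrN) (W1 N r hr hrN) (delta1 N r hr hrN)
    (fun g => W1_alpha hr hrN g) (fun g => W1_beta hr hrN g)
    (DX1 hr hA hrN) (DX1 hr hA hrN).symm (fun P0 => placeMap_delta1 hr hA hrN H P0)
    (fun Q => (DX1 hr hA hrN).symm_apply_apply Q) (fun Q => (DX1 hr hA hrN).apply_symm_apply Q)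
    (FrX1 A N r) X.good (fun Q hQ => X.Fr2_Fr_ne Q hQ) (R1 X) (R1_r X) P Q1 Q2 h1 h2

/-! ### inertia -/

/-- inertia preserves the first partial specialisation map -/
theorem r1_smul (X : Inputs1 hr hA hrN H) : ∀ σ ∈ A.inertiaSubgroupIn ℚ,
    ∀ P : Place Kb ↥(F1pBar N r),
      (R1 X).r (arithmeticGalois (F1p N r) σ • P) = (R1 X).r P :=
  Fermat.Agent.S43.LG1.C1.Generic.InertiaSpSwapX1.placeMap_r1_smul1 (igusaDegN N) hr hrN hA
    (Fermat.Agent.S43.LG1.C1.Generic.FibreHypX1.fibreHyp1 hr hrN hA) H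
    (isIntegral_alpha1 hr hrN) (isIntegral_beta1 hr hrN) (FrX1 A N r) X.good (R1 X) (R1_r X)

/-- inertia preserves the second partial specialisation map -/
theorem r2_smul (X : Inputs1 hr hA hrN H) : ∀ σ ∈ A.inertiaSubgroupIn ℚ,
    ∀ P : Place Kb ↥(F1pBar N r),
      (R2 X).r (arithmeticGalois (F1p N r) σ • P) = (R2 X).r P :=
  Fermat.Agent.S43.LG1.C1.Generic.InertiaSpSwapX1.placeMap_r2_smul1 (igusaDegN N) hr hrN hA
    (Fermat.Agent.S43.LG1.C1.Generic.FibreHypX1.fibreHyp1 hr hrN hA) H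
    (isIntegral_alpha1 hr hrN) (isIntegral_beta1 hr hrN) (FrX1 A N r) X.good (R1 X) (R1_r X)
    (W1 N r hr hrN) (delta1 N r hr hrN) (fun g => W1_alpha hr hrN g) (fun g => W1_beta hr hrN g)
    (DX1 hr hA hrN) (DX1 hr hA hrN).symm (fun P0 => placeMap_delta1 hr hA hrN H P0)
    (fun Q => (DX1 hr hA hrN).symm_apply_apply Q) (fun Q => (DX1 hr hA hrN).apply_symm_apply Q)

/-! ### a place of type 1 -/

/-- a place of `E''` of type 1 over a generic place -/
theorem exists_typeOne (X : Inputs1 hr hA hrN H) :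
    ∃ (P : Place Kb ↥(F1pBar N r))
      (Q : Place (ResidueField ↥A) ↥(F1C N (ResidueField ↥A))),
      Q ∈ (R1 X).good ∧ (R1 X).r P = some Q := by
  haveI := H.riemannK.infinite
  obtain ⟨Q, hQ⟩ : ∃ Q, Q ∈ X.good := by
    by_contra hne
    have hall : X.goodᶜ = Set.univ := by
      ext Q
      simp only [Set.mem_compl_iff, Set.mem_univ, iff_true]
      exact fun h => hne ⟨Q, h⟩
    have hfin := X.finite_compl
    rw [hall] at hfin
    exact Set.infinite_univ hfin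
  obtain ⟨PM, hPM⟩ := Fermat.Agent.S43.LG1.C1.LevelMSurjX1.placeMap_surjective_X1 (igusaDegN N)
    hr hrN hA H Q
  obtain ⟨P, hres, hb, -, -⟩ := (X.generic Q hQ).fibα PM hPM
  refine ⟨P, Q, hQ, ?_⟩
  rw [R1_r]
  refine (rOne_eq_some_iff _ _ _ X.good P Q).mpr ⟨hQ, ?_, hb⟩
  change placeMap H ((raX1 hr hrN).res P) = Q
  rw [hres]
  exact hPM

/-! ### `j` on the two components -/

/-- `j` as an element of the level-`N` Gauss ring of `redDatum H` -/
def jR (H : Hyp (gaussDatum1 N A hr hA hrN) gL gk) : (redDatum H).O :=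
  Fermat.Agent.S43.LG1.C1.TwoGaussX1.jO1 hr hA hrN

theorem red_jR : (redDatum H).red (jR H) =
    Fermat.Agent.S48.B.Red.Seams.jC N (ResidueField ↥A) :=
  Fermat.Agent.S43.LG1.C1.TwoGaussX1.red_jO1 hr hA hrN

theorem W1_beta_jR : W1 N r hr hrN (beta1 N r Kb (jR H : ↥(F1Bar N))) =
    alpha1 N r Kb (jR H : ↥(F1Bar N)) := W1_beta hr hrN _

theorem beta_jR_mem (X : Inputs1 hr hA hrN H) :
    beta1 N r Kb (jR H : ↥(F1Bar N)) ∈ (R2 X).O := by
  show _ ∈ X.B₁.O.comap _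
  rw [ValuationSubring.mem_comap]
  show W1 N r hr hrN _ ∈ X.B₁.O
  rw [W1_beta_jR]
  exact X.α_mem (jR H)

theorem red_alpha_jR (X : Inputs1 hr hA hrN H) :
    (R1 X).red ⟨_, X.α_mem (jR H)⟩ = Fermat.Agent.S48.B.Red.Seams.jC N (ResidueField ↥A) :=
  (X.red_α (jR H)).trans red_jR

theorem red_beta_jR (X : Inputs1 hr hA hrN H) :
    (R2 X).red ⟨_, beta_jR_mem X⟩ = Fermat.Agent.S48.B.Red.Seams.jC N (ResidueField ↥A) := by
  show X.B₁.red ⟨W1 N r hr hrN _, _⟩ = _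
  have he : (⟨W1 N r hr hrN (beta1 N r Kb (jR H : ↥(F1Bar N))),
      beta_jR_mem X⟩ : X.B₁.O) = ⟨_, X.α_mem (jR H)⟩ := Subtype.ext W1_beta_jR
  rw [he]
  exact (X.red_α (jR H)).trans red_jR

/-! ### the nodes -/

set_option maxHeartbeats 1600000 in
/-- **The nodes**: a nodal datum on the two components `(R1 X, R2 X)` with the Euler
characteristic inequality (producer: `C1/CoreZX1Build`). -/
structure Nodes1 (X : Inputs1 hr hA hrN H) where
  /-- the nodes, as places of the second component -/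
  S : Finset (Place (ResidueField ↥A) ↥(F1C N (ResidueField ↥A)))
  /-- the nodal datum -/
  Nd : GNodalDatum A (residue ↥A) ↥(F1pBar N r)
    ↥(F1C N (ResidueField ↥A)) ↥(F1C N (ResidueField ↥A)) {b // b ∈ S}
  R1_eq : Nd.R1 = R1 X
  R2_eq : Nd.R2 = R2 X
  e2_injective : Function.Injective Nd.e2
  adm_finite : ∀ S1 S2, Nd.Adm S1 S2 → S1.Finite ∧ S2.Finite
  /-- the genus of `E''` -/
  gE : ℕ
  HL : RiemannHyp Kb ↥(F1pBar N r) gE
  /-- (NC), Euler characteristic -/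
  hNC : (gE : ℤ) + 1 ≤ gk + gk + S.card
  /-- the nodes exist -/
  hcard : 1 ≤ S.card

set_option maxHeartbeats 1600000 in
/-- **The nodal datum of `E'' = ℚ̄(X₁(N; r))`, as a term.** -/
def x1DatumOf (X : Inputs1 hr hA hrN H) (Y : Nodes1 X) : X1Datum (N := N) (A := A) hr hA hrN where
  S := Y.S
  Nd := Y.Nd
  O1_eq := by rw [Y.R1_eq]; exact R1_O X
  O2_eq := by rw [Y.R2_eq]; exact R2_O X
  e2_injective := Y.e2_injective
  adm_finite := Y.adm_finite
  g := Y.gE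
  gk := gk
  HL := Y.HL
  Hk := H.riemannK
  hNC := Y.hNC
  hcard := Y.hcard
  x1 := ⟨alpha1 N r Kb (jR H : ↥(F1Bar N)), by rw [Y.R1_eq]; exact X.α_mem (jR H)⟩
  hx1 := by
    have key : ∀ (R : SmoothRed A (residue ↥A) ↥(F1pBar N r) ↥(F1C N (ResidueField ↥A)))
        (hR : R = R1 X) (hm : alpha1 N r Kb (jR H : ↥(F1Bar N)) ∈ R.O),
        R.red ⟨_, hm⟩ = Fermat.Agent.S48.B.Red.Seams.jC N (ResidueField ↥A) := by
      rintro _ rfl hm
      exact red_alpha_jR X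
    exact key _ Y.R1_eq _
  x2 := ⟨beta1 N r Kb (jR H : ↥(F1Bar N)), by rw [Y.R2_eq]; exact beta_jR_mem X⟩
  hx2 := by
    have key : ∀ (R : SmoothRed A (residue ↥A) ↥(F1pBar N r) ↥(F1C N (ResidueField ↥A)))
        (hR : R = R2 X) (hm : beta1 N r Kb (jR H : ↥(F1Bar N)) ∈ R.O),
        R.red ⟨_, hm⟩ = Fermat.Agent.S48.B.Red.Seams.jC N (ResidueField ↥A) := by
      rintro _ rfl hm
      exact red_beta_jR X
    exact key _ Y.R2_eq _
  Pstar := (exists_typeOne X).choose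
  Qstar := (exists_typeOne X).choose_spec.choose
  hQstar := by
    rw [Y.R1_eq]
    exact (exists_typeOne X).choose_spec.choose_spec.1
  hstar := by
    rw [Y.R1_eq]
    exact (exists_typeOne X).choose_spec.choose_spec.2
  r1_smul := by
    rw [Y.R1_eq]
    exact r1_smul X
  r2_smul := by
    rw [Y.R2_eq]
    exact r2_smul X

@[simp] theorem x1DatumOf_S (X : Inputs1 hr hA hrN H) (Y : Nodes1 X) :
    (x1DatumOf X Y).S = Y.S := rfl

@[simp] theorem x1DatumOf_Nd (X : Inputs1 hr hA hrN H) (Y : Nodes1 X) :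
    (x1DatumOf X Y).Nd = Y.Nd := rfl

/-! ### (Core-Z) in divisor language -/

/-- **(Core-Z) at `E'' = ℚ̄(X₁(N; r))` in divisor language, from a nodal datum for every `A`.** -/
theorem principalHyp1_of_datum {N r p : ℕ} [NeZero N] [Fact r.Prime] [NeZero r] (hp : p.Prime)
    (hpr : p ≠ r)
    (HX : ∀ (A : ValuationSubring Kb) (hr : r.Prime) (hA : A.LiesOverPrime r) (hrN : ¬ r ∣ N),
      Nonempty (X1Datum (N := N) (A := A) hr hA hrN)) :
    Fermat.Agent.S43.LG1.C1.CoreZX1OfPrincipal.PrincipalHyp1 N r p := by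
  intro A hr hA hrN σ hσ k u D hu0 h1 h2 hD0 hD
  obtain ⟨X⟩ := HX A hr hA hrN
  exact principal_of_datum hr hA hrN hp hpr X hσ k u D hu0 h1 h2 hD0 hD

/-- **(Core-Z) at `E'' = ℚ̄(X₁(N; r))` in divisor language, from the producers' outputs.** -/
theorem principalHyp1_of_inputs {N r p : ℕ} [NeZero N] [Fact r.Prime] [NeZero r] (hp : p.Prime)
    (hpr : p ≠ r)
    (HH : ∀ (A : ValuationSubring Kb) (hr : r.Prime) (hA : A.LiesOverPrime r) (hrN : ¬ r ∣ N),
      haveI := Fermat.Agent.S18.ResidueBasics.charP_residueField A hA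
      haveI := hasPrincipalDivisors_F1pBar (N := N) hr hrN
      haveI := hasPrincipalDivisors_F1C (N := N) hr hA hrN
      ∃ (gL gk : ℕ) (H : Hyp (gaussDatum1 N A hr hA hrN) gL gk) (X : Inputs1 hr hA hrN H),
        Nonempty (Nodes1 X)) :
    Fermat.Agent.S43.LG1.C1.CoreZX1OfPrincipal.PrincipalHyp1 N r p := by
  refine principalHyp1_of_datum hp hpr fun A hr hA hrN => ?_
  haveI := Fermat.Agent.S18.ResidueBasics.charP_residueField A hA
  haveI := hasPrincipalDivisors_F1pBar (N := N) hr hrN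
  haveI := hasPrincipalDivisors_F1C (N := N) hr hA hrN
  obtain ⟨gL, gk, H, X, ⟨Y⟩⟩ := HH A hr hA hrN
  exact ⟨x1DatumOf X Y⟩

end Fermat.Agent.S43.LG1.C1.CoreZX1Assembly
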