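/-
PROJECT R (S43), block G, brick C1 (= S34', the `X₁`-twin of S34's `X₀` instance layer), helper18:
**THE TWIN OF `S34/CoreZX0Build`**: THE NODAL DATUM `CoreZX1Datum.X1Datum` OF
`E'' = ℚ̄(X₁(N; r))` AS AN EXPLICIT TERM, with the node hypotheses in helper29's TWO-MAP form
`PcgCuspTw.Hyp2` (chart-0 functions described by the true cusps `cuspL` of the generic fibre).

Setting and first component: `CoreZX1Assembly.Inputs1 hr hA hrN H`, `R1 X`, `R2 X`, the two maps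
`FrX1` (Frobenius) and `Fr2X1 = D⁻¹ ∘ Fr` (`D` the reduced diamond on places).

* `stable2` : finite sets of places of `κ(A)(X₁(N))` lie in finite sets stable under `FrX1` and
  `Fr2X1` (`ResidueFrob2X1.exists_finite_stable2_X1`, hypothesis-free);
* `NodesC1 X` : the node set `S`, `cuspL`,
  `PcgCuspTw.Hyp2 (R1 X) (R2 X) FrX1 Fr2X1 (sp1 H) (sp2 H) cuspL S`, the genus of `E''`, the Euler
  characteristic inequality and `1 ≤ #S`;
* `nodalC1 X Y : GNodalDatum …` (`= PcgCuspTw.gNodalDatum2 …`, so `e1 b = Fr2X1 b`, `e2 b = b` by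
  `rfl`);
* `nodes1Of X Y : Nodes1 X`, `x1DatumOfC X Y : X1Datum hr hA hrN` with
  `(x1DatumOfC X Y).Nd = nodalC1 X Y`, `.S = Y.S` by `rfl`;
* `principalHyp1_of_inputsC`.
-/
import Fermat.Agent.S43.LG1.C1.CoreZX1Assembly
import Fermat.Agent.S43.LG1.C1.PcgCuspTw

set_option autoImplicit false
set_option linter.unusedSectionVars false
set_option linter.style.haveILetI false
set_option synthInstance.maxHeartbeats 400000

noncomputable section

namespace Fermat.Agent.S43.LG1.C1.CoreZX1Build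

open ModularCurve AlgebraicCurve IsLocalRing
open Fermat.Agent.S18.NonSpecial Fermat.Agent.S34.NodalDefs
open Fermat.Agent.S37.Deuring.Core
open Fermat.Agent.S48.B.Defs.Model Fermat.Agent.S48.B.B1.Seams
open Fermat.Agent.S48.B.ES.DegreeBeta1
open Fermat.Agent.S43.LG1.C1.Seam Fermat.Agent.S43.LG1.C1.Z1X1
open Fermat.Agent.S43.LG1.C1.CoreZX1Datum Fermat.Agent.S43.LG1.C1.CoreZX1Assembly
open Fermat.Agent.S43.LG1.C1.ResidueFrobX1

local notation "Kb" => AlgebraicClosure ℚ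

attribute [local instance] algShortcut1

/-- shortcut instances (all propositions) -/
local instance instPDBar1 (N : ℕ) [NeZero N] : HasPrincipalDivisors Kb ↥(F1Bar N) :=
  Fermat.Agent.S48.B.Inj.Basics.hasPrincipalDivisors_L
    (Fermat.Agent.S43.LG1.C1.LevelMSurjX1.isFF_jgen1 N)

local instance instACk1 (A : ValuationSubring Kb) : IsAlgClosed (ResidueField ↥A) :=
  Fermat.Agent.S18.ResidueBasics.isAlgClosed_residueField A

variable {r : ℕ} [hrF : Fact r.Prime] {N : ℕ} [NeZero N] {A : ValuationSubring Kb} [NeZero r]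
variable {hr : r.Prime} {hA : A.LiesOverPrime r} {hrN : ¬ r ∣ N}
variable [HasPrincipalDivisors Kb ↥(F1pBar N r)]
variable [HasPrincipalDivisors (ResidueField ↥A) ↥(F1C N (ResidueField ↥A))]
variable {gL gk : ℕ} {H : Hyp (gaussDatum1 N A hr hA hrN) gL gk}
variable [CharP (ResidueField ↥A) r]

variable (hr hA hrN) in
/-- **finite sets of places of `κ(A)(X₁(N))` lie in finite sets stable under both maps** -/
theorem stable2 (T : Set (Place (ResidueField ↥A) ↥(F1C N (ResidueField ↥A)))) (hT : T.Finite) :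
    ∃ T' : Set (Place (ResidueField ↥A) ↥(F1C N (ResidueField ↥A))), T'.Finite ∧ T ⊆ T' ∧
      (∀ Q, FrX1 A N r Q ∈ T' ↔ Q ∈ T') ∧ ∀ Q, Fr2X1 hr hA hrN Q ∈ T' ↔ Q ∈ T' := by
  obtain ⟨T', hfin, hsub, hFr, hD⟩ :=
    Fermat.Agent.S43.LG1.C1.ResidueFrob2X1.exists_finite_stable2_X1 hA N hrN T hT
  refine ⟨T', hfin, hsub, hFr, fun Q => ?_⟩
  rw [Fr2X1_apply]
  exact Fermat.Agent.S43.LG1.C1.ResidueFrob2X1.stable_symm_comp hFr
    (hD (Fermat.Agent.S43.LG1.C1.DiamondRed1.dbar1 hr hA hrN) (hdj1 hr hA hrN)) Q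

set_option maxHeartbeats 1600000 in
/-- **The nodes** (final form): what `EulerClosedX1` + `PcgX1` deliver. -/
structure NodesC1 (X : Inputs1 hr hA hrN H) where
  /-- the nodes, as places of the second component -/
  S : Finset (Place (ResidueField ↥A) ↥(F1C N (ResidueField ↥A)))
  /-- the true cusps of `X₁(N; r)` -/
  cuspL : Set (Place Kb ↥(F1pBar N r))
  hyp : Fermat.Agent.S43.LG1.C1.PcgCuspTw.Hyp2 (R1 X) (R2 X) (FrX1 A N r) (Fr2X1 hr hA hrN)
    (sp1 H) (sp2 H) cuspL S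
  /-- the genus of `E''` -/
  gE : ℕ
  HL : RiemannHyp Kb ↥(F1pBar N r) gE
  /-- (NC), Euler characteristic -/
  hNC : (gE : ℤ) + 1 ≤ gk + gk + S.card
  /-- the nodes exist -/
  hcard : 1 ≤ S.card

/-- the nodal datum -/
def nodalC1 (X : Inputs1 hr hA hrN H) (Y : NodesC1 X) :
    GNodalDatum A (residue ↥A) ↥(F1pBar N r)
      ↥(F1C N (ResidueField ↥A)) ↥(F1C N (ResidueField ↥A)) {b // b ∈ Y.S} :=
  Fermat.Agent.S43.LG1.C1.PcgCuspTw.gNodalDatum2 (R1 X) (R2 X) (FrX1 A N r) (Fr2X1 hr hA hrN)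
    (sp1 H) (sp2 H) Y.cuspL Y.S Y.hyp X.finite_compl (excl X) X.Fr_mem_iff X.Fr2_mem_iff
    (stable2 hr hA hrN)

@[simp] theorem nodalC1_R1 (X : Inputs1 hr hA hrN H) (Y : NodesC1 X) :
    (nodalC1 X Y).R1 = R1 X := rfl

@[simp] theorem nodalC1_R2 (X : Inputs1 hr hA hrN H) (Y : NodesC1 X) :
    (nodalC1 X Y).R2 = R2 X := rfl

@[simp] theorem nodalC1_e1 (X : Inputs1 hr hA hrN H) (Y : NodesC1 X) (b : {b // b ∈ Y.S}) :
    (nodalC1 X Y).e1 b = Fr2X1 hr hA hrN b.1 := rfl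

@[simp] theorem nodalC1_e2 (X : Inputs1 hr hA hrN H) (Y : NodesC1 X) (b : {b // b ∈ Y.S}) :
    (nodalC1 X Y).e2 b = b.1 := rfl

theorem nodalC1_adm_iff (X : Inputs1 hr hA hrN H) (Y : NodesC1 X)
    (S1 S2 : Set (Place (ResidueField ↥A) ↥(F1C N (ResidueField ↥A)))) :
    (nodalC1 X Y).Adm S1 S2 ↔ Fermat.Agent.S43.LG1.C1.PcgCuspTw.Adm2
      (FrX1 A N r) (Fr2X1 hr hA hrN) X.good S1 S2 := Iff.rfl

/-- the record of `CoreZX1Assembly` -/
def nodes1Of (X : Inputs1 hr hA hrN H) (Y : NodesC1 X) : Nodes1 X where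
  S := Y.S
  Nd := nodalC1 X Y
  R1_eq := rfl
  R2_eq := rfl
  e2_injective := Fermat.Agent.S43.LG1.C1.PcgCuspTw.injective_e2 _ _ _ _ _ _ _ _ _ _ _ _ _ _
  adm_finite := Fermat.Agent.S43.LG1.C1.PcgCuspTw.adm_finite _ _ _ _ _ _ _ _ _ _ _ _ _ _
  gE := Y.gE
  HL := Y.HL
  hNC := Y.hNC
  hcard := Y.hcard

/-- **The nodal datum of `E'' = ℚ̄(X₁(N; r))`, as a term.** -/
def x1DatumOfC (X : Inputs1 hr hA hrN H) (Y : NodesC1 X) : X1Datum (N := N) (A := A) hr hA hrN :=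
  x1DatumOf X (nodes1Of X Y)

@[simp] theorem x1DatumOfC_S (X : Inputs1 hr hA hrN H) (Y : NodesC1 X) :
    (x1DatumOfC X Y).S = Y.S := rfl

@[simp] theorem x1DatumOfC_Nd (X : Inputs1 hr hA hrN H) (Y : NodesC1 X) :
    (x1DatumOfC X Y).Nd = nodalC1 X Y := rfl

/-- **(Core-Z) at `E'' = ℚ̄(X₁(N; r))` in divisor language, from the producers' outputs.** -/
theorem principalHyp1_of_inputsC {N r p : ℕ} [NeZero N] [Fact r.Prime] [NeZero r] (hp : p.Prime)
    (hpr : p ≠ r)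
    (HH : ∀ (A : ValuationSubring Kb) (hr : r.Prime) (hA : A.LiesOverPrime r) (hrN : ¬ r ∣ N),
      haveI := Fermat.Agent.S18.ResidueBasics.charP_residueField A hA
      haveI := hasPrincipalDivisors_F1pBar (N := N) hr hrN
      haveI := hasPrincipalDivisors_F1C (N := N) hr hA hrN
      ∃ (gL gk : ℕ) (H : Hyp (gaussDatum1 N A hr hA hrN) gL gk) (X : Inputs1 hr hA hrN H),
        Nonempty (NodesC1 X)) :
    Fermat.Agent.S43.LG1.C1.CoreZX1OfPrincipal.PrincipalHyp1 N r p := by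
  refine principalHyp1_of_inputs hp hpr fun A hr hA hrN => ?_
  haveI := Fermat.Agent.S18.ResidueBasics.charP_residueField A hA
  haveI := hasPrincipalDivisors_F1pBar (N := N) hr hrN
  haveI := hasPrincipalDivisors_F1C (N := N) hr hA hrN
  obtain ⟨gL, gk, H, X, ⟨Y⟩⟩ := HH A hr hA hrN
  exact ⟨gL, gk, H, X, ⟨nodes1Of X Y⟩⟩

end Fermat.Agent.S43.LG1.C1.CoreZX1Build
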