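/-
S43 (row 37), PROJECT R, block `LG1`, brick `C1` (twin of `S34` at `X₁(N)`), file
`EulerNodesFinalX1` (helper23): twin of main's `S34/EulerNodesFinalX0`.

**The node set of `X₁(N; r)` mod `r` from the two-map reduction dictionary alone.**

helper11's `EulerNodesX1.exists_nodes_of_dict2` with its remaining level-`N` and restriction
hypotheses discharged:

* `H : Hyp (gaussDatumIgusa (igusaDegN N) hr hrN hA) gM gM` from Riemann's theorem `HM` on
  `κ(X₁(N))` alone (`HypX1.hyp_of_riemannHyp1`);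
* `ra`, `rb` := `Generic/RestrAlong.restrAlong` along `α`, `β` (helper7's
  `Generic/FibX1.isIntegral_alpha1`, `isIntegral_beta1`).

So the Euler side of the final assembly needs exactly: the dictionary `d` (at `φ = FrobKGen.phi`,
`ψ = FrobSideX1.psiD = φ ∘ d̄`, `d̄` the reduced diamond, a variable with `hdψ`, `hdj`), Riemann's
theorem on both fields and the two ideal statements `hJ₀`, `hJ₁` (`HoloIdealGen` through
`Euler/ChartFullCX1.HJ2`).
-/
import Mathlib
import Fermat.Agent.S43.LG1.C1.EulerNodesX1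
import Fermat.Agent.S43.LG1.C1.HypX1
import Fermat.Agent.S43.LG1.C1.Generic.FibX1

set_option autoImplicit false
set_option linter.unusedSectionVars false
set_option linter.style.haveILetI false

noncomputable section

namespace Fermat.Agent.S43.LG1.C1.EulerNodesFinalX1

open ModularCurve AlgebraicCurve IsLocalRing IntermediateField
open Fermat.Agent.S48.B.Defs.Model Fermat.Agent.S48.B.B1.Seams
open Fermat.Agent.S48.B.ES.DegreeBeta1
open Fermat.Agent.S48.B.Red.Seams (jC IgusaDeg)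
open Fermat.Agent.S48.B.Red.Bases1 (gaussDatumIgusa)
open Fermat.Agent.S18.NonSpecial Fermat.Agent.S37.Deuring.Core
open Fermat.Agent.S34.Euler.RedPair Fermat.Agent.S34.Generic.Compat
  Fermat.Agent.S34.Generic.RestrAlong
open Fermat.Agent.S43.LG1.C1.Seam
open Fermat.Agent.S43.LG1.C1.EulerX1 Fermat.Agent.S43.LG1.C1.PairDictSwapTw
open Fermat.Agent.S43.LG1.C1.EulerNodesX1
open Fermat.Agent.S43.LG1.C1.FrobKGen Fermat.Agent.S43.LG1.C1.Euler.FrobSideX1
  Fermat.Agent.S43.LG1.C1.Euler.ChartFullCX1 Fermat.Agent.S43.LG1.C1.EulerChartsX1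
open Fermat.Agent.S34.Euler.Places Fermat.Agent.S34.Euler.Value Fermat.Agent.S34.Euler.Chart

local notation "Kb" => AlgebraicClosure ℚ

set_option synthInstance.maxHeartbeats 400000

attribute [local instance] Fermat.Agent.S43.LG1.C1.Seam.algShortcut1

variable {N r : ℕ} [NeZero N] [NeZero r] (hr : r.Prime) (hrN : ¬ r ∣ N) [hrF : Fact r.Prime]
variable {A : ValuationSubring Kb} (hA : A.LiesOverPrime r)
variable {G₁ G₂ : GaussDatum A (residue ↥A) ↥(F1pBar N r) ↥(F1C N (ResidueField ↥A))}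

/-- the restriction data along `α` -/
def raX1 : Restr Kb (αR N r) :=
  restrAlong (alpha1 N r Kb) (Fermat.Agent.S43.LG1.C1.Generic.FibX1.isIntegral_alpha1 hr hrN)

/-- the restriction data along `β` -/
def rbX1 : Restr Kb (βR N r) :=
  restrAlong (beta1 N r Kb) (Fermat.Agent.S43.LG1.C1.Generic.FibX1.isIntegral_beta1 hr hrN)

variable [HasPrincipalDivisors Kb ↥(F1Bar N)]
variable [HasPrincipalDivisors (ResidueField ↥A) ↥(F1C N (ResidueField ↥A))]
variable [HasPrincipalDivisors Kb ↥(F1pBar N r)]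
variable [CharP (ResidueField ↥A) r] [PerfectField (ResidueField ↥A)]
variable [IsAlgClosed (ResidueField ↥A)]
variable [FiniteDimensional
  ↥(ResidueField ↥A)⟮Fermat.Agent.S48.B.Inj.Basics.jC
    (Fermat.Agent.S48.B.Red.Seams.jqModC_mem_F1C N (ResidueField ↥A))⟯
  ↥(F1C N (ResidueField ↥A))]

variable (dd : ↥(F1C N (ResidueField ↥A)) ≃ₐ[ResidueField ↥A] ↥(F1C N (ResidueField ↥A)))
variable (hdψ : ∀ x : ↥(F1C N (ResidueField ↥A)),
  dd (psi (hC1 N A) r x) = psi (hC1 N A) r (dd x))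
variable (hdj : dd (Fermat.Agent.S48.B.Inj.Basics.jC (hJ1 N A)) =
  Fermat.Agent.S48.B.Inj.Basics.jC (hJ1 N A))

include hdj in
/-- **The nodes of `X₁(N; r)` mod `r`, the genus inequality and the chart-0 gluing**, from the
two-map reduction dictionary, Riemann's theorem on both fields and the two ideal statements. -/
theorem exists_nodes_final
    (d : PairDict2 (gaussDatumIgusa (igusaDegN N) hr hrN hA) G₁ G₂ (αR N r) (βR N r)
      (fun g => phi (hC1 N A) r g) (fun g => psiD (hC1 N A) r dd g))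
    {g gM : ℕ} (HL : RiemannHyp Kb ↥(F1pBar N r) g)
    (HM : RiemannHyp (ResidueField ↥A) ↥(F1C N (ResidueField ↥A)) gM)
    {T₀ : ↥(holo (P0 (hJ1 N A))) → ↥(holo (P0 (hJ1 N A)))}
    (hT₀ : ∀ u : holo (P0 (hJ1 N A)),
      ((T₀ u : ↥(holo (P0 (hJ1 N A)))) : ↥(F1C N (ResidueField ↥A))) =
        dd (phi (hC1 N A) r (phi (hC1 N A) r (u : ↥(F1C N (ResidueField ↥A))))))
    (hJ₀ : HJ2 (hC1 N A) (hJ1 N A) r dd hdψ hdj (P0 (hJ1 N A)) T₀)
    {T₁ : ↥(holo (P1 (hJ1 N A))) → ↥(holo (P1 (hJ1 N A)))}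
    (hT₁ : ∀ u : holo (P1 (hJ1 N A)),
      ((T₁ u : ↥(holo (P1 (hJ1 N A)))) : ↥(F1C N (ResidueField ↥A))) =
        dd (phi (hC1 N A) r (phi (hC1 N A) r (u : ↥(F1C N (ResidueField ↥A))))))
    (hJ₁ : HJ2 (hC1 N A) (hJ1 N A) r dd hdψ hdj (P1 (hJ1 N A)) T₁) :
    ∃ S : Finset (Place (ResidueField ↥A) ↥(F1C N (ResidueField ↥A))),
      (∀ b ∈ S, Fr (hC1 N A) r (Fr (hC1 N A) r ((Dp dd).symm b)) = b ∧ b ∉ P0 (hJ1 N A)) ∧
      (g : ℤ) + 1 ≤ gM + gM + S.card ∧
      ∀ h₁ h₂ : ↥(F1C N (ResidueField ↥A)),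
        h₁ ∈ regOff (P0 (hJ1 N A)) → h₂ ∈ regOff (P0 (hJ1 N A)) →
        ((h₁, h₂) ∈ Rbar0 G₁ G₂ (isPoleDiv_xE hr hrN).nonneg ↔
          ∀ b ∈ S, ∃ c : ResidueField ↥A,
            HasValue (FrD (hC1 N A) r dd b) h₁ c ∧ HasValue b h₂ c) :=
  exists_nodes_of_dict2 hr hrN hA dd hdψ hdj d
    (Fermat.Agent.S43.LG1.C1.HypX1.hyp_of_riemannHyp1 (igusaDegN N) hr hrN hA HM)
    (raX1 hr hrN) (rbX1 hr hrN) HL hT₀ hJ₀ hT₁ hJ₁

end Fermat.Agent.S43.LG1.C1.EulerNodesFinalX1
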