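/-
PROJECT R (S43), gate G, block C1 = S34' (helper5): the ABSTRACT two-map twin of
`S34/PairDictSwap` + the structure `S34/Euler/ChartLift.PairDict`.

On `X₀(M q)` the Atkin–Lehner automorphism is an involution swapping the two degeneracy maps,
`w ∘ α = β`, `w ∘ β = α`, and the reduction dictionary has ONE Frobenius `φ` in both cross terms.
On `X₁(N; r)` (`Γ₁(N) ∩ Γ₀(r)`) the automorphism `W` of main
(`S48/B/Hecke/Swap/Aut.exists_atkinLehner`) satisfies `W ∘ β = α` and `W ∘ α = β ∘ d` with `d` a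
diamond automorphism: `W ∘ W` is a diamond, not the identity.  With `V₂ := V₁.comap W`,
`red₂ := red₁ ∘ W` the dictionary becomes

  `red₁ (α g) = ḡ`, `red₁ (β g) = φ ḡ`, `red₂ (β g) = ḡ`, `red₂ (α g) = ψ ḡ`, `ψ = φ ∘ d̄`,

with `d̄` the reduction of `d`.

* `PairDict2 GM G₁ G₂ α β φ ψ` : the two-map dictionary (`PairDict` is the case `ψ = φ`);
* `pairDict2_of_swap` : the dictionary from its `V₁`-half and the twisted swap;
* `PairDict2.toPairDict`, `PairDict2.ofPairDict` : the comparison with main's `PairDict`.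
-/
import Mathlib
import Fermat.Agent.S34.PairDictSwap

set_option autoImplicit false

noncomputable section

namespace Fermat.Agent.S43.LG1.C1.PairDictSwapTw

open Fermat.Agent.S37.Deuring.Core Fermat.Agent.S34.NodalDefs
open Fermat.Agent.S34.Euler.ChartLift Fermat.Agent.S34.PairDictSwap Fermat.Agent.S34.Euler.RedPair

variable {L : Type*} [Field L] {k : Type*} [Field k]
variable {A : ValuationSubring L} {π : A →+* k}
variable {FM : Type*} [Field FM] [Algebra L FM]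
variable {FL : Type*} [Field FL] [Algebra L FL]
variable {κ : Type*} [Field κ] [Algebra k κ]

/-- **The two-map reduction dictionary**: `(red₁, red₂)(α g) = (ḡ, ψ ḡ)` and
`(red₁, red₂)(β g) = (φ ḡ, ḡ)` for `g ∈ GM.O`. -/
structure PairDict2 (GM : GaussDatum A π FM κ) (G₁ G₂ : GaussDatum A π FL κ)
    (α β : FM →+* FL) (φ ψ : κ → κ) : Prop where
  alpha_mem₁ : ∀ g : GM.O, α (g : FM) ∈ G₁.O
  alpha_mem₂ : ∀ g : GM.O, α (g : FM) ∈ G₂.O
  beta_mem₁ : ∀ g : GM.O, β (g : FM) ∈ G₁.O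
  beta_mem₂ : ∀ g : GM.O, β (g : FM) ∈ G₂.O
  red₁_alpha : ∀ g : GM.O, G₁.red ⟨α (g : FM), alpha_mem₁ g⟩ = GM.red g
  red₂_alpha : ∀ g : GM.O, G₂.red ⟨α (g : FM), alpha_mem₂ g⟩ = ψ (GM.red g)
  red₁_beta : ∀ g : GM.O, G₁.red ⟨β (g : FM), beta_mem₁ g⟩ = φ (GM.red g)
  red₂_beta : ∀ g : GM.O, G₂.red ⟨β (g : FM), beta_mem₂ g⟩ = GM.red g

namespace PairDict2

variable {GM : GaussDatum A π FM κ} {G₁ G₂ : GaussDatum A π FL κ}
variable {α β : FM →+* FL} {φ ψ : κ → κ}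

/-- main's one-map dictionary is the case `ψ = φ` -/
theorem ofPairDict (d : PairDict GM G₁ G₂ α β φ) : PairDict2 GM G₁ G₂ α β φ φ :=
  ⟨d.alpha_mem₁, d.alpha_mem₂, d.beta_mem₁, d.beta_mem₂, d.red₁_alpha, d.red₂_alpha,
    d.red₁_beta, d.red₂_beta⟩

theorem toPairDict (d : PairDict2 GM G₁ G₂ α β φ φ) : PairDict GM G₁ G₂ α β φ :=
  ⟨d.alpha_mem₁, d.alpha_mem₂, d.beta_mem₁, d.beta_mem₂, d.red₁_alpha, d.red₂_alpha,
    d.red₁_beta, d.red₂_beta⟩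

theorem redPair_alpha (d : PairDict2 GM G₁ G₂ α β φ ψ) (g : GM.O) :
    redPair G₁ G₂ (α (g : FM)) (d.alpha_mem₁ g) (d.alpha_mem₂ g) = (GM.red g, ψ (GM.red g)) := by
  unfold redPair
  rw [d.red₁_alpha, d.red₂_alpha]

theorem redPair_beta (d : PairDict2 GM G₁ G₂ α β φ ψ) (g : GM.O) :
    redPair G₁ G₂ (β (g : FM)) (d.beta_mem₁ g) (d.beta_mem₂ g) = (φ (GM.red g), GM.red g) := by
  unfold redPair
  rw [d.red₁_beta, d.red₂_beta]

/-- `x = α u · β u` lies in `O₁ ∩ O₂` -/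
theorem mul_mem₁ (d : PairDict2 GM G₁ G₂ α β φ ψ) (u : GM.O) :
    α (u : FM) * β (u : FM) ∈ G₁.O := G₁.O.mul_mem _ _ (d.alpha_mem₁ u) (d.beta_mem₁ u)

theorem mul_mem₂ (d : PairDict2 GM G₁ G₂ α β φ ψ) (u : GM.O) :
    α (u : FM) * β (u : FM) ∈ G₂.O := G₂.O.mul_mem _ _ (d.alpha_mem₂ u) (d.beta_mem₂ u)

/-- `red₁ (α u · β u) = ū · φ ū` -/
theorem red₁_mul (d : PairDict2 GM G₁ G₂ α β φ ψ) (u : GM.O) :
    G₁.red ⟨α (u : FM) * β (u : FM), d.mul_mem₁ u⟩ = GM.red u * φ (GM.red u) := by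
  have h : (⟨α (u : FM) * β (u : FM), d.mul_mem₁ u⟩ : G₁.O) =
      ⟨α (u : FM), d.alpha_mem₁ u⟩ * ⟨β (u : FM), d.beta_mem₁ u⟩ := rfl
  rw [h, map_mul, d.red₁_alpha, d.red₁_beta]

/-- `red₂ (α u · β u) = ψ ū · ū` -/
theorem red₂_mul (d : PairDict2 GM G₁ G₂ α β φ ψ) (u : GM.O) :
    G₂.red ⟨α (u : FM) * β (u : FM), d.mul_mem₂ u⟩ = ψ (GM.red u) * GM.red u := by
  have h : (⟨α (u : FM) * β (u : FM), d.mul_mem₂ u⟩ : G₂.O) =
      ⟨α (u : FM), d.alpha_mem₂ u⟩ * ⟨β (u : FM), d.beta_mem₂ u⟩ := rfl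
  rw [h, map_mul, d.red₂_alpha, d.red₂_beta]

end PairDict2

/-- **The two-map dictionary from its first half and the twisted swap `w`**:
`w ∘ β = α`, `w ∘ α = β ∘ d`, where `d` preserves `GM.O` and reduces to `dbar`. -/
theorem pairDict2_of_swap (GM : GaussDatum A π FM κ) (G₁ : GaussDatum A π FL κ)
    (α β : FM →+* FL) (w : FL ≃ₐ[L] FL) (d : FM → FM) (dbar : κ → κ)
    (hwβ : ∀ g : FM, w (β g) = α g) (hwα : ∀ g : FM, w (α g) = β (d g))
    (hdO : ∀ g : GM.O, d (g : FM) ∈ GM.O)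
    (hdred : ∀ g : GM.O, GM.red ⟨d (g : FM), hdO g⟩ = dbar (GM.red g)) (φ : κ → κ)
    (hα : ∀ g : GM.O, α (g : FM) ∈ G₁.O) (hβ : ∀ g : GM.O, β (g : FM) ∈ G₁.O)
    (hredα : ∀ g : GM.O, G₁.red ⟨α (g : FM), hα g⟩ = GM.red g)
    (hredβ : ∀ g : GM.O, G₁.red ⟨β (g : FM), hβ g⟩ = φ (GM.red g)) :
    PairDict2 GM G₁ (gaussDatumComap G₁ w) α β φ (fun y => φ (dbar y)) where
  alpha_mem₁ := hα
  alpha_mem₂ := fun g => by
    rw [mem_gaussDatumComap_O, hwα]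
    exact hβ ⟨d (g : FM), hdO g⟩
  beta_mem₁ := hβ
  beta_mem₂ := fun g => by
    rw [mem_gaussDatumComap_O, hwβ]
    exact hα g
  red₁_alpha := hredα
  red₂_alpha := fun g => by
    rw [gaussDatumComap_red_mk, ← hdred g, ← hredβ ⟨d (g : FM), hdO g⟩]
    congr 1
    exact Subtype.ext (hwα _)
  red₁_beta := hredβ
  red₂_beta := fun g => by
    rw [gaussDatumComap_red_mk, ← hredα g]
    congr 1
    exact Subtype.ext (hwβ _)

/-- the untwisted case `d = id` recovers main's `pairDict_of_swap` -/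
theorem pairDict_of_swap_id (GM : GaussDatum A π FM κ) (G₁ : GaussDatum A π FL κ)
    (α β : FM →+* FL) (w : FL ≃ₐ[L] FL)
    (hwα : ∀ g : FM, w (α g) = β g) (hwβ : ∀ g : FM, w (β g) = α g) (φ : κ → κ)
    (hα : ∀ g : GM.O, α (g : FM) ∈ G₁.O) (hβ : ∀ g : GM.O, β (g : FM) ∈ G₁.O)
    (hredα : ∀ g : GM.O, G₁.red ⟨α (g : FM), hα g⟩ = GM.red g)
    (hredβ : ∀ g : GM.O, G₁.red ⟨β (g : FM), hβ g⟩ = φ (GM.red g)) :
    PairDict2 GM G₁ (gaussDatumComap G₁ w) α β φ φ :=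
  PairDict2.ofPairDict (pairDict_of_swap GM G₁ α β w hwα hwβ φ hα hβ hredα hredβ)

end Fermat.Agent.S43.LG1.C1.PairDictSwapTw
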