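import Mathlib
import Fermat.Agent.S34.CuspRegular

/-!
# PROJECT R (S43), block G / C1: `j_q / j ^ q` is regular at the poles of `j`, generic form

The generic form of `Fermat.Agent.S34.CuspRegular`: `E` any field over `ℚ̄`, `jE jl : E` nonzero and
related by the modular polynomial, `Φ_q(jl, jE) = 0` (`hroot`).  On `X₀(M q)` this is main's
`S34/CuspRegular`; on `X₁(N; r)` take `jE = α₁(j)`, `jl = β₁(j)`.

* `adicValuation_jl_le` : at every place `P` of `E` with `1 ≤ |jE|_P`: `|jl|_P ≤ |jE|_P ^ q`;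
* `adicValuation_jl_le_one`, `ord_jl_ge`, `ord_jl_nonneg`;
* `jl_pow_mem_rr` : `jl ^ (q + 1) ∈ L(q (x)_∞)`, `x = jE jl`;
* `exists_cusp_witness`, `cusp_gen` : the (CUSP) clause of `Euler/Chart.genus_le_of_charts`.
-/

set_option autoImplicit false
set_option linter.unusedSectionVars false
set_option linter.style.haveILetI false

noncomputable section

namespace Fermat.Agent.S43.LG1.C1.CuspRegularGen

open Polynomial AlgebraicCurve
open Fermat.Agent.S34.TwoGaussX0 Fermat.Agent.S34.ModPolyDegree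
open Fermat.Agent.S34.CuspRegular (valuation_le_of_monic_root valuation_aeval_le valuation_aeval_le_one)

local notation "Kb" => AlgebraicClosure ℚ

variable {E : Type*} [Field E] [Algebra Kb E] (q : ℕ) [hq : Fact q.Prime] (jE jl : E)

/-- `Φ_q(X, jE) ∈ E[X]` -/
def PhiE : Polynomial E :=
  (modPolyZ q).map ((aeval jE : Polynomial ℤ →ₐ[ℤ] E) : Polynomial ℤ →+* E)

theorem PhiE_monic : (PhiE q jE).Monic := modPolyZ_monic.map _

theorem natDegree_PhiE : (PhiE q jE).natDegree = q + 1 := by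
  rw [PhiE, modPolyZ_monic.natDegree_map, natDegree_modPolyZ]

theorem coeff_PhiE (a : ℕ) : (PhiE q jE).coeff a = aeval jE ((modPolyZ q).coeff a) := by
  rw [PhiE, Polynomial.coeff_map]
  rfl

/-! ### the pole inequality -/

variable {q jE jl}

theorem adicValuation_intCast_le_one (P : Place Kb E) (n : ℤ) :
    P.adicValuation ((n : ℤ) : E) ≤ 1 := by
  have h := P.adicValuation_algebraMap_le_one ((n : ℤ) : Kb)
  rwa [map_intCast] at h

variable (hroot : (PhiE q jE).eval jl = 0)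

include hroot

/-- **`|jl|_P ≤ |jE|_P ^ q` at the poles of `jE`** -/
theorem adicValuation_jl_le (P : Place Kb E) (h : 1 ≤ P.adicValuation jE) :
    P.adicValuation jl ≤ P.adicValuation jE ^ q := by
  have hq1 : 1 ≤ q := hq.out.one_le
  refine valuation_le_of_monic_root P.adicValuation (PhiE_monic q jE) hroot ?_
  intro a ha
  rw [natDegree_PhiE] at ha ⊢
  rw [coeff_PhiE, ← pow_mul]
  rcases Nat.lt_succ_iff_lt_or_eq.mp ha with ha' | rfl
  · refine (valuation_aeval_le P.adicValuation (adicValuation_intCast_le_one P) h _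
      (natDegree_coeff_modPolyZ_le a)).trans ?_
    apply pow_le_pow_right₀ h
    have h2 : 2 ≤ q + 1 - a := by omega
    calc q + 1 ≤ q * 2 := by omega
      _ ≤ q * (q + 1 - a) := Nat.mul_le_mul_left q h2
  · refine (valuation_aeval_le P.adicValuation (adicValuation_intCast_le_one P) h _
      natDegree_coeff_modPolyZ_q_le).trans ?_
    apply pow_le_pow_right₀ h
    have : a + 1 - a = 1 := by omega
    rw [this, mul_one]

/-- `jl` is regular where `jE` is -/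
theorem adicValuation_jl_le_one (P : Place Kb E) (h : P.adicValuation jE ≤ 1) :
    P.adicValuation jl ≤ 1 := by
  refine valuation_le_of_monic_root P.adicValuation (PhiE_monic q jE) hroot ?_
  intro a _
  rw [coeff_PhiE, one_pow]
  exact valuation_aeval_le_one P.adicValuation (adicValuation_intCast_le_one P) h _

/-! ### `ord` forms -/

variable (hjE : jE ≠ 0) (hjl : jl ≠ 0)

include hjE hjl

/-- `jl` is regular where `jE` is, `ord` form -/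
theorem ord_jl_nonneg (P : Place Kb E) (h : 0 ≤ P.ord jE) : 0 ≤ P.ord jl := by
  have h1 : P.adicValuation jE ≤ 1 := P.adicValuation_le_one_iff.mpr (Or.inr h)
  rcases P.adicValuation_le_one_iff.mp (adicValuation_jl_le_one hroot P h1) with h2 | h2
  · exact absurd h2 hjl
  · exact h2

/-- **`q · ord_P jE ≤ ord_P jl` at the poles of `jE`** -/
theorem ord_jl_ge (P : Place Kb E) (h : P.ord jE < 0) : (q : ℤ) * P.ord jE ≤ P.ord jl := by
  have h1 : 1 ≤ P.adicValuation jE :=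
    le_of_lt (not_le.mp (P.not_adicValuation_le_one_iff.mpr h))
  have h2 := adicValuation_jl_le hroot P h1
  have hne : jE ^ q ≠ 0 := pow_ne_zero q hjE
  have h3 : P.adicValuation (jl / jE ^ q) ≤ 1 := by
    rw [map_div₀, map_pow]
    exact div_le_one_of_le₀ h2 zero_le
  rcases P.adicValuation_le_one_iff.mp h3 with h4 | h4
  · exact absurd h4 (div_ne_zero hjl hne)
  · rw [Fermat.Agent.S18.CoreOrd.ord_div P hjl hne, Fermat.Agent.S18.CoreOrd.ord_pow] at h4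
    omega

/-! ### the cusp witness `f = jl ^ (q + 1) = x ^ q · (jl / jE ^ q)` -/

open Fermat.Agent.S18.NonSpecial Fermat.Agent.S37.Deuring.Core Fermat.Agent.S34.Euler.RedPair

/-- **`jl ^ (q + 1) ∈ L(q (x)_∞)`**, `x = jE jl` -/
theorem jl_pow_mem_rr {D : Divisor Kb E} (hD : IsPoleDiv (jE * jl) D) :
    jl ^ (q + 1) ∈ riemannRochSpace (q • D) := by
  have hne : jl ^ (q + 1) ≠ 0 := pow_ne_zero _ hjl
  rw [Fermat.Agent.S18.A.Riemann.mem_iff_of_ne_zero hne]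
  intro P
  rw [Fermat.Agent.S18.CoreOrd.ord_pow, Finsupp.smul_apply, hD P, P.ord_mul hjE hjl, nsmul_eq_mul]
  push_cast
  have hq0 : (0 : ℤ) ≤ q := Int.natCast_nonneg q
  rcases lt_or_ge (P.ord jE) 0 with h | h
  · have h1 := ord_jl_ge hroot hjE hjl P h
    have h2 : -(P.ord jE + P.ord jl) ≤ max 0 (-(P.ord jE + P.ord jl)) := le_max_right _ _
    nlinarith
  · have h1 := ord_jl_nonneg hroot hjE hjl P h
    have h2 : (0 : ℤ) ≤ max 0 (-(P.ord jE + P.ord jl)) := le_max_left _ _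
    nlinarith

section Witness

variable {k : Type*} [Field k] {A : ValuationSubring Kb} {π : A →+* k}
variable {κ : Type*} [Field κ] [Algebra k κ]

/-- **the (CUSP) witness of `Euler/Chart.cusp_of_witness`**, hypotheses-first on a pair of Gauss
data of `E` with `red₁ jE = j̄`, `red₁ jl = j̄ ^ q`, `red₂ jE = j̄ ^ q`, `red₂ jl = j̄`:
`p = red (jl ^ (q + 1)) ∈ redSpace₂ (q (x)_∞)`, `p.1 = x̄₁ ^ q`, `p.2 · j̄ ^ (q² - 1) = x̄₂ ^ q`. -/
theorem exists_cusp_witness (G₁ G₂ : GaussDatum A π E κ)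
    (hj₁ : jE ∈ G₁.O) (hj₂ : jE ∈ G₂.O) (hl₁ : jl ∈ G₁.O) (hl₂ : jl ∈ G₂.O)
    {jb : κ} (h11 : G₁.red ⟨jE, hj₁⟩ = jb) (h12 : G₁.red ⟨jl, hl₁⟩ = jb ^ q)
    (h21 : G₂.red ⟨jE, hj₂⟩ = jb ^ q) (h22 : G₂.red ⟨jl, hl₂⟩ = jb)
    {D : Divisor Kb E} (hD : IsPoleDiv (jE * jl) D)
    (hxO₁ : jE * jl ∈ G₁.O) (hxO₂ : jE * jl ∈ G₂.O) :
    ∃ p ∈ redSpace₂ G₁ G₂ (q • D), p.1 = G₁.red ⟨jE * jl, hxO₁⟩ ^ q ∧
      p.2 * jb ^ (q ^ 2 - 1) = G₂.red ⟨jE * jl, hxO₂⟩ ^ q := by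
  have hx₁ : G₁.red ⟨jE * jl, hxO₁⟩ = jb ^ (q + 1) := by
    have e : (⟨jE * jl, hxO₁⟩ : G₁.O) = ⟨jE, hj₁⟩ * ⟨jl, hl₁⟩ := rfl
    rw [e, map_mul, h11, h12, pow_succ']
  have hx₂ : G₂.red ⟨jE * jl, hxO₂⟩ = jb ^ (q + 1) := by
    have e : (⟨jE * jl, hxO₂⟩ : G₂.O) = ⟨jE, hj₂⟩ * ⟨jl, hl₂⟩ := rfl
    rw [e, map_mul, h21, h22, pow_succ]
  have hf₁ : jl ^ (q + 1) ∈ G₁.O := G₁.O.pow_mem hl₁ _
  have hf₂ : jl ^ (q + 1) ∈ G₂.O := G₂.O.pow_mem hl₂ _
  refine ⟨redPair G₁ G₂ (jl ^ (q + 1)) hf₁ hf₂,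
    ⟨jl ^ (q + 1), hf₁, hf₂, jl_pow_mem_rr hroot hjE hjl hD, rfl⟩, ?_, ?_⟩
  · show G₁.red ⟨jl ^ (q + 1), hf₁⟩ = _
    have e : (⟨jl ^ (q + 1), hf₁⟩ : G₁.O) = ⟨jl, hl₁⟩ ^ (q + 1) := rfl
    rw [e, map_pow, h12, hx₁, ← pow_mul, ← pow_mul, mul_comm]
  · show G₂.red ⟨jl ^ (q + 1), hf₂⟩ * _ = _
    have e : (⟨jl ^ (q + 1), hf₂⟩ : G₂.O) = ⟨jl, hl₂⟩ ^ (q + 1) := rfl
    rw [e, map_pow, h22, hx₂, ← pow_add, ← pow_mul]
    congr 1
    have hq1 : 1 ≤ q ^ 2 := Nat.one_le_pow _ _ hq.out.pos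
    have : q ^ 2 = q * q := sq q
    nlinarith [Nat.sub_add_cancel hq1]

/-- **(CUSP) of `Euler/Chart.genus_le_of_charts`, generic form**, hypotheses-first on the pair of
Gauss data: `P₀` consists of poles of `j̄`, `P₁` contains the zeros of `j̄`. -/
theorem cusp_gen (G₁ G₂ : GaussDatum A π E κ)
    (hj₁ : jE ∈ G₁.O) (hj₂ : jE ∈ G₂.O) (hl₁ : jl ∈ G₁.O) (hl₂ : jl ∈ G₂.O)
    {jb : κ} (h11 : G₁.red ⟨jE, hj₁⟩ = jb) (h12 : G₁.red ⟨jl, hl₁⟩ = jb ^ q)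
    (h21 : G₂.red ⟨jE, hj₂⟩ = jb ^ q) (h22 : G₂.red ⟨jl, hl₂⟩ = jb)
    {D : Divisor Kb E} (hD : IsPoleDiv (jE * jl) D)
    (hxO₁ : jE * jl ∈ G₁.O) (hxO₂ : jE * jl ∈ G₂.O)
    {Fr : Place k κ → Place k κ} {P₀ P₁ : Set (Place k κ)}
    (hP₀ : ∀ b ∈ P₀, b.ord jb < 0) (hP₁ : ∀ v, 0 < v.ord jb → v ∈ P₁)
    (Z₁ : Finset (Place k κ)) :
    ∀ b ∈ Z₁, b ∈ P₀ → ∃ p ∈ Fermat.Agent.S34.Euler.Chart.Rbar1 G₁ G₂ hxO₁ hxO₂ hD,
      p.1 ∈ Fermat.Agent.S34.Euler.Places.regOff P₁ ∧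
      p.2 ∈ Fermat.Agent.S34.Euler.Places.regOff P₁ ∧
      ¬ ∃ c : k, Fermat.Agent.S34.Euler.Value.HasValue (Fr b) p.1 c ∧
        Fermat.Agent.S34.Euler.Value.HasValue b p.2 c := by
  obtain ⟨p, hp, hp1, hp2⟩ := exists_cusp_witness hroot hjE hjl G₁ G₂ hj₁ hj₂ hl₁ hl₂ h11 h12 h21
    h22 hD hxO₁ hxO₂
  have hq2 : 1 ≤ q ^ 2 - 1 := by
    have h2 : 2 ≤ q := hq.out.two_le
    have : 4 ≤ q ^ 2 := by nlinarith
    omega
  refine Fermat.Agent.S34.Euler.Chart.cusp_of_witness G₁ G₂ hxO₁ hxO₂ hD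
    (t := jb ^ (q ^ 2 - 1)) ?_ ?_ hp hp1 hp2 Z₁
  · intro b hb
    have h := hP₀ b hb
    rw [Fermat.Agent.S18.CoreOrd.ord_pow]
    have : (1 : ℤ) ≤ ((q ^ 2 - 1 : ℕ) : ℤ) := by exact_mod_cast hq2
    nlinarith
  · intro v hv
    have hle : v.ord jb ≤ 0 := by
      by_contra hpos
      push Not at hpos
      exact hv (hP₁ v hpos)
    apply v.adicValuation_le_one_iff.mpr
    right
    rw [v.ord_inv, Fermat.Agent.S18.CoreOrd.ord_pow]
    have : (0 : ℤ) ≤ ((q ^ 2 - 1 : ℕ) : ℤ) := Int.natCast_nonneg _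
    nlinarith

end Witness

end Fermat.Agent.S43.LG1.C1.CuspRegularGen
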