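import Mathlib
import Fermat.Agent.S43.LG1.C1.CuspRegularGen
import Fermat.Agent.S43.LG1.C1.PowerBasisX1

/-!
# PROJECT R (S43), block G / C1: `j_r / j ^ r` is regular at the poles of `j` on `X₁(N; r)`

The instance of `C1/CuspRegularGen` at `E'' = ℚ̄(X₁(N; r))` (`F1pBar N r`), `jE = α₁(j)`
(`jE1 N r`), `jl = β₁(j)` (`Seam.jr N r`): the X1 twin of main's `S34/CuspRegular`.
-/

set_option autoImplicit false

noncomputable section

namespace Fermat.Agent.S43.LG1.C1.CuspRegularX1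

open Polynomial ModularCurve AlgebraicCurve
open Fermat.Agent.S48.B.Defs.Model Fermat.Agent.S48.B.B1.Seams
open Fermat.Agent.S48.B.ES.DegreeBeta1
open Fermat.Agent.S34.TwoGaussX0 (modPolyZ map_evalL_modPolyZ)
open Fermat.Agent.S43.LG1.C1.Seam Fermat.Agent.S43.LG1.C1.PowerBasisX1
open Fermat.Agent.S43.LG1.C1.CuspRegularGen (PhiE)

local notation "Kb" => AlgebraicClosure ℚ

variable (N r : ℕ) [NeZero N] [NeZero r]

/-- `α₁(j)`, the `j`-function as an element of `E'' = ℚ̄(X₁(N; r))` -/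
def jE1 : ↥(F1pBar N r) := alpha1 N r Kb (jgen1 N)

theorem jgen1_ne_zero : jgen1 N ≠ 0 := fun h =>
  (Fermat.Agent.S48.B.B1.Degree1.Upper.transcendental_jgen1 N) (h ▸ isAlgebraic_zero)

theorem jE1_ne_zero : jE1 N r ≠ 0 := by
  unfold jE1
  exact (map_ne_zero_iff _ (alpha1 N r Kb).toRingHom.injective).mpr (jgen1_ne_zero N)

theorem jr_ne_zero : jr N r ≠ 0 := by
  unfold jr
  exact (map_ne_zero_iff _ (beta1 N r Kb).toRingHom.injective).mpr (jgen1_ne_zero N)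

variable [hr : Fact r.Prime]

/-- `Φ_r(j_r, j) = 0` in `E''` -/
theorem eval_jr_PhiE : (PhiE r (jE1 N r)).eval (jr N r) = 0 := by
  let algFE := algebraAlong (alpha1 N r Kb)
  have h := aeval_jr_modPolyF1 (N := N) (r := r) (map_evalL_modPolyZ (q := r))
  rw [Polynomial.aeval_def, ← Polynomial.eval_map, modPolyF1, Polynomial.map_map] at h
  have hcomp : (algebraMap ↥(F1Bar N) ↥(F1pBar N r)).comp
      ((aeval (jgen1 N) : Polynomial ℤ →ₐ[ℤ] ↥(F1Bar N)) : Polynomial ℤ →+* ↥(F1Bar N)) =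
      ((aeval (jE1 N r) : Polynomial ℤ →ₐ[ℤ] ↥(F1pBar N r)) :
        Polynomial ℤ →+* ↥(F1pBar N r)) := by
    apply Polynomial.ringHom_ext
    · intro a
      simp
    · simp only [RingHom.comp_apply, RingHom.coe_coe, aeval_X]
      rfl
  rw [hcomp] at h
  exact h

variable {N r}

/-- **`r · ord_P j ≤ ord_P j_r` at the poles of `j`** on `X₁(N; r)` -/
theorem ord_jr_ge (P : Place Kb ↥(F1pBar N r)) (h : P.ord (jE1 N r) < 0) :
    (r : ℤ) * P.ord (jE1 N r) ≤ P.ord (jr N r) :=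
  CuspRegularGen.ord_jl_ge (eval_jr_PhiE N r) (jE1_ne_zero N r) (jr_ne_zero N r) P h

/-- `j_r` is regular where `j` is -/
theorem ord_jr_nonneg (P : Place Kb ↥(F1pBar N r)) (h : 0 ≤ P.ord (jE1 N r)) :
    0 ≤ P.ord (jr N r) :=
  CuspRegularGen.ord_jl_nonneg (eval_jr_PhiE N r) (jE1_ne_zero N r) (jr_ne_zero N r) P h

open Fermat.Agent.S37.Deuring.Core

section Witness

variable {k : Type*} [Field k] {A : ValuationSubring Kb} {π : A →+* k}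
variable {κ : Type*} [Field κ] [Algebra k κ]

/-- **(CUSP) of `Euler/Chart.genus_le_of_charts` at `X₁(N; r)`**, hypotheses-first on the pair of
Gauss data (`x = α₁(j) · j_r`). -/
theorem cusp_X1 (G₁ G₂ : GaussDatum A π ↥(F1pBar N r) κ)
    (hj₁ : jE1 N r ∈ G₁.O) (hj₂ : jE1 N r ∈ G₂.O) (hl₁ : jr N r ∈ G₁.O) (hl₂ : jr N r ∈ G₂.O)
    {jb : κ} (h11 : G₁.red ⟨jE1 N r, hj₁⟩ = jb) (h12 : G₁.red ⟨jr N r, hl₁⟩ = jb ^ r)
    (h21 : G₂.red ⟨jE1 N r, hj₂⟩ = jb ^ r) (h22 : G₂.red ⟨jr N r, hl₂⟩ = jb)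
    {D : Divisor Kb ↥(F1pBar N r)} (hD : IsPoleDiv (jE1 N r * jr N r) D)
    (hxO₁ : jE1 N r * jr N r ∈ G₁.O) (hxO₂ : jE1 N r * jr N r ∈ G₂.O)
    {Fr : Place k κ → Place k κ} {P₀ P₁ : Set (Place k κ)}
    (hP₀ : ∀ b ∈ P₀, b.ord jb < 0) (hP₁ : ∀ v, 0 < v.ord jb → v ∈ P₁)
    (Z₁ : Finset (Place k κ)) :
    ∀ b ∈ Z₁, b ∈ P₀ → ∃ p ∈ Fermat.Agent.S34.Euler.Chart.Rbar1 G₁ G₂ hxO₁ hxO₂ hD,
      p.1 ∈ Fermat.Agent.S34.Euler.Places.regOff P₁ ∧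
      p.2 ∈ Fermat.Agent.S34.Euler.Places.regOff P₁ ∧
      ¬ ∃ c : k, Fermat.Agent.S34.Euler.Value.HasValue (Fr b) p.1 c ∧
        Fermat.Agent.S34.Euler.Value.HasValue b p.2 c :=
  CuspRegularGen.cusp_gen (eval_jr_PhiE N r) (jE1_ne_zero N r) (jr_ne_zero N r) G₁ G₂ hj₁ hj₂ hl₁
    hl₂ h11 h12 h21 h22 hD hxO₁ hxO₂ hP₀ hP₁ Z₁

end Witness

end Fermat.Agent.S43.LG1.C1.CuspRegularX1
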