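/-
PROJECT R (S43), gate (G), cut C1 = S34' (helper11): the `X₁` twin of `S34/EulerX0` =
THE `x`-DATA OF THE EULER-CHARACTERISTIC GENUS INEQUALITY (`Euler.Main.genus_le_of_sandwich`) AT
`E'' = ℚ̄(X₁(N; r))` (`F1pBar N r`), `r` prime, `r ∤ N`.

`x := j · j_r` (`j = α j = jE1 N r`, `j_r = β j = jr N r`).

* `jE1_eq_jgen1p` : `α (jgen1 N) = jgen1p N r`; `isFF_jE1`, `isSeparable_jE1`, `finrank_jE1`
  (`[E'' : ℚ̄(j)] = (r + 1) [ℚ̄(X₁(N)) : ℚ̄(j)]`);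
* `ord_jr_neg_iff` : `j` and `j_r` have the same poles (modular equation one way:
  `CuspRegularX1.ord_jr_nonneg`; the Atkin-Lehner automorphism `W` for the converse; the twist
  `W W = ⟨r⁻¹⟩^*` does not enter: `δ j = j`);
* `Dj`, `Djr`, `D` : the pole divisors of `j`, `j_r`, `x`; `isPoleDiv_xE`;
  `degree_D : deg D = 2 (r + 1) [ℚ̄(X₁(N)) : ℚ̄(j)]`;
* `EkA` : the pole divisor of `j̄` on `X₁(N)/κ(A)`, `isPoleDiv_jC_pow_A`, `degree_EkA`;
  **`degree_D_eq : deg D = 2 deg ((r + 1) (j̄)_∞)`**;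
* `PairRed G₁ G₂`, `red₁_xE`, `red₂_xE`, **`genus_le_X1`**.
-/
import Mathlib
import Fermat.Agent.S18.A.FibreSep
import Fermat.Agent.S34.KummerZ
import Fermat.Agent.S34.Euler.Main
import Fermat.Agent.S48.B.ES.RelPic1
import Fermat.Agent.S43.LG1.C1.Seam
import Fermat.Agent.S43.LG1.C1.CuspRedX1
import Fermat.Agent.S43.LG1.C1.CuspRegularX1

set_option autoImplicit false
set_option linter.unusedSectionVars false
set_option linter.style.haveILetI false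

noncomputable section

namespace Fermat.Agent.S43.LG1.C1.EulerX1

open Polynomial ModularCurve AlgebraicCurve IntermediateField
open Fermat.Agent.S48.B.Defs.Model Fermat.Agent.S48.B.B1.Seams Fermat.Agent.S48.B.B1.Seams2
open Fermat.Agent.S48.B.ES.DegreeBeta1
open Fermat.Agent.S48.B.Red.Seams (jC IgusaDeg)
open Fermat.Agent.S37.Deuring.Core (IsPoleDiv)
open Fermat.Agent.S18.A
open Fermat.Agent.S43.LG1.C1.Seam Fermat.Agent.S43.LG1.C1.CuspRedX1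
open Fermat.Agent.S43.LG1.C1.CuspRegularX1

local notation "Kb" => AlgebraicClosure ℚ

variable {N r : ℕ} [NeZero N] [NeZero r]

/-! ### `α j = j` -/

theorem jE1_eq_jgen1p : jE1 N r = jgen1p N r := by
  apply Subtype.ext
  show ((alpha1 N r Kb (jgen1 N) : ↥(F1pBar N r)) : LaurentSeries Kb) = _
  rw [coe_alpha1, Fermat.Agent.S48.B.ES.DegreeBridge1.coe_jgen1,
    Fermat.Agent.S48.B.ES.DegreeBridge1.coe_jgen1p]

variable (hr : r.Prime) (hrN : ¬ r ∣ N)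

include hr hrN in
/-- `j` is a separating variable of `E'' = ℚ̄(X₁(N; r))` -/
theorem isFF_jE1 : Fermat.Agent.S24.FF.IsFF Kb (jE1 N r) := by
  rw [jE1_eq_jgen1p]
  exact Fermat.Agent.S48.B.ES.RelPic1.isFF_jgen1p hr hrN (Fermat.Agent.S48.B.B1.Main.deg1 N)
    (Fermat.Agent.S48.B.B1.Main.deg1p N r)

include hr hrN in
theorem isSeparable_jE1 : Algebra.IsSeparable Kb⟮jE1 N r⟯ ↥(F1pBar N r) :=
  Fermat.Agent.S48.B.Inj.Basics.isSeparable_of_isFF (isFF_jE1 hr hrN)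

include hr hrN in
/-- `[E'' : ℚ̄(j)] = [ℚ̄(X₁(N)) : ℚ̄(j)] (r + 1)` -/
theorem finrank_jE1 :
    Module.finrank Kb⟮jE1 N r⟯ ↥(F1pBar N r) =
      Module.finrank Kb⟮jgen1 N⟯ ↥(F1Bar N) * (r + 1) := by
  rw [jE1_eq_jgen1p, Fermat.Agent.S48.B.B1.Main.deg1p N r hr hrN,
    (Fermat.Agent.S48.B.B1.Main.deg1 N).2]

/-! ### `j` and `j_r` have the same poles -/

/-- the Atkin-Lehner automorphism as a (linear) semilinear automorphism -/
def W1Aut : SemilinearAut Kb ↥(F1pBar N r) := SemilinearAut.ofAlgAut (W1 N r hr hrN)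

theorem W1Aut_smul (x : ↥(F1pBar N r)) : W1Aut hr hrN • x = W1 N r hr hrN x := rfl

theorem W1Aut_jE1 : W1Aut hr hrN • jE1 N r = jr N r :=
  W1_alpha_jgen1 hr hrN

theorem W1Aut_jr : W1Aut hr hrN • jr N r = jE1 N r :=
  W1_jr hr hrN

variable [hrF : Fact r.Prime]

include hr hrN in
/-- `j` is regular where `j_r` is (apply `W`) -/
theorem ord_jE1_nonneg (P : Place Kb ↥(F1pBar N r)) (h : 0 ≤ P.ord (jr N r)) :
    0 ≤ P.ord (jE1 N r) := by
  have h1 : 0 ≤ ((W1Aut hr hrN)⁻¹ • P).ord (jE1 N r) := by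
    rw [← Fermat.Agent.S34.KummerZ.ord_smul_eq, W1Aut_jE1]
    exact h
  have h2 := ord_jr_nonneg ((W1Aut hr hrN)⁻¹ • P) h1
  rwa [← Fermat.Agent.S34.KummerZ.ord_smul_eq, W1Aut_jr] at h2

include hr hrN in
/-- `j` and `j_r` have the same poles. -/
theorem ord_jr_neg_iff (P : Place Kb ↥(F1pBar N r)) :
    P.ord (jr N r) < 0 ↔ P.ord (jE1 N r) < 0 := by
  constructor
  · intro h
    by_contra h'
    exact (not_le.mpr h) (ord_jr_nonneg P (not_lt.mp h'))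
  · intro h
    by_contra h'
    exact (not_le.mpr h) (ord_jE1_nonneg hr hrN P (not_lt.mp h'))

/-! ### The pole divisors on `X₁(N; r)` -/

/-- the pole divisor of `j` on `X₁(N; r)` -/
def Dj : Divisor Kb ↥(F1pBar N r) :=
  FibreSep.poleDiv (isFF_jE1 hr hrN) (isSeparable_jE1 hr hrN)

theorem isPoleDiv_jE1 : IsPoleDiv (jE1 N r) (Dj hr hrN) := fun v => by
  rw [Dj, FibreSep.poleDiv_apply, max_comm]

theorem degree_Dj :
    Divisor.degree (Dj hr hrN) = (Module.finrank Kb⟮jgen1 N⟯ ↥(F1Bar N) * (r + 1) : ℕ) := by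
  rw [Dj, FibreSep.degree_poleDiv, finrank_jE1 hr hrN]

/-- the pole divisor of `j_r` on `X₁(N; r)` -/
def Djr : Divisor Kb ↥(F1pBar N r) := W1Aut hr hrN • Dj hr hrN

theorem isPoleDiv_jr : IsPoleDiv (jr N r) (Djr hr hrN) := fun v => by
  rw [Djr, SemilinearAut.divisor_smul_apply, isPoleDiv_jE1,
    ← Fermat.Agent.S34.KummerZ.ord_smul_eq, W1Aut_jE1]

theorem degree_Djr :
    Divisor.degree (Djr hr hrN) = (Module.finrank Kb⟮jgen1 N⟯ ↥(F1Bar N) * (r + 1) : ℕ) := by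
  rw [Djr, SemilinearAut.degree_smul, degree_Dj]

/-- `x = j · j_r` -/
def xE (N r : ℕ) [NeZero N] [NeZero r] : ↥(F1pBar N r) := jE1 N r * jr N r

theorem xE_ne_zero : xE N r ≠ 0 := mul_ne_zero (jE1_ne_zero N r) (jr_ne_zero N r)

/-- the pole divisor of `x = j · j_r` -/
def D : Divisor Kb ↥(F1pBar N r) := Dj hr hrN + Djr hr hrN

theorem isPoleDiv_xE : IsPoleDiv (xE N r) (D hr hrN) := fun v => by
  rw [D, Finsupp.add_apply, isPoleDiv_jE1, isPoleDiv_jr hr hrN, xE,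
    v.ord_mul (jE1_ne_zero N r) (jr_ne_zero N r)]
  have h := ord_jr_neg_iff hr hrN v
  rcases lt_or_ge (v.ord (jE1 N r)) 0 with h1 | h1
  · have h2 := h.mpr h1
    rw [max_eq_right (by omega), max_eq_right (by omega), max_eq_right (by omega)]
    ring
  · have h2 : 0 ≤ v.ord (jr N r) := not_lt.mp fun h' => (not_lt.mpr h1) (h.mp h')
    rw [max_eq_left (by omega), max_eq_left (by omega), max_eq_left (by omega)]
    ring

theorem degree_D :
    Divisor.degree (D hr hrN) =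
      2 * ((Module.finrank Kb⟮jgen1 N⟯ ↥(F1Bar N) * (r + 1) : ℕ) : ℤ) := by
  rw [D, map_add, degree_Dj, degree_Djr]
  ring

/-! ### The pole divisor of `j̄` on `X₁(N) / κ(A)` -/

section Residue

open IsLocalRing

set_option synthInstance.maxHeartbeats 400000

attribute [local instance] Fermat.Agent.S43.LG1.C1.Seam.algShortcut1

variable {A : ValuationSubring Kb} (hA : A.LiesOverPrime r)

/-- the pole divisor of `j̄` on `X₁(N)` over the residue field of `A` -/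
def EkA : Divisor (ResidueField ↥A) ↥(F1C N (ResidueField ↥A)) :=
  haveI : IsAlgClosed (ResidueField ↥A) :=
    Fermat.Agent.S18.ResidueBasics.isAlgClosed_residueField A
  FibreSep.poleDiv (isFF_jC1 (igusaDegN N) hr hrN hA) (isSeparable_jC1 (igusaDegN N) hr hrN hA)

theorem isPoleDiv_jC_A : IsPoleDiv (jC N (ResidueField ↥A)) (EkA hr hrN hA) := fun v => by
  haveI : IsAlgClosed (ResidueField ↥A) :=
    Fermat.Agent.S18.ResidueBasics.isAlgClosed_residueField A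
  rw [EkA, FibreSep.poleDiv_apply, max_comm]

theorem isPoleDiv_jC_pow_A (n : ℕ) :
    IsPoleDiv (jC N (ResidueField ↥A) ^ n) (n • EkA hr hrN hA) := fun v => by
  rw [Finsupp.smul_apply, isPoleDiv_jC_A hr hrN hA, Fermat.Agent.S34.KummerZ.ord_pow,
    nsmul_eq_mul]
  rcases le_or_gt 0 (v.ord (jC N (ResidueField ↥A))) with h | h
  · have h1 : 0 ≤ (n : ℤ) * v.ord (jC N (ResidueField ↥A)) :=
      mul_nonneg (Int.natCast_nonneg n) h
    rw [max_eq_left (by omega), max_eq_left (by omega), mul_zero]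
  · have h1 : (n : ℤ) * v.ord (jC N (ResidueField ↥A)) ≤ 0 :=
      mul_nonpos_of_nonneg_of_nonpos (Int.natCast_nonneg n) h.le
    rw [max_eq_right (by omega), max_eq_right (by omega)]
    ring

/-- `deg (j̄)_∞ = [ℚ̄(X₁(N)) : ℚ̄(j)]` -/
theorem degree_EkA :
    Divisor.degree (EkA hr hrN hA) = (Module.finrank Kb⟮jgen1 N⟯ ↥(F1Bar N) : ℤ) := by
  haveI : IsAlgClosed (ResidueField ↥A) :=
    Fermat.Agent.S18.ResidueBasics.isAlgClosed_residueField A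
  rw [EkA, FibreSep.degree_poleDiv, ← finrank_eq1 (igusaDegN N) hr hrN hA]

theorem degree_EkA_pos : 0 < Divisor.degree (EkA hr hrN hA) := by
  rw [degree_EkA]
  haveI := (isFF_jgen1 N).finite
  exact_mod_cast (Module.finrank_pos : 0 < Module.finrank Kb⟮jgen1 N⟯ ↥(F1Bar N))

/-- **the fundamental equality for `x = j j_r`**: `deg (x)_∞ = 2 deg (j̄^(r+1))_∞` -/
theorem degree_D_eq :
    Divisor.degree (D hr hrN) =
      Divisor.degree ((r + 1) • EkA hr hrN hA) + Divisor.degree ((r + 1) • EkA hr hrN hA) := by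
  rw [degree_D, map_nsmul, degree_EkA hr hrN hA]
  push_cast
  rw [nsmul_eq_mul]
  push_cast
  ring

/-! ### The pair of Gauss data and the final call -/

open Fermat.Agent.S18.NonSpecial Fermat.Agent.S37.Deuring.Core Fermat.Agent.S34.Euler.Glued
  Fermat.Agent.S34.Euler.RedPair

/-- What the genus inequality needs from the two Gauss data `G₁`, `G₂` of `E'' = ℚ̄(X₁(N; r))`
(`GaussPairX1`): `j, j_r ∈ O₁ ∩ O₂` with reductions `(j̄, j̄^r)` and `(j̄^r, j̄)` (the twist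
`W W = ⟨r⁻¹⟩^*` is invisible on `j`). -/
structure PairRed
    (G₁ G₂ : GaussDatum A (residue ↥A) ↥(F1pBar N r) ↥(F1C N (ResidueField ↥A))) : Prop where
  j_mem₁ : jE1 N r ∈ G₁.O
  jr_mem₁ : jr N r ∈ G₁.O
  j_mem₂ : jE1 N r ∈ G₂.O
  jr_mem₂ : jr N r ∈ G₂.O
  red₁_j : G₁.red ⟨jE1 N r, j_mem₁⟩ = jC N (ResidueField ↥A)
  red₁_jr : G₁.red ⟨jr N r, jr_mem₁⟩ = jC N (ResidueField ↥A) ^ r
  red₂_j : G₂.red ⟨jE1 N r, j_mem₂⟩ = jC N (ResidueField ↥A) ^ r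
  red₂_jr : G₂.red ⟨jr N r, jr_mem₂⟩ = jC N (ResidueField ↥A)

variable {G₁ G₂ : GaussDatum A (residue ↥A) ↥(F1pBar N r) ↥(F1C N (ResidueField ↥A))}

theorem PairRed.xE_mem₁ (hP : PairRed G₁ G₂) : xE N r ∈ G₁.O :=
  G₁.O.mul_mem _ _ hP.j_mem₁ hP.jr_mem₁

theorem PairRed.xE_mem₂ (hP : PairRed G₁ G₂) : xE N r ∈ G₂.O :=
  G₂.O.mul_mem _ _ hP.j_mem₂ hP.jr_mem₂

theorem PairRed.red₁_xE (hP : PairRed G₁ G₂) :
    G₁.red ⟨xE N r, hP.xE_mem₁⟩ = jC N (ResidueField ↥A) ^ (r + 1) := by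
  have h : (⟨xE N r, hP.xE_mem₁⟩ : ↥G₁.O) = ⟨jE1 N r, hP.j_mem₁⟩ * ⟨jr N r, hP.jr_mem₁⟩ :=
    Subtype.ext rfl
  rw [h, map_mul, hP.red₁_j, hP.red₁_jr, pow_succ']

theorem PairRed.red₂_xE (hP : PairRed G₁ G₂) :
    G₂.red ⟨xE N r, hP.xE_mem₂⟩ = jC N (ResidueField ↥A) ^ (r + 1) := by
  have h : (⟨xE N r, hP.xE_mem₂⟩ : ↥G₂.O) = ⟨jE1 N r, hP.j_mem₂⟩ * ⟨jr N r, hP.jr_mem₂⟩ :=
    Subtype.ext rfl
  rw [h, map_mul, hP.red₂_j, hP.red₂_jr, pow_succ]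

/-- the divisor `n (j̄)_∞` vanishes at every place which is not a pole of `j̄` -/
theorem smul_EkA_apply_eq_zero (n : ℕ)
    (v : Place (ResidueField ↥A) ↥(F1C N (ResidueField ↥A)))
    (hv : 0 ≤ v.ord (jC N (ResidueField ↥A))) : (n • EkA hr hrN hA) v = 0 := by
  have h := isPoleDiv_jC_A hr hrN hA v
  rw [Finsupp.smul_apply, h, max_eq_left (by omega), smul_zero]

/-- **The genus inequality at `X₁(N; r)`**: `g(X₁(N; r)) + 1 ≤ 2 g(X₁(N)/κ) + #nodes`, from the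
two-chart sandwich for `x = j j_r` (`h0` : chart `x ≠ ∞`, `h1` : chart `x ≠ 0`). -/
theorem genus_le_X1 (hP : PairRed G₁ G₂) {g gM : ℕ}
    (HL : RiemannHyp Kb ↥(F1pBar N r) g)
    (HM : RiemannHyp (ResidueField ↥A) ↥(F1C N (ResidueField ↥A)) gM)
    {ι : Type*} [Fintype ι]
    (s₁ s₂ : ι → Place (ResidueField ↥A) ↥(F1C N (ResidueField ↥A)))
    (hinj : Function.Injective s₁)
    (hs₁ : ∀ i, 0 ≤ (s₁ i).ord (jC N (ResidueField ↥A)))
    (hs₂ : ∀ i, 0 ≤ (s₂ i).ord (jC N (ResidueField ↥A)))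
    (hxg : ∀ i, GluedAt s₁ s₂ i
      (jC N (ResidueField ↥A) ^ (r + 1), jC N (ResidueField ↥A) ^ (r + 1)))
    (h0 : ∀ d, ∀ p ∈ V s₁ s₂ ((r + 1) • EkA hr hrN hA) ((r + 1) • EkA hr hrN hA) d,
      ∃ n, p ∈ redSpace₂ G₁ G₂ ((d + n) • D hr hrN))
    (h1 : ∀ d, ∀ p ∈ V s₁ s₂ ((r + 1) • EkA hr hrN hA) ((r + 1) • EkA hr hrN hA) d, ∃ n,
      ((jC N (ResidueField ↥A) ^ (r + 1)) ^ n * p.1, (jC N (ResidueField ↥A) ^ (r + 1)) ^ n * p.2)
        ∈ redSpace₂ G₁ G₂ ((d + n) • D hr hrN)) :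
    (g : ℤ) + 1 ≤ gM + gM + Fintype.card ι := by
  have hpos : 0 < Divisor.degree ((r + 1) • EkA hr hrN hA) := by
    rw [map_nsmul]
    exact nsmul_pos (degree_EkA_pos hr hrN hA) (Nat.succ_ne_zero r)
  refine Fermat.Agent.S34.Euler.Main.genus_le_of_sandwich G₁ G₂ HL HM HM s₁ s₂ hinj
    hP.xE_mem₁ hP.xE_mem₂ (isPoleDiv_xE hr hrN)
    (E₁ := (r + 1) • EkA hr hrN hA) (E₂ := (r + 1) • EkA hr hrN hA) ?_ ?_
    (fun i => smul_EkA_apply_eq_zero hr hrN hA _ _ (hs₁ i))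
    (fun i => smul_EkA_apply_eq_zero hr hrN hA _ _ (hs₂ i))
    hpos hpos ?_ (degree_D_eq hr hrN hA) h0 ?_
  · rw [hP.red₁_xE]
    exact isPoleDiv_jC_pow_A hr hrN hA (r + 1)
  · rw [hP.red₂_xE]
    exact isPoleDiv_jC_pow_A hr hrN hA (r + 1)
  · rw [hP.red₁_xE, hP.red₂_xE]
    exact hxg
  · intro d p hp
    obtain ⟨n, hn⟩ := h1 d p hp
    refine ⟨n, ?_⟩
    rw [hP.red₁_xE, hP.red₂_xE]
    exact hn

end Residue

end Fermat.Agent.S43.LG1.C1.EulerX1
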