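/-
PROJECT R (S43), gate (G), cut C1 = S34' (helper11): the `X₁` twin of `S34/EulerChartsX0` =
**THE NODE SET AND THE GENUS INEQUALITY AT `X₁(N; r)`** = one call of helper25's
`C1/Euler/ChartFullCX1.genus_le_of_charts_fullC1'` (two-map: `(φ, Fr) = (FrobKGen.phi, FrobKGen.Fr)`,
`(ψ, FrD) = (φ ∘ d, (Dp d)⁻¹ ∘ Fr)`, `d` the reduced diamond, a VARIABLE) with the `x`-data of
`C1/EulerX1` (`x = j · j_r`, `D = (x)_∞`, `E = (r + 1) (j̄)_∞`, `deg D = 2 deg E`,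
`red_i x = j̄ ^ (r + 1)`).

What is left as hypotheses (each has a producer):
* `hP : PairRed G₁ G₂` (GaussPairX1, through `EulerNodesX1.pairRed_of_dict2`);
* `LS0`, `LS1` (`EulerNodesX1.ls0_of_dict2`, `ls1_of_dict2`);
* `hJ₀`, `hJ₁` (HoloIdealGen / HoloBridgeX1);
* `CUSP` (`EulerNodesX1.cusp_of_pairRed`).
-/
import Mathlib
import Fermat.Agent.S43.LG1.C1.EulerX1
import Fermat.Agent.S43.LG1.C1.Euler.ChartFullCX1

set_option autoImplicit false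
set_option linter.unusedSectionVars false
set_option linter.style.haveILetI false

noncomputable section

namespace Fermat.Agent.S43.LG1.C1.EulerChartsX1

open ModularCurve AlgebraicCurve IsLocalRing IntermediateField
open Fermat.Agent.S48.B.Defs.Model Fermat.Agent.S48.B.B1.Seams
open Fermat.Agent.S48.B.ES.DegreeBeta1
open Fermat.Agent.S48.B.Red.Seams (jC jqModC_mem_F1C)
open Fermat.Agent.S48.B.Red.CoeffAut1 (coeffStable_F1C)
open Fermat.Agent.S18.NonSpecial Fermat.Agent.S37.Deuring.Core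
open Fermat.Agent.S43.LG1.C1.Seam Fermat.Agent.S43.LG1.C1.EulerX1
open Fermat.Agent.S43.LG1.C1.FrobKGen
open Fermat.Agent.S34.Euler.Places Fermat.Agent.S34.Euler.Value
  Fermat.Agent.S34.Euler.RedPair Fermat.Agent.S34.Euler.Chart
open Fermat.Agent.S43.LG1.C1.Euler.FrobSideX1 Fermat.Agent.S43.LG1.C1.Euler.ChartFullCX1

local notation "Kb" => AlgebraicClosure ℚ

set_option synthInstance.maxHeartbeats 400000

attribute [local instance] Fermat.Agent.S43.LG1.C1.Seam.algShortcut1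

variable {N r : ℕ} [NeZero N] [NeZero r] (hr : r.Prime) (hrN : ¬ r ∣ N) [hrF : Fact r.Prime]
variable {A : ValuationSubring Kb} (hA : A.LiesOverPrime r)
variable [CharP (ResidueField ↥A) r] [PerfectField (ResidueField ↥A)]
variable [HasPrincipalDivisors (ResidueField ↥A) ↥(F1C N (ResidueField ↥A))]
variable [IsAlgClosed (ResidueField ↥A)]
variable [FiniteDimensional
  ↥(ResidueField ↥A)⟮Fermat.Agent.S48.B.Inj.Basics.jC (jqModC_mem_F1C N (ResidueField ↥A))⟯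
  ↥(F1C N (ResidueField ↥A))]
variable {G₁ G₂ : GaussDatum A (residue ↥A) ↥(F1pBar N r) ↥(F1C N (ResidueField ↥A))}

/-- the coefficientwise stability of `F1C N κ(A)` (shorthand) -/
abbrev hC1 (N : ℕ) [NeZero N] (A : ValuationSubring Kb) :
    Fermat.Agent.S48.B.Red.CoeffAut1.CoeffStable (F1C N (ResidueField ↥A)) :=
  coeffStable_F1C N (ResidueField ↥A)

/-- `j̄ ∈ F1C N κ(A)` (shorthand) -/
abbrev hJ1 (N : ℕ) [NeZero N] (A : ValuationSubring Kb) :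
    jqModC (ResidueField ↥A) ∈ F1C N (ResidueField ↥A) :=
  jqModC_mem_F1C N (ResidueField ↥A)

theorem jC_eq : Fermat.Agent.S48.B.Inj.Basics.jC (hJ1 N A) = jC N (ResidueField ↥A) := rfl

variable (d : ↥(F1C N (ResidueField ↥A)) ≃ₐ[ResidueField ↥A] ↥(F1C N (ResidueField ↥A)))
variable (hdψ : ∀ x : ↥(F1C N (ResidueField ↥A)),
  d (psi (hC1 N A) r x) = psi (hC1 N A) r (d x))
variable (hdj : d (Fermat.Agent.S48.B.Inj.Basics.jC (hJ1 N A)) =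
  Fermat.Agent.S48.B.Inj.Basics.jC (hJ1 N A))

include hA in
/-- **The nodes of `X₁(N; r)` mod `r`, the genus inequality and the chart-0 gluing.** -/
theorem exists_nodes_X1 (hP : PairRed G₁ G₂) {g gM : ℕ}
    (HL : RiemannHyp Kb ↥(F1pBar N r) g)
    (HM : RiemannHyp (ResidueField ↥A) ↥(F1C N (ResidueField ↥A)) gM)
    -- chart 0
    (LS0 : ∀ h : ↥(F1C N (ResidueField ↥A)),
      (∀ v : Place (ResidueField ↥A) ↥(F1C N (ResidueField ↥A)),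
        0 ≤ v.ord (jC N (ResidueField ↥A)) → h = 0 ∨ 0 ≤ v.ord h) →
      ∃ n : ℕ, (h, psiD (hC1 N A) r d h) ∈ redSpace₂ G₁ G₂ (n • D hr hrN) ∧
        (phi (hC1 N A) r h, h) ∈ redSpace₂ G₁ G₂ (n • D hr hrN))
    {T₀ : ↥(holo (P0 (hJ1 N A))) → ↥(holo (P0 (hJ1 N A)))}
    (hT₀ : ∀ u : holo (P0 (hJ1 N A)),
      ((T₀ u : ↥(holo (P0 (hJ1 N A)))) : ↥(F1C N (ResidueField ↥A))) =
        d (phi (hC1 N A) r (phi (hC1 N A) r (u : ↥(F1C N (ResidueField ↥A))))))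
    (hJ₀ : HJ2 (hC1 N A) (hJ1 N A) r d hdψ hdj (P0 (hJ1 N A)) T₀)
    -- chart 1
    (LS1 : ∀ h : ↥(F1C N (ResidueField ↥A)),
      (∀ v : Place (ResidueField ↥A) ↥(F1C N (ResidueField ↥A)),
        v.ord (jC N (ResidueField ↥A)) ≤ 0 → h = 0 ∨ 0 ≤ v.ord h) →
      ∃ n : ℕ, ((jC N (ResidueField ↥A) ^ (r + 1)) ^ n * h,
          (jC N (ResidueField ↥A) ^ (r + 1)) ^ n * psiD (hC1 N A) r d h)
          ∈ redSpace₂ G₁ G₂ (n • D hr hrN) ∧
        ((jC N (ResidueField ↥A) ^ (r + 1)) ^ n * phi (hC1 N A) r h,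
          (jC N (ResidueField ↥A) ^ (r + 1)) ^ n * h) ∈ redSpace₂ G₁ G₂ (n • D hr hrN))
    {T₁ : ↥(holo (P1 (hJ1 N A))) → ↥(holo (P1 (hJ1 N A)))}
    (hT₁ : ∀ u : holo (P1 (hJ1 N A)),
      ((T₁ u : ↥(holo (P1 (hJ1 N A)))) : ↥(F1C N (ResidueField ↥A))) =
        d (phi (hC1 N A) r (phi (hC1 N A) r (u : ↥(F1C N (ResidueField ↥A))))))
    (hJ₁ : HJ2 (hC1 N A) (hJ1 N A) r d hdψ hdj (P1 (hJ1 N A)) T₁)
    (CUSP : ∃ (n m : ℕ) (p : ↥(F1C N (ResidueField ↥A)) × ↥(F1C N (ResidueField ↥A))),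
      p ∈ redSpace₂ G₁ G₂ (n • D hr hrN) ∧ p.1 = (jC N (ResidueField ↥A) ^ (r + 1)) ^ n ∧
        p.2 * jC N (ResidueField ↥A) ^ (m + 1) = (jC N (ResidueField ↥A) ^ (r + 1)) ^ n) :
    ∃ S : Finset (Place (ResidueField ↥A) ↥(F1C N (ResidueField ↥A))),
      (∀ b ∈ S, Fr (hC1 N A) r (Fr (hC1 N A) r ((Dp d).symm b)) = b ∧ b ∉ P0 (hJ1 N A)) ∧
      (g : ℤ) + 1 ≤ gM + gM + S.card ∧
      ∀ h₁ h₂ : ↥(F1C N (ResidueField ↥A)),
        h₁ ∈ regOff (P0 (hJ1 N A)) → h₂ ∈ regOff (P0 (hJ1 N A)) →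
        ((h₁, h₂) ∈ Rbar0 G₁ G₂ (isPoleDiv_xE hr hrN).nonneg ↔
          ∀ b ∈ S, ∃ c : ResidueField ↥A,
            HasValue (FrD (hC1 N A) r d b) h₁ c ∧ HasValue b h₂ c) := by
  refine genus_le_of_charts_fullC1' (hdψ := hdψ) (hdj := hdj) G₁ G₂ HL HM hP.xE_mem₁ hP.xE_mem₂
    (isPoleDiv_xE hr hrN) r hP.red₁_xE hP.red₂_xE (isPoleDiv_jC_pow_A hr hrN hA (r + 1)) ?_
    (degree_D_eq hr hrN hA) LS0 hT₀ hJ₀ ?_ hT₁ hJ₁ ?_
  · rw [map_nsmul]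
    exact nsmul_pos (degree_EkA_pos hr hrN hA) (Nat.succ_ne_zero r)
  · intro h hh
    obtain ⟨n, h1, h2⟩ := LS1 h hh
    refine ⟨n, ?_, ?_⟩
    · rw [hP.red₁_xE, hP.red₂_xE]
      exact h1
    · rw [hP.red₁_xE, hP.red₂_xE]
      exact h2
  · obtain ⟨n, m, p, hp, hp1, hp2⟩ := CUSP
    refine ⟨n, m, p, hp, ?_, ?_⟩
    · rw [hP.red₁_xE]
      exact hp1
    · rw [hP.red₂_xE]
      exact hp2

end Fermat.Agent.S43.LG1.C1.EulerChartsX1
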