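/-
PROJECT R (S43), gate (G), cut C1 = S34' (helper11): the `X₁` twin of `S34/EulerNodesX0` =
**THE NODE SET AND THE GENUS INEQUALITY AT `X₁(N; r)` FROM THE REDUCTION DICTIONARY**:
the hypotheses `PairRed`, (LS0), (LS1), (CUSP) of `EulerChartsX1.exists_nodes_X1` from the
TWO-MAP reduction dictionary `d : PairDictSwapTw.PairDict2 (gaussDatumIgusa h hr hrN hA) G₁ G₂ α β φ ψ`

  `(red₁, red₂)(α g) = (ḡ, ψ ḡ)`,   `(red₁, red₂)(β g) = (φ ḡ, ḡ)`,   `φ j̄ = ψ j̄ = j̄ ^ r`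

(GaussPairX1; `ψ = φ ∘ d̄`, `d̄ j̄ = j̄`) and the restriction data `ra rb`:

* `pairRed_of_dict2` : `EulerX1.PairRed G₁ G₂`;
* `ls0_of_dict2`, `ls1_of_dict2` : (LS0), (LS1) in `redSpace₂` form for `x = j j_r`,
  `x̄ = j̄ ^ (r + 1)` (`Euler/ChartLiftX1.ls0_X1_mul`, `ls1_X1_mul`, helper23);
* `cusp_of_pairRed` : the (CUSP) witness (`CuspRegularGen.exists_cusp_witness`, helper15);
* **`exists_nodes_of_dict2`** : the node set `S`, (NC) and the chart-0 gluing from the dictionary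
  at `φ = FrobKGen.phi`, `ψ = FrobSideX1.psiD` (`= φ ∘ d`, `d` the reduced diamond, a variable),
  the restriction data, Deuring's hypotheses at level `N`, Riemann's theorem on `E''` and the
  radical-ideal statements `hJ₀`, `hJ₁` (HoloIdealGen / HoloBridgeX1).
-/
import Mathlib
import Fermat.Agent.S43.LG1.C1.EulerX1
import Fermat.Agent.S43.LG1.C1.EulerChartsX1
import Fermat.Agent.S43.LG1.C1.Euler.ChartLiftX1

set_option autoImplicit false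
set_option linter.unusedSectionVars false
set_option linter.style.haveILetI false

noncomputable section

namespace Fermat.Agent.S43.LG1.C1.EulerNodesX1

open ModularCurve AlgebraicCurve IsLocalRing IntermediateField
open Fermat.Agent.S48.B.Defs.Model Fermat.Agent.S48.B.B1.Seams
open Fermat.Agent.S48.B.ES.DegreeBeta1
open Fermat.Agent.S48.B.Red.Seams (jC IgusaDeg)
open Fermat.Agent.S48.B.Red.Bases1 (gaussDatumIgusa)
open Fermat.Agent.S18.NonSpecial Fermat.Agent.S37.Deuring.Core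
open Fermat.Agent.S34.Euler.RedPair Fermat.Agent.S34.Generic.Compat
open Fermat.Agent.S43.LG1.C1.Seam Fermat.Agent.S43.LG1.C1.CuspRegularX1
open Fermat.Agent.S43.LG1.C1.EulerX1 Fermat.Agent.S43.LG1.C1.PairDictSwapTw
open Fermat.Agent.S43.LG1.C1.LevelMSurjX1 (jO1 red_jO1)

local notation "Kb" => AlgebraicClosure ℚ

set_option synthInstance.maxHeartbeats 400000

attribute [local instance] Fermat.Agent.S43.LG1.C1.Seam.algShortcut1

variable {N r : ℕ} [NeZero N] [NeZero r] (hr : r.Prime) (hrN : ¬ r ∣ N) [hrF : Fact r.Prime]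
variable {A : ValuationSubring Kb} (hA : A.LiesOverPrime r)
variable {G₁ G₂ : GaussDatum A (residue ↥A) ↥(F1pBar N r) ↥(F1C N (ResidueField ↥A))}

/-- `α` as a ring homomorphism -/
abbrev αR (N r : ℕ) [NeZero N] [NeZero r] : ↥(F1Bar N) →+* ↥(F1pBar N r) :=
  (alpha1 N r Kb).toRingHom

/-- `β` as a ring homomorphism -/
abbrev βR (N r : ℕ) [NeZero N] [NeZero r] : ↥(F1Bar N) →+* ↥(F1pBar N r) :=
  (beta1 N r Kb).toRingHom

theorem αR_jgen1 : αR N r (jgen1 N) = jE1 N r := rfl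

theorem βR_jgen1 : βR N r (jgen1 N) = jr N r := rfl

/-- the pole divisor of `α j · β j` -/
theorem isPoleDiv_mul : IsPoleDiv (αR N r (jgen1 N) * βR N r (jgen1 N)) (D hr hrN) :=
  isPoleDiv_xE hr hrN

include hr hrN in
theorem ord_alpha_neg_iff (P : Place Kb ↥(F1pBar N r)) :
    P.ord (αR N r (jgen1 N)) < 0 ↔ P.ord (βR N r (jgen1 N)) < 0 :=
  (ord_jr_neg_iff hr hrN P).symm

variable {φ ψ : ↥(F1C N (ResidueField ↥A)) → ↥(F1C N (ResidueField ↥A))}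
variable (d : PairDict2 (gaussDatumIgusa (igusaDegN N) hr hrN hA) G₁ G₂ (αR N r) (βR N r) φ ψ)
variable (hφj : φ (jC N (ResidueField ↥A)) = jC N (ResidueField ↥A) ^ r)
variable (hψj : ψ (jC N (ResidueField ↥A)) = jC N (ResidueField ↥A) ^ r)

include d hφj hψj in
/-- the dictionary gives `PairRed` -/
theorem pairRed_of_dict2 : PairRed G₁ G₂ := by
  have ha1 := d.alpha_mem₁ (jO1 (igusaDegN N) hr hrN hA)
  have ha2 := d.alpha_mem₂ (jO1 (igusaDegN N) hr hrN hA)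
  have hb1 := d.beta_mem₁ (jO1 (igusaDegN N) hr hrN hA)
  have hb2 := d.beta_mem₂ (jO1 (igusaDegN N) hr hrN hA)
  have r1a := d.red₁_alpha (jO1 (igusaDegN N) hr hrN hA)
  have r2a := d.red₂_alpha (jO1 (igusaDegN N) hr hrN hA)
  have r1b := d.red₁_beta (jO1 (igusaDegN N) hr hrN hA)
  have r2b := d.red₂_beta (jO1 (igusaDegN N) hr hrN hA)
  rw [red_jO1] at r1a r2a r1b r2b
  rw [hψj] at r2a
  rw [hφj] at r1b
  exact
    { j_mem₁ := ha1
      jr_mem₁ := hb1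
      j_mem₂ := ha2
      jr_mem₂ := hb2
      red₁_j := r1a
      red₁_jr := r1b
      red₂_j := r2a
      red₂_jr := r2b }

variable [HasPrincipalDivisors Kb ↥(F1Bar N)]
variable [HasPrincipalDivisors (ResidueField ↥A) ↥(F1C N (ResidueField ↥A))]
variable [HasPrincipalDivisors Kb ↥(F1pBar N r)]

include d in
/-- **(LS0)** in `redSpace₂` form -/
theorem ls0_of_dict2 {gL gk : ℕ} (H : Hyp (gaussDatumIgusa (igusaDegN N) hr hrN hA) gL gk)
    (ra : Restr Kb (αR N r)) (rb : Restr Kb (βR N r))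
    (h : ↥(F1C N (ResidueField ↥A)))
    (hh : ∀ v : Place (ResidueField ↥A) ↥(F1C N (ResidueField ↥A)),
      0 ≤ v.ord (jC N (ResidueField ↥A)) → h = 0 ∨ 0 ≤ v.ord h) :
    ∃ n : ℕ, (h, ψ h) ∈ redSpace₂ G₁ G₂ (n • D hr hrN) ∧
      (φ h, h) ∈ redSpace₂ G₁ G₂ (n • D hr hrN) := by
  obtain ⟨r₀, hr₀⟩ := Fermat.Agent.S43.LG1.C1.Euler.ChartLiftX1.ls0_X1_mul (igusaDegN N) hr hrN hA
    H d ra rb (isPoleDiv_mul hr hrN) (ord_alpha_neg_iff hr hrN) h (fun Q hQ => by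
      rcases hh Q hQ with h0 | h0
      · rw [h0, Place.ord_zero]
      · exact h0)
  exact ⟨r₀, hr₀ r₀ le_rfl⟩

include d hφj hψj in
/-- **(LS1)** in `redSpace₂` form, `x̄ = j̄ ^ (r + 1)` -/
theorem ls1_of_dict2 {gL gk : ℕ} (H : Hyp (gaussDatumIgusa (igusaDegN N) hr hrN hA) gL gk)
    (ra : Restr Kb (αR N r)) (rb : Restr Kb (βR N r))
    (h : ↥(F1C N (ResidueField ↥A)))
    (hh : ∀ v : Place (ResidueField ↥A) ↥(F1C N (ResidueField ↥A)),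
      v.ord (jC N (ResidueField ↥A)) ≤ 0 → h = 0 ∨ 0 ≤ v.ord h) :
    ∃ n : ℕ, ((jC N (ResidueField ↥A) ^ (r + 1)) ^ n * h,
          (jC N (ResidueField ↥A) ^ (r + 1)) ^ n * ψ h) ∈ redSpace₂ G₁ G₂ (n • D hr hrN) ∧
        ((jC N (ResidueField ↥A) ^ (r + 1)) ^ n * φ h,
          (jC N (ResidueField ↥A) ^ (r + 1)) ^ n * h) ∈ redSpace₂ G₁ G₂ (n • D hr hrN) := by
  obtain ⟨r₀, hr₀⟩ := Fermat.Agent.S43.LG1.C1.Euler.ChartLiftX1.ls1_X1_mul (igusaDegN N) hr hrN hA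
    H d ra rb (isPoleDiv_mul hr hrN) (ord_alpha_neg_iff hr hrN) h (fun Q hQ => by
      rcases hh Q hQ with h0 | h0
      · rw [h0, Place.ord_zero]
      · exact h0)
  have h1 := hr₀ r₀ le_rfl
  rw [Fermat.Agent.S43.LG1.C1.Euler.ChartLiftX1.red₁_x (igusaDegN N) hr hrN hA d,
    Fermat.Agent.S43.LG1.C1.Euler.ChartLiftX1.red₂_x (igusaDegN N) hr hrN hA d] at h1
  rw [hφj, hψj, ← pow_succ', ← pow_succ] at h1
  exact ⟨r₀, h1⟩

omit [HasPrincipalDivisors Kb ↥(F1Bar N)]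
  [HasPrincipalDivisors (ResidueField ↥A) ↥(F1C N (ResidueField ↥A))]
  [HasPrincipalDivisors Kb ↥(F1pBar N r)] in
/-- **(CUSP)** : the witness `p = red (j_r ^ (r + 1))` -/
theorem cusp_of_pairRed (hP : PairRed G₁ G₂) :
    ∃ (n m : ℕ) (p : ↥(F1C N (ResidueField ↥A)) × ↥(F1C N (ResidueField ↥A))),
      p ∈ redSpace₂ G₁ G₂ (n • D hr hrN) ∧ p.1 = (jC N (ResidueField ↥A) ^ (r + 1)) ^ n ∧
        p.2 * jC N (ResidueField ↥A) ^ (m + 1) = (jC N (ResidueField ↥A) ^ (r + 1)) ^ n := by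
  obtain ⟨p, hp, hp1, hp2⟩ := Fermat.Agent.S43.LG1.C1.CuspRegularGen.exists_cusp_witness
    (eval_jr_PhiE N r) (jE1_ne_zero N r) (jr_ne_zero N r) G₁ G₂
    (jb := jC N (ResidueField ↥A)) hP.j_mem₁ hP.j_mem₂ hP.jr_mem₁ hP.jr_mem₂
    hP.red₁_j hP.red₁_jr hP.red₂_j hP.red₂_jr
    (D := D hr hrN) (isPoleDiv_xE hr hrN) hP.xE_mem₁ hP.xE_mem₂
  have hr2 : 2 ≤ r := hr.two_le
  obtain ⟨m, hm⟩ : ∃ m : ℕ, r ^ 2 - 1 = m + 1 := by
    refine ⟨r ^ 2 - 2, ?_⟩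
    have : 4 ≤ r ^ 2 := by nlinarith
    omega
  have r1 : G₁.red ⟨jE1 N r * jr N r, hP.xE_mem₁⟩ = jC N (ResidueField ↥A) ^ (r + 1) :=
    hP.red₁_xE
  have r2 : G₂.red ⟨jE1 N r * jr N r, hP.xE_mem₂⟩ = jC N (ResidueField ↥A) ^ (r + 1) :=
    hP.red₂_xE
  have hp2' : p.2 * jC N (ResidueField ↥A) ^ (m + 1) =
      G₂.red ⟨jE1 N r * jr N r, hP.xE_mem₂⟩ ^ r := hm ▸ hp2
  rw [r2] at hp2'
  rw [r1] at hp1
  exact ⟨r, m, p, hp, hp1, hp2'⟩

/-! ### the final call -/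

section Final

open Fermat.Agent.S43.LG1.C1.FrobKGen Fermat.Agent.S43.LG1.C1.Euler.FrobSideX1
  Fermat.Agent.S43.LG1.C1.Euler.ChartFullCX1 Fermat.Agent.S43.LG1.C1.EulerChartsX1
open Fermat.Agent.S34.Euler.Places Fermat.Agent.S34.Euler.Value Fermat.Agent.S34.Euler.Chart

variable [CharP (ResidueField ↥A) r] [PerfectField (ResidueField ↥A)]
variable [IsAlgClosed (ResidueField ↥A)]
variable [FiniteDimensional
  ↥(ResidueField ↥A)⟮Fermat.Agent.S48.B.Inj.Basics.jC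
    (Fermat.Agent.S48.B.Red.Seams.jqModC_mem_F1C N (ResidueField ↥A))⟯
  ↥(F1C N (ResidueField ↥A))]

variable (dd : ↥(F1C N (ResidueField ↥A)) ≃ₐ[ResidueField ↥A] ↥(F1C N (ResidueField ↥A)))
variable (hdψ : ∀ x : ↥(F1C N (ResidueField ↥A)),
  dd (psi (hC1 N A) r x) = psi (hC1 N A) r (dd x))
variable (hdj : dd (Fermat.Agent.S48.B.Inj.Basics.jC (hJ1 N A)) =
  Fermat.Agent.S48.B.Inj.Basics.jC (hJ1 N A))

omit [HasPrincipalDivisors Kb ↥(F1Bar N)]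
  [HasPrincipalDivisors (ResidueField ↥A) ↥(F1C N (ResidueField ↥A))]
  [HasPrincipalDivisors Kb ↥(F1pBar N r)] [IsAlgClosed (ResidueField ↥A)] in
/-- `φ j̄ = j̄ ^ r` -/
theorem phi_jC : phi (hC1 N A) r (jC N (ResidueField ↥A)) = jC N (ResidueField ↥A) ^ r :=
  phi_jk (hC1 N A) (hJ1 N A) r

omit [HasPrincipalDivisors Kb ↥(F1Bar N)]
  [HasPrincipalDivisors (ResidueField ↥A) ↥(F1C N (ResidueField ↥A))]
  [HasPrincipalDivisors Kb ↥(F1pBar N r)] [IsAlgClosed (ResidueField ↥A)] in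
include hdj in
/-- `ψ j̄ = j̄ ^ r` (`d j̄ = j̄`) -/
theorem psiD_jC :
    psiD (hC1 N A) r dd (jC N (ResidueField ↥A)) = jC N (ResidueField ↥A) ^ r := by
  rw [psiD_apply]
  have h : dd (jC N (ResidueField ↥A)) = jC N (ResidueField ↥A) := hdj
  rw [h]
  exact phi_jC

include hdj in
/-- **The nodes of `X₁(N; r)` mod `r`, the genus inequality and the chart-0 gluing, from the
two-map reduction dictionary.** -/
theorem exists_nodes_of_dict2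
    (d : PairDict2 (gaussDatumIgusa (igusaDegN N) hr hrN hA) G₁ G₂ (αR N r) (βR N r)
      (fun g => phi (hC1 N A) r g) (fun g => psiD (hC1 N A) r dd g))
    {gL gk : ℕ} (H : Hyp (gaussDatumIgusa (igusaDegN N) hr hrN hA) gL gk)
    (ra : Restr Kb (αR N r)) (rb : Restr Kb (βR N r)) {g : ℕ}
    (HL : RiemannHyp Kb ↥(F1pBar N r) g)
    {T₀ : ↥(holo (P0 (hJ1 N A))) → ↥(holo (P0 (hJ1 N A)))}
    (hT₀ : ∀ u : holo (P0 (hJ1 N A)),
      ((T₀ u : ↥(holo (P0 (hJ1 N A)))) : ↥(F1C N (ResidueField ↥A))) =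
        dd (phi (hC1 N A) r (phi (hC1 N A) r (u : ↥(F1C N (ResidueField ↥A))))))
    (hJ₀ : HJ2 (hC1 N A) (hJ1 N A) r dd hdψ hdj (P0 (hJ1 N A)) T₀)
    {T₁ : ↥(holo (P1 (hJ1 N A))) → ↥(holo (P1 (hJ1 N A)))}
    (hT₁ : ∀ u : holo (P1 (hJ1 N A)),
      ((T₁ u : ↥(holo (P1 (hJ1 N A)))) : ↥(F1C N (ResidueField ↥A))) =
        dd (phi (hC1 N A) r (phi (hC1 N A) r (u : ↥(F1C N (ResidueField ↥A))))))
    (hJ₁ : HJ2 (hC1 N A) (hJ1 N A) r dd hdψ hdj (P1 (hJ1 N A)) T₁) :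
    ∃ S : Finset (Place (ResidueField ↥A) ↥(F1C N (ResidueField ↥A))),
      (∀ b ∈ S, Fr (hC1 N A) r (Fr (hC1 N A) r ((Dp dd).symm b)) = b ∧ b ∉ P0 (hJ1 N A)) ∧
      (g : ℤ) + 1 ≤ gk + gk + S.card ∧
      ∀ h₁ h₂ : ↥(F1C N (ResidueField ↥A)),
        h₁ ∈ regOff (P0 (hJ1 N A)) → h₂ ∈ regOff (P0 (hJ1 N A)) →
        ((h₁, h₂) ∈ Rbar0 G₁ G₂ (isPoleDiv_xE hr hrN).nonneg ↔
          ∀ b ∈ S, ∃ c : ResidueField ↥A,
            HasValue (FrD (hC1 N A) r dd b) h₁ c ∧ HasValue b h₂ c) := by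
  have hφj := phi_jC (N := N) (r := r) (A := A)
  have hψj := psiD_jC (N := N) (r := r) (A := A) dd hdj
  have hP : PairRed G₁ G₂ := pairRed_of_dict2 hr hrN hA d hφj hψj
  exact exists_nodes_X1 hr hrN hA dd hdψ hdj hP HL H.2
    (ls0_of_dict2 hr hrN hA d H ra rb) hT₀ hJ₀
    (ls1_of_dict2 hr hrN hA d hφj hψj H ra rb) hT₁ hJ₁
    (cusp_of_pairRed hr hrN hP)

end Final

end Fermat.Agent.S43.LG1.C1.EulerNodesX1
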