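/-
PROJECT R (S43), gate G, block C1 = S34' (helper13): THE REPRESENTATION PROPERTY `HasRep` OVER ANY
VALUATION SUBRING OF `ℚ̄` LYING OVER A PRIME, FOR ANY SUBFIELD OF `ℚ((q))` GENERATED BY `ℤ`-INTEGRAL
SERIES, with NO degree input and NO condition on the level.

Main's `S48/B/Igusa/Saturate.hasRep` (helper25) gives `HasRep` over a discrete valuation ring with
uniformiser `ℓ` (the ring `W A` of the inertia field).  Here it is transported to the valuation ring
`A` of `ℚ̄` itself (value group divisible, no uniformiser):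

* `IsEchelon S e`, `eq_sum_of_mem_span` : a family `e n`, `n ∈ S`, of Laurent series with
  `coeff_m (e n) = δ_{n m}` on `S`; every `x` in its span is `∑_{n ∈ S} coeff_n(x) • e n`;
* `exists_echelon` : over a domain `R` with `π : R → k` whose non-vanishing detects units, if every
  nonzero element of a submodule `T ⊆ R((q))` is `c • y`, `y ∈ T` of nonzero reduction, then finitely
  many elements of `T` lie in the span of an echelon family of elements of `T`;
* `exists_scale` : every nonzero `x` in the `A`-span of the `ℤ`-integral elements is `c • y`, `c ≠ 0`,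
  `y` in the span with nonzero reduction (scale by the coefficient of largest absolute value among
  the echelon positions);
* **`hasRepGen`** : `GaussG.HasRep A (residue A) F₀ Fk` as soon as `F₀` consists of quotients of its
  `ℤ`-integral elements and `Fk` contains their reductions.
-/
import Mathlib
import Fermat.Agent.S48.B.Igusa.Final

set_option autoImplicit false
set_option linter.unusedSectionVars false
set_option linter.style.haveILetI false

noncomputable section

namespace Fermat.Agent.S43.LG1.C1.RepGen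

open HahnSeries ModularCurve IsLocalRing
open Fermat.Agent.S18.C.SmallDVR
open Fermat.Agent.S48.B.Igusa.Saturate Fermat.Agent.S48.B.Igusa.Final
open Fermat.Agent.S48.B.Red.GaussG

local notation "Kb" => AlgebraicClosure ℚ

/-! ### Echelon families -/

section Echelon

variable {R : Type*} [CommRing R]

/-- `coeff_m (e n) = δ_{n m}` for `n, m ∈ S` -/
def IsEchelon (S : Finset ℤ) (e : ℤ → LaurentSeries R) : Prop :=
  ∀ n ∈ S, ∀ m ∈ S, (e n).coeff m = if n = m then 1 else 0

theorem eq_sum_of_mem_span {S : Finset ℤ} {e : ℤ → LaurentSeries R} (he : IsEchelon S e)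
    {x : LaurentSeries R} (hx : x ∈ Submodule.span R (e '' (S : Set ℤ))) :
    x = ∑ n ∈ S, x.coeff n • e n := by
  induction hx using Submodule.span_induction with
  | mem x hx =>
    obtain ⟨n₀, hn₀, rfl⟩ := hx
    have hn₀' : n₀ ∈ S := Finset.mem_coe.mp hn₀
    rw [Finset.sum_eq_single n₀]
    · rw [he n₀ hn₀' n₀ hn₀', if_pos rfl, one_smul]
    · intro m hm hne
      rw [he n₀ hn₀' m hm, if_neg (Ne.symm hne), zero_smul]
    · intro h
      exact absurd hn₀' h
  | zero =>
    symm
    refine Finset.sum_eq_zero fun n _ => ?_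
    rw [HahnSeries.coeff_zero, zero_smul]
  | add x y _ _ hx hy =>
    have h1 : ∑ n ∈ S, (x + y).coeff n • e n =
        ∑ n ∈ S, x.coeff n • e n + ∑ n ∈ S, y.coeff n • e n := by
      rw [← Finset.sum_add_distrib]
      refine Finset.sum_congr rfl fun n _ => ?_
      rw [HahnSeries.coeff_add, add_smul]
    rw [h1, ← hx, ← hy]
  | smul a x _ hx =>
    have h1 : ∑ n ∈ S, (a • x).coeff n • e n = a • ∑ n ∈ S, x.coeff n • e n := by
      rw [Finset.smul_sum]
      refine Finset.sum_congr rfl fun n _ => ?_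
      rw [HahnSeries.coeff_smul, smul_smul, smul_eq_mul]
    rw [h1, ← hx]

variable [IsDomain R] {k : Type*} [Field k] (π : R →+* k)

open Classical in
/-- finitely many elements of `T` lie in the span of an echelon family of elements of `T` -/
theorem exists_echelon (hunit : ∀ a : R, π a ≠ 0 → IsUnit a) (T : Submodule R (LaurentSeries R))
    (hT : ∀ x ∈ T, x ≠ 0 →
      ∃ (c : R) (y : LaurentSeries R), y ∈ T ∧ x = c • y ∧ coeffMap π y ≠ 0)
    (t : Finset (LaurentSeries R)) (ht : ∀ x ∈ t, x ∈ T) :
    ∃ (S : Finset ℤ) (e : ℤ → LaurentSeries R), IsEchelon S e ∧ (∀ n ∈ S, e n ∈ T) ∧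
      ∀ x ∈ t, x ∈ Submodule.span R (e '' (S : Set ℤ)) := by
  induction t using Finset.induction_on with
  | empty =>
    refine ⟨∅, fun _ => 0, ?_, ?_, ?_⟩
    · intro n hn
      exact absurd hn (Finset.notMem_empty n)
    · intro n hn
      exact absurd hn (Finset.notMem_empty n)
    · intro x hx
      exact absurd hx (Finset.notMem_empty x)
  | insert x t hxt ih =>
    obtain ⟨S, e, he, heT, hspan⟩ := ih (fun y hy => ht y (Finset.mem_insert_of_mem hy))
    have hxT := ht x (Finset.mem_insert_self x t)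
    have hsumT : ∑ n ∈ S, x.coeff n • e n ∈ T :=
      T.sum_mem fun n hn => T.smul_mem _ (heT n hn)
    have hx'T : x - ∑ n ∈ S, x.coeff n • e n ∈ T := T.sub_mem hxT hsumT
    have hx'0 : ∀ m ∈ S, (x - ∑ n ∈ S, x.coeff n • e n).coeff m = 0 := by
      intro m hm
      rw [HahnSeries.coeff_sub, HahnSeries.coeff_sum, Finset.sum_eq_single m]
      · rw [HahnSeries.coeff_smul, he m hm m hm, if_pos rfl, smul_eq_mul, mul_one, sub_self]
      · intro n hn hne
        rw [HahnSeries.coeff_smul, he n hn m hm, if_neg hne, smul_zero]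
      · intro h
        exact absurd hm h
    by_cases h0 : x - ∑ n ∈ S, x.coeff n • e n = 0
    · refine ⟨S, e, he, heT, ?_⟩
      intro y hy
      rcases Finset.mem_insert.mp hy with rfl | hy
      · rw [sub_eq_zero.mp h0]
        exact Submodule.sum_mem _ fun n hn =>
          Submodule.smul_mem _ _ (Submodule.subset_span ⟨n, Finset.mem_coe.mpr hn, rfl⟩)
      · exact hspan y hy
    · obtain ⟨c, y, hyT, hxy, hy0⟩ := hT _ hx'T h0
      have hc : c ≠ 0 := by
        rintro rfl
        rw [zero_smul] at hxy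
        exact h0 hxy
      have hex : ∃ m₀, π (y.coeff m₀) ≠ 0 := by
        by_contra hcon
        push Not at hcon
        apply hy0
        ext m
        rw [coeffMap_coeff, hcon m, HahnSeries.coeff_zero]
      obtain ⟨m₀, hm₀⟩ := hex
      obtain ⟨u, hu⟩ := hunit _ hm₀
      have hyS : ∀ m ∈ S, y.coeff m = 0 := by
        intro m hm
        have h1 := hx'0 m hm
        rw [hxy, HahnSeries.coeff_smul, smul_eq_mul] at h1
        exact (mul_eq_zero.mp h1).resolve_left hc
      have hm₀S : m₀ ∉ S := by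
        intro h
        rw [hyS m₀ h, map_zero] at hm₀
        exact hm₀ rfl
      set f : LaurentSeries R := ((u⁻¹ : Rˣ) : R) • y with hf
      have hfT : f ∈ T := T.smul_mem _ hyT
      have hfm₀ : f.coeff m₀ = 1 := by
        rw [hf, HahnSeries.coeff_smul, smul_eq_mul, ← hu, Units.inv_mul]
      have hfS : ∀ m ∈ S, f.coeff m = 0 := by
        intro m hm
        rw [hf, HahnSeries.coeff_smul, hyS m hm, smul_zero]
      have hyf : y = (u : R) • f := by
        rw [hf, smul_smul, Units.mul_inv, one_smul]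
      set e' : ℤ → LaurentSeries R :=
        fun n => if n = m₀ then f else e n - (e n).coeff m₀ • f with he'
      have he'm₀ : e' m₀ = f := by
        rw [he']
        exact if_pos rfl
      have hne_of : ∀ n ∈ S, n ≠ m₀ := fun n hn h => hm₀S (h ▸ hn)
      have he'n : ∀ n ∈ S, e' n = e n - (e n).coeff m₀ • f := by
        intro n hn
        rw [he']
        exact if_neg (hne_of n hn)
      have hfspan : f ∈ Submodule.span R (e' '' ((insert m₀ S : Finset ℤ) : Set ℤ)) :=
        Submodule.subset_span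
          ⟨m₀, Finset.mem_coe.mpr (Finset.mem_insert_self m₀ S), he'm₀⟩
      have hespan : ∀ n ∈ S,
          e n ∈ Submodule.span R (e' '' ((insert m₀ S : Finset ℤ) : Set ℤ)) := by
        intro n hn
        have h1 : e n = e' n + (e n).coeff m₀ • f := by
          rw [he'n n hn, sub_add_cancel]
        rw [h1]
        exact Submodule.add_mem _
          (Submodule.subset_span
            ⟨n, Finset.mem_coe.mpr (Finset.mem_insert_of_mem hn), rfl⟩)
          (Submodule.smul_mem _ _ hfspan)
      refine ⟨insert m₀ S, e', ?_, ?_, ?_⟩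
      · intro n hn m hm
        rcases Finset.mem_insert.mp hn with hn1 | hn1
        · rcases Finset.mem_insert.mp hm with hm1 | hm1
          · rw [hn1, hm1, he'm₀, hfm₀, if_pos rfl]
          · rw [hn1, he'm₀, hfS m hm1, if_neg (Ne.symm (hne_of m hm1))]
        · rcases Finset.mem_insert.mp hm with hm1 | hm1
          · rw [hm1, he'n n hn1, HahnSeries.coeff_sub, HahnSeries.coeff_smul, hfm₀, smul_eq_mul,
              mul_one, sub_self, if_neg (hne_of n hn1)]
          · rw [he'n n hn1, HahnSeries.coeff_sub, HahnSeries.coeff_smul, hfS m hm1, smul_zero,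
              sub_zero, he n hn1 m hm1]
      · intro n hn
        rcases Finset.mem_insert.mp hn with hn1 | hn1
        · rw [hn1, he'm₀]
          exact hfT
        · rw [he'n n hn1]
          exact T.sub_mem (heT n hn1) (T.smul_mem _ hfT)
      · have hle : Submodule.span R (e '' (S : Set ℤ)) ≤
            Submodule.span R (e' '' ((insert m₀ S : Finset ℤ) : Set ℤ)) := by
          rw [Submodule.span_le]
          rintro _ ⟨n, hn, rfl⟩
          exact hespan n (Finset.mem_coe.mp hn)
        intro z hz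
        rcases Finset.mem_insert.mp hz with rfl | hz
        · have h1 : z = c • ((u : R) • f) + ∑ n ∈ S, z.coeff n • e n := by
            rw [← hyf, ← hxy, sub_add_cancel]
          rw [h1]
          exact Submodule.add_mem _
            (Submodule.smul_mem _ _ (Submodule.smul_mem _ _ hfspan))
            (Submodule.sum_mem _ fun n hn => Submodule.smul_mem _ _ (hespan n hn))
        · exact hle (hspan z hz)

end Echelon

/-! ### Coefficient maps and scalars -/

section CoeffMap

variable {R S : Type*} [CommRing R] [CommRing S] (φ : R →+* S)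

theorem coeffMap_smul' (c : R) (x : LaurentSeries R) :
    coeffMap φ (c • x) = φ c • coeffMap φ x := by
  ext n
  rw [coeffMap_coeff, HahnSeries.coeff_smul, HahnSeries.coeff_smul, coeffMap_coeff, smul_eq_mul,
    smul_eq_mul, map_mul]

theorem isEchelon_coeffMap {T : Finset ℤ} {e : ℤ → LaurentSeries R} (he : IsEchelon T e) :
    IsEchelon T (fun n => coeffMap φ (e n)) := by
  intro n hn m hm
  show (coeffMap φ (e n)).coeff m = _
  rw [coeffMap_coeff, he n hn m hm]
  split_ifs
  · exact map_one φ
  · exact map_zero φ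

end CoeffMap

/-! ### Scaling over the valuation ring of `ℚ̄` -/

section Scale

variable {ℓ : ℕ} [hℓ : Fact ℓ.Prime] {A : ValuationSubring Kb}
variable (I : Subring (LaurentSeries ℤ))

theorem coeffMap_toA_iR (P : LaurentSeries ℤ) :
    coeffMap (toA A) (iR ↥(W A) P) = iR ↥A P := by
  rw [coeffMap_coeffMap]
  exact coeffMap_congr (RingHom.ext_int _ _) P

variable {I} in
theorem coeffMap_toA_mem_T {x : LaurentSeries ↥(W A)} (hx : x ∈ T (R := ↥(W A)) I) :
    coeffMap (toA A) x ∈ T (R := ↥A) I := by
  unfold T at hx ⊢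
  induction hx using Submodule.span_induction with
  | mem x hx =>
    obtain ⟨P, hP, rfl⟩ := hx
    rw [coeffMap_toA_iR]
    exact Submodule.subset_span ⟨P, hP, rfl⟩
  | zero =>
    rw [map_zero]
    exact Submodule.zero_mem _
  | add x y _ _ hx hy =>
    rw [map_add]
    exact Submodule.add_mem _ hx hy
  | smul a x _ hx =>
    rw [coeffMap_smul']
    exact Submodule.smul_mem _ _ hx

/-- divisibility in a valuation subring from the valuations -/
theorem dvd_of_valuation_le {K : Type*} [Field K] (A : ValuationSubring K) {a c : ↥A}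
    (h : A.valuation (a : K) ≤ A.valuation (c : K)) : c ∣ a := by
  rcases eq_or_ne c 0 with rfl | hc
  · have h1 : A.valuation (a : K) = 0 := by
      rw [ZeroMemClass.coe_zero, map_zero] at h
      exact le_antisymm h zero_le
    have h2 : (a : K) = 0 := (Valuation.zero_iff _).mp h1
    have h3 : a = 0 := Subtype.ext h2
    rw [h3]
  · have hc0 : (c : K) ≠ 0 := fun h0 => hc (Subtype.ext h0)
    have hv : A.valuation (c : K) ≠ 0 := (Valuation.ne_zero_iff _).mpr hc0
    have hmem : (a : K) / (c : K) ∈ A := by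
      rw [← A.valuation_le_one_iff, map_div₀]
      exact div_le_one_of_le₀ h zero_le
    refine ⟨⟨(a : K) / (c : K), hmem⟩, Subtype.ext ?_⟩
    show (a : K) = (c : K) * ((a : K) / (c : K))
    field_simp

include hℓ in
open Classical in
/-- **every nonzero element of the `A`-span of the integral elements is a nonzero constant times an
element of the span with nonzero reduction** -/
theorem exists_scale (hA : A.LiesOverPrime ℓ)
    (hsat : ∀ y : LaurentSeries ℤ, (ℓ : ℤ) • y ∈ I → y ∈ I)
    {x : LaurentSeries ↥A} (hx : x ∈ T (R := ↥A) I) (hx0 : x ≠ 0) :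
    ∃ (c : ↥A) (y : LaurentSeries ↥A), c ≠ 0 ∧ y ∈ T (R := ↥A) I ∧ x = c • y ∧
      coeffMap (residue ↥A) y ≠ 0 := by
  have := Fermat.Agent.S18.ResidueBasics.charP_residueField A hA
  let _ : Algebra (ZMod ℓ) (ResidueField ↥A) := ZMod.algebra _ ℓ
  -- the four facts on the small discrete valuation ring
  have hℓ0 : ((ℓ : ℕ) : ↥(W A)) ≠ 0 := natCast_W_ne_zero hℓ.out.ne_zero
  have hker : ∀ a : ↥(W A), piW A a = 0 → ∃ b, a = ((ℓ : ℕ) : ↥(W A)) * b := by
    intro a ha
    have h1 : a ∈ Ideal.span {((ℓ : ℕ) : ↥(W A))} := by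
      rw [← ker_algebraMap_W_k_eq_span A hA]
      exact ha
    obtain ⟨b, hb⟩ := Ideal.mem_span_singleton'.mp h1
    exact ⟨b, by rw [← hb, mul_comm]⟩
  have hunit : ∀ a : ↥(W A), piW A a ≠ 0 → IsUnit a := by
    intro a ha
    by_contra h
    exact ha ((piW_eq_zero_iff a).mpr h)
  have hfact : ∀ a : ↥(W A), a ≠ 0 →
      ∃ (m : ℕ) (u : ↥(W A)), IsUnit u ∧ a = ((ℓ : ℕ) : ↥(W A)) ^ m * u := by
    intro a ha
    obtain ⟨n, u, hu⟩ := exists_unit_mul_pow hA a ha
    exact ⟨n, (u : ↥(W A)), u.isUnit, by rw [hu, mul_comm]⟩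
  have hTW : ∀ z ∈ T (R := ↥(W A)) I, z ≠ 0 →
      ∃ (c : ↥(W A)) (y : LaurentSeries ↥(W A)), y ∈ T (R := ↥(W A)) I ∧ z = c • y ∧
        coeffMap (piW A) y ≠ 0 := by
    intro z hz hz0
    obtain ⟨m, y, hy, hzy, hne⟩ :=
      exists_pow_smul ℓ (piW A) I hℓ0 hker hunit hsat hfact hz hz0
    exact ⟨_, y, hy, hzy, hne⟩
  -- a finite representation of `x`
  obtain ⟨t, ht, c, rfl⟩ := (Submodule.mem_span_image_iff_exists_fun ↥A).mp hx
  -- the echelon family over `W A`
  obtain ⟨S, e, he, heT, hspan⟩ := exists_echelon (piW A) hunit (T (R := ↥(W A)) I) hTW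
    (t.image (iR ↥(W A))) (by
      intro z hz
      obtain ⟨P, hP, rfl⟩ := Finset.mem_image.mp hz
      exact iR_mem_T (ht hP))
  set E : ℤ → LaurentSeries ↥A := fun n => coeffMap (toA A) (e n) with hE
  have hEech : IsEchelon S E := isEchelon_coeffMap (toA A) he
  have hET : ∀ n ∈ S, E n ∈ T (R := ↥A) I := fun n hn => coeffMap_toA_mem_T (heT n hn)
  -- every `iR A P`, `P ∈ t`, lies in the span of the `E n`
  have hP : ∀ P ∈ t, iR ↥A P ∈ Submodule.span ↥A (E '' (S : Set ℤ)) := by
    intro P hP
    have h1 := eq_sum_of_mem_span he (hspan _ (Finset.mem_image_of_mem _ hP))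
    have h2 : iR ↥A P = ∑ n ∈ S, toA A ((iR ↥(W A) P).coeff n) • E n := by
      rw [← coeffMap_toA_iR, h1, map_sum]
      refine Finset.sum_congr rfl fun n _ => ?_
      rw [coeffMap_smul', ← h1]
    rw [h2]
    exact Submodule.sum_mem _ fun n hn =>
      Submodule.smul_mem _ _ (Submodule.subset_span ⟨n, Finset.mem_coe.mpr hn, rfl⟩)
  have hxspan : ∑ i : t, c i • iR ↥A i.1 ∈ Submodule.span ↥A (E '' (S : Set ℤ)) :=
    Submodule.sum_mem _ fun i _ => Submodule.smul_mem _ _ (hP i.1 i.2)
  have hxsum := eq_sum_of_mem_span hEech hxspan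
  set x : LaurentSeries ↥A := ∑ i : t, c i • iR ↥A i.1 with hxdef
  -- the coefficient of largest absolute value
  have hSne : S.Nonempty := by
    rw [Finset.nonempty_iff_ne_empty]
    rintro rfl
    rw [Finset.sum_empty] at hxsum
    exact hx0 hxsum
  obtain ⟨n₁, hn₁, hmax⟩ :=
    Finset.exists_max_image S (fun n => A.valuation ((x.coeff n : ↥A) : Kb)) hSne
  have hdvd : ∀ n ∈ S, x.coeff n₁ ∣ x.coeff n := fun n hn => dvd_of_valuation_le A (hmax n hn)
  have hc0 : x.coeff n₁ ≠ 0 := by
    intro h0
    apply hx0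
    rw [hxsum]
    refine Finset.sum_eq_zero fun n hn => ?_
    obtain ⟨d, hd⟩ := hdvd n hn
    rw [hd, h0, zero_mul, zero_smul]
  choose! d hd using hdvd
  have hd₁ : d n₁ = 1 := by
    have h1 := hd n₁ hn₁
    have h2 : x.coeff n₁ * d n₁ = x.coeff n₁ * 1 := by rw [← h1, mul_one]
    exact mul_left_cancel₀ hc0 h2
  refine ⟨x.coeff n₁, ∑ n ∈ S, d n • E n, hc0,
    Submodule.sum_mem _ fun n hn => Submodule.smul_mem _ _ (hET n hn), ?_, ?_⟩
  · conv_lhs => rw [hxsum]
    rw [Finset.smul_sum]
    refine Finset.sum_congr rfl fun n hn => ?_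
    rw [smul_smul, ← hd n hn]
  · intro h0
    have h1 := congrArg (fun z : LaurentSeries (ResidueField ↥A) => z.coeff n₁) h0
    simp only [coeffMap_coeff, HahnSeries.coeff_zero] at h1
    rw [HahnSeries.coeff_sum, Finset.sum_eq_single n₁] at h1
    · rw [HahnSeries.coeff_smul, hEech n₁ hn₁ n₁ hn₁, if_pos rfl, smul_eq_mul, mul_one, hd₁,
        map_one] at h1
      exact one_ne_zero h1
    · intro n hn hne
      rw [HahnSeries.coeff_smul, hEech n hn n₁ hn₁, if_neg hne, smul_zero]
    · intro h
      exact absurd hn₁ h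

end Scale

/-! ### The representation property -/

section Rep

variable {ℓ : ℕ} [hℓ : Fact ℓ.Prime] {A : ValuationSubring Kb}
variable {F₀ : IntermediateField ℚ (LaurentSeries ℚ)}
variable {Fk : IntermediateField (ResidueField ↥A) (LaurentSeries (ResidueField ↥A))}

include hℓ in
/-- **`HasRep` over a valuation subring of `ℚ̄` lying over a prime**, for a subfield of `ℚ((q))`
consisting of quotients of its `ℤ`-integral elements; no degree input, no condition on the level. -/
theorem hasRepGen (hA : A.LiesOverPrime ℓ)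
    (hFk : ∀ y ∈ intZ F₀, coeffMap (Int.castRingHom (ResidueField ↥A)) y ∈ Fk)
    (hratio : ∀ z ∈ F₀, ∃ P Q : LaurentSeries ℤ, P ∈ intZ F₀ ∧ Q ∈ intZ F₀ ∧
      coeffMap (Int.castRingHom ℚ) Q ≠ 0 ∧
        z * coeffMap (Int.castRingHom ℚ) Q = coeffMap (Int.castRingHom ℚ) P) :
    HasRep A (residue ↥A) F₀ Fk := by
  intro f hf
  obtain ⟨N, D, hN, hD, hD0, h⟩ := isFrac_of_mem (A := A) hratio f.2
  have hf0 : (f : LaurentSeries Kb) ≠ 0 := fun h0 => hf (Subtype.ext h0)
  have hN0 : N ≠ 0 := by
    rintro rfl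
    rw [map_zero] at h
    exact mul_ne_zero hf0 (subtype_ne_zero hD0) h
  obtain ⟨c, N', hc, hN', hNN', hrN⟩ := exists_scale (intZ F₀) hA (intZ_sat ℓ F₀) hN hN0
  obtain ⟨c', D', hc', hD', hDD', hrD⟩ := exists_scale (intZ F₀) hA (intZ_sat ℓ F₀) hD hD0
  have hcL : ((c : ↥A) : Kb) ≠ 0 := fun h0 => hc (Subtype.ext h0)
  have hc'L : ((c' : ↥A) : Kb) ≠ 0 := fun h0 => hc' (Subtype.ext h0)
  have hsub : ∀ (a : ↥A) (x : LaurentSeries ↥A), coeffMap A.subtype (a • x) =
      algebraMap Kb (LaurentSeries Kb) ((a : ↥A) : Kb) * coeffMap A.subtype x := by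
    intro a x
    rw [coeffMap_smul', algebraMap_mul_eq_smul]
    rfl
  refine ⟨((c : ↥A) : Kb) / ((c' : ↥A) : Kb), ⟨N', mem_intRing_of_mem_T hFk hN'⟩,
    ⟨D', mem_intRing_of_mem_T hFk hD'⟩, div_ne_zero hcL hc'L, ?_, ?_, ?_⟩
  · intro h0
    apply hrN
    have := congrArg Subtype.val h0
    rwa [coe_red] at this
  · intro h0
    apply hrD
    have := congrArg Subtype.val h0
    rwa [coe_red] at this
  · apply Subtype.ext
    show (f : LaurentSeries Kb) * coeffMap A.subtype D' =
      algebraMap Kb (LaurentSeries Kb) (((c : ↥A) : Kb) / ((c' : ↥A) : Kb)) *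
        coeffMap A.subtype N'
    rw [hNN', hDD', hsub, hsub] at h
    have hp : algebraMap Kb (LaurentSeries Kb) ((c' : ↥A) : Kb) ≠ 0 := by
      rw [Ne, map_eq_zero]
      exact hc'L
    rw [map_div₀, div_mul_eq_mul_div, eq_div_iff hp, ← h]
    ring

end Rep

end Fermat.Agent.S43.LG1.C1.RepGen
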