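/-
PROJECT R (S43), gate (G), cut C1 = S34', slice GaussPairX1 (helper16): **the two Gauss data of
`E'' = ℚ̄(X₁(N; r))` over a prime `r ∤ N`, realised by `q`-expansions, and the reduction formulas**
(the `X₁`-twin of my `S34/GaussPairX0`).

`A` a valuation subring of `ℚ̄` over `r`, `κ` its residue field, `G = Seam.gaussDatum1 N A hr hA hrN`
the Gauss datum of `F = ℚ̄(X₁(N))`, `α = alpha1`, `β = beta1 : F → E''`, `S = TwoGaussX1.setupX1` the
Dedekind-Kummer setup (`t = j_r = β j`), `W = Seam.W1` the Atkin-Lehner automorphism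
(`W β = α`, `W α = β δ`, `δ = ⟨r⁻¹⟩^*`; NOT an involution).

* `F1pC N r k` : the field generated over `k` by the reductions of the `ℤ`-integral elements of
  `F1p N r` (twin of `Defs/Model.F1C`); `F1C_le_F1pC`, `map_F1C_le_F1pC`, `ratio_F1p`;
* `hasRep1p : GaussG.HasRep A (residue A) (F1p N r) (F1pC N r κ)` (helper13's `RepGen.hasRepGen`:
  no degree input), `gaussDatum₁ N A hA`, `V₁ N A hA` its valuation ring;
* `alphaI`, `betaI` on integral elements, `rho := redw : Ow → F1pC`, `alpha_mem_Ow`, `beta_mem_Ow`,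
  `rho_alpha`, `coe_rho_beta`, `rho_jr`, `alphaR`, `evR`, `rho_evR`;
* `isExt_V₁ : S.IsExt S.G₁ V₁`; `coe_rho_mem_F1C` and **`F1pC_eq : F1pC N r κ = F1C N κ`** (the type-1
  extension is `{ b(j_r)/s(j_r) : g₁ ∤ s̄ }`, `g₁ = X - J^r` of degree one);
* `red₁ : V₁ →+* F1C N κ` : `red₁_alpha : red₁ (α x) = G.red x`,
  `coe_red₁_beta : red₁ (β x) = (G.red x)(q^r)`, `red₁_jr`, `alpha_mem_V₁_iff`, `beta_mem_V₁_iff`,
  `red₁_eq_zero_iff`, `red₁_surjective`;
* `V₂ = V₁.comap W`, `W1V : V₂ ≃+* V₁`, `red₂ = red₁ ∘ W` : `red₂_beta : red₂ (β x) = G.red x`,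
  `red₂_jr`, `red₂_alpha_jgen1`, `beta_mem_V₂_iff`, `red₂_eq_zero_iff`, `red₂_surjective`;
  `gaussDatumV₁`, `gaussDatumV₂ : GaussDatum A π E'' (F1C N κ)`;
* with `hδO : δ • G.O = G.O` (the diamond preserves the Gauss ring; form of main's
  `S48/B/Red/Unique1`, discharged in `C1/DiamondRed1`): `alpha_mem_V₂_iff`,
  `isExt_V₂ : S.IsExt S.G₂ V₂`, `V₁_ne_V₂`, and THE TWIST
  `coe_red₂_alpha : red₂ (α x) = (G.red (δ x))(q^r)` (`δ x` as `Unique1.mapO δ hδO x`);
* inertia: `smul_mem_V₁_iff`, `red₁_smul`, `smul_mem_V₂_iff`, `red₂_smul` (the last two with `hδO`).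
-/
import Mathlib
import Fermat.Agent.S43.LG1.C1.Seam
import Fermat.Agent.S43.LG1.C1.RepGen
import Fermat.Agent.S43.LG1.C1.TwoGaussX1
import Fermat.Agent.S48.B.Red.Unique1
import Fermat.Agent.S48.B.Red.DatumG

set_option autoImplicit false
set_option linter.unusedSectionVars false
set_option linter.style.haveILetI false
set_option synthInstance.maxHeartbeats 400000

noncomputable section

namespace Fermat.Agent.S43.LG1.C1.GaussPairX1

open Polynomial ModularCurve AlgebraicCurve IsLocalRing HahnSeries IntermediateField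
open Fermat.Agent.S48.B.Defs.Model Fermat.Agent.S48.B.B1.Seams
open Fermat.Agent.S48.B.ES.DegreeBeta1
open Fermat.Agent.S48.B.Red.Seams (jC coe_jC)
open Fermat.Agent.S48.B.Red.GaussG Fermat.Agent.S48.B.Red.DatumG
open Fermat.Agent.S48.B.Igusa.Saturate
open Fermat.Agent.S43.LG1.C1.Seam Fermat.Agent.S43.LG1.C1.TwoGaussX1
open Fermat.Agent.S34
open scoped Pointwise

local notation "Kb" => AlgebraicClosure ℚ

/-! ### The residue field of level `(N; r)` -/

section FieldC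

variable (N r : ℕ) [NeZero N] [NeZero r] (k : Type*) [Field k]

/-- the reductions of the `ℤ`-integral elements of `F1p N r` -/
def integralReductionsP : Set (LaurentSeries k) :=
  {x | ∃ y : LaurentSeries ℤ, coeffMap (Int.castRingHom ℚ) y ∈ F1p N r ∧
    x = coeffMap (Int.castRingHom k) y}

/-- **the function field of level `(N; r)` over `k`**: generated by the reductions of the integral
elements (twin of `Defs/Model.F1C`) -/
def F1pC : IntermediateField k (LaurentSeries k) :=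
  IntermediateField.adjoin k (integralReductionsP N r k)

theorem coeffMap_mem_F1pC {y : LaurentSeries ℤ}
    (hy : coeffMap (Int.castRingHom ℚ) y ∈ F1p N r) :
    coeffMap (Int.castRingHom k) y ∈ F1pC N r k :=
  subset_adjoin k _ ⟨y, hy, rfl⟩

theorem F1C_le_F1pC : F1C N k ≤ F1pC N r k := by
  refine IntermediateField.adjoin_le_iff.mpr ?_
  rintro _ ⟨y, hy, rfl⟩
  exact coeffMap_mem_F1pC N r k (F1_le_F1p N r hy)

theorem map_F1C_le_F1pC : (F1C N k).map (qExpandAlgHomC k r) ≤ F1pC N r k := by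
  unfold F1C
  rw [IntermediateField.adjoin_map]
  refine IntermediateField.adjoin_le_iff.mpr ?_
  rintro _ ⟨_, ⟨y, hy, rfl⟩, rfl⟩
  rw [qExpandAlgHomC_apply, ← Fermat.Agent.S28.PrimeCaseForm.coeffMap_qExpand]
  refine coeffMap_mem_F1pC N r k ?_
  rw [Fermat.Agent.S28.PrimeCaseForm.coeffMap_qExpand]
  exact qExpand_mem_F1p N r hy

theorem qExpand_mem_F1pC {x : LaurentSeries k} (hx : x ∈ F1C N k) :
    qExpand k r x ∈ F1pC N r k :=
  map_F1C_le_F1pC N r k ⟨x, hx, rfl⟩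

/-- `F1p N r` is generated by `ℤ`-integral series -/
theorem F1p_eq_adjoin :
    F1p N r = IntermediateField.adjoin ℚ
      ((divisorExpansions N ∪ frickeGenerators N) ∪
        (qExpandₐ r) '' (divisorExpansions N ∪ frickeGenerators N)) := by
  rw [IntermediateField.adjoin_union, ← IntermediateField.adjoin_map]
  rfl

/-- `F1p N r` consists of quotients of its `ℤ`-integral elements -/
theorem ratio_F1p : ∀ z ∈ F1p N r, ∃ P Q : LaurentSeries ℤ,
    P ∈ intZ (F1p N r) ∧ Q ∈ intZ (F1p N r) ∧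
    coeffMap (Int.castRingHom ℚ) Q ≠ 0 ∧
      z * coeffMap (Int.castRingHom ℚ) Q = coeffMap (Int.castRingHom ℚ) P := by
  have h := ratio_adjoin ((divisorExpansions N ∪ frickeGenerators N) ∪
        (qExpandₐ r) '' (divisorExpansions N ∪ frickeGenerators N)) (by
    rintro s (hs | ⟨s', hs', rfl⟩)
    · exact Fermat.Agent.S48.B.Igusa.Final.gen_integral N s hs
    · obtain ⟨P, hP⟩ := Fermat.Agent.S48.B.Igusa.Final.gen_integral N s' hs'
      refine ⟨qExpand ℤ r P, ?_⟩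
      rw [Fermat.Agent.S28.PrimeCaseForm.coeffMap_qExpand, hP]
      rfl)
  rw [← F1p_eq_adjoin] at h
  exact h

end FieldC

/-! ### Integral elements: from level `N` to level `(N; r)` along `α` and `β` -/

section IntRing

variable {L : Type*} [Field L] [Algebra ℚ L] (A : ValuationSubring L)
variable {k : Type*} [Field k] (π : ↥A →+* k) (N r : ℕ) [NeZero N] [NeZero r]

theorem alpha_mem_intRing {y : LaurentSeries ↥A} (hy : y ∈ intRing A π (F1 N) (F1C N k)) :
    y ∈ intRing A π (F1p N r) (F1pC N r k) := by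
  rw [mem_intRing] at hy ⊢
  exact ⟨laurentBaseChange_mono L (F1_le_F1p N r) hy.1, F1C_le_F1pC N r k hy.2⟩

theorem beta_mem_intRing {y : LaurentSeries ↥A} (hy : y ∈ intRing A π (F1 N) (F1C N k)) :
    qExpand ↥A r y ∈ intRing A π (F1p N r) (F1pC N r k) := by
  rw [mem_intRing] at hy ⊢
  rw [Fermat.Agent.S28.PrimeCaseForm.coeffMap_qExpand,
    Fermat.Agent.S28.PrimeCaseForm.coeffMap_qExpand]
  exact ⟨qExpand_mem_laurentBaseChange r (fun _ hz => qExpand_mem_F1p N r hz) hy.1,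
    qExpand_mem_F1pC N r k hy.2⟩

/-- `α` on integral elements: the same series, seen at level `(N; r)`. -/
def alphaI : ↥(intRing A π (F1 N) (F1C N k)) →+* ↥(intRing A π (F1p N r) (F1pC N r k)) where
  toFun y := ⟨y.1, alpha_mem_intRing A π N r y.2⟩
  map_one' := Subtype.ext rfl
  map_mul' _ _ := Subtype.ext rfl
  map_zero' := Subtype.ext rfl
  map_add' _ _ := Subtype.ext rfl

/-- `β` on integral elements: `y(q) ↦ y(q^r)`. -/
def betaI : ↥(intRing A π (F1 N) (F1C N k)) →+* ↥(intRing A π (F1p N r) (F1pC N r k)) where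
  toFun y := ⟨qExpand ↥A r y.1, beta_mem_intRing A π N r y.2⟩
  map_one' := Subtype.ext (map_one _)
  map_mul' _ _ := Subtype.ext (map_mul _ _ _)
  map_zero' := Subtype.ext (map_zero _)
  map_add' _ _ := Subtype.ext (map_add _ _ _)

@[simp] theorem coe_alphaI (y : ↥(intRing A π (F1 N) (F1C N k))) :
    ((alphaI A π N r y : ↥(intRing A π (F1p N r) (F1pC N r k))) : LaurentSeries ↥A) = y.1 := by
  obtain ⟨v, hv⟩ := y
  rfl

@[simp] theorem coe_betaI (y : ↥(intRing A π (F1 N) (F1C N k))) :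
    ((betaI A π N r y : ↥(intRing A π (F1p N r) (F1pC N r k))) : LaurentSeries ↥A) =
      qExpand ↥A r y.1 := by
  obtain ⟨v, hv⟩ := y
  rfl

theorem toFL_alphaI (y : ↥(intRing A π (F1 N) (F1C N k))) :
    toFL A π (F1p N r) (F1pC N r k) (alphaI A π N r y) =
      alpha1 N r L (toFL A π (F1 N) (F1C N k) y) := by
  apply Subtype.ext
  rw [coe_alpha1, coe_toFL, coe_toFL, coe_alphaI]

theorem toFL_betaI (y : ↥(intRing A π (F1 N) (F1C N k))) :
    toFL A π (F1p N r) (F1pC N r k) (betaI A π N r y) =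
      beta1 N r L (toFL A π (F1 N) (F1C N k) y) := by
  apply Subtype.ext
  rw [coe_beta1, coe_toFL, coe_toFL, coe_betaI,
    Fermat.Agent.S28.PrimeCaseForm.coeffMap_qExpand]

theorem coe_red_alphaI (y : ↥(intRing A π (F1 N) (F1C N k))) :
    ((red A π (F1p N r) (F1pC N r k) (alphaI A π N r y) : ↥(F1pC N r k)) : LaurentSeries k) =
      ((red A π (F1 N) (F1C N k) y : ↥(F1C N k)) : LaurentSeries k) := by
  rw [coe_red, coe_red, coe_alphaI]

theorem coe_red_betaI (y : ↥(intRing A π (F1 N) (F1C N k))) :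
    ((red A π (F1p N r) (F1pC N r k) (betaI A π N r y) : ↥(F1pC N r k)) : LaurentSeries k) =
      qExpand k r ((red A π (F1 N) (F1C N k) y : ↥(F1C N k)) : LaurentSeries k) := by
  have h1 : ((red A π (F1p N r) (F1pC N r k) (betaI A π N r y) : ↥(F1pC N r k)) :
      LaurentSeries k) = coeffMap π (qExpand ↥A r y.1) := by
    rw [coe_red, coe_betaI]
  have h2 : ((red A π (F1 N) (F1C N k) y : ↥(F1C N k)) : LaurentSeries k) =
      coeffMap π y.1 := coe_red y
  rw [h1, h2]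
  exact Fermat.Agent.S28.PrimeCaseForm.coeffMap_qExpand _ _ _

theorem red_alphaI_ne_zero {y : ↥(intRing A π (F1 N) (F1C N k))}
    (h : red A π (F1 N) (F1C N k) y ≠ 0) :
    red A π (F1p N r) (F1pC N r k) (alphaI A π N r y) ≠ 0 := by
  intro h0
  apply h
  rw [← ZeroMemClass.coe_eq_zero, ← coe_red_alphaI A π N r y, h0, ZeroMemClass.coe_zero]

theorem red_betaI_ne_zero {y : ↥(intRing A π (F1 N) (F1C N k))}
    (h : red A π (F1 N) (F1C N k) y ≠ 0) :
    red A π (F1p N r) (F1pC N r k) (betaI A π N r y) ≠ 0 := by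
  intro h0
  apply h
  have h1 := coe_red_betaI A π N r y
  rw [h0, ZeroMemClass.coe_zero] at h1
  rw [← ZeroMemClass.coe_eq_zero]
  apply qExpand_injective (R := k) r
  rw [← h1, map_zero]

end IntRing

/-! ### The ring `R = Ow A π (F1p N r)` and its reduction to `F1pC N r κ` -/

section Ring

variable {r : ℕ} [hrF : Fact r.Prime] {N : ℕ} [NeZero N] {A : ValuationSubring Kb}
variable (hr : r.Prime) (hA : A.LiesOverPrime r) (hrN : ¬ r ∣ N) [NeZero r]

/-- the residue characteristic -/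
theorem charP_res (hA : A.LiesOverPrime r) : CharP (ResidueField ↥A) r :=
  Fermat.Agent.S18.ResidueBasics.charP_residueField A hA

/-- **`HasRep` at level `(N; r)` for `A` over `r`** (helper13's `RepGen.hasRepGen`: no degree
input). -/
theorem hasRep1p (hA : A.LiesOverPrime r) :
    HasRep A (residue ↥A) (F1p N r) (F1pC N r (ResidueField ↥A)) :=
  Fermat.Agent.S43.LG1.C1.RepGen.hasRepGen hA
    (fun _ hy => coeffMap_mem_F1pC N r (ResidueField ↥A) (mem_intZ.mp hy)) (ratio_F1p N r)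

/-- **The Gauss datum of `E'' = ℚ̄(X₁(N; r))` for the `q`-expansion at `∞`** (`A` over `r`), with
residue field `F1pC N r κ`. -/
def gaussDatum₁ (N : ℕ) [NeZero N] {r : ℕ} [Fact r.Prime] [NeZero r] (A : ValuationSubring Kb)
    (hA : A.LiesOverPrime r) :
    Fermat.Agent.S37.Deuring.Core.GaussDatum A (residue ↥A) ↥(F1pBar N r)
      ↥(F1pC N r (ResidueField ↥A)) :=
  datumOfRep (hasRep1p (N := N) hA) residue_surjective
    Fermat.Agent.S48.B.Red.Bases1.residue_eq_zero_of_not_isUnit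

/-- the first valuation subring: the Gauss ring of the `q`-expansion -/
abbrev V₁ (N : ℕ) [NeZero N] {r : ℕ} [Fact r.Prime] [NeZero r] (A : ValuationSubring Kb)
    (hA : A.LiesOverPrime r) : ValuationSubring ↥(F1pBar N r) := (gaussDatum₁ N A hA).O

theorem mem_V₁_iff {f : ↥(F1pBar N r)} :
    f ∈ V₁ N A hA ↔ f ∈ Ow A (residue ↥A) (F1p N r) (F1pC N r (ResidueField ↥A)) := Iff.rfl

theorem mem_V₁_iff_inOw {f : ↥(F1pBar N r)} :
    f ∈ V₁ N A hA ↔ InOw A (residue ↥A) (F1p N r) (F1pC N r (ResidueField ↥A)) f := Iff.rfl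

/-- **the reduction** `ρ : R → F1pC N r κ`, `R = Ow A π (F1p N r)` -/
def rho (N : ℕ) [NeZero N] (r : ℕ) [NeZero r] (A : ValuationSubring Kb) :
    ↥(Ow A (residue ↥A) (F1p N r) (F1pC N r (ResidueField ↥A))) →+*
      ↥(F1pC N r (ResidueField ↥A)) :=
  redw A (residue ↥A) (F1p N r) (F1pC N r (ResidueField ↥A))

/-- membership in the Gauss ring of level `N`: quotient of integral elements -/
theorem mem_O1_iff {x : ↥(F1Bar N)} :
    x ∈ (gaussDatum1 N A hr hA hrN).O ↔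
      ∃ a b : ↥(intRing A (residue ↥A) (F1 N) (F1C N (ResidueField ↥A))),
        red A (residue ↥A) (F1 N) (F1C N (ResidueField ↥A)) b ≠ 0 ∧
          x * toFL A (residue ↥A) (F1 N) (F1C N (ResidueField ↥A)) b =
            toFL A (residue ↥A) (F1 N) (F1C N (ResidueField ↥A)) a := Iff.rfl

theorem red1_eq (x : ↥(gaussDatum1 N A hr hA hrN).O)
    {a b : ↥(intRing A (residue ↥A) (F1 N) (F1C N (ResidueField ↥A)))}
    (hb : red A (residue ↥A) (F1 N) (F1C N (ResidueField ↥A)) b ≠ 0)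
    (hab : (x : ↥(F1Bar N)) * toFL A (residue ↥A) (F1 N) (F1C N (ResidueField ↥A)) b =
      toFL A (residue ↥A) (F1 N) (F1C N (ResidueField ↥A)) a) :
    (gaussDatum1 N A hr hA hrN).red x =
      red A (residue ↥A) (F1 N) (F1C N (ResidueField ↥A)) a /
        red A (residue ↥A) (F1 N) (F1C N (ResidueField ↥A)) b :=
  redV_eq (hasRep1 hr hrN hA) x hb hab

/-- `α(O) ⊆ R` -/
theorem alpha_mem_Ow {x : ↥(F1Bar N)} (hx : x ∈ (gaussDatum1 N A hr hA hrN).O) :
    alpha1 N r Kb x ∈ Ow A (residue ↥A) (F1p N r) (F1pC N r (ResidueField ↥A)) := by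
  obtain ⟨a, b, hb, hab⟩ := (mem_O1_iff hr hA hrN).mp hx
  refine ⟨alphaI A _ N r a, alphaI A _ N r b, red_alphaI_ne_zero A _ N r hb, ?_⟩
  rw [toFL_alphaI, toFL_alphaI, ← map_mul, hab]

/-- `β(O) ⊆ R` -/
theorem beta_mem_Ow {x : ↥(F1Bar N)} (hx : x ∈ (gaussDatum1 N A hr hA hrN).O) :
    beta1 N r Kb x ∈ Ow A (residue ↥A) (F1p N r) (F1pC N r (ResidueField ↥A)) := by
  obtain ⟨a, b, hb, hab⟩ := (mem_O1_iff hr hA hrN).mp hx
  refine ⟨betaI A _ N r a, betaI A _ N r b, red_betaI_ne_zero A _ N r hb, ?_⟩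
  rw [toFL_betaI, toFL_betaI, ← map_mul, hab]

/-- **`ρ(α x) = red x`** -/
theorem coe_rho_alpha (x : ↥(gaussDatum1 N A hr hA hrN).O) :
    ((rho N r A ⟨alpha1 N r Kb x, alpha_mem_Ow hr hA hrN x.2⟩ :
      ↥(F1pC N r (ResidueField ↥A))) : LaurentSeries (ResidueField ↥A)) =
      (((gaussDatum1 N A hr hA hrN).red x : ↥(F1C N (ResidueField ↥A))) :
        LaurentSeries (ResidueField ↥A)) := by
  obtain ⟨a, b, hb, hab⟩ := (mem_O1_iff hr hA hrN).mp x.2
  rw [rho, red1_eq hr hA hrN x hb hab,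
    redw_eq (A := A) (π := residue ↥A) (F₀ := F1p N r) (Fk := F1pC N r (ResidueField ↥A))
      ⟨alpha1 N r Kb x, alpha_mem_Ow hr hA hrN x.2⟩
      (a := alphaI A _ N r a) (b := alphaI A _ N r b) (red_alphaI_ne_zero A _ N r hb)
      (by rw [toFL_alphaI, toFL_alphaI, ← map_mul, hab])]
  rw [IntermediateField.coe_div, IntermediateField.coe_div, coe_red_alphaI, coe_red_alphaI]

/-- **`ρ(β x) = (red x)(q^r)`** -/
theorem coe_rho_beta (x : ↥(gaussDatum1 N A hr hA hrN).O) :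
    ((rho N r A ⟨beta1 N r Kb x, beta_mem_Ow hr hA hrN x.2⟩ :
      ↥(F1pC N r (ResidueField ↥A))) : LaurentSeries (ResidueField ↥A)) =
      qExpand (ResidueField ↥A) r (((gaussDatum1 N A hr hA hrN).red x :
        ↥(F1C N (ResidueField ↥A))) : LaurentSeries (ResidueField ↥A)) := by
  obtain ⟨a, b, hb, hab⟩ := (mem_O1_iff hr hA hrN).mp x.2
  rw [rho, red1_eq hr hA hrN x hb hab,
    redw_eq (A := A) (π := residue ↥A) (F₀ := F1p N r) (Fk := F1pC N r (ResidueField ↥A))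
      ⟨beta1 N r Kb x, beta_mem_Ow hr hA hrN x.2⟩
      (a := betaI A _ N r a) (b := betaI A _ N r b) (red_betaI_ne_zero A _ N r hb)
      (by rw [toFL_betaI, toFL_betaI, ← map_mul, hab])]
  rw [IntermediateField.coe_div, IntermediateField.coe_div, coe_red_betaI, coe_red_betaI, map_div₀]

include hr hA hrN in
/-- `j_r = j(q^r) ∈ R` -/
theorem jr_mem_Ow : jr N r ∈ Ow A (residue ↥A) (F1p N r) (F1pC N r (ResidueField ↥A)) :=
  beta_mem_Ow hr hA hrN (jgen1_mem_O1 hr hrN hA)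

/-- `ρ(j_r) = J^r` -/
theorem coe_rho_jr :
    ((rho N r A ⟨jr N r, jr_mem_Ow hr hA hrN⟩ : ↥(F1pC N r (ResidueField ↥A))) :
      LaurentSeries (ResidueField ↥A)) = jqModC (ResidueField ↥A) ^ r := by
  haveI := charP_res hA
  have h := coe_rho_beta hr hA hrN ⟨jgen1 N, jgen1_mem_O1 hr hrN hA⟩
  rw [red_jgen1 hr hrN hA, coe_jC] at h
  rw [← Fermat.Agent.S34.Kronecker.qExpand_jqModC_char r (ResidueField ↥A)]
  exact h

/-- the inclusion of residue fields `F1C N κ → F1pC N r κ` -/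
def inclK (N : ℕ) [NeZero N] (r : ℕ) [NeZero r] (A : ValuationSubring Kb) :
    ↥(F1C N (ResidueField ↥A)) →+* ↥(F1pC N r (ResidueField ↥A)) :=
  (IntermediateField.inclusion (F1C_le_F1pC N r (ResidueField ↥A))).toRingHom

@[simp] theorem coe_inclK (x : ↥(F1C N (ResidueField ↥A))) :
    ((inclK N r A x : ↥(F1pC N r (ResidueField ↥A))) : LaurentSeries (ResidueField ↥A)) =
      (x : LaurentSeries (ResidueField ↥A)) := by
  obtain ⟨v, hv⟩ := x
  rfl

theorem inclK_injective : Function.Injective (inclK N r A) := by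
  intro x y h
  apply Subtype.ext
  rw [← coe_inclK (r := r) x, ← coe_inclK (r := r) y, h]

/-- **`ρ(α x) = red x`** -/
theorem rho_alpha (x : ↥(gaussDatum1 N A hr hA hrN).O) :
    rho N r A ⟨alpha1 N r Kb x, alpha_mem_Ow hr hA hrN x.2⟩ =
      inclK N r A ((gaussDatum1 N A hr hA hrN).red x) :=
  Subtype.ext (by rw [coe_rho_alpha hr hA hrN, coe_inclK])

/-- `ρ(j_r) = J^r` -/
theorem rho_jr :
    rho N r A ⟨jr N r, jr_mem_Ow hr hA hrN⟩ = inclK N r A (jC N (ResidueField ↥A) ^ r) :=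
  Subtype.ext (by rw [coe_rho_jr hr hA hrN, coe_inclK, SubmonoidClass.coe_pow, coe_jC])

/-- `α : O → R` -/
def alphaR : ↥(gaussDatum1 N A hr hA hrN).O →+*
    ↥(Ow A (residue ↥A) (F1p N r) (F1pC N r (ResidueField ↥A))) where
  toFun x := ⟨alpha1 N r Kb x, alpha_mem_Ow hr hA hrN x.2⟩
  map_one' := Subtype.ext (show alpha1 N r Kb ((1 : ↥(gaussDatum1 N A hr hA hrN).O) :
      ↥(F1Bar N)) = ((1 : ↥(Ow A (residue ↥A) (F1p N r) (F1pC N r (ResidueField ↥A)))) :
        ↥(F1pBar N r)) by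
    rw [OneMemClass.coe_one, map_one, OneMemClass.coe_one])
  map_mul' x y := Subtype.ext (show alpha1 N r Kb ((x * y : ↥(gaussDatum1 N A hr hA hrN).O) :
      ↥(F1Bar N)) = alpha1 N r Kb x * alpha1 N r Kb y by
    rw [MulMemClass.coe_mul, map_mul])
  map_zero' := Subtype.ext (show alpha1 N r Kb ((0 : ↥(gaussDatum1 N A hr hA hrN).O) :
      ↥(F1Bar N)) = ((0 : ↥(Ow A (residue ↥A) (F1p N r) (F1pC N r (ResidueField ↥A)))) :
        ↥(F1pBar N r)) by
    rw [ZeroMemClass.coe_zero, map_zero, ZeroMemClass.coe_zero])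
  map_add' x y := Subtype.ext (show alpha1 N r Kb ((x + y : ↥(gaussDatum1 N A hr hA hrN).O) :
      ↥(F1Bar N)) = alpha1 N r Kb x + alpha1 N r Kb y by
    rw [AddMemClass.coe_add, map_add])

@[simp] theorem coe_alphaR (x : ↥(gaussDatum1 N A hr hA hrN).O) :
    ((alphaR hr hA hrN x : ↥(Ow A (residue ↥A) (F1p N r) (F1pC N r (ResidueField ↥A)))) :
      ↥(F1pBar N r)) = alpha1 N r Kb x := rfl

theorem rho_alphaR (x : ↥(gaussDatum1 N A hr hA hrN).O) :
    rho N r A (alphaR hr hA hrN x) = inclK N r A ((gaussDatum1 N A hr hA hrN).red x) :=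
  rho_alpha hr hA hrN x

/-- evaluation at `j_r`, with values in `R` -/
def evR : Polynomial ↥(gaussDatum1 N A hr hA hrN).O →+*
    ↥(Ow A (residue ↥A) (F1p N r) (F1pC N r (ResidueField ↥A))) :=
  eval₂RingHom (alphaR hr hA hrN) ⟨jr N r, jr_mem_Ow hr hA hrN⟩

theorem rho_evR (p : Polynomial ↥(gaussDatum1 N A hr hA hrN).O) :
    rho N r A (evR hr hA hrN p) =
      inclK N r A (p.eval₂ (gaussDatum1 N A hr hA hrN).red (jC N (ResidueField ↥A) ^ r)) := by
  have h1 : (rho N r A).comp (alphaR hr hA hrN) =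
      (inclK N r A).comp (gaussDatum1 N A hr hA hrN).red :=
    RingHom.ext fun c => rho_alphaR hr hA hrN c
  have h2 : evR hr hA hrN p = p.eval₂ (alphaR hr hA hrN) ⟨jr N r, jr_mem_Ow hr hA hrN⟩ := rfl
  rw [h2, Polynomial.hom_eval₂, h1, rho_jr hr hA hrN, Polynomial.hom_eval₂]

attribute [local instance] algFE1

theorem coe_evR (p : Polynomial ↥(gaussDatum1 N A hr hA hrN).O) :
    ((evR hr hA hrN p : ↥(Ow A (residue ↥A) (F1p N r) (F1pC N r (ResidueField ↥A)))) :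
      ↥(F1pBar N r)) = (setupX1 hr hA hrN).ev p := by
  have h : (Ow A (residue ↥A) (F1p N r) (F1pC N r (ResidueField ↥A))).subtype.comp
      (evR hr hA hrN) = (setupX1 hr hA hrN).ev := by
    refine Polynomial.ringHom_ext (fun c => ?_) ?_
    · rw [RingHom.comp_apply, evR, coe_eval₂RingHom, eval₂_C, TwoExt.Setup.ev_C]
      rfl
    · rw [RingHom.comp_apply, evR, coe_eval₂RingHom, eval₂_X, TwoExt.Setup.ev_X, setupX1_t]
      rfl
  exact congrArg (fun f => f p) h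

theorem ev_mem_Ow (p : Polynomial ↥(gaussDatum1 N A hr hA hrN).O) :
    (setupX1 hr hA hrN).ev p ∈ Ow A (residue ↥A) (F1p N r) (F1pC N r (ResidueField ↥A)) := by
  rw [← coe_evR]
  exact (evR hr hA hrN p).2

theorem rho_evR_G1O1 : rho N r A (evR hr hA hrN (G1O1 hr hA hrN)) = 0 := by
  rw [rho_evR, G1O1, eval₂_sub, eval₂_X, eval₂_C, map_pow, red_jO1, sub_self, map_zero]

/-- divisibility transported from `G.red` to `TwoExt.red` -/
theorem red_dvd_of_map {p s : Polynomial ↥(gaussDatum1 N A hr hA hrN).O}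
    (h : p.map (gaussDatum1 N A hr hA hrN).red ∣ s.map (gaussDatum1 N A hr hA hrN).red) :
    TwoExt.red (gaussDatum1 N A hr hA hrN).O p ∣ TwoExt.red (gaussDatum1 N A hr hA hrN).O s := by
  rw [← mapEquiv_resEquiv1_red, ← mapEquiv_resEquiv1_red] at h
  exact (map_dvd_iff (Polynomial.mapEquiv (resEquiv1 hr hA hrN))).mp h

/-- the unit criterion: `g₁ ∤ s̄` implies `ρ(s(j_r)) ≠ 0` -/
theorem rho_evR_ne_zero {s : Polynomial ↥(gaussDatum1 N A hr hA hrN).O}
    (hs : ¬ TwoExt.red (gaussDatum1 N A hr hA hrN).O (G1O1 hr hA hrN) ∣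
      TwoExt.red (gaussDatum1 N A hr hA hrN).O s) :
    rho N r A (evR hr hA hrN s) ≠ 0 := by
  intro h0
  apply hs
  apply red_dvd_of_map
  rw [map_red_G1O1, dvd_iff_isRoot, IsRoot.def, eval_map]
  apply inclK_injective (N := N) (r := r) (A := A)
  rw [← rho_evR, h0, map_zero]

/-! ### `R` is the type-1 valuation subring -/

include hrN in
/-- A valuation subring dominating `R` is of type 1 over the Gauss ring `O`. -/
theorem isExt_of_dominating {B : ValuationSubring ↥(F1pBar N r)}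
    (hRB : Ow A (residue ↥A) (F1p N r) (F1pC N r (ResidueField ↥A)) ≤ B.toSubring)
    (hker : ∀ x : ↥(Ow A (residue ↥A) (F1p N r) (F1pC N r (ResidueField ↥A))),
      rho N r A x = 0 → (x : ↥(F1pBar N r)) ∈ B.nonunits) :
    (setupX1 hr hA hrN).IsExt (setupX1 hr hA hrN).G₁ B := by
  refine ⟨?_, ?_⟩
  · refine ValuationSubring.ext _ _ fun x => ?_
    rw [ValuationSubring.mem_comap]
    constructor
    · intro hx
      by_contra hxO
      have hx0 : x ≠ 0 := fun h => hxO (h ▸ (gaussDatum1 N A hr hA hrN).O.zero_mem)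
      have hinv : x⁻¹ ∈ (gaussDatum1 N A hr hA hrN).O :=
        ((gaussDatum1 N A hr hA hrN).O.mem_or_inv_mem x).resolve_left hxO
      have hnu : ¬ IsUnit (⟨x⁻¹, hinv⟩ : ↥(gaussDatum1 N A hr hA hrN).O) := by
        intro hu
        obtain ⟨v, hv⟩ := hu.exists_right_inv
        have hv' : x⁻¹ * (v : ↥(F1Bar N)) = 1 := congrArg Subtype.val hv
        apply hxO
        have : (v : ↥(F1Bar N)) = x := by
          field_simp at hv'
          exact hv'
        rw [← this]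
        exact v.2
      have hred : (gaussDatum1 N A hr hA hrN).red ⟨x⁻¹, hinv⟩ = 0 :=
        ((gaussDatum1 N A hr hA hrN).red_eq_zero_iff _).mpr hnu
      have h1 := hker (alphaR hr hA hrN ⟨x⁻¹, hinv⟩) (by rw [rho_alphaR, hred, map_zero])
      rw [coe_alphaR, ValuationSubring.mem_nonunits_iff] at h1
      have h2 : B.valuation (algebraMap ↥(F1Bar N) ↥(F1pBar N r) x) ≤ 1 :=
        (B.valuation_le_one_iff _).mpr hx
      have h3 : B.valuation (alpha1 N r Kb x⁻¹) *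
          B.valuation (algebraMap ↥(F1Bar N) ↥(F1pBar N r) x) = 1 := by
        rw [algebraMap_FE1, ← map_mul, ← map_mul, inv_mul_cancel₀ hx0, map_one, map_one]
      have h4 : B.valuation (alpha1 N r Kb x⁻¹) *
          B.valuation (algebraMap ↥(F1Bar N) ↥(F1pBar N r) x) < 1 :=
        lt_of_le_of_lt (mul_le_of_le_one_right' h2) h1
      rw [h3] at h4
      exact lt_irrefl _ h4
    · intro hx
      exact hRB (alpha_mem_Ow hr hA hrN hx)
  · rw [← ValuationSubring.mem_nonunits_iff, setupX1_G₁, ← coe_evR]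
    exact hker _ (rho_evR_G1O1 hr hA hrN)

theorem red_eq_zero_iff_mem_nonunits (x : ↥(V₁ N A hA)) :
    (gaussDatum₁ N A hA).red x = 0 ↔ (x : ↥(F1pBar N r)) ∈ (V₁ N A hA).nonunits := by
  rw [(gaussDatum₁ N A hA).red_eq_zero_iff, ValuationSubring.coe_mem_nonunits_iff,
    mem_maximalIdeal, mem_nonunits_iff]

/-- **`V₁` is the type-1 extension of the Gauss ring of level `N`.** -/
theorem isExt_V₁ : (setupX1 hr hA hrN).IsExt (setupX1 hr hA hrN).G₁ (V₁ N A hA) :=
  isExt_of_dominating hr hA hrN (B := V₁ N A hA) (fun _ hx => hx)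
    (fun x hx => (red_eq_zero_iff_mem_nonunits hA ⟨x.1, x.2⟩).mp hx)

include hr hA hrN in
/-- **every element of `V₁` reduces into `F1C N κ`** (the type-1 extension is
`{ b(j_r)/s(j_r) : g₁ ∤ s̄ }` and `g₁ = X - J^r` has degree one) -/
theorem coe_rho_mem_F1C (x : ↥(Ow A (residue ↥A) (F1p N r) (F1pC N r (ResidueField ↥A)))) :
    ((rho N r A x : ↥(F1pC N r (ResidueField ↥A))) : LaurentSeries (ResidueField ↥A)) ∈
      F1C N (ResidueField ↥A) := by
  obtain ⟨V₂, h₂⟩ := (setupX1 hr hA hrN).exists_isExt₂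
  obtain ⟨b, s, hs, hxs⟩ :=
    ((setupX1 hr hA hrN).mem_iff₁ (isExt_V₁ hr hA hrN) h₂ x.1).mp x.2
  rw [setupX1_G₁] at hs
  have hs0 := rho_evR_ne_zero hr hA hrN hs
  have hmul : x * evR hr hA hrN s = evR hr hA hrN b :=
    Subtype.ext (by rw [MulMemClass.coe_mul, coe_evR, coe_evR]; exact hxs)
  have h := congrArg (rho N r A) hmul
  rw [map_mul] at h
  have hx : rho N r A x = inclK N r A
      (b.eval₂ (gaussDatum1 N A hr hA hrN).red (jC N (ResidueField ↥A) ^ r) /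
        s.eval₂ (gaussDatum1 N A hr hA hrN).red (jC N (ResidueField ↥A) ^ r)) := by
    rw [map_div₀, ← rho_evR, ← rho_evR, eq_div_iff hs0, h]
  rw [hx, coe_inclK]
  exact Subtype.property _

include hr hrN in
/-- **`F1pC N r κ = F1C N κ`** for the residue field `κ` of `A` over `r ∤ N`. -/
theorem F1pC_eq (hA : A.LiesOverPrime r) :
    F1pC N r (ResidueField ↥A) = F1C N (ResidueField ↥A) := by
  refine le_antisymm ?_ (F1C_le_F1pC N r (ResidueField ↥A))
  refine IntermediateField.adjoin_le_iff.mpr ?_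
  rintro _ ⟨y, hy, rfl⟩
  have hmem : iR ↥A y ∈ intRing A (residue ↥A) (F1p N r) (F1pC N r (ResidueField ↥A)) :=
    mem_intRing_of_mem_T
      (fun y hy => coeffMap_mem_F1pC N r (ResidueField ↥A) (mem_intZ.mp hy))
      (iR_mem_T (R := ↥A) (mem_intZ.mpr hy))
  have h := coe_rho_mem_F1C hr hA hrN ⟨toFL A (residue ↥A) (F1p N r)
    (F1pC N r (ResidueField ↥A)) ⟨iR ↥A y, hmem⟩, toFL_mem_Ow _⟩
  rw [rho, redw_toFL, coe_red, coeffMap_pi_iR'] at h
  exact h

/-! ### The first Gauss datum `(V₁, red₁)` with values in `F1C N κ` -/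

attribute [local instance] algShortcut1

/-- the identification `F1pC N r κ → F1C N κ` -/
def castK : ↥(F1pC N r (ResidueField ↥A)) →+* ↥(F1C N (ResidueField ↥A)) :=
  (IntermediateField.inclusion (le_of_eq (F1pC_eq hr hrN hA))).toRingHom

@[simp] theorem coe_castK (x : ↥(F1pC N r (ResidueField ↥A))) :
    ((castK hr hA hrN x : ↥(F1C N (ResidueField ↥A))) : LaurentSeries (ResidueField ↥A)) =
      x.1 := by
  obtain ⟨v, hv⟩ := x
  rfl

theorem castK_injective : Function.Injective (castK (N := N) hr hA hrN) := by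
  intro x y h
  apply Subtype.ext
  rw [← coe_castK hr hA hrN x, ← coe_castK hr hA hrN y, h]

theorem castK_inclK (x : ↥(F1C N (ResidueField ↥A))) :
    castK hr hA hrN (inclK N r A x) = x :=
  Subtype.ext (by rw [coe_castK]; exact coe_inclK x)

theorem castK_surjective : Function.Surjective (castK (N := N) hr hA hrN) :=
  fun y => ⟨inclK N r A y, castK_inclK hr hA hrN y⟩

/-- the reduction of `V₁`, with values in `F1C N κ` -/
def red₁ : ↥(V₁ N A hA) →+* ↥(F1C N (ResidueField ↥A)) :=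
  (castK hr hA hrN).comp (gaussDatum₁ N A hA).red

theorem red₁_eq_rho (x : ↥(V₁ N A hA)) :
    red₁ hr hA hrN x = castK hr hA hrN (rho N r A ⟨x.1, x.2⟩) := rfl

theorem coe_red₁ (x : ↥(V₁ N A hA)) :
    ((red₁ hr hA hrN x : ↥(F1C N (ResidueField ↥A))) : LaurentSeries (ResidueField ↥A)) =
      ((rho N r A ⟨x.1, x.2⟩ : ↥(F1pC N r (ResidueField ↥A))) :
        LaurentSeries (ResidueField ↥A)) := by
  rw [red₁_eq_rho, coe_castK]

theorem red₁_eq_zero_iff (x : ↥(V₁ N A hA)) : red₁ hr hA hrN x = 0 ↔ ¬ IsUnit x := by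
  rw [red₁, RingHom.comp_apply, map_eq_zero_iff _ (castK_injective hr hA hrN)]
  exact (gaussDatum₁ N A hA).red_eq_zero_iff x

theorem red₁_eq_zero_iff_mem_nonunits (x : ↥(V₁ N A hA)) :
    red₁ hr hA hrN x = 0 ↔ (x : ↥(F1pBar N r)) ∈ (V₁ N A hA).nonunits := by
  rw [red₁_eq_zero_iff, ValuationSubring.coe_mem_nonunits_iff, mem_maximalIdeal,
    mem_nonunits_iff]

theorem red₁_algebraMap (a : ↥A) :
    red₁ hr hA hrN ⟨algebraMap Kb ↥(F1pBar N r) (a : Kb),
      (gaussDatum₁ N A hA).algebraMap_mem a⟩ =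
      algebraMap (ResidueField ↥A) ↥(F1C N (ResidueField ↥A)) (residue ↥A a) := by
  rw [red₁, RingHom.comp_apply, (gaussDatum₁ N A hA).red_algebraMap a]
  apply Subtype.ext
  rw [coe_castK]
  exact (IntermediateField.coe_algebraMap_apply (F1pC N r (ResidueField ↥A)) _).trans
    (SubalgebraClass.coe_algebraMap (F1C N (ResidueField ↥A)) _).symm

theorem alpha_mem_V₁_iff (x : ↥(F1Bar N)) :
    alpha1 N r Kb x ∈ V₁ N A hA ↔ x ∈ (gaussDatum1 N A hr hA hrN).O :=
  TwoExt.alg_mem_iff (isExt_V₁ hr hA hrN).comap x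

/-- **`red₁ (α x) = red x`** -/
theorem red₁_alpha (x : ↥(gaussDatum1 N A hr hA hrN).O) :
    red₁ hr hA hrN ⟨alpha1 N r Kb x, (alpha_mem_V₁_iff hr hA hrN x).mpr x.2⟩ =
      (gaussDatum1 N A hr hA hrN).red x := by
  rw [red₁_eq_rho, rho_alpha hr hA hrN x, castK_inclK]

theorem beta_mem_V₁ {x : ↥(F1Bar N)} (hx : x ∈ (gaussDatum1 N A hr hA hrN).O) :
    beta1 N r Kb x ∈ V₁ N A hA :=
  beta_mem_Ow hr hA hrN hx

/-- **`red₁ (β x) = (red x)(q^r)`**, the Frobenius pull-back of `red x` -/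
theorem coe_red₁_beta (x : ↥(gaussDatum1 N A hr hA hrN).O) :
    ((red₁ hr hA hrN ⟨beta1 N r Kb x, beta_mem_V₁ hr hA hrN x.2⟩ :
      ↥(F1C N (ResidueField ↥A))) : LaurentSeries (ResidueField ↥A)) =
      qExpand (ResidueField ↥A) r (((gaussDatum1 N A hr hA hrN).red x :
        ↥(F1C N (ResidueField ↥A))) : LaurentSeries (ResidueField ↥A)) := by
  rw [coe_red₁]
  exact coe_rho_beta hr hA hrN x

theorem beta_mem_V₁_iff (x : ↥(F1Bar N)) :
    beta1 N r Kb x ∈ V₁ N A hA ↔ x ∈ (gaussDatum1 N A hr hA hrN).O := by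
  refine ⟨fun hx => ?_, beta_mem_V₁ hr hA hrN⟩
  by_contra hxO
  have hx0 : x ≠ 0 := fun h => hxO (h ▸ (gaussDatum1 N A hr hA hrN).O.zero_mem)
  have hinv : x⁻¹ ∈ (gaussDatum1 N A hr hA hrN).O :=
    ((gaussDatum1 N A hr hA hrN).O.mem_or_inv_mem x).resolve_left hxO
  have hnu : ¬ IsUnit (⟨x⁻¹, hinv⟩ : ↥(gaussDatum1 N A hr hA hrN).O) := by
    intro hu
    obtain ⟨v, hv⟩ := hu.exists_right_inv
    have hv' : x⁻¹ * (v : ↥(F1Bar N)) = 1 := congrArg Subtype.val hv
    apply hxO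
    have : (v : ↥(F1Bar N)) = x := by
      field_simp at hv'
      exact hv'
    rw [← this]
    exact v.2
  have hred : (gaussDatum1 N A hr hA hrN).red ⟨x⁻¹, hinv⟩ = 0 :=
    ((gaussDatum1 N A hr hA hrN).red_eq_zero_iff _).mpr hnu
  have h0 : red₁ hr hA hrN ⟨beta1 N r Kb x⁻¹, beta_mem_V₁ hr hA hrN hinv⟩ = 0 := by
    apply Subtype.ext
    rw [coe_red₁_beta hr hA hrN ⟨x⁻¹, hinv⟩, hred, ZeroMemClass.coe_zero, map_zero]
  have h1 := (red₁_eq_zero_iff_mem_nonunits hr hA hrN _).mp h0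
  rw [ValuationSubring.mem_nonunits_iff] at h1
  have h2 : (V₁ N A hA).valuation (beta1 N r Kb x) ≤ 1 :=
    ((V₁ N A hA).valuation_le_one_iff _).mpr hx
  have h3 : (V₁ N A hA).valuation (beta1 N r Kb x⁻¹) *
      (V₁ N A hA).valuation (beta1 N r Kb x) = 1 := by
    rw [← map_mul, ← map_mul, inv_mul_cancel₀ hx0, map_one, map_one]
  have h4 : (V₁ N A hA).valuation (beta1 N r Kb x⁻¹) *
      (V₁ N A hA).valuation (beta1 N r Kb x) < 1 :=
    lt_of_le_of_lt (mul_le_of_le_one_right' h2) h1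
  rw [h3] at h4
  exact lt_irrefl _ h4

/-- `red₁ j_r = J^r` -/
theorem red₁_jr :
    red₁ hr hA hrN ⟨jr N r, beta_mem_V₁ hr hA hrN (jgen1_mem_O1 hr hrN hA)⟩ =
      jC N (ResidueField ↥A) ^ r := by
  rw [red₁_eq_rho, rho_jr hr hA hrN, castK_inclK]

theorem red₁_surjective : Function.Surjective (red₁ hr hA hrN) := by
  intro y
  obtain ⟨x, rfl⟩ := red_surjective1 hr hrN hA y
  exact ⟨_, red₁_alpha hr hA hrN x⟩

/-! ### The Atkin-Lehner automorphism and the second Gauss datum `(V₂, red₂)` -/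

/-- the second valuation subring `V₂ = W⁻¹ V₁` -/
def V₂ : ValuationSubring ↥(F1pBar N r) := (V₁ N A hA).comap (W1Hom N r hr hrN)

theorem mem_V₂_iff {f : ↥(F1pBar N r)} :
    f ∈ V₂ hr hA hrN ↔ W1 N r hr hrN f ∈ V₁ N A hA := Iff.rfl

theorem W1_mem_V₁_iff {f : ↥(F1pBar N r)} :
    W1 N r hr hrN f ∈ V₁ N A hA ↔ f ∈ V₂ hr hA hrN := Iff.rfl

theorem W1_symm_mem_V₂_iff {f : ↥(F1pBar N r)} :
    (W1 N r hr hrN).symm f ∈ V₂ hr hA hrN ↔ f ∈ V₁ N A hA := by
  rw [mem_V₂_iff, AlgEquiv.apply_symm_apply]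

/-- the ring isomorphism `V₂ ≃ V₁` induced by `W` -/
def W1V : ↥(V₂ hr hA hrN) ≃+* ↥(V₁ N A hA) where
  toFun x := ⟨W1 N r hr hrN x.1, x.2⟩
  invFun y := ⟨(W1 N r hr hrN).symm y.1, (W1_symm_mem_V₂_iff hr hA hrN).mpr y.2⟩
  left_inv x := Subtype.ext ((W1 N r hr hrN).symm_apply_apply x.1)
  right_inv y := Subtype.ext ((W1 N r hr hrN).apply_symm_apply y.1)
  map_mul' x y := Subtype.ext (map_mul (W1 N r hr hrN) x.1 y.1)
  map_add' x y := Subtype.ext (map_add (W1 N r hr hrN) x.1 y.1)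

@[simp] theorem coe_W1V (x : ↥(V₂ hr hA hrN)) :
    ((W1V hr hA hrN x : ↥(V₁ N A hA)) : ↥(F1pBar N r)) = W1 N r hr hrN x.1 := rfl

@[simp] theorem coe_W1V_symm (y : ↥(V₁ N A hA)) :
    (((W1V hr hA hrN).symm y : ↥(V₂ hr hA hrN)) : ↥(F1pBar N r)) =
      (W1 N r hr hrN).symm y.1 := rfl

theorem val_V₂ (f : ↥(F1pBar N r)) :
    (V₂ hr hA hrN).valuation f < 1 ↔ (V₁ N A hA).valuation (W1 N r hr hrN f) < 1 := by
  rw [← ValuationSubring.mem_nonunits_iff, ← ValuationSubring.mem_nonunits_iff]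
  constructor
  · intro h
    rw [ValuationSubring.mem_nonunits_iff_exists_mem_maximalIdeal] at h ⊢
    obtain ⟨hf, hm⟩ := h
    refine ⟨hf, ?_⟩
    rw [mem_maximalIdeal, mem_nonunits_iff] at hm ⊢
    intro hu
    apply hm
    have := hu.map (W1V hr hA hrN).symm
    convert this using 1
    exact Subtype.ext ((W1 N r hr hrN).symm_apply_apply f).symm
  · intro h
    rw [ValuationSubring.mem_nonunits_iff_exists_mem_maximalIdeal] at h ⊢
    obtain ⟨hf, hm⟩ := h
    refine ⟨hf, ?_⟩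
    rw [mem_maximalIdeal, mem_nonunits_iff] at hm ⊢
    intro hu
    apply hm
    exact hu.map (W1V hr hA hrN)

theorem ev_G₁ : (setupX1 hr hA hrN).ev (setupX1 hr hA hrN).G₁ =
    jr N r - alpha1 N r Kb (jgen1 N) ^ r := by
  rw [setupX1_G₁, G1O1, map_sub, TwoExt.Setup.ev_X, TwoExt.Setup.ev_C, setupX1_t, algebraMap_FE1,
    SubmonoidClass.coe_pow, coe_jO1, map_pow]

theorem ev_G₂ : (setupX1 hr hA hrN).ev (setupX1 hr hA hrN).G₂ =
    jr N r ^ r - alpha1 N r Kb (jgen1 N) := by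
  rw [setupX1_G₂, G2O1, map_sub, map_pow, TwoExt.Setup.ev_X, TwoExt.Setup.ev_C, setupX1_t,
    algebraMap_FE1, coe_jO1]

/-- no diamond is needed for `β`: `β x ∈ V₂ ↔ x ∈ O` -/
theorem beta_mem_V₂_iff (x : ↥(F1Bar N)) :
    beta1 N r Kb x ∈ V₂ hr hA hrN ↔ x ∈ (gaussDatum1 N A hr hA hrN).O := by
  rw [mem_V₂_iff, W1_beta, alpha_mem_V₁_iff hr hA hrN]

/-- the reduction of `V₂`, with values in `F1C N κ`: `red₂ = red₁ ∘ W` -/
def red₂ : ↥(V₂ hr hA hrN) →+* ↥(F1C N (ResidueField ↥A)) :=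
  (red₁ hr hA hrN).comp (W1V hr hA hrN : ↥(V₂ hr hA hrN) →+* ↥(V₁ N A hA))

theorem red₂_apply (x : ↥(V₂ hr hA hrN)) :
    red₂ hr hA hrN x = red₁ hr hA hrN (W1V hr hA hrN x) := rfl

theorem red₂_eq_zero_iff (x : ↥(V₂ hr hA hrN)) : red₂ hr hA hrN x = 0 ↔ ¬ IsUnit x := by
  rw [red₂_apply, red₁_eq_zero_iff]
  exact not_congr (MulEquiv.isUnit_map (W1V hr hA hrN))

theorem red₂_eq_zero_iff_mem_nonunits (x : ↥(V₂ hr hA hrN)) :
    red₂ hr hA hrN x = 0 ↔ (x : ↥(F1pBar N r)) ∈ (V₂ hr hA hrN).nonunits := by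
  rw [red₂_eq_zero_iff, ValuationSubring.coe_mem_nonunits_iff, mem_maximalIdeal,
    mem_nonunits_iff]

theorem red₂_surjective : Function.Surjective (red₂ hr hA hrN) := by
  intro y
  obtain ⟨x, rfl⟩ := red₁_surjective hr hA hrN y
  exact ⟨(W1V hr hA hrN).symm x, by rw [red₂_apply, RingEquiv.apply_symm_apply]⟩

/-- **`red₂ (β x) = red x`** -/
theorem red₂_beta (x : ↥(gaussDatum1 N A hr hA hrN).O) :
    red₂ hr hA hrN ⟨beta1 N r Kb x, (beta_mem_V₂_iff hr hA hrN x).mpr x.2⟩ =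
      (gaussDatum1 N A hr hA hrN).red x := by
  rw [red₂_apply, ← red₁_alpha hr hA hrN x]
  congr 1
  exact Subtype.ext (W1_beta hr hrN x)

/-- `red₂ j_r = J` -/
theorem red₂_jr :
    red₂ hr hA hrN ⟨jr N r, (beta_mem_V₂_iff hr hA hrN _).mpr (jgen1_mem_O1 hr hrN hA)⟩ =
      jC N (ResidueField ↥A) := by
  rw [← red_jgen1 hr hrN hA]
  exact red₂_beta hr hA hrN ⟨jgen1 N, jgen1_mem_O1 hr hrN hA⟩

theorem alpha_jgen1_mem_V₂ : alpha1 N r Kb (jgen1 N) ∈ V₂ hr hA hrN := by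
  rw [mem_V₂_iff, W1_alpha_jgen1]
  exact beta_mem_V₁ hr hA hrN (jgen1_mem_O1 hr hrN hA)

/-- `red₂ (α j) = J^r` -/
theorem red₂_alpha_jgen1 :
    red₂ hr hA hrN ⟨alpha1 N r Kb (jgen1 N), alpha_jgen1_mem_V₂ hr hA hrN⟩ =
      jC N (ResidueField ↥A) ^ r := by
  rw [red₂_apply, ← red₁_jr hr hA hrN]
  congr 1
  exact Subtype.ext (W1_alpha_jgen1 hr hrN)

theorem algebraMap_mem_V₂ (a : ↥A) :
    algebraMap Kb ↥(F1pBar N r) (a : Kb) ∈ V₂ hr hA hrN := by
  rw [mem_V₂_iff, AlgEquiv.commutes]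
  exact (gaussDatum₁ N A hA).algebraMap_mem a

theorem red₂_algebraMap (a : ↥A) :
    red₂ hr hA hrN ⟨algebraMap Kb ↥(F1pBar N r) (a : Kb), algebraMap_mem_V₂ hr hA hrN a⟩ =
      algebraMap (ResidueField ↥A) ↥(F1C N (ResidueField ↥A)) (residue ↥A a) := by
  rw [red₂_apply, ← red₁_algebraMap hr hA hrN a]
  congr 1
  exact Subtype.ext (AlgEquiv.commutes (W1 N r hr hrN) (a : Kb))

/-! ### The two Gauss data with values in `F1C N κ` -/

/-- **The first Gauss datum with residue field `F1C N κ`**: `(V₁, red₁)`. -/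
def gaussDatumV₁ : Fermat.Agent.S37.Deuring.Core.GaussDatum A (residue ↥A)
    ↥(F1pBar N r) ↥(F1C N (ResidueField ↥A)) where
  O := V₁ N A hA
  red := red₁ hr hA hrN
  pi_surjective := residue_surjective
  algebraMap_mem := (gaussDatum₁ N A hA).algebraMap_mem
  red_algebraMap := red₁_algebraMap hr hA hrN
  red_eq_zero_iff := red₁_eq_zero_iff hr hA hrN
  exists_const_mul_unit := (gaussDatum₁ N A hA).exists_const_mul_unit
  mem_of_algebraMap_mem := (gaussDatum₁ N A hA).mem_of_algebraMap_mem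

/-- **The second Gauss datum with residue field `F1C N κ`**: `(V₂, red₂)`, `V₂ = W⁻¹ V₁`,
`red₂ = red₁ ∘ W`. -/
def gaussDatumV₂ : Fermat.Agent.S37.Deuring.Core.GaussDatum A (residue ↥A)
    ↥(F1pBar N r) ↥(F1C N (ResidueField ↥A)) where
  O := V₂ hr hA hrN
  red := red₂ hr hA hrN
  pi_surjective := residue_surjective
  algebraMap_mem := algebraMap_mem_V₂ hr hA hrN
  red_algebraMap := red₂_algebraMap hr hA hrN
  red_eq_zero_iff := red₂_eq_zero_iff hr hA hrN
  exists_const_mul_unit := by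
    intro f hf
    have hwf : W1 N r hr hrN f ≠ 0 := (EmbeddingLike.map_ne_zero_iff).mpr hf
    obtain ⟨c, hc, u, hu⟩ := (gaussDatum₁ N A hA).exists_const_mul_unit (W1 N r hr hrN f) hwf
    refine ⟨c, hc, Units.map ((W1V hr hA hrN).symm : ↥(V₁ N A hA) →* ↥(V₂ hr hA hrN)) u, ?_⟩
    have h1 : f = (W1 N r hr hrN).symm (W1 N r hr hrN f) :=
      ((W1 N r hr hrN).symm_apply_apply f).symm
    rw [h1, hu, map_mul, AlgEquiv.commutes]
    rfl
  mem_of_algebraMap_mem := by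
    intro c hc
    rw [mem_V₂_iff, AlgEquiv.commutes] at hc
    exact (gaussDatum₁ N A hA).mem_of_algebraMap_mem c hc

@[simp] theorem gaussDatumV₁_O : (gaussDatumV₁ hr hA hrN).O = V₁ N A hA := rfl
@[simp] theorem gaussDatumV₁_red : (gaussDatumV₁ hr hA hrN).red = red₁ hr hA hrN := rfl
@[simp] theorem gaussDatumV₂_O : (gaussDatumV₂ hr hA hrN).O = V₂ hr hA hrN := rfl
@[simp] theorem gaussDatumV₂_red : (gaussDatumV₂ hr hA hrN).red = red₂ hr hA hrN := rfl

/-! ### With the diamond: `V₂` is the type-2 extension, and the twisted formula on `α`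

`W (α x) = β (δ x)` with `δ = ⟨r⁻¹⟩^*`, so everything about `α` on the second branch needs that `δ`
preserves the Gauss ring `O` of level `N` (`hδO`, in the form of main's `S48/B/Red/Unique1`:
`δ • O = O`; it is discharged in `C1/DiamondRed1`). -/

section Diamond

variable (hδO : delta1 N r hr hrN • (gaussDatum1 N A hr hA hrN).O = (gaussDatum1 N A hr hA hrN).O)

include hδO in
theorem delta1_mem_iff (x : ↥(F1Bar N)) :
    delta1 N r hr hrN x ∈ (gaussDatum1 N A hr hA hrN).O ↔ x ∈ (gaussDatum1 N A hr hA hrN).O :=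
  Fermat.Agent.S48.B.Red.Unique1.apply_mem_iff hδO x

include hδO in
theorem alpha_mem_V₂_iff (x : ↥(F1Bar N)) :
    alpha1 N r Kb x ∈ V₂ hr hA hrN ↔ x ∈ (gaussDatum1 N A hr hA hrN).O := by
  rw [mem_V₂_iff, W1_alpha, beta_mem_V₁_iff hr hA hrN, delta1_mem_iff hr hA hrN hδO]

include hδO in
/-- **`V₂` is the type-2 extension of the Gauss ring of level `N`.** -/
theorem isExt_V₂ : (setupX1 hr hA hrN).IsExt (setupX1 hr hA hrN).G₂ (V₂ hr hA hrN) := by
  refine ⟨?_, ?_⟩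
  · refine ValuationSubring.ext _ _ fun x => ?_
    rw [ValuationSubring.mem_comap, algebraMap_FE1, alpha_mem_V₂_iff hr hA hrN hδO]
  · rw [val_V₂]
    have h : W1 N r hr hrN ((setupX1 hr hA hrN).ev (setupX1 hr hA hrN).G₂) =
        -((setupX1 hr hA hrN).ev (setupX1 hr hA hrN).G₁) := by
      rw [ev_G₁, ev_G₂, map_sub, map_pow, W1_jr, W1_alpha_jgen1]
      ring
    rw [h, Valuation.map_neg]
    exact (isExt_V₁ hr hA hrN).lt

include hδO in
theorem V₁_ne_V₂ : V₁ N A hA ≠ V₂ hr hA hrN := by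
  intro h
  have h2 := isExt_V₂ hr hA hrN hδO
  rw [← h] at h2
  exact (setupX1 hr hA hrN).not_isExt_both (isExt_V₁ hr hA hrN) h2

/-- **`red₂ (α x) = (red (δ x))(q^r)`**, the Frobenius pull-back of `red (δ x)`, `δ = ⟨r⁻¹⟩^*` -/
theorem coe_red₂_alpha (x : ↥(gaussDatum1 N A hr hA hrN).O) :
    ((red₂ hr hA hrN ⟨alpha1 N r Kb x, (alpha_mem_V₂_iff hr hA hrN hδO x).mpr x.2⟩ :
      ↥(F1C N (ResidueField ↥A))) : LaurentSeries (ResidueField ↥A)) =
      qExpand (ResidueField ↥A) r (((gaussDatum1 N A hr hA hrN).red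
        (Fermat.Agent.S48.B.Red.Unique1.mapO (delta1 N r hr hrN) hδO x) :
          ↥(F1C N (ResidueField ↥A))) : LaurentSeries (ResidueField ↥A)) := by
  rw [red₂_apply,
    ← coe_red₁_beta hr hA hrN (Fermat.Agent.S48.B.Red.Unique1.mapO (delta1 N r hr hrN) hδO x)]
  congr 2
  exact Subtype.ext (W1_alpha hr hrN x)

end Diamond

/-! ### Inertia -/

section Inertia

variable {σ : Kb ≃ₐ[ℚ] Kb} (hσ : σ ∈ A.inertiaSubgroupIn ℚ)

include hr hrN hσ in
theorem smul_mem_V₁_iff (x : ↥(F1pBar N r)) :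
    arithmeticGalois (F1p N r) σ • x ∈ V₁ N A hA ↔ x ∈ V₁ N A hA :=
  (setupX1 hr hA hrN).sigma_mem_iff₁ (isInertial1 hr hA hrN hσ) (isExt_V₁ hr hA hrN) x

/-- **inertia acts trivially on the residue field of `V₁`** -/
theorem red₁_smul (x : ↥(V₁ N A hA)) :
    red₁ hr hA hrN ⟨arithmeticGalois (F1p N r) σ • x.1,
      (smul_mem_V₁_iff hr hA hrN hσ x.1).mpr x.2⟩ = red₁ hr hA hrN x := by
  have h := (setupX1 hr hA hrN).sub_lt_one_of_fix₁ (isInertial1 hr hA hrN hσ)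
    (isExt_V₁ hr hA hrN) x.2
  rw [← ValuationSubring.mem_nonunits_iff] at h
  have h0 := (red₁_eq_zero_iff_mem_nonunits hr hA hrN
    (⟨arithmeticGalois (F1p N r) σ • x.1,
      (smul_mem_V₁_iff hr hA hrN hσ x.1).mpr x.2⟩ - x)).mpr h
  rwa [map_sub, sub_eq_zero] at h0

variable (hδO : delta1 N r hr hrN • (gaussDatum1 N A hr hA hrN).O = (gaussDatum1 N A hr hA hrN).O)

include hσ hδO in
theorem smul_mem_V₂_iff (x : ↥(F1pBar N r)) :
    arithmeticGalois (F1p N r) σ • x ∈ V₂ hr hA hrN ↔ x ∈ V₂ hr hA hrN :=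
  (setupX1 hr hA hrN).sigma_mem_iff₂ (isInertial1 hr hA hrN hσ) (isExt_V₂ hr hA hrN hδO) x

/-- **inertia acts trivially on the residue field of `V₂`** -/
theorem red₂_smul (x : ↥(V₂ hr hA hrN)) :
    red₂ hr hA hrN ⟨arithmeticGalois (F1p N r) σ • x.1,
      (smul_mem_V₂_iff hr hA hrN hσ hδO x.1).mpr x.2⟩ = red₂ hr hA hrN x := by
  have h := (setupX1 hr hA hrN).sub_lt_one_of_fix₂ (isInertial1 hr hA hrN hσ)
    (isExt_V₂ hr hA hrN hδO) x.2
  rw [← ValuationSubring.mem_nonunits_iff] at h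
  have h0 := (red₂_eq_zero_iff_mem_nonunits hr hA hrN
    (⟨arithmeticGalois (F1p N r) σ • x.1,
      (smul_mem_V₂_iff hr hA hrN hσ hδO x.1).mpr x.2⟩ - x)).mpr h
  rwa [map_sub, sub_eq_zero] at h0

end Inertia

end Ring

end Fermat.Agent.S43.LG1.C1.GaussPairX1

end
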