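/-
PROJECT R (S43), gate (G), cut C1 = S34', slice EulerClosedX1 (helper16): the `X₁` twin of
`S34/EulerClosedX0`: **the node set of `X₁(N; r)` mod `r`, with no hypothesis left.**

`EulerNodesX1.exists_nodes_of_dict2` (helper11) with its inputs discharged:

* the reduced diamond is `d̄ := DiamondRed1.dbar1 hr hA hrN` (helper13): `hdψ1`, `hdj1`;
* the two-map reduction dictionary is made concrete: `G1X1 := GaussPairX1.gaussDatumV₁` (the Gauss
  ring of `q`-expansions), `G2X1 := GaussPairX1.gaussDatumV₂` (its transform by the Atkin-Lehner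
  automorphism `Seam.W1`), **`dX1 : PairDict2 G G1X1 G2X1 α β φ (φ ∘ d̄)`** from `GaussPairX1` /
  `Generic/BranchX1`;
* Deuring's hypotheses at level `N` := `HypX1.hyp_of_riemannHyp1` (helper23), the restriction data
  `raX1`, `rbX1` := `Generic/RestrAlong.restrAlong` along `α`, `β`;
* the instances on `κ = ResidueField A` (`CharP`, `PerfectField`, `IsAlgClosed`,
  `HasPrincipalDivisors`, `FiniteDimensional κ(j̄) κ(X₁(N))`) : `instances_k`; `instances_L`;
* Riemann's theorem on both fields : `exists_genera`;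
* `hJ₀`, `hJ₁` := `Euler/HoloBridgeX1.hJ2_P0`, `hJ2_P1` (helper25) at the canonical `T = TT`;
* **`exists_nodes_closed`** (from Riemann's theorem on both fields), **`exists_nodes_closed'`** (no
  hypothesis: the genera are those of Riemann's theorem).
-/
import Mathlib
import Fermat.Agent.S43.LG1.C1.EulerNodesX1
import Fermat.Agent.S43.LG1.C1.EulerNodesFinalX1
import Fermat.Agent.S43.LG1.C1.Euler.HoloBridgeX1
import Fermat.Agent.S43.LG1.C1.GaussPairX1
import Fermat.Agent.S43.LG1.C1.DiamondRed1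
import Fermat.Agent.S43.LG1.C1.HypX1
import Fermat.Agent.S43.LG1.C1.ResidueFrobX1
import Fermat.Agent.S43.LG1.C1.Generic.BranchX1
import Fermat.Agent.S34.Generic.RestrAlong

set_option autoImplicit false
set_option linter.unusedSectionVars false
set_option linter.style.haveILetI false
set_option synthInstance.maxHeartbeats 400000

noncomputable section

namespace Fermat.Agent.S43.LG1.C1.EulerClosedX1

open ModularCurve AlgebraicCurve IsLocalRing IntermediateField
open Fermat.Agent.S48.B.Defs.Model Fermat.Agent.S48.B.B1.Seams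
open Fermat.Agent.S48.B.ES.DegreeBeta1
open Fermat.Agent.S48.B.Red.Seams (jC)
open Fermat.Agent.S18.NonSpecial Fermat.Agent.S37.Deuring.Core
open Fermat.Agent.S34.Euler.Places Fermat.Agent.S34.Euler.Value Fermat.Agent.S34.Euler.Chart
  Fermat.Agent.S34.Euler.RedPair
open Fermat.Agent.S34.Generic.Compat Fermat.Agent.S34.Generic.RestrAlong
open Fermat.Agent.S43.LG1.C1.Seam Fermat.Agent.S43.LG1.C1.TwoGaussX1
open Fermat.Agent.S43.LG1.C1.GaussPairX1 Fermat.Agent.S43.LG1.C1.DiamondRed1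
open Fermat.Agent.S43.LG1.C1.FrobKGen Fermat.Agent.S43.LG1.C1.Euler.FrobSideX1
  Fermat.Agent.S43.LG1.C1.Euler.ChartFullCX1 Fermat.Agent.S43.LG1.C1.EulerChartsX1
open Fermat.Agent.S43.LG1.C1.EulerX1 Fermat.Agent.S43.LG1.C1.EulerNodesX1
open Fermat.Agent.S43.LG1.C1.PairDictSwapTw
open Fermat.Agent.S43.LG1.C1.EulerNodesFinalX1 Fermat.Agent.S43.LG1.C1.Euler.HoloBridgeX1

local notation "Kb" => AlgebraicClosure ℚ

attribute [local instance] algFE1
attribute [local instance] algShortcut1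

variable {r : ℕ} [hrF : Fact r.Prime] [NeZero r] {N : ℕ} [NeZero N]
variable {A : ValuationSubring Kb} (hr : r.Prime) (hA : A.LiesOverPrime r) (hrN : ¬ r ∣ N)

/-- the first Gauss datum: the Gauss ring of `q`-expansions at level `(N; r)` -/
abbrev G1X1 : GaussDatum A (residue ↥A) ↥(F1pBar N r) ↥(F1C N (ResidueField ↥A)) :=
  gaussDatumV₁ hr hA hrN

/-- the second Gauss datum: the transform of the first by the Atkin-Lehner automorphism `W` -/
abbrev G2X1 : GaussDatum A (residue ↥A) ↥(F1pBar N r) ↥(F1C N (ResidueField ↥A)) :=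
  gaussDatumV₂ hr hA hrN

section Dict

variable [CharP (ResidueField ↥A) r] [PerfectField (ResidueField ↥A)]

/-- the reduced diamond commutes with the coefficientwise `r`-th root (`hdψ` of `FrobKGen.Twist`) -/
theorem hdψ1 (x : ↥(F1C N (ResidueField ↥A))) :
    dbar1 hr hA hrN (psi (hC1 N A) r x) = psi (hC1 N A) r (dbar1 hr hA hrN x) :=
  dbar1_frobAut_symm hr hA hrN x

omit [CharP (ResidueField ↥A) r] [PerfectField (ResidueField ↥A)] hrF in
/-- the reduced diamond fixes `j̄` (`hdj` of `FrobKGen.Twist`) -/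
theorem hdj1 : dbar1 hr hA hrN (Fermat.Agent.S48.B.Inj.Basics.jC (hJ1 N A)) =
    Fermat.Agent.S48.B.Inj.Basics.jC (hJ1 N A) :=
  dbar1_jC hr hA hrN

/-- **The two-map reduction dictionary at `X₁(N; r)`**, concretely:
`(red₁, red₂)(α g) = (ḡ, φ (d̄ ḡ))`, `(red₁, red₂)(β g) = (φ ḡ, ḡ)`. -/
theorem dX1 :
    PairDict2 (gaussDatum1 N A hr hA hrN) (G1X1 hr hA hrN) (G2X1 hr hA hrN) (αR N r) (βR N r)
      (fun g => phi (hC1 N A) r g) (fun g => psiD (hC1 N A) r (dbar1 hr hA hrN) g) where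
  alpha_mem₁ g := (alpha_mem_V₁_iff hr hA hrN g).mpr g.2
  alpha_mem₂ g := (alpha_mem_V₂_iff hr hA hrN (delta1_smul_O1 hr hA hrN) g).mpr g.2
  beta_mem₁ g := beta_mem_V₁ hr hA hrN g.2
  beta_mem₂ g := (beta_mem_V₂_iff hr hA hrN g).mpr g.2
  red₁_alpha g := red₁_alpha hr hA hrN g
  red₂_alpha g := Fermat.Agent.S43.LG1.C1.Generic.BranchX1.hredα₂ hr hA hrN g
  red₁_beta g := Fermat.Agent.S43.LG1.C1.Generic.BranchX1.hredβ hr hA hrN g
  red₂_beta g := red₂_beta hr hA hrN g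

end Dict

/-! ### Riemann's theorem and the instances on the residue field -/

omit hrF in
include hr hrN in
/-- Riemann's theorem on `E'' = ℚ̄(X₁(N; r))` and on `κ(X₁(N))`, `κ` the residue field of `A`
(no hypothesis) -/
theorem exists_genera (hA : A.LiesOverPrime r) :
    ∃ g gM : ℕ, RiemannHyp Kb ↥(F1pBar N r) g ∧
      RiemannHyp (ResidueField ↥A) ↥(F1C N (ResidueField ↥A)) gM := by
  haveI : Fact r.Prime := ⟨hr⟩
  haveI : IsAlgClosed (ResidueField ↥A) :=
    Fermat.Agent.S18.ResidueBasics.isAlgClosed_residueField A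
  haveI := Fermat.Agent.S43.LG1.C1.ResidueFrobX1.finiteDimensional_X1 hA N hrN
  obtain ⟨g, HL, -⟩ := Fermat.Agent.S48.B.Inj.Basics.exists_genus_L (isFF_jE1 (N := N) hr hrN)
  obtain ⟨gM, HM, -⟩ := Fermat.Agent.S48.B.Inj.Basics.exists_genus_k (hJ1 N A)
  exact ⟨g, gM, HL, HM⟩

include hA hrN in
/-- the five instances on `κ = ResidueField A`, `κ(X₁(N))` used by the Euler line -/
theorem instances_k :
    CharP (ResidueField ↥A) r ∧ PerfectField (ResidueField ↥A) ∧
      IsAlgClosed (ResidueField ↥A) ∧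
      HasPrincipalDivisors (ResidueField ↥A) ↥(F1C N (ResidueField ↥A)) ∧
      FiniteDimensional
        ↥(ResidueField ↥A)⟮Fermat.Agent.S48.B.Inj.Basics.jC (hJ1 N A)⟯
        ↥(F1C N (ResidueField ↥A)) := by
  haveI : IsAlgClosed (ResidueField ↥A) :=
    Fermat.Agent.S18.ResidueBasics.isAlgClosed_residueField A
  exact ⟨Fermat.Agent.S18.ResidueBasics.charP_residueField A hA, inferInstance, inferInstance,
    Fermat.Agent.S43.LG1.C1.ResidueFrobX1.hasPrincipalDivisors_X1 hA N hrN,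
    Fermat.Agent.S43.LG1.C1.ResidueFrobX1.finiteDimensional_X1 hA N hrN⟩

omit hrF in
include hr hrN in
/-- the two instances in characteristic zero used by the Euler line -/
theorem instances_L :
    HasPrincipalDivisors Kb ↥(F1Bar N) ∧ HasPrincipalDivisors Kb ↥(F1pBar N r) :=
  ⟨Fermat.Agent.S48.B.Inj.Basics.hasPrincipalDivisors_L
      (Fermat.Agent.S43.LG1.C1.CuspRedX1.isFF_jgen1 N),
    Fermat.Agent.S48.B.Inj.Basics.hasPrincipalDivisors_L (isFF_jE1 (N := N) hr hrN)⟩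

/-! ### The closed statements -/

section Closed

variable [CharP (ResidueField ↥A) r] [PerfectField (ResidueField ↥A)]
variable [HasPrincipalDivisors (ResidueField ↥A) ↥(F1C N (ResidueField ↥A))]
variable [IsAlgClosed (ResidueField ↥A)]
variable [FiniteDimensional
  ↥(ResidueField ↥A)⟮Fermat.Agent.S48.B.Inj.Basics.jC (hJ1 N A)⟯ ↥(F1C N (ResidueField ↥A))]
variable [HasPrincipalDivisors Kb ↥(F1Bar N)] [HasPrincipalDivisors Kb ↥(F1pBar N r)]

/-- **The nodes of `X₁(N; r)` mod `r`, the genus inequality and the chart-0 gluing**, from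
Riemann's theorem on both fields alone (`d̄ = DiamondRed1.dbar1 hr hA hrN`). -/
theorem exists_nodes_closed {g gM : ℕ}
    (HL : RiemannHyp Kb ↥(F1pBar N r) g)
    (HM : RiemannHyp (ResidueField ↥A) ↥(F1C N (ResidueField ↥A)) gM) :
    ∃ S : Finset (Place (ResidueField ↥A) ↥(F1C N (ResidueField ↥A))),
      (∀ b ∈ S, Fr (hC1 N A) r (Fr (hC1 N A) r ((Dp (dbar1 hr hA hrN)).symm b)) = b ∧
        b ∉ P0 (hJ1 N A)) ∧
      (g : ℤ) + 1 ≤ gM + gM + S.card ∧
      ∀ h₁ h₂ : ↥(F1C N (ResidueField ↥A)),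
        h₁ ∈ regOff (P0 (hJ1 N A)) → h₂ ∈ regOff (P0 (hJ1 N A)) →
        ((h₁, h₂) ∈ Rbar0 (G1X1 hr hA hrN) (G2X1 hr hA hrN) (isPoleDiv_xE hr hrN).nonneg ↔
          ∀ b ∈ S, ∃ c : ResidueField ↥A,
            HasValue (FrD (hC1 N A) r (dbar1 hr hA hrN) b) h₁ c ∧ HasValue b h₂ c) :=
  exists_nodes_final hr hrN hA (dbar1 hr hA hrN) (hdψ1 hr hA hrN) (hdj1 hr hA hrN)
    (dX1 hr hA hrN) HL HM
    (coe_TT (hC1 N A) r (dbar1 hr hA hrN) (hdψ1 hr hA hrN) _ _)
    (hJ2_P0 (hC1 N A) (hJ1 N A) r (dbar1 hr hA hrN) (hdψ1 hr hA hrN) (hdj1 hr hA hrN) HM)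
    (coe_TT (hC1 N A) r (dbar1 hr hA hrN) (hdψ1 hr hA hrN) _ _)
    (hJ2_P1 (hC1 N A) (hJ1 N A) r (dbar1 hr hA hrN) (hdψ1 hr hA hrN) (hdj1 hr hA hrN) HM)

/-- **The nodes of `X₁(N; r)` mod `r`, the genus inequality and the chart-0 gluing**, with no
hypothesis: the genera `g`, `gM` are those of Riemann's theorem on the two fields. -/
theorem exists_nodes_closed' :
    ∃ (g gM : ℕ) (_ : RiemannHyp Kb ↥(F1pBar N r) g)
      (_ : RiemannHyp (ResidueField ↥A) ↥(F1C N (ResidueField ↥A)) gM)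
      (S : Finset (Place (ResidueField ↥A) ↥(F1C N (ResidueField ↥A)))),
      (∀ b ∈ S, Fr (hC1 N A) r (Fr (hC1 N A) r ((Dp (dbar1 hr hA hrN)).symm b)) = b ∧
        b ∉ P0 (hJ1 N A)) ∧
      (g : ℤ) + 1 ≤ gM + gM + S.card ∧
      ∀ h₁ h₂ : ↥(F1C N (ResidueField ↥A)),
        h₁ ∈ regOff (P0 (hJ1 N A)) → h₂ ∈ regOff (P0 (hJ1 N A)) →
        ((h₁, h₂) ∈ Rbar0 (G1X1 hr hA hrN) (G2X1 hr hA hrN) (isPoleDiv_xE hr hrN).nonneg ↔
          ∀ b ∈ S, ∃ c : ResidueField ↥A,
            HasValue (FrD (hC1 N A) r (dbar1 hr hA hrN) b) h₁ c ∧ HasValue b h₂ c) := by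
  obtain ⟨g, gM, HL, HM⟩ := exists_genera (N := N) hr hrN hA
  obtain ⟨S, hS⟩ := exists_nodes_closed hr hA hrN HL HM
  exact ⟨g, gM, HL, HM, S, hS⟩

end Closed

end Fermat.Agent.S43.LG1.C1.EulerClosedX1

end
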