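/-
PROJECT R (S43), gate G, block C1 = S34' (helper5): the RIEMANN–HURWITZ INEQUALITY for a finite
extension `F' / F` of function fields over an algebraically closed field of characteristic zero,
from main's two Hurwitz formulas over the rational subfield `K(x)` (`S18/A/Hurwitz`) and main's
fundamental identity `∑_{w ∣ v} e(w ∣ v) = [F' : F]` (`S37/Hecke/Tower.sum_fiber`).

No place count on `F'` is needed: the lower bound `S18/B/GenusIneq.sum_fibres_le_hurwitz` for the
genus of `F'` holds for ANY finite set of fibres, and every fibre of `F'` over `K(x)` has at most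
`[F' : F]` times as many points as the fibre of `F` below it.

* `finrank_adjoin_algebraMap` : `[F' : K(x)] = [F : K(x)] · [F' : F]`;
* `card_fiber_le`, `card_fiber_lt` : `#{w ∣ v} ≤ [F' : F]`, with `<` if some `e(w ∣ v) ≥ 2`;
* `card_zeros_le`, `card_poles_le` : the fibres of `F'` over `K(x)`;
* `hurwitz_ge_of_charZero` : `∑_{a ∈ T} (n - #fibre a) + (n - #poles) ≤ 2g - 2 + 2n`, any `T`;
* `rh_ineq` : `[F' : F] (2 g - 2) + s ≤ 2 g' - 2`, `s = 1` if some place over a pole ramifies;
* `two_mul_genus_le` : `2 g ≤ g'` as soon as `[F' : F] ≥ 3` and some place over a pole ramifies.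
-/
import Mathlib
import Fermat.Agent.S34.GenusRiemann
import Fermat.Agent.S37.Hecke.Tower
import Fermat.Agent.S37.Hecke.Integral

set_option autoImplicit false
set_option linter.unusedSectionVars false
set_option linter.style.haveILetI false

noncomputable section

namespace Fermat.Agent.S43.LG1.C1.RHIneq

open AlgebraicCurve IntermediateField Fermat.Agent.S24.FF
open Fermat.Agent.S18.A Fermat.Agent.S18.B

universe u u' w

/-! ### the degree over the rational subfield -/

section Tower

variable {K : Type w} {F : Type u} {F' : Type u'} [Field K] [Field F] [Field F']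
  [Algebra K F] [Algebra K F'] [Algebra F F'] [IsScalarTower K F F']

/-- **`[F' : K(x)] = [F : K(x)] · [F' : F]`.** -/
theorem finrank_adjoin_algebraMap (x : F) :
    Module.finrank K⟮algebraMap F F' x⟯ F' = Module.finrank K⟮x⟯ F * Module.finrank F F' := by
  rw [Module.finrank_mul_finrank K⟮x⟯ F F']
  let f : F →ₐ[K] F' := IsScalarTower.toAlgHom K F F'
  have hmap : (K⟮x⟯).map f = K⟮algebraMap F F' x⟯ := by
    rw [IntermediateField.adjoin_map, Set.image_singleton]
    rfl
  let i : K⟮x⟯ ≃+* K⟮algebraMap F F' x⟯ :=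
    ((IntermediateField.equivMap K⟮x⟯ f).trans (IntermediateField.equivOfEq hmap)).toRingEquiv
  symm
  refine Algebra.finrank_eq_of_equiv_equiv i (RingEquiv.refl F') ?_
  ext a
  rfl

end Tower

/-! ### fibres of `F' / F` -/

section Fibres

variable {K : Type w} {F : Type u} {F' : Type u'} [Field K] [Field F] [Field F']
  [Algebra K F] [Algebra K F'] [Algebra F F'] [IsScalarTower K F F']
  [IsAlgClosed K] [CharZero K] [FiniteDimensional F F'] [HasPrincipalDivisors K F']

/-- **`#{w ∣ v} ≤ [F' : F]`.** -/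
theorem card_fiber_le {x : F} (hx : IsFF K x) {x' : F'} (hx' : IsFF K x') (v : Place K F) :
    (v.fiber F').card ≤ Module.finrank F F' := by
  have h := Fermat.Agent.S37.Hecke.Tower.sum_fiber hx hx' v
  have h1 : ((v.fiber F').card : ℤ) ≤ ∑ w ∈ v.fiber F', (w.ramificationIndex F : ℤ) := by
    rw [Finset.card_eq_sum_ones, Nat.cast_sum]
    refine Finset.sum_le_sum fun w _ => ?_
    have := w.ramificationIndex_pos (F := F)
    simp only [Nat.cast_one]
    omega
  rw [h] at h1
  exact_mod_cast h1

/-- **`#{w ∣ v} < [F' : F]`** if some place over `v` is ramified. -/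
theorem card_fiber_lt {x : F} (hx : IsFF K x) {x' : F'} (hx' : IsFF K x') (v : Place K F)
    {w₀ : Place K F'} (hw₀ : w₀.restrict F = v) (he : 2 ≤ w₀.ramificationIndex F) :
    (v.fiber F').card + 1 ≤ Module.finrank F F' := by
  classical
  have h := Fermat.Agent.S37.Hecke.Tower.sum_fiber hx hx' v
  have hmem : w₀ ∈ v.fiber F' := Place.mem_fiber.mpr hw₀
  have h1 : ((v.fiber F').card : ℤ) + 1 ≤ ∑ w ∈ v.fiber F', (w.ramificationIndex F : ℤ) := by
    rw [← Finset.add_sum_erase _ _ hmem, Finset.card_eq_sum_ones, Nat.cast_sum,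
      ← Finset.add_sum_erase _ _ hmem]
    have h2 : ∑ w ∈ (v.fiber F').erase w₀, ((1 : ℕ) : ℤ)
        ≤ ∑ w ∈ (v.fiber F').erase w₀, (w.ramificationIndex F : ℤ) := by
      refine Finset.sum_le_sum fun w _ => ?_
      have := w.ramificationIndex_pos (F := F)
      simp only [Nat.cast_one]
      omega
    have h3 : (2 : ℤ) ≤ (w₀.ramificationIndex F : ℤ) := by exact_mod_cast he
    simp only [Nat.cast_one] at h2 ⊢
    linarith
  rw [h] at h1
  exact_mod_cast h1

variable {x : F}

/-- the image of a separating variable is a separating variable of `F'` -/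
theorem isFF_algebraMap (hx : IsFF K x) {x' : F'} (hx' : IsFF K x') :
    IsFF K (algebraMap F F' x) :=
  hx'.of_transcendental fun h => hx.transcendental
    ((isAlgebraic_algHom_iff (IsScalarTower.toAlgHom K F F')
      (IsScalarTower.toAlgHom K F F').injective).mp h)

theorem algebraMap_sub (a : K) :
    algebraMap F F' x - algebraMap K F' a = algebraMap F F' (x - algebraMap K F a) := by
  rw [map_sub, ← IsScalarTower.algebraMap_apply]

variable (hx : IsFF K x) (hsep : Algebra.IsSeparable K⟮x⟯ F)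
  (hxx : IsFF K (algebraMap F F' x))
  (hsep' : Algebra.IsSeparable K⟮algebraMap F F' x⟯ F')

/-- a place of `F'` is a zero of `x - a` iff its restriction is -/
theorem mem_zeros_iff (a : K) (w : Place K F') :
    w ∈ FibreSep.zeros hxx hsep' a ↔ w.restrict F ∈ FibreSep.zeros hx hsep a := by
  rw [FibreSep.mem_zeros_iff_ord_pos, FibreSep.mem_zeros_iff_ord_pos, algebraMap_sub,
    w.ord_restrict]
  have he := w.ramificationIndex_pos (F := F)
  constructor
  · intro h
    by_contra hn
    have h0 : (w.restrict F).ord (x - algebraMap K F a) ≤ 0 := not_lt.mp hn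
    have : (w.ramificationIndex F : ℤ) * (w.restrict F).ord (x - algebraMap K F a) ≤ 0 :=
      mul_nonpos_of_nonneg_of_nonpos (by omega) h0
    omega
  · intro h
    exact mul_pos (by omega) h

/-- a place of `F'` is a pole of `x` iff its restriction is -/
theorem mem_poles_iff (w : Place K F') :
    w ∈ FibreSep.poles hxx hsep' ↔ w.restrict F ∈ FibreSep.poles hx hsep := by
  rw [FibreSep.mem_poles_iff_ord_neg, FibreSep.mem_poles_iff_ord_neg, w.ord_restrict]
  have he := w.ramificationIndex_pos (F := F)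
  constructor
  · intro h
    by_contra hn
    have h0 : 0 ≤ (w.restrict F).ord x := not_lt.mp hn
    have : 0 ≤ (w.ramificationIndex F : ℤ) * (w.restrict F).ord x :=
      mul_nonneg (by omega) h0
    omega
  · intro h
    exact mul_neg_of_pos_of_neg (by omega) h

/-- **The fibre of `F'` over `a` has at most `[F' : F]` times as many points as the fibre of `F`.** -/
theorem card_zeros_le {x' : F'} (hx' : IsFF K x') (a : K) :
    (FibreSep.zeros hxx hsep' a).card ≤ Module.finrank F F' * (FibreSep.zeros hx hsep a).card := by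
  classical
  refine Finset.card_le_mul_card_image_of_maps_to (f := fun w : Place K F' => w.restrict F)
    (fun w hw => (mem_zeros_iff hx hsep hxx hsep' a w).mp hw) _ fun v _ => ?_
  refine le_trans (Finset.card_le_card fun w hw => ?_) (card_fiber_le hx hx' v)
  exact Place.mem_fiber.mpr (Finset.mem_filter.mp hw).2

/-- **The polar fibre of `F'` has at most `[F' : F]` times as many points as that of `F`**, and one
less if some place over a pole is ramified. -/
theorem card_poles_le {x' : F'} (hx' : IsFF K x') :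
    (FibreSep.poles hxx hsep').card ≤ Module.finrank F F' * (FibreSep.poles hx hsep).card := by
  classical
  refine Finset.card_le_mul_card_image_of_maps_to (f := fun w : Place K F' => w.restrict F)
    (fun w hw => (mem_poles_iff hx hsep hxx hsep' w).mp hw) _ fun v _ => ?_
  refine le_trans (Finset.card_le_card fun w hw => ?_) (card_fiber_le hx hx' v)
  exact Place.mem_fiber.mpr (Finset.mem_filter.mp hw).2

theorem card_poles_lt {x' : F'} (hx' : IsFF K x') {w₀ : Place K F'}
    (hw₀ : w₀ ∈ FibreSep.poles hxx hsep') (he : 2 ≤ w₀.ramificationIndex F) :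
    (FibreSep.poles hxx hsep').card + 1
      ≤ Module.finrank F F' * (FibreSep.poles hx hsep).card := by
  classical
  set v₀ : Place K F := w₀.restrict F with hv₀
  have hv₀mem : v₀ ∈ FibreSep.poles hx hsep := (mem_poles_iff hx hsep hxx hsep' w₀).mp hw₀
  have hmaps : ∀ w ∈ FibreSep.poles hxx hsep', w.restrict F ∈ FibreSep.poles hx hsep :=
    fun w hw => (mem_poles_iff hx hsep hxx hsep' w).mp hw
  rw [Finset.card_eq_sum_card_fiberwise hmaps, ← Finset.add_sum_erase _ _ hv₀mem]
  have h1 : ((FibreSep.poles hxx hsep').filter fun w => w.restrict F = v₀).card + 1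
      ≤ Module.finrank F F' := by
    refine le_trans (Nat.add_le_add_right (Finset.card_le_card fun w hw => ?_) 1)
      (card_fiber_lt hx hx' v₀ rfl he)
    exact Place.mem_fiber.mpr (Finset.mem_filter.mp hw).2
  have h2 : ∑ v ∈ (FibreSep.poles hx hsep).erase v₀,
      ((FibreSep.poles hxx hsep').filter fun w => w.restrict F = v).card
        ≤ ((FibreSep.poles hx hsep).erase v₀).card * Module.finrank F F' := by
    rw [← smul_eq_mul]
    refine Finset.sum_le_card_nsmul _ _ _ fun v _ => ?_
    refine le_trans (Finset.card_le_card fun w hw => ?_) (card_fiber_le hx hx' v)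
    exact Place.mem_fiber.mpr (Finset.mem_filter.mp hw).2
  rw [Finset.card_erase_of_mem hv₀mem] at h2
  have hpos : 1 ≤ (FibreSep.poles hx hsep).card := Finset.card_pos.mpr ⟨v₀, hv₀mem⟩
  obtain ⟨c, hc⟩ : ∃ c, (FibreSep.poles hx hsep).card = c + 1 := ⟨_, (Nat.sub_add_cancel hpos).symm⟩
  rw [hc] at h2 ⊢
  rw [Nat.add_sub_cancel] at h2
  nlinarith

end Fibres

/-! ### the Hurwitz lower bound, any finite set of fibres -/

section Lower

variable {K : Type w} {F : Type u} [Field K] [Field F] [Algebra K F] [IsAlgClosed K] [CharZero K]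
  {x : F}

/-- **Hurwitz lower bound in characteristic zero**: for ANY finite set `T` of values,
`∑_{a ∈ T} (n - #fibre a) + (n - #poles) ≤ 2g - 2 + 2n`. -/
theorem hurwitz_ge_of_charZero (hx : IsFF K x) (hsep : Algebra.IsSeparable K⟮x⟯ F) {g : ℕ}
    (hH : Defs.HurwitzFormula hx hsep g) (T : Finset K) :
    ∑ a ∈ T, ((Module.finrank K⟮x⟯ F : ℤ) - ((FibreSep.zeros hx hsep a).card : ℤ))
        + ((Module.finrank K⟮x⟯ F : ℤ) - ((FibreSep.poles hx hsep).card : ℤ))
      ≤ 2 * (g : ℤ) - 2 + 2 * (Module.finrank K⟮x⟯ F : ℤ) := by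
  refine le_trans (le_of_eq ?_) (GenusIneq.sum_fibres_le_hurwitz hx hsep hH T)
  congr 1
  · refine Finset.sum_congr rfl fun a _ => ?_
    rw [← GenusIneq.sum_zeros_sub_one hx hsep a]
    refine Finset.sum_congr rfl fun Q hQ => ?_
    exact (DiffLower.diffExp_eq_of_charZero_zero hx hsep a
      ((FibreSep.mem_zeros hx hsep a Q).mp hQ)).symm
  · rw [← GenusIneq.sum_poles_sub_one hx hsep]
    refine Finset.sum_congr rfl fun Q hQ => ?_
    exact (DiffLower.diffExp_eq_of_charZero_pole hx hsep
      ((FibreSep.mem_poles hx hsep Q).mp hQ)).symm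

end Lower

/-! ### the Riemann–Hurwitz inequality -/

section Main

variable {K : Type w} {F : Type u} {F' : Type u'} [Field K] [Field F] [Field F']
  [Algebra K F] [Algebra K F'] [Algebra F F'] [IsScalarTower K F F']
  [IsAlgClosed K] [CharZero K] [FiniteDimensional F F'] [HasPrincipalDivisors K F']
  {x : F}

/-- the arithmetic core of `rh_ineq` -/
theorem rh_core {T : Finset K} {n d n' g g' p p' s : ℤ} {z z' : K → ℤ}
    (hn' : n' = n * d)
    (e1 : 2 * g - 2 + 2 * n = ∑ a ∈ T, (n - z a) + (n - p))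
    (e2 : ∑ a ∈ T, (n' - z' a) + (n' - p') ≤ 2 * g' - 2 + 2 * n')
    (hz : ∀ a ∈ T, z' a ≤ d * z a) (hp : p' + s ≤ d * p) :
    d * (2 * g - 2) + s ≤ 2 * g' - 2 := by
  subst hn'
  have h3 : d * ∑ a ∈ T, (n - z a) ≤ ∑ a ∈ T, (n * d - z' a) := by
    rw [Finset.mul_sum]
    refine Finset.sum_le_sum fun a ha => ?_
    have := hz a ha
    nlinarith
  have key : d * (2 * g - 2 + 2 * n) = d * ∑ a ∈ T, (n - z a) + d * (n - p) := by
    rw [e1, mul_add]
  have k1 : d * (2 * g - 2 + 2 * n) = d * (2 * g - 2) + 2 * (n * d) := by ring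
  have k2 : d * (n - p) = n * d - d * p := by ring
  linarith

/-- **The Riemann–Hurwitz inequality** `[F' : F] (2 g - 2) ≤ 2 g' - 2` in characteristic zero. -/
theorem rh_ineq (hx : IsFF K x) (hsep : Algebra.IsSeparable K⟮x⟯ F) {x' : F'} (hx' : IsFF K x')
    (hsep' : Algebra.IsSeparable K⟮algebraMap F F' x⟯ F') {g g' : ℕ}
    (hR : Fermat.Agent.S18.NonSpecial.RiemannHyp K F g)
    (hR' : Fermat.Agent.S18.NonSpecial.RiemannHyp K F' g') (T : Finset K)
    (hT : ∀ c : K, c ∉ T → (FibreSep.zeros hx hsep c).card = Module.finrank K⟮x⟯ F) :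
    (Module.finrank F F' : ℤ) * (2 * (g : ℤ) - 2) ≤ 2 * (g' : ℤ) - 2 := by
  have hxx := isFF_algebraMap hx hx'
  have hH := Hurwitz.hurwitzFormula hx hsep hR
  have hH' := Hurwitz.hurwitzFormula hxx hsep' hR'
  have e1 := Fermat.Agent.S34.GenusRiemann.hurwitz_eq_of_charZero hx hsep hH T hT
  have e2 := hurwitz_ge_of_charZero hxx hsep' hH' T
  have hn' : (Module.finrank K⟮algebraMap F F' x⟯ F' : ℤ)
      = (Module.finrank K⟮x⟯ F : ℤ) * (Module.finrank F F' : ℤ) := by
    exact_mod_cast finrank_adjoin_algebraMap (K := K) (F' := F') x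
  have h := rh_core (s := 0) (z := fun a => ((FibreSep.zeros hx hsep a).card : ℤ))
    (z' := fun a => ((FibreSep.zeros hxx hsep' a).card : ℤ)) hn' e1 e2
    (fun a _ => by exact_mod_cast card_zeros_le hx hsep hxx hsep' hx' a)
    (by rw [add_zero]; exact_mod_cast card_poles_le hx hsep hxx hsep' hx')
  linarith

/-- **The Riemann–Hurwitz inequality, strict form**: if some place of `F'` over a pole of `x` is
ramified over `F` then `[F' : F] (2 g - 2) + 1 ≤ 2 g' - 2`. -/
theorem rh_ineq_strict (hx : IsFF K x) (hsep : Algebra.IsSeparable K⟮x⟯ F) {x' : F'}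
    (hx' : IsFF K x') (hsep' : Algebra.IsSeparable K⟮algebraMap F F' x⟯ F') {g g' : ℕ}
    (hR : Fermat.Agent.S18.NonSpecial.RiemannHyp K F g)
    (hR' : Fermat.Agent.S18.NonSpecial.RiemannHyp K F' g') (T : Finset K)
    (hT : ∀ c : K, c ∉ T → (FibreSep.zeros hx hsep c).card = Module.finrank K⟮x⟯ F)
    {w₀ : Place K F'} (hw₀ : w₀.ord (algebraMap F F' x) < 0)
    (he : 2 ≤ w₀.ramificationIndex F) :
    (Module.finrank F F' : ℤ) * (2 * (g : ℤ) - 2) + 1 ≤ 2 * (g' : ℤ) - 2 := by
  have hxx := isFF_algebraMap hx hx'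
  have hH := Hurwitz.hurwitzFormula hx hsep hR
  have hH' := Hurwitz.hurwitzFormula hxx hsep' hR'
  have e1 := Fermat.Agent.S34.GenusRiemann.hurwitz_eq_of_charZero hx hsep hH T hT
  have e2 := hurwitz_ge_of_charZero hxx hsep' hH' T
  have hn' : (Module.finrank K⟮algebraMap F F' x⟯ F' : ℤ)
      = (Module.finrank K⟮x⟯ F : ℤ) * (Module.finrank F F' : ℤ) := by
    exact_mod_cast finrank_adjoin_algebraMap (K := K) (F' := F') x
  have hmem : w₀ ∈ FibreSep.poles hxx hsep' :=
    (FibreSep.mem_poles_iff_ord_neg hxx hsep' w₀).mpr hw₀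
  exact rh_core (s := 1) (z := fun a => ((FibreSep.zeros hx hsep a).card : ℤ))
    (z' := fun a => ((FibreSep.zeros hxx hsep' a).card : ℤ)) hn' e1 e2
    (fun a _ => by exact_mod_cast card_zeros_le hx hsep hxx hsep' hx' a)
    (by exact_mod_cast card_poles_lt hx hsep hxx hsep' hx' hmem he)

/-- `2 g ≤ g'` from the strict Riemann–Hurwitz inequality in degree `≥ 3` -/
theorem two_mul_le_of_rh {d g g' : ℕ} (hd : 3 ≤ d)
    (h : (d : ℤ) * (2 * (g : ℤ) - 2) + 1 ≤ 2 * (g' : ℤ) - 2) : 2 * g ≤ g' := by
  rcases Nat.eq_zero_or_pos g with rfl | hg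
  · omega
  · have h1 : (3 : ℤ) * (2 * (g : ℤ) - 2) ≤ (d : ℤ) * (2 * (g : ℤ) - 2) := by
      have hd' : (3 : ℤ) ≤ d := by exact_mod_cast hd
      have hg' : (0 : ℤ) ≤ 2 * (g : ℤ) - 2 := by
        have : (1 : ℤ) ≤ g := by exact_mod_cast hg
        omega
      exact mul_le_mul_of_nonneg_right hd' hg'
    omega

/-- **`2 g ≤ g'`** for a finite extension of degree `≥ 3` in which some place over a pole of `x`
is ramified. -/
theorem two_mul_genus_le (hx : IsFF K x) (hsep : Algebra.IsSeparable K⟮x⟯ F) {x' : F'}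
    (hx' : IsFF K x') (hsep' : Algebra.IsSeparable K⟮algebraMap F F' x⟯ F') {g g' : ℕ}
    (hR : Fermat.Agent.S18.NonSpecial.RiemannHyp K F g)
    (hR' : Fermat.Agent.S18.NonSpecial.RiemannHyp K F' g') (T : Finset K)
    (hT : ∀ c : K, c ∉ T → (FibreSep.zeros hx hsep c).card = Module.finrank K⟮x⟯ F)
    (hd : 3 ≤ Module.finrank F F')
    {w₀ : Place K F'} (hw₀ : w₀.ord (algebraMap F F' x) < 0)
    (he : 2 ≤ w₀.ramificationIndex F) : 2 * g ≤ g' :=
  two_mul_le_of_rh hd (rh_ineq_strict hx hsep hx' hsep' hR hR' T hT hw₀ he)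

end Main

end Fermat.Agent.S43.LG1.C1.RHIneq
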