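/-
PROJECT R (S43), gate G, block C1 = S34' (helper5): X₁-twin of `S34/NodesNonempty`.

**`2 g(X₁(N)) ≤ g(X₁(N; r))`** for the Riemann genera of `ℚ̄(X₁(N))` and of the mixed level
`ℚ̄(X₁(N; r))` (`Γ₁(N) ∩ Γ₀(r)`, `r` a prime not dividing `N`), hence the special fibre of
`X₁(N; r)` at `r` has at least one node (`one_le_of_genus_identity`).

On `X₀` main uses the closed genus formula at both levels.  Main has no genus formula (and no
place count) for the mixed level, so this is NOT a twin: we use the Riemann–Hurwitz inequality of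
`C1/RHIneq` along `β₁ : ℚ̄(X₁(N)) → ℚ̄(X₁(N; r))` (degree `r + 1 ≥ 3`, `DegreeBridge1`), the fibre
count of `ℚ̄(X₁(N))` over the `j`-line (`B1/Main.places1`, `deg1`), and the ramification of `β₁` at
the cusp `∞` of `X₁(N; r)`: `(β₁ f)(q) = f(q ^ r)`, so `e = r ≥ 2` there.  Valid for every `N ≥ 1`.
-/
import Mathlib
import Fermat.Agent.S43.LG1.C1.RHIneq
import Fermat.Agent.S48.B.B1.Main
import Fermat.Agent.S48.B.ES.DegreeBridge1
import Fermat.Agent.S48.B.ES.RelPic1
import Fermat.Agent.S15.E2.RedDict.QPlace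
import Fermat.Agent.S37.Cusps.LaurentVal

set_option autoImplicit false
set_option linter.unusedSectionVars false
set_option linter.style.haveILetI false

noncomputable section

namespace Fermat.Agent.S43.LG1.C1.NodesNonempty1

open AlgebraicCurve IntermediateField ModularCurve Fermat.Agent.S24.FF
open Fermat.Agent.S18.A Fermat.Agent.S18.NonSpecial
open Fermat.Agent.S48.B.Defs.Model Fermat.Agent.S48.B.B1.Seams Fermat.Agent.S48.B.B1.Seams2
open Fermat.Agent.S15.E2.RedDict.QPlace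

local notation "Kb" => AlgebraicClosure ℚ

variable (N r : ℕ) [NeZero N] [NeZero r]

/-- `ℚ̄(X₁(N; r))` -/
local notation "E1p" => laurentBaseChange Kb (F1p N r)

/-! ### the cusp `∞` of `X₁(N; r)` -/

theorem coe_jgen1p_eq : ((jgen1p N r : ↥E1p) : LaurentSeries Kb) = jqModC Kb :=
  Fermat.Agent.S48.B.ES.DegreeBridge1.coe_jgen1p N r

theorem jgen1p_ne_zero : (jgen1p N r : ↥E1p) ≠ 0 := fun h => by
  have := congrArg (fun z : ↥E1p => (z : LaurentSeries Kb)) h
  simp only [coe_jgen1p_eq, ZeroMemClass.coe_zero] at this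
  exact jqModC_ne_zero_of_nontrivial Kb this

theorem qOrd_jgen1p : qOrd E1p (jgen1p N r) = -1 := by
  rw [qOrd, coe_jgen1p_eq]
  exact Fermat.Agent.S37.Cusps.LaurentVal.order_jqModC

theorem hpole : ∃ x : ↥E1p, qOrd E1p x < 0 := ⟨jgen1p N r, by rw [qOrd_jgen1p]; omega⟩

theorem hunif : ∃ ϖ : ↥E1p, qOrd E1p ϖ = 1 :=
  ⟨(jgen1p N r)⁻¹, by rw [qOrd_inv _ _ (jgen1p_ne_zero N r), qOrd_jgen1p]; rfl⟩

/-- the cusp `∞` of `X₁(N; r)` -/
def cuspInf : Place Kb ↥E1p := qPlace E1p (hpole N r)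

theorem ord_cuspInf (f : ↥E1p) (hf : f ≠ 0) : (cuspInf N r).ord f = qOrd E1p f :=
  ord_qPlace E1p (hpole N r) (hunif N r) f hf

/-- **`β₁` multiplies the order at `∞` by `r`.** -/
theorem ord_cuspInf_beta1 (f : F1Bar N) (hf : f ≠ 0) :
    (cuspInf N r).ord (beta1 N r Kb f) = (r : ℤ) * (f : LaurentSeries Kb).order := by
  have hf' : (f : LaurentSeries Kb) ≠ 0 := fun h => hf (Subtype.ext h)
  have hne : beta1 N r Kb f ≠ 0 := (map_ne_zero_iff _ (beta1 N r Kb).injective).mpr hf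
  rw [ord_cuspInf N r _ hne, qOrd, coe_beta1,
    Fermat.Agent.S37.Cusps.LaurentVal.order_qExpand r hf']

section Along

variable {N r}
variable (hr : r.Prime) (hrN : ¬ r ∣ N)
include hr hrN

/-- **`β₁` is ramified at the cusp `∞`**: `e = r ≥ 2` (we only need `r ∣ e`). -/
theorem two_le_ramificationIndex_cuspInf :
    letI := algebraAlong (beta1 N r Kb)
    haveI := isScalarTower_along (beta1 N r Kb)
    2 ≤ (cuspInf N r).ramificationIndex (F1Bar N) := by
  letI := algebraAlong (beta1 N r Kb)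
  haveI := isScalarTower_along (beta1 N r Kb)
  have h1 := Fermat.Agent.S48.B.B1.Main.deg1 N
  have hp := Fermat.Agent.S48.B.B1.Main.deg1p N r
  have hfr : Module.finrank (F1Bar N) ↥E1p = r + 1 :=
    Fermat.Agent.S48.B.ES.DegreeBridge1.finrankAlong_beta1_of_seams hr hrN h1 hp
  haveI : FiniteDimensional (F1Bar N) ↥E1p :=
    Module.finite_of_finrank_pos (by rw [hfr]; omega)
  obtain ⟨f, hf0, hfe⟩ := (cuspInf N r).exists_ord_eq_ramificationIndex (F := F1Bar N)
  have hpos := (cuspInf N r).ramificationIndex_pos (F := F1Bar N)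
  have hβ : (cuspInf N r).ord (algebraMap (F1Bar N) ↥E1p f)
      = (r : ℤ) * (f : LaurentSeries Kb).order := ord_cuspInf_beta1 N r f hf0
  rw [hβ] at hfe
  have hr2 : (2 : ℤ) ≤ r := by exact_mod_cast hr.two_le
  have hepos : (0 : ℤ) < ((cuspInf N r).ramificationIndex (F1Bar N) : ℤ) := by
    exact_mod_cast hpos
  have hopos : 0 < (f : LaurentSeries Kb).order := by
    by_contra hn
    have : (r : ℤ) * (f : LaurentSeries Kb).order ≤ 0 :=
      mul_nonpos_of_nonneg_of_nonpos (by omega) (not_lt.mp hn)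
    omega
  have : (2 : ℤ) ≤ ((cuspInf N r).ramificationIndex (F1Bar N) : ℤ) := by
    rw [← hfe]
    nlinarith
  exact_mod_cast this

/-- **`2 g(X₁(N)) ≤ g(X₁(N; r))`** for the Riemann genera. -/
theorem two_mul_genus_le {gN gE : ℕ} (hRN : RiemannHyp Kb (F1Bar N) gN)
    (hRE : RiemannHyp Kb ↥E1p gE) : 2 * gN ≤ gE := by
  classical
  letI := algebraAlong (beta1 N r Kb)
  haveI := isScalarTower_along (beta1 N r Kb)
  have h1 := Fermat.Agent.S48.B.B1.Main.deg1 N
  have hp := Fermat.Agent.S48.B.B1.Main.deg1p N r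
  have hpl := Fermat.Agent.S48.B.B1.Main.places1 N
  have hfr : Module.finrank (F1Bar N) ↥E1p = r + 1 :=
    Fermat.Agent.S48.B.ES.DegreeBridge1.finrankAlong_beta1_of_seams hr hrN h1 hp
  haveI : FiniteDimensional (F1Bar N) ↥E1p :=
    Module.finite_of_finrank_pos (by rw [hfr]; omega)
  have hx : IsFF Kb (jgen1 N) := h1.1
  have hx' : IsFF Kb (jgen1p N r) := Fermat.Agent.S48.B.ES.RelPic1.isFF_jgen1p hr hrN h1 hp
  haveI : HasPrincipalDivisors Kb ↥E1p := Instances.hasPrincipalDivisors_of_charZero hx'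
  have hsep : Algebra.IsSeparable Kb⟮jgen1 N⟯ (F1Bar N) :=
    Fermat.Agent.S48.B.Inj.Basics.isSeparable_of_isFF hx
  have hxx : IsFF Kb (algebraMap (F1Bar N) ↥E1p (jgen1 N)) :=
    Fermat.Agent.S43.LG1.C1.RHIneq.isFF_algebraMap hx hx'
  have hsep' : Algebra.IsSeparable Kb⟮algebraMap (F1Bar N) ↥E1p (jgen1 N)⟯ ↥E1p :=
    Fermat.Agent.S48.B.Inj.Basics.isSeparable_of_isFF hxx
  have hT : ∀ c : Kb, c ∉ ({1728, 0} : Finset Kb) →
      (FibreSep.zeros hx hsep c).card = Module.finrank Kb⟮jgen1 N⟯ (F1Bar N) := by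
    intro c hc
    rw [Finset.mem_insert, Finset.mem_singleton, not_or] at hc
    rw [← FibreSep.card_zeros, h1.2]
    exact hpl.1 c hc.1 hc.2
  have hj0 : jgen1 N ≠ 0 := fun h => hx.ne_algebraMap 0 (by rw [map_zero, h])
  have hw₀ : (cuspInf N r).ord (algebraMap (F1Bar N) ↥E1p (jgen1 N)) < 0 := by
    have h := ord_cuspInf_beta1 N r (jgen1 N) hj0
    rw [Fermat.Agent.S48.B.ES.DegreeBridge1.coe_jgen1,
      Fermat.Agent.S37.Cusps.LaurentVal.order_jqModC] at h
    have hr0 : (0 : ℤ) < r := by exact_mod_cast hr.pos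
    show (cuspInf N r).ord (beta1 N r Kb (jgen1 N)) < 0
    rw [h]
    omega
  exact Fermat.Agent.S43.LG1.C1.RHIneq.two_mul_genus_le hx hsep hx' hsep' hRN hRE {1728, 0} hT
    (by rw [hfr]; have := hr.two_le; omega) hw₀ (two_le_ramificationIndex_cuspInf hr hrN)

/-- **the special fibre of `X₁(N; r)` at `r` has a node**: the genus identity
`g(N; r) + 1 = g₁ + g₂ + δ` with `g₁ = g₂ = g(N)` forces `1 ≤ δ`. -/
theorem one_le_of_genus_identity {gN gE δ : ℕ} (hRN : RiemannHyp Kb (F1Bar N) gN)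
    (hRE : RiemannHyp Kb ↥E1p gE) (hid : gE + 1 = gN + gN + δ) : 1 ≤ δ := by
  have := two_mul_genus_le hr hrN hRN hRE
  omega

/-- the inequality form used by the nodal core: `g + 1 ≤ 2 g_N + #ι` forces `1 ≤ #ι` -/
theorem one_le_card_of_nc {gN gE : ℕ} (hRN : RiemannHyp Kb (F1Bar N) gN)
    (hRE : RiemannHyp Kb ↥E1p gE) {ι : Type*} [Fintype ι]
    (hNC : (gE : ℤ) + 1 ≤ gN + gN + Fintype.card ι) : 1 ≤ Fintype.card ι := by
  have := two_mul_genus_le hr hrN hRN hRE
  omega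

end Along

end Fermat.Agent.S43.LG1.C1.NodesNonempty1
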