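/-
PROJECT R (S43), gate G, block C1 = S34' (helper5): X₁-twin of `S34/NodalCoreX0`.

`NodalCore.nodal_core` SPECIALISED at `E'' = ℚ̄(X₁(N; r))`, `κ = κ(A)(X₁(N)) = F1C N κ(A)`
(`κ(A)` the residue field of a valuation subring `A ∣ r` of `ℚ̄`, `r ∤ N`), with every hypothesis
which does not belong to the nodal datum discharged:

* `riemannHyp_bar_of_riemannHyp_k` (good reduction of `X₁(N)`, helper23's `C1/HypX1`);
* `two_mul_genus_k_le` : `2 g_κ(N) ≤ g(N; r)` (`C1/NodesNonempty1`: Riemann–Hurwitz along `β₁`);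
* `one_le_card_of_nc`, `one_le_card_finset_of_nc` : (NC) `g + 1 ≤ 2 g_κ + #ι` forces `1 ≤ #ι`:
  **the field `hcard` of helper13's `CoreZX1Datum.X1Datum` is a theorem** (`X1Datum.hcard_of`);
* the three `HasPrincipalDivisors` instances, `deg P = 1` on `E''`, `hunram₁`, `hunram₂`,
  `(p ^ n : κ(A)) ≠ 0` are helper13's small inputs of `C1/CoreZX1Datum` (imported, not retyped);
* `principal_of_glueG` : the nodal core at `E''` (twin of `S34/NodalCoreX0.principal_of_glueG`).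
-/
import Mathlib
import Fermat.Agent.S34.NodalCore
import Fermat.Agent.S34.NodalRigidOfRiemann
import Fermat.Agent.S18.NonSpecialAdapter
import Fermat.Agent.S43.LG1.C1.NodesNonempty1
import Fermat.Agent.S43.LG1.C1.HypX1
import Fermat.Agent.S43.LG1.C1.CoreZX1Datum

set_option autoImplicit false
set_option linter.unusedSectionVars false
set_option linter.style.haveILetI false
set_option synthInstance.maxHeartbeats 400000

noncomputable section

namespace Fermat.Agent.S43.LG1.C1.NodalCoreX1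

open ModularCurve AlgebraicCurve IsLocalRing
open Fermat.Agent.S18.NonSpecial Fermat.Agent.S34.NodalDefs
open Fermat.Agent.S48.B.Defs.Model Fermat.Agent.S48.B.ES.DegreeBeta1
open Fermat.Agent.S43.LG1.C1.Seam Fermat.Agent.S43.LG1.C1.CoreZX1Datum

local notation "Kb" => AlgebraicClosure ℚ

attribute [local instance] algShortcut1

variable {r : ℕ} [hrF : Fact r.Prime] {N : ℕ} [NeZero N] {A : ValuationSubring Kb}
variable (hr : r.Prime) (hA : A.LiesOverPrime r) (hrN : ¬ r ∣ N) [NeZero r]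

/-! ### the genera -/

include hr hrN hA in
/-- Riemann's theorem on `κ = κ(A)(X₁(N))` holds with the genus of `ℚ̄(X₁(N))`
(helper23's `HypX1.riemannHyp_bar_of_riemannHyp_k1` with its instances discharged). -/
theorem riemannHyp_bar_of_riemannHyp_k {gk : ℕ}
    (Hk : RiemannHyp (ResidueField ↥A) ↥(F1C N (ResidueField ↥A)) gk) :
    RiemannHyp Kb ↥(F1Bar N) gk := by
  haveI : HasPrincipalDivisors Kb ↥(F1Bar N) :=
    Fermat.Agent.S48.B.Inj.Basics.hasPrincipalDivisors_L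
      (Fermat.Agent.S48.B.B1.Main.deg1 N).1
  haveI := hasPrincipalDivisors_F1C (N := N) hr hA hrN
  exact Fermat.Agent.S43.LG1.C1.HypX1.riemannHyp_bar_of_riemannHyp_k1 (igusaDegN N) hr hrN hA Hk

include hr hrN hA in
/-- **`2 g_κ(N) ≤ g(N; r)`.** -/
theorem two_mul_genus_k_le {g gk : ℕ} (HL : RiemannHyp Kb ↥(F1pBar N r) g)
    (Hk : RiemannHyp (ResidueField ↥A) ↥(F1C N (ResidueField ↥A)) gk) : 2 * gk ≤ g :=
  Fermat.Agent.S43.LG1.C1.NodesNonempty1.two_mul_genus_le hr hrN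
    (riemannHyp_bar_of_riemannHyp_k hr hA hrN Hk) HL

include hr hrN hA in
/-- **The nodes exist**: (NC) forces `1 ≤ #ι`. -/
theorem one_le_card_of_nc {g gk : ℕ} (HL : RiemannHyp Kb ↥(F1pBar N r) g)
    (Hk : RiemannHyp (ResidueField ↥A) ↥(F1C N (ResidueField ↥A)) gk)
    {ι : Type*} [Fintype ι] (hNC : (g : ℤ) + 1 ≤ gk + gk + Fintype.card ι) :
    1 ≤ Fintype.card ι := by
  have h := two_mul_genus_k_le hr hA hrN HL Hk
  omega

include hr hrN hA in
/-- the same for a node set given as a `Finset`: **the field `hcard` of `X1Datum`** -/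
theorem one_le_card_finset_of_nc {g gk : ℕ} (HL : RiemannHyp Kb ↥(F1pBar N r) g)
    (Hk : RiemannHyp (ResidueField ↥A) ↥(F1C N (ResidueField ↥A)) gk)
    {α : Type*} (S : Finset α) (hNC : (g : ℤ) + 1 ≤ gk + gk + S.card) : 1 ≤ S.card := by
  have h := two_mul_genus_k_le hr hA hrN HL Hk
  omega

/-! ### the nodal core at `X₁(N; r)` -/

include hr hrN hA in
set_option maxHeartbeats 1600000 in
/-- **The nodal core at `E'' = ℚ̄(X₁(N; r))`.**  All hypotheses of `NodalCore.nodal_core` which do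
not concern the nodal datum itself are discharged. -/
theorem principal_of_glueG {ι : Type*} [Fintype ι]
    (Nd : GNodalDatum A (residue ↥A) ↥(F1pBar N r)
      ↥(F1C N (ResidueField ↥A)) ↥(F1C N (ResidueField ↥A)) ι)
    (he2 : Function.Injective Nd.e2) {g gk : ℕ}
    (HL : RiemannHyp Kb ↥(F1pBar N r) g)
    (Hk : RiemannHyp (ResidueField ↥A) ↥(F1C N (ResidueField ↥A)) gk)
    (hNC : (g : ℤ) + 1 ≤ gk + gk + Fintype.card ι)
    (x1 : Nd.R1.O) (hx1 : Nd.R1.red x1 = Fermat.Agent.S48.B.Red.Seams.jC N (ResidueField ↥A))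
    (x2 : Nd.R2.O) (hx2 : Nd.R2.red x2 = Fermat.Agent.S48.B.Red.Seams.jC N (ResidueField ↥A))
    (Pstar : Place Kb ↥(F1pBar N r))
    (Qstar : Place (ResidueField ↥A) ↥(F1C N (ResidueField ↥A)))
    (hQstar : Qstar ∈ Nd.R1.good) (hstar : Nd.R1.r Pstar = some Qstar)
    {p : ℕ} (hp : p.Prime) (hpr : p ≠ r) (n : ℕ)
    (D : Divisor Kb ↥(F1pBar N r)) (hD0 : Divisor.degree D = 0)
    (f1 : Nd.R1.Oˣ) (f2 : Nd.R2.Oˣ)
    (hf12 : (((f1 : Nd.R1.O) : ↥(F1pBar N r))) = (((f2 : Nd.R2.O) : ↥(F1pBar N r))))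
    (hred1 : Nd.R1.red (f1 : Nd.R1.O) = 1) (hred2 : Nd.R2.red (f2 : Nd.R2.O) = 1)
    (hfD : ∀ P : Place Kb ↥(F1pBar N r),
      P.ord (((f1 : Nd.R1.O) : ↥(F1pBar N r))) = ((p ^ n : ℕ) : ℤ) * D P)
    (hglue : GlueG Nd D) :
    D ∈ Divisor.principal (K := Kb) (F := ↥(F1pBar N r)) := by
  haveI := hasPrincipalDivisors_F1pBar (N := N) hr hrN
  haveI := hasPrincipalDivisors_F1C (N := N) hr hA hrN
  have hcard := one_le_card_of_nc hr hA hrN HL Hk hNC
  haveI : Nonempty ι := Fintype.card_pos_iff.mp (by omega)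
  have hg : g ≤ gk + (gk + Fintype.card ι - 1) := by omega
  exact Fermat.Agent.S34.NodalCore.nodal_core Nd
    (deg_eq_one_F1pBar (N := N) hr hrN)
    residue_surjective (p ^ n) (natCast_pow_ne_zero1 hA hp hpr n)
    x1 (finite_not_simple_of_eq_jC1 hr hA hrN hx1) x2 (finite_not_simple_of_eq_jC1 hr hA hrN hx2)
    (Fermat.Agent.S18.NonSpecialAdapter.riemannGe_of_riemannHyp HL hg)
    (Fermat.Agent.S34.NodalRigidOfRiemann.nodalRigid Hk Hk Nd.e2 he2)
    Pstar Qstar hQstar hstar D hD0 f1 f2 hf12 hred1 hred2 hfD hglue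

end Fermat.Agent.S43.LG1.C1.NodalCoreX1
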