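/-
PROJECT R (row 37 by S43), gate, C1 = S34' (leader helper13, call #6271 (u3); helper25):
the hypothesis `OBGen` of `S34/NodeTransfer.exists_multiplier` (general orthonormal bases) for the
Deuring reduction datum of `ℚ̄(X₁(N))` at a prime `r ∤ N`
(`S37/Deuring/Core.redDatum` of `C1/Seam.gaussDatum1`, basis from `S48/B/Red/Bases1`).
Twin of `S34/NodeTransferX0`.
-/
import Mathlib
import Fermat.Agent.S34.NodeTransfer
import Fermat.Agent.S37.Deuring.OrthoBasis2
import Fermat.Agent.S43.LG1.C1.Seam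

set_option autoImplicit false
set_option linter.unusedSectionVars false
set_option synthInstance.maxHeartbeats 400000

noncomputable section

namespace Fermat.Agent.S43.LG1.C1.NodeTransferX1

open ModularCurve AlgebraicCurve IsLocalRing IntermediateField
open Fermat.Agent.S18.NonSpecial Fermat.Agent.S37.Deuring.Core
open Fermat.Agent.S34.NodeTransfer
open Fermat.Agent.S48.B.Defs.Model Fermat.Agent.S48.B.B1.Seams
open Fermat.Agent.S48.B.Red.Seams (jC IgusaDeg)
open Fermat.Agent.S43.LG1.C1.Seam

local notation "Kb" => AlgebraicClosure ℚ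

attribute [local instance] Fermat.Agent.S43.LG1.C1.Seam.algShortcut1

variable {r : ℕ} [NeZero r] {N : ℕ} [NeZero N] {A : ValuationSubring Kb}
variable (hr : r.Prime) (hrN : ¬ r ∣ N) (hA : A.LiesOverPrime r)

/-- general orthonormal bases for the Gauss datum of `X₁(N)` -/
theorem exists_red_independent_X1 (W : Submodule Kb ↥(F1Bar N)) [FiniteDimensional Kb W] :
    ∃ g : Fin (Module.finrank Kb W) → ↥(gaussDatum1 N A hr hA hrN).O,
      (∀ j, ((g j : ↥(gaussDatum1 N A hr hA hrN).O) : ↥(F1Bar N)) ∈ W) ∧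
      LinearIndependent (ResidueField ↥A) fun j => (gaussDatum1 N A hr hA hrN).red (g j) := by
  obtain ⟨n, u, bL, bk, hbL, hbk⟩ :=
    Fermat.Agent.S48.B.Red.Bases1.exists_basis_O_igusa (igusaDegN N) hr hrN hA
  have hx := red_jgen1 hr hrN hA
  refine Fermat.Agent.S37.Deuring.OrthoBasis2.exists_red_independent_of_basis
    (gaussDatum1 N A hr hA hrN) ⟨jgen1 N, jgen1_mem_O1 hr hrN hA⟩ u ?_ ?_ ?_ W
  · rw [hx]
    exact Fermat.Agent.S48.B.Red.Bases1.Core.transcendental_jC N (ResidueField ↥A)
  · have h2 : (fun i => (gaussDatum1 N A hr hA hrN).red (u i)) = ⇑bk :=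
      funext fun i => (hbk i).symm
    rw [h2]
    exact Fermat.Agent.S48.B.Red.Bases1.linearIndependent_adjoin_congr hx.symm _
      bk.linearIndependent
  · have h2 : (fun i => ((u i : ↥(gaussDatum1 N A hr hA hrN).O) : ↥(F1Bar N))) = ⇑bL :=
      funext fun i => (hbL i).symm
    rw [h2]
    exact bL.span_eq.ge

variable [HasPrincipalDivisors Kb ↥(F1Bar N)]
  [HasPrincipalDivisors (ResidueField ↥A) ↥(F1C N (ResidueField ↥A))]
  [Infinite (ResidueField ↥A)]

/-- **`OBGen` for Deuring's reduction datum of `X₁(N)`.** -/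
theorem obGen_redDatum1 {gL gk : ℕ} (H : Hyp (gaussDatum1 N A hr hA hrN) gL gk) :
    OBGen (redDatum H) := by
  intro W _
  exact exists_red_independent_X1 hr hrN hA W

end Fermat.Agent.S43.LG1.C1.NodeTransferX1
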