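import Mathlib
import Fermat.Agent.S34.PcgSwap
import Fermat.Agent.S43.LG1.C1.PcgCuspTw
import Fermat.Agent.S43.LG1.C1.Generic.SwapX1

/-!
# PROJECT R (S43), gate (G), cut C1 = S34': the twin of `S34/PcgSwap` for `W ≠ W⁻¹`

Setting of `C1/Generic/SwapX1` (helper9): `a b : FM →ₐ[L] F` two integral embeddings (`α`, `β`),
`w : F ≃ₐ[L] F` with `w ∘ b = a` and `w ∘ a = b ∘ δ`, `δ` an automorphism of `FM` (a diamond) whose
action on places reduces to `d̄` (inverse `d̄'`), `R₁` a `SmoothRed` whose partial specialisation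
map is `rOne r (restrAlong a) (restrAlong b) Fr good`, `R₂ := smoothRedComap R₁ w`.  With
`sp1 P = r (P ∘ a)`, `sp2 P = r (P ∘ b)` and `Fr' = d̄' ∘ Fr`:

* `r2_sp2`, `r2_sp1` : the two relations between `R₂.r` and `sp1`, `sp2` (`r1_sp1`, `r1_sp2` are
  main's `S34/PcgSwap.r1_sp1`, `r1_sp2`, which do not involve `w`);
* `pc2_of_swap` : pole control on the second component follows from pole control on the first
  one (for functions of `O₁ ∩ O₂`), by transport along `w`; main's `hww : w (w x) = x` is replaced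
  by `hO : w (w x) ∈ O₁` for `x ∈ O₁` (`w ∘ w` is a diamond automorphism of `F`);
* `not_good_of_fixed2` : the nodes are not generic;
* `hyp_of_swap2` : the record `PcgCuspTw.Hyp2 R₁ R₂ Fr Fr' sp1 sp2 cuspL N` for an ABSTRACT `Fr'`
  with the closed form of `R₂.r` as a hypothesis;
* `hyp_of_swap_delta` : the same with `Fr' = d̄' ∘ Fr`, closed form discharged by
  `SwapX1.smoothRedComap_r_eq_some_iff_delta`.
-/

set_option autoImplicit false

noncomputable section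

namespace Fermat.Agent.S43.LG1.C1.PcgSwapTw

open AlgebraicCurve Fermat.Agent.S18.CoreDefs Fermat.Agent.S34.NodalDefs
  Fermat.Agent.S34.Generic.Compat Fermat.Agent.S34.Generic.RestrAlong
  Fermat.Agent.S34.Generic.SmoothRedOfGeneric Fermat.Agent.S34.Generic.SwapX0
  Fermat.Agent.S43.LG1.C1.Generic.SwapX1 Fermat.Agent.S43.LG1.C1.PcgCuspTw
open scoped Pointwise

variable {L : Type*} [Field L] {FM : Type*} [Field FM] [Algebra L FM]
variable {F : Type*} [Field F] [Algebra L F]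
variable {k : Type*} [Field k] {Fk : Type*} [Field Fk] [Algebra k Fk]
variable {A : ValuationSubring L} {π : A →+* k}

variable (r : Place L FM → Place k Fk) (a b : FM →ₐ[L] F) (ha : a.toRingHom.IsIntegral)
  (hb : b.toRingHom.IsIntegral) (w : F ≃ₐ[L] F)

/-- **Pole control on the second component from pole control on the first one**, by transport
along `w` (`w ∘ b = a`; `w ∘ w` preserves `O₁`). -/
theorem pc2_of_swap (hwb : ∀ g : FM, w (b g) = a g) (R₁ : SmoothRed A π F Fk)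
    (hO : ∀ x : F, x ∈ R₁.O → w (w x) ∈ R₁.O)
    (pc1 : ∀ (Q : Place k Fk) (h1 : R₁.O) (h2 : (smoothRedComap R₁ w).O),
      ((h1 : R₁.O) : F) = ((h2 : (smoothRedComap R₁ w).O) : F) →
      (∀ P : Place L F, P.ord ((h1 : R₁.O) : F) < 0 → r (resAlong a ha P) ≠ Q) →
      0 ≤ Q.ord (R₁.red h1))
    (Q : Place k Fk) (h1 : R₁.O) (h2 : (smoothRedComap R₁ w).O)
    (h12 : ((h1 : R₁.O) : F) = ((h2 : (smoothRedComap R₁ w).O) : F))
    (hp : ∀ P : Place L F, P.ord ((h1 : R₁.O) : F) < 0 → r (resAlong b hb P) ≠ Q) :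
    0 ≤ Q.ord ((smoothRedComap R₁ w).red h2) := by
  -- `h' = w h` lies in `O₁ ∩ O₂`
  have hm1 : w ((h2 : (smoothRedComap R₁ w).O) : F) ∈ R₁.O := h2.2
  have hm2 : w ((h2 : (smoothRedComap R₁ w).O) : F) ∈ (smoothRedComap R₁ w).O := by
    show w (w ((h2 : (smoothRedComap R₁ w).O) : F)) ∈ R₁.O
    rw [← h12]
    exact hO _ h1.2
  have key := pc1 Q ⟨_, hm1⟩ ⟨_, hm2⟩ rfl ?_
  · exact key
  · intro P hP
    change P.ord (w ((h2 : (smoothRedComap R₁ w).O) : F)) < 0 at hP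
    rw [Fermat.Agent.S34.PcgSwap.ord_apply, ← h12] at hP
    have h3 := hp _ hP
    have h4 := resAlong_smul a b ha hb w hwb ((SemilinearAut.ofAlgAut w)⁻¹ • P)
    rw [smul_inv_smul] at h4
    rw [h4]
    exact h3

/-- places fixed by `Fr ∘ Fr'` are not generic, and neither are their `Fr'`-translates -/
theorem not_good_of_fixed2 (Fr Fr' : Place k Fk → Place k Fk) (good : Set (Place k Fk))
    (hFr2 : ∀ Q ∈ good, Fr' (Fr Q) ≠ Q) (hgood' : ∀ Q ∈ good, Fr' Q ∈ good)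
    (N : Finset (Place k Fk)) (hN : ∀ c ∈ N, Fr (Fr' c) = c) :
    (∀ c ∈ N, Fr' c ∉ good) ∧ ∀ c ∈ N, c ∉ good := by
  have h1 : ∀ c ∈ N, Fr' c ∉ good := fun c hc h => hFr2 _ h (by rw [hN c hc])
  exact ⟨h1, fun c hc h => h1 c hc (hgood' c h)⟩

/-- **The record `PcgCuspTw.Hyp2` for `(R₁, smoothRedComap R₁ w)`**, abstract `Fr'`. -/
theorem hyp_of_swap2 (hwb : ∀ g : FM, w (b g) = a g)
    (Fr Fr' : Place k Fk → Place k Fk) (good : Set (Place k Fk)) (R₁ : SmoothRed A π F Fk)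
    (hO : ∀ x : F, x ∈ R₁.O → w (w x) ∈ R₁.O)
    (hr : R₁.r = rOne r (restrAlong a ha) (restrAlong b hb) Fr good)
    (hr2 : ∀ (P : Place L F) (Q : Place k Fk), (smoothRedComap R₁ w).r P = some Q →
      r (resAlong b hb P) = Q ∧ r (resAlong a ha P) = Fr' Q)
    (hdeg : ∀ Q : Place k Fk, Q.deg = 1)
    (hFr2 : ∀ Q ∈ R₁.good, Fr' (Fr Q) ≠ Q) (hgood' : ∀ Q ∈ R₁.good, Fr' Q ∈ R₁.good)
    (cuspL : Set (Place L F)) (N : Finset (Place k Fk)) (hN : ∀ c ∈ N, Fr (Fr' c) = c)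
    (pc1 : ∀ (Q : Place k Fk) (h1 : R₁.O) (h2 : (smoothRedComap R₁ w).O),
      ((h1 : R₁.O) : F) = ((h2 : (smoothRedComap R₁ w).O) : F) →
      (∀ P : Place L F, P.ord ((h1 : R₁.O) : F) < 0 → r (resAlong a ha P) ≠ Q) →
      0 ≤ Q.ord (R₁.red h1))
    (glue0 : ∀ (h1 : R₁.O) (h2 : (smoothRedComap R₁ w).O),
      ((h1 : R₁.O) : F) = ((h2 : (smoothRedComap R₁ w).O) : F) →
      (∀ P : Place L F, P.ord ((h1 : R₁.O) : F) < 0 → P ∈ cuspL) →
      ∀ c ∈ N, ∃ γ : k, HasValue (Fr' c) (R₁.red h1) γ ∧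
        HasValue c ((smoothRedComap R₁ w).red h2) γ)
    (mult : ∀ (h1 : R₁.O) (h2 : (smoothRedComap R₁ w).O),
      ((h1 : R₁.O) : F) = ((h2 : (smoothRedComap R₁ w).O) : F) → ∀ c ∈ N,
      (∀ P : Place L F, P.ord ((h1 : R₁.O) : F) < 0 → r (resAlong a ha P) ≠ Fr' c) →
      ∃ (y1 : R₁.O) (y2 : (smoothRedComap R₁ w).O),
        ((y1 : R₁.O) : F) = ((y2 : (smoothRedComap R₁ w).O) : F) ∧
        (∀ P : Place L F, P.ord ((y1 : R₁.O) : F) < 0 → P ∈ cuspL) ∧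
        (∀ P : Place L F, P.ord (((y1 * h1 : R₁.O) : R₁.O) : F) < 0 → P ∈ cuspL) ∧
        ∃ γ : k, γ ≠ 0 ∧ HasValue (Fr' c) (R₁.red y1) γ) :
    Hyp2 R₁ (smoothRedComap R₁ w) Fr Fr'
      (fun P => r (resAlong a ha P)) (fun P => r (resAlong b hb P)) cuspL N where
  degk := hdeg
  good_eq := rfl
  r1_sp1 := Fermat.Agent.S34.PcgSwap.r1_sp1 r a b ha hb Fr good R₁ hr
  r1_sp2 := Fermat.Agent.S34.PcgSwap.r1_sp2 r a b ha hb Fr good R₁ hr
  r2_sp2 := fun P Q h => (hr2 P Q h).1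
  r2_sp1 := fun P Q h => (hr2 P Q h).2
  pc1 := pc1
  pc2 := pc2_of_swap r a b ha hb w hwb R₁ hO pc1
  node1_not_good := (not_good_of_fixed2 Fr Fr' R₁.good hFr2 hgood' N hN).1
  node2_not_good := (not_good_of_fixed2 Fr Fr' R₁.good hFr2 hgood' N hN).2
  glue0 := glue0
  mult := mult

section Delta

variable (δ : FM ≃ₐ[L] FM) (hwa : ∀ g : FM, w (a g) = b (δ g)) (hwb : ∀ g : FM, w (b g) = a g)
  (dbar dbar' : Place k Fk → Place k Fk)
  (hrδ : ∀ P0 : Place L FM, r (SemilinearAut.ofAlgAut δ • P0) = dbar (r P0))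
  (hinv : ∀ Q, dbar' (dbar Q) = Q) (hinv' : ∀ Q, dbar (dbar' Q) = Q)
  (Fr : Place k Fk → Place k Fk) (good : Set (Place k Fk)) (R₁ : SmoothRed A π F Fk)
  (hr : R₁.r = rOne r (restrAlong a ha) (restrAlong b hb) Fr good)

include hwa hwb hrδ hinv hinv' hr in
theorem r2_sp2 (P : Place L F) (Q : Place k Fk) (h : (smoothRedComap R₁ w).r P = some Q) :
    r (resAlong b hb P) = Q :=
  ((smoothRedComap_r_eq_some_iff_delta r a b ha hb w δ hwa hwb dbar dbar' hrδ hinv hinv' Fr good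
    R₁ hr P Q).mp h).2.1

include hwa hwb hrδ hinv hinv' hr in
theorem r2_sp1 (P : Place L F) (Q : Place k Fk) (h : (smoothRedComap R₁ w).r P = some Q) :
    r (resAlong a ha P) = dbar' (Fr Q) :=
  ((smoothRedComap_r_eq_some_iff_delta r a b ha hb w δ hwa hwb dbar dbar' hrδ hinv hinv' Fr good
    R₁ hr P Q).mp h).2.2

include hwa hwb hrδ hinv hinv' hr in
/-- **The record `PcgCuspTw.Hyp2` for `(R₁, smoothRedComap R₁ w)`**, `Fr' = d̄' ∘ Fr`. -/
theorem hyp_of_swap_delta (hO : ∀ x : F, x ∈ R₁.O → w (w x) ∈ R₁.O)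
    (hdeg : ∀ Q : Place k Fk, Q.deg = 1)
    (hFr2 : ∀ Q ∈ R₁.good, dbar' (Fr (Fr Q)) ≠ Q)
    (hgood' : ∀ Q ∈ R₁.good, dbar' (Fr Q) ∈ R₁.good)
    (cuspL : Set (Place L F)) (N : Finset (Place k Fk)) (hN : ∀ c ∈ N, Fr (dbar' (Fr c)) = c)
    (pc1 : ∀ (Q : Place k Fk) (h1 : R₁.O) (h2 : (smoothRedComap R₁ w).O),
      ((h1 : R₁.O) : F) = ((h2 : (smoothRedComap R₁ w).O) : F) →
      (∀ P : Place L F, P.ord ((h1 : R₁.O) : F) < 0 → r (resAlong a ha P) ≠ Q) →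
      0 ≤ Q.ord (R₁.red h1))
    (glue0 : ∀ (h1 : R₁.O) (h2 : (smoothRedComap R₁ w).O),
      ((h1 : R₁.O) : F) = ((h2 : (smoothRedComap R₁ w).O) : F) →
      (∀ P : Place L F, P.ord ((h1 : R₁.O) : F) < 0 → P ∈ cuspL) →
      ∀ c ∈ N, ∃ γ : k, HasValue (dbar' (Fr c)) (R₁.red h1) γ ∧
        HasValue c ((smoothRedComap R₁ w).red h2) γ)
    (mult : ∀ (h1 : R₁.O) (h2 : (smoothRedComap R₁ w).O),
      ((h1 : R₁.O) : F) = ((h2 : (smoothRedComap R₁ w).O) : F) → ∀ c ∈ N,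
      (∀ P : Place L F, P.ord ((h1 : R₁.O) : F) < 0 → r (resAlong a ha P) ≠ dbar' (Fr c)) →
      ∃ (y1 : R₁.O) (y2 : (smoothRedComap R₁ w).O),
        ((y1 : R₁.O) : F) = ((y2 : (smoothRedComap R₁ w).O) : F) ∧
        (∀ P : Place L F, P.ord ((y1 : R₁.O) : F) < 0 → P ∈ cuspL) ∧
        (∀ P : Place L F, P.ord (((y1 * h1 : R₁.O) : R₁.O) : F) < 0 → P ∈ cuspL) ∧
        ∃ γ : k, γ ≠ 0 ∧ HasValue (dbar' (Fr c)) (R₁.red y1) γ) :
    Hyp2 R₁ (smoothRedComap R₁ w) Fr (fun Q => dbar' (Fr Q))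
      (fun P => r (resAlong a ha P)) (fun P => r (resAlong b hb P)) cuspL N :=
  hyp_of_swap2 r a b ha hb w hwb Fr (fun Q => dbar' (Fr Q)) good R₁ hO hr
    (fun P Q h =>
      ⟨r2_sp2 r a b ha hb w δ hwa hwb dbar dbar' hrδ hinv hinv' Fr good R₁ hr P Q h,
        r2_sp1 r a b ha hb w δ hwa hwb dbar dbar' hrδ hinv hinv' Fr good R₁ hr P Q h⟩)
    hdeg hFr2 hgood' cuspL N hN pc1 glue0 mult

end Delta

end Fermat.Agent.S43.LG1.C1.PcgSwapTw
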