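import Mathlib
import Fermat.Agent.S34.PcgOfChart
import Fermat.Agent.S34.MultCusp
import Fermat.Agent.S34.Generic.HintTwoExt
import Fermat.Agent.S37.Hecke.Integral
import Fermat.Agent.S43.LG1.C1.PcgSwapTw
import Fermat.Agent.S43.LG1.C1.CuspRedX1
import Fermat.Agent.S43.LG1.C1.NodeTransferX1
import Fermat.Agent.S43.LG1.C1.EulerX1
import Fermat.Agent.S43.LG1.C1.TwoGaussX1

/-!
# PROJECT R (S43), gate (G), cut C1 = S34': `PcgCuspTw.Hyp2` at `X₁(N; r)` (twin of `S34/PcgX0`)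

`E'' = ℚ̄(X₁(N; r))` (`F1pBar N r`), `F = ℚ̄(X₁(N))` (`F1Bar N`), `α = alpha1`, `β = beta1` the two
degeneracy maps, `w` an automorphism of `E''` with `w ∘ β = α`, `w ∘ α = β ∘ δ` (`Seam.W1`,
`δ = Seam.delta1`; NOT an involution), `H` Deuring's hypotheses at level `N` (place map
`placeMap H`, reduction datum `redDatum H`), `d̄`, `d̄'` the place maps of the reduced diamond and
its inverse.  For ANY `R₁ : SmoothRed` whose valuation ring is the type-1 extension of the Gauss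
ring of level `N`, whose reduction extends the level-`N` reduction along `α`, and whose partial
specialisation map is `rOne …`, and `R₂ := smoothRedComap R₁ w`:

* `pc1_X1` : pole control on the first component at EVERY place, for functions of `V₁ ∩ V₂`
  (`HintTwoExt.hint_along` + `PcgOfChart.pc_of_monic`);
* `cuspL_iff`, `cuspL_beta_iff`, `D_pos` : the true cusps of `X₁(N; r)`;
* `hyp_X1` : the record `PcgCuspTw.Hyp2 R₁ R₂ Fr (d̄' ∘ Fr) sp1 sp2 cuspL S` for a node set `S` with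
  the properties output by the two-map Euler chart (`C1/Euler/ChartTw.genus_le_of_charts2`).
-/

set_option autoImplicit false
set_option linter.unusedSectionVars false
set_option linter.style.haveILetI false

noncomputable section

namespace Fermat.Agent.S43.LG1.C1.PcgX1

open ModularCurve AlgebraicCurve IsLocalRing
open Fermat.Agent.S48.B.Defs.Model Fermat.Agent.S48.B.B1.Seams
open Fermat.Agent.S48.B.ES.DegreeBeta1
open Fermat.Agent.S48.B.Red.Seams (jC)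
open Fermat.Agent.S18.NonSpecial Fermat.Agent.S37.Deuring.Core
open Fermat.Agent.S34.NodalDefs Fermat.Agent.S34.Generic.Compat
  Fermat.Agent.S34.Generic.RestrAlong Fermat.Agent.S34.Generic.SmoothRedOfGeneric
open Fermat.Agent.S43.LG1.C1.Seam Fermat.Agent.S43.LG1.C1.TwoGaussX1
  Fermat.Agent.S43.LG1.C1.CuspRedX1 Fermat.Agent.S43.LG1.C1.CuspRegularX1
  Fermat.Agent.S43.LG1.C1.EulerX1

local notation "Kb" => AlgebraicClosure ℚ

set_option synthInstance.maxHeartbeats 400000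

attribute [local instance] Fermat.Agent.S43.LG1.C1.Seam.algShortcut1

variable {r : ℕ} [hrF : Fact r.Prime] {N : ℕ} [NeZero N] {A : ValuationSubring Kb}
variable (hr : r.Prime) (hA : A.LiesOverPrime r) (hrN : ¬ r ∣ N) [NeZero r]

/-! ### the true cusps of `X₁(N; r)` -/

section Cusps

variable (hα : (alpha1 N r Kb).toRingHom.IsIntegral)
  (hβ : (beta1 N r Kb).toRingHom.IsIntegral)

/-- a place of `E''` lies over a cusp of `X₁(N)` along `α` iff it is a pole of `j` -/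
theorem cuspL_iff (P : Place Kb ↥(F1pBar N r)) :
    cuspDiv1 N (resAlong (alpha1 N r Kb) hα P) ≠ 0 ↔ P.ord (jE1 N r) < 0 := by
  rw [cuspDiv1_ne_zero_iff]
  have h := (restrAlong (alpha1 N r Kb) hα).ord_map P (jgen1 N)
  have he := (restrAlong (alpha1 N r Kb) hα).e_pos P
  rw [restrAlong_res] at h
  change P.ord (jE1 N r) = _ at h
  rw [h]
  have he' : (0 : ℤ) < ((restrAlong (alpha1 N r Kb) hα).e P : ℤ) := by exact_mod_cast he
  constructor
  · intro h1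
    exact mul_neg_of_pos_of_neg he' h1
  · intro h1
    by_contra h2
    push Not at h2
    have := mul_nonneg he'.le h2
    omega

/-- a place of `E''` lies over a cusp of `X₁(N)` along `β` iff it is a pole of `j_r` -/
theorem cuspL_beta_iff (P : Place Kb ↥(F1pBar N r)) :
    cuspDiv1 N (resAlong (beta1 N r Kb) hβ P) ≠ 0 ↔ P.ord (jr N r) < 0 := by
  rw [cuspDiv1_ne_zero_iff]
  have h := (restrAlong (beta1 N r Kb) hβ).ord_map P (jgen1 N)
  have he := (restrAlong (beta1 N r Kb) hβ).e_pos P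
  rw [restrAlong_res] at h
  change P.ord (jr N r) = _ at h
  rw [h]
  have he' : (0 : ℤ) < ((restrAlong (beta1 N r Kb) hβ).e P : ℤ) := by exact_mod_cast he
  constructor
  · intro h1
    exact mul_neg_of_pos_of_neg he' h1
  · intro h1
    by_contra h2
    push Not at h2
    have := mul_nonneg he'.le h2
    omega

/-- `D = (j j_r)_∞` is positive at the poles of `j` -/
theorem D_pos (P : Place Kb ↥(F1pBar N r)) (hP : P.ord (jE1 N r) < 0) : 0 < D hr hrN P := by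
  have h1 : Dj hr hrN P = max 0 (-P.ord (jE1 N r)) := isPoleDiv_jE1 hr hrN P
  have h2 : Djr hr hrN P = max 0 (-P.ord (jr N r)) := isPoleDiv_jr hr hrN P
  rw [D, Finsupp.add_apply, h1, h2]
  have h3 : (0 : ℤ) ≤ max 0 (-P.ord (jr N r)) := le_max_left _ _
  have h4 : (0 : ℤ) < max 0 (-P.ord (jE1 N r)) := lt_max_of_lt_right (by omega)
  omega

end Cusps

/-! ### pole control on the first component -/

section PoleControl

attribute [local instance] algFE1

variable [HasPrincipalDivisors Kb ↥(F1Bar N)]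
  [HasPrincipalDivisors (ResidueField ↥A) ↥(F1C N (ResidueField ↥A))]
  [Infinite (ResidueField ↥A)]
variable {gL gk : ℕ} (H : Hyp (gaussDatum1 N A hr hA hrN) gL gk)
  (hα : (alpha1 N r Kb).toRingHom.IsIntegral)

include hr hrN in
/-- `E''` is finite over `α F` -/
theorem finiteAlong_alpha1 : FiniteAlong Kb (alpha1 N r Kb) :=
  Fermat.Agent.S37.Hecke.Integral.finiteAlong_of_isFF (alpha1 N r Kb)
    (isFF_jgen1 N).transcendental (isFF_jE1 hr hrN)

/-- **Pole control at every place of the first component**, for functions of `V₁ ∩ V₂`. -/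
theorem pc1_X1 {β : ↥(F1Bar N) →+* ↥(F1pBar N r)}
    (G : RedOne (redDatum H) (alpha1 N r Kb : _ →+* _) β)
    (h₁ : (setupX1 hr hA hrN).IsExt (setupX1 hr hA hrN).G₁ G.O)
    {V₂ : ValuationSubring ↥(F1pBar N r)}
    (h₂ : (setupX1 hr hA hrN).IsExt (setupX1 hr hA hrN).G₂ V₂)
    (Q : Place (ResidueField ↥A) ↥(F1C N (ResidueField ↥A)))
    (h : G.O) (hV₂ : ((h : G.O) : ↥(F1pBar N r)) ∈ V₂)
    (hh : ∀ P : Place Kb ↥(F1pBar N r),
      P.ord ((h : G.O) : ↥(F1pBar N r)) < 0 →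
      placeMap H (resAlong (alpha1 N r Kb) hα P) ≠ Q) :
    0 ≤ Q.ord (G.red h) := by
  haveI : CharZero ↥(F1Bar N) :=
    charZero_of_injective_algebraMap (algebraMap Kb ↥(F1Bar N)).injective
  haveI : Module.Finite ↥(F1Bar N) ↥(F1pBar N r) := finite_FE1 hr hrN
  have hsep : Algebra.IsSeparable ↥(F1Bar N) ↥(F1pBar N r) := inferInstance
  refine Fermat.Agent.S34.PcgOfChart.pc_of_monic G
    (fun P => placeMap H (resAlong (alpha1 N r Kb) hα P)) Q h (fun hreg => ?_) hh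
  exact Fermat.Agent.S34.Generic.HintTwoExt.hint_along (alpha1 N r Kb) hα
    (finiteAlong_alpha1 hr hrN) hsep (redDatum H)
    (setupX1 hr hA hrN) h₁ h₂ Q _ h.2 hV₂ hreg

end PoleControl

/-! ### the record -/

section Main

attribute [local instance] algFE1

open Fermat.Agent.S34.Euler.Places Fermat.Agent.S34.Euler.Chart

variable [HasPrincipalDivisors Kb ↥(F1Bar N)]
  [HasPrincipalDivisors Kb ↥(F1pBar N r)]
  [HasPrincipalDivisors (ResidueField ↥A) ↥(F1C N (ResidueField ↥A))]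
  [Infinite (ResidueField ↥A)]
variable {gL gk : ℕ} (H : Hyp (gaussDatum1 N A hr hA hrN) gL gk)
  (hα : (alpha1 N r Kb).toRingHom.IsIntegral)
  (hβ : (beta1 N r Kb).toRingHom.IsIntegral)
  (w : ↥(F1pBar N r) ≃ₐ[Kb] ↥(F1pBar N r)) (δ : ↥(F1Bar N) ≃ₐ[Kb] ↥(F1Bar N))

/-- **`PcgCuspTw.Hyp2` at `X₁(N; r)`** for the pair `(R₁, smoothRedComap R₁ w)` and a node set `S`
with the properties output by the two-map Euler chart; `Fr' = d̄' ∘ Fr`. -/
theorem hyp_X1
    (hwa : ∀ g : ↥(F1Bar N), w (alpha1 N r Kb g) = beta1 N r Kb (δ g))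
    (hwb : ∀ g : ↥(F1Bar N), w (beta1 N r Kb g) = alpha1 N r Kb g)
    (hδO : ∀ g : (redDatum H).O, δ ((g : (redDatum H).O) : ↥(F1Bar N)) ∈ (redDatum H).O)
    (dbar dbar' : Place (ResidueField ↥A) ↥(F1C N (ResidueField ↥A)) →
      Place (ResidueField ↥A) ↥(F1C N (ResidueField ↥A)))
    (hrδ : ∀ P0 : Place Kb ↥(F1Bar N),
      placeMap H (SemilinearAut.ofAlgAut δ • P0) = dbar (placeMap H P0))
    (hinv : ∀ Q, dbar' (dbar Q) = Q) (hinv' : ∀ Q, dbar (dbar' Q) = Q)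
    (Fr : Place (ResidueField ↥A) ↥(F1C N (ResidueField ↥A)) →
      Place (ResidueField ↥A) ↥(F1C N (ResidueField ↥A)))
    (hFr'P0 : ∀ b : Place (ResidueField ↥A) ↥(F1C N (ResidueField ↥A)),
      (dbar' (Fr b)).ord (jC N (ResidueField ↥A)) < 0 → b.ord (jC N (ResidueField ↥A)) < 0)
    (good : Set (Place (ResidueField ↥A) ↥(F1C N (ResidueField ↥A))))
    (R₁ : SmoothRed A (residue ↥A) ↥(F1pBar N r) ↥(F1C N (ResidueField ↥A)))
    (hR₁ : R₁.r = rOne (placeMap H) (restrAlong (alpha1 N r Kb) hα)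
      (restrAlong (beta1 N r Kb) hβ) Fr good)
    (hO : ∀ x : ↥(F1pBar N r), x ∈ R₁.O → w (w x) ∈ R₁.O)
    (hFr2 : ∀ Q ∈ R₁.good, dbar' (Fr (Fr Q)) ≠ Q)
    (hgood' : ∀ Q ∈ R₁.good, dbar' (Fr Q) ∈ R₁.good)
    (h₁ : (setupX1 hr hA hrN).IsExt (setupX1 hr hA hrN).G₁ R₁.O)
    (h₂ : (setupX1 hr hA hrN).IsExt (setupX1 hr hA hrN).G₂
      (R₁.O.comap (w : ↥(F1pBar N r) →+* ↥(F1pBar N r))))
    (ha1 : ∀ g : (redDatum H).O, (alpha1 N r Kb : _ →+* _)
      ((g : (redDatum H).O) : ↥(F1Bar N)) ∈ R₁.O)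
    (hred1 : ∀ g : (redDatum H).O, R₁.red ⟨(alpha1 N r Kb : _ →+* _)
      ((g : (redDatum H).O) : ↥(F1Bar N)), ha1 g⟩ = (redDatum H).red g)
    (hb1 : ∀ g : (redDatum H).O, (beta1 N r Kb : _ →+* _)
      ((g : (redDatum H).O) : ↥(F1Bar N)) ∈ R₁.O)
    {g0 : ℕ} (HLM : RiemannHyp Kb ↥(F1Bar N) g0)
    (HK : RiemannHyp (ResidueField ↥A) ↥(F1C N (ResidueField ↥A)) g0)
    (G₁ G₂ : GaussDatum A (residue ↥A) ↥(F1pBar N r) ↥(F1C N (ResidueField ↥A)))
    (hO1 : ∀ f : ↥(F1pBar N r), f ∈ R₁.O → f ∈ G₁.O)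
    (hO2 : ∀ f : ↥(F1pBar N r), f ∈ (smoothRedComap R₁ w).O → f ∈ G₂.O)
    (hrd1 : ∀ (f : ↥(F1pBar N r)) (h : f ∈ R₁.O) (h' : f ∈ G₁.O),
      R₁.red ⟨f, h⟩ = G₁.red ⟨f, h'⟩)
    (hrd2 : ∀ (f : ↥(F1pBar N r)) (h : f ∈ (smoothRedComap R₁ w).O)
      (h' : f ∈ G₂.O), (smoothRedComap R₁ w).red ⟨f, h⟩ = G₂.red ⟨f, h'⟩)
    (S : Finset (Place (ResidueField ↥A) ↥(F1C N (ResidueField ↥A))))
    (hS : ∀ b ∈ S, Fr (dbar' (Fr b)) = b ∧
      b ∉ {Q : Place (ResidueField ↥A) ↥(F1C N (ResidueField ↥A)) |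
        Q.ord (jC N (ResidueField ↥A)) < 0})
    (hbS : ∀ h₁ h₂ : ↥(F1C N (ResidueField ↥A)),
      h₁ ∈ regOff {Q : Place (ResidueField ↥A) ↥(F1C N (ResidueField ↥A)) |
        Q.ord (jC N (ResidueField ↥A)) < 0} →
      h₂ ∈ regOff {Q : Place (ResidueField ↥A) ↥(F1C N (ResidueField ↥A)) |
        Q.ord (jC N (ResidueField ↥A)) < 0} →
      ((h₁, h₂) ∈ Rbar0 G₁ G₂ (isPoleDiv_xE hr hrN).nonneg ↔
        ∀ b ∈ S, ∃ c : ResidueField ↥A,
          Fermat.Agent.S34.Euler.Value.HasValue (dbar' (Fr b)) h₁ c ∧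
            Fermat.Agent.S34.Euler.Value.HasValue b h₂ c)) :
    Fermat.Agent.S43.LG1.C1.PcgCuspTw.Hyp2 R₁ (smoothRedComap R₁ w) Fr (fun Q => dbar' (Fr Q))
      (fun P => placeMap H (resAlong (alpha1 N r Kb) hα P))
      (fun P => placeMap H (resAlong (beta1 N r Kb) hβ P))
      {P | cuspDiv1 N (resAlong (alpha1 N r Kb) hα P) ≠ 0} S := by
  -- pole control on the first component
  set G₀ : RedOne (redDatum H) (alpha1 N r Kb : _ →+* _) (beta1 N r Kb : _ →+* _) :=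
    redOneOfBranch R₁.toBranch ha1 hred1 hb1 with hG₀
  have pc1 : ∀ (Q : Place (ResidueField ↥A) ↥(F1C N (ResidueField ↥A)))
      (h1 : R₁.O) (h2 : (smoothRedComap R₁ w).O),
      ((h1 : R₁.O) : ↥(F1pBar N r)) =
        ((h2 : (smoothRedComap R₁ w).O) : ↥(F1pBar N r)) →
      (∀ P : Place Kb ↥(F1pBar N r),
        P.ord ((h1 : R₁.O) : ↥(F1pBar N r)) < 0 →
        placeMap H (resAlong (alpha1 N r Kb) hα P) ≠ Q) → 0 ≤ Q.ord (R₁.red h1) := by
    intro Q h1 h2 h12 hh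
    have hV₂ : ((h1 : R₁.O) : ↥(F1pBar N r)) ∈ R₁.O.comap
        (w : ↥(F1pBar N r) →+* ↥(F1pBar N r)) := by
      rw [h12]
      exact h2.2
    exact pc1_X1 hr hA hrN H hα G₀ h₁ h₂ Q h1 hV₂ hh
  have pc2 := Fermat.Agent.S43.LG1.C1.PcgSwapTw.pc2_of_swap (placeMap H) (alpha1 N r Kb)
    (beta1 N r Kb) hα hβ w hwb R₁ hO pc1
  -- the cusps
  have hsp1 : ∀ P : Place Kb ↥(F1pBar N r),
      P ∈ {P | cuspDiv1 N (resAlong (alpha1 N r Kb) hα P) ≠ 0} →
      placeMap H (resAlong (alpha1 N r Kb) hα P) ∈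
        {Q : Place (ResidueField ↥A) ↥(F1C N (ResidueField ↥A)) |
          Q.ord (jC N (ResidueField ↥A)) < 0} :=
    fun P hP => placeMap_mem_cusp1 (igusaDegN N) hr hrN hA H _ hP
  have hsp2 : ∀ P : Place Kb ↥(F1pBar N r),
      P ∈ {P | cuspDiv1 N (resAlong (alpha1 N r Kb) hα P) ≠ 0} →
      placeMap H (resAlong (beta1 N r Kb) hβ P) ∈
        {Q : Place (ResidueField ↥A) ↥(F1C N (ResidueField ↥A)) |
          Q.ord (jC N (ResidueField ↥A)) < 0} := by
    intro P hP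
    refine placeMap_mem_cusp1 (igusaDegN N) hr hrN hA H _ ?_
    rw [cuspL_beta_iff hβ, ord_jr_neg_iff hr hrN]
    exact (cuspL_iff hα P).mp hP
  have hDpos : ∀ P : Place Kb ↥(F1pBar N r),
      P ∈ {P | cuspDiv1 N (resAlong (alpha1 N r Kb) hα P) ≠ 0} → 0 < D hr hrN P :=
    fun P hP => D_pos hr hrN P ((cuspL_iff hα P).mp hP)
  -- the chart-0 gluing
  have glue0 := Fermat.Agent.S34.PcgOfChart.glue0_of_chart G₁ G₂ R₁ (smoothRedComap R₁ w) hO1 hO2
    hrd1 hrd2 (isPoleDiv_xE hr hrN).nonneg (fun Q => dbar' (Fr Q))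
    (fun P => placeMap H (resAlong (alpha1 N r Kb) hα P))
    (fun P => placeMap H (resAlong (beta1 N r Kb) hβ P))
    {Q : Place (ResidueField ↥A) ↥(F1C N (ResidueField ↥A)) |
      Q.ord (jC N (ResidueField ↥A)) < 0}
    {P | cuspDiv1 N (resAlong (alpha1 N r Kb) hα P) ≠ 0} hsp1 hsp2 hDpos pc1 pc2 S
    (fun x₁ x₂ r1 r2 => (hbS x₁ x₂ r1 r2).mp)
  -- the multiplier
  have ha2 : ∀ g : (redDatum H).O,
      (alpha1 N r Kb : _ →+* _) ((g : (redDatum H).O) : ↥(F1Bar N)) ∈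
        (smoothRedComap R₁ w).O := by
    intro g
    show w (alpha1 N r Kb ((g : (redDatum H).O) : ↥(F1Bar N))) ∈ R₁.O
    rw [hwa]
    exact hb1 ⟨δ ((g : (redDatum H).O) : ↥(F1Bar N)), hδO g⟩
  have hN : ∀ a ∈ S, ∀ PM : Place Kb ↥(F1Bar N), cuspDiv1 N PM ≠ 0 →
      placeMap H PM ≠ dbar' (Fr a) := by
    intro a ha PM hPM heq
    have h1 : placeMap H PM ∈ {Q : Place (ResidueField ↥A) ↥(F1C N (ResidueField ↥A)) |
        Q.ord (jC N (ResidueField ↥A)) < 0} := placeMap_mem_cusp1 (igusaDegN N) hr hrN hA H PM hPM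
    rw [heq] at h1
    exact (hS a ha).2 (hFr'P0 a h1)
  have mult := Fermat.Agent.S34.MultCusp.mult_cusp (redDatum H) IsLocalRing.residue_surjective HLM
    HK (Fermat.Agent.S43.LG1.C1.NodeTransferX1.obGen_redDatum1 hr hrN hA H)
    (restrAlong (alpha1 N r Kb) hα) R₁ (smoothRedComap R₁ w) ha1 hred1 ha2 (cuspDiv1 N)
    degree_cuspDiv1_pos (fun Q => dbar' (Fr Q)) S hN
  exact Fermat.Agent.S43.LG1.C1.PcgSwapTw.hyp_of_swap_delta (placeMap H) (alpha1 N r Kb)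
    (beta1 N r Kb) hα hβ w δ hwa hwb dbar dbar' hrδ hinv hinv' Fr good R₁ hR₁ hO
    HK.deg_one hFr2 hgood' _ S (fun c hc => (hS c hc).1) pc1 glue0 mult

end Main

end Fermat.Agent.S43.LG1.C1.PcgX1
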