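/-
PROJECT R (S43), block G, brick C1 (= S34', the `X₁`-twin of S34's `X₀` instance layer), helper18:
**`W ∘ W` PRESERVES THE TWO GAUSS RINGS OF `E'' = ℚ̄(X₁(N; r))`** — the hypothesis `hO` of helper29's
`PcgSwapTw.pc2_of_swap` / `PcgX1.hyp_X1` (at `X₀(qM)` the Atkin-Lehner automorphism is an
involution and there is nothing to prove; at `X₁(N; r)`, `W ∘ W` is the diamond `⟨r⁻¹⟩` of `E''`:
`W (W (α x)) = α (δ x)`, `W (W (β x)) = β (δ x)`).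

`u := W1Sq = W ∘ W` fixes `j_r = β j` and `α j`, and induces `δ` on `α F`; `δ` preserves the Gauss
ring of `F` (`DiamondRed1.delta1_mem_O1_iff`).  So `V.comap u` is again an extension of type `G₁`
(resp. `G₂`) of the Gauss ring of `F`, and `TwoExt.isExt₁_unique` (resp. `isExt₂_unique`) gives
`V.comap u = V`.

* `W1Sq`, `W1Sq_alpha`, `W1Sq_beta`, `W1Sq_jr`, `W1Sq_alpha_jgen1`;
* `isExt_comap_W1Sq` : `IsExt G V → IsExt G (V.comap u)` for `G = G₁, G₂`;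
* `comap_W1Sq_V1X1`, `comap_W1Sq_V2X1`, `W1_W1_mem_V1X1_iff`, `W1_W1_mem_V2X1_iff`;
* `W1_W1_mem_of_isExt₁` : the literal `hO` for any ring of type `G₁`.
-/
import Fermat.Agent.S43.LG1.C1.Z1X1
import Fermat.Agent.S43.LG1.C1.DiamondRed1
import Fermat.Agent.S43.LG1.C1.GaussPairX1

set_option autoImplicit false
set_option linter.unusedSectionVars false
set_option linter.style.haveILetI false
set_option synthInstance.maxHeartbeats 400000

noncomputable section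

namespace Fermat.Agent.S43.LG1.C1.W1SqX1

open Polynomial ModularCurve AlgebraicCurve IsLocalRing
open Fermat.Agent.S48.B.Defs.Model Fermat.Agent.S48.B.B1.Seams
open Fermat.Agent.S48.B.ES.DegreeBeta1
open Fermat.Agent.S34
open Fermat.Agent.S43.LG1.C1.Seam Fermat.Agent.S43.LG1.C1.TwoGaussX1
open Fermat.Agent.S43.LG1.C1.Z1X1 Fermat.Agent.S43.LG1.C1.DiamondRed1

local notation "Kb" => AlgebraicClosure ℚ

/-- `v x < 1` in terms of membership -/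
theorem valuation_lt_one_iff_inv_not_mem {K : Type*} [Field K] (V : ValuationSubring K) (x : K) :
    V.valuation x < 1 ↔ x = 0 ∨ x⁻¹ ∉ V := by
  by_cases hx : x = 0
  · subst hx
    simp
  · have hv : V.valuation x ≠ 0 := (Valuation.ne_zero_iff _).mpr hx
    rw [← ValuationSubring.valuation_le_one_iff, map_inv₀, inv_le_one₀ (zero_lt_iff.mpr hv),
      not_le]
    exact ⟨fun h => Or.inr h, fun h => h.resolve_left hx⟩

variable {r : ℕ} [hrF : Fact r.Prime] {N : ℕ} [NeZero N] {A : ValuationSubring Kb}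
variable (hr : r.Prime) (hA : A.LiesOverPrime r) (hrN : ¬ r ∣ N) [NeZero r]

attribute [local instance] algFE1
attribute [local instance] algShortcut1

/-- `W ∘ W`, the diamond `⟨r⁻¹⟩` of `E''` -/
def W1Sq : ↥(F1pBar N r) ≃ₐ[Kb] ↥(F1pBar N r) := (W1 N r hr hrN).trans (W1 N r hr hrN)

theorem W1Sq_apply (x : ↥(F1pBar N r)) :
    W1Sq hr hrN x = W1 N r hr hrN (W1 N r hr hrN x) := rfl

theorem W1Sq_alpha (x : ↥(F1Bar N)) :
    W1Sq hr hrN (alpha1 N r Kb x) = alpha1 N r Kb (delta1 N r hr hrN x) :=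
  W1_W1_alpha hr hrN x

theorem W1Sq_beta (x : ↥(F1Bar N)) :
    W1Sq hr hrN (beta1 N r Kb x) = beta1 N r Kb (delta1 N r hr hrN x) :=
  W1_W1_beta hr hrN x

theorem W1Sq_jr : W1Sq hr hrN (jr N r) = jr N r := by
  rw [jr, W1Sq_beta, delta1_jgen1]

theorem W1Sq_alpha_jgen1 :
    W1Sq hr hrN (alpha1 N r Kb (jgen1 N)) = alpha1 N r Kb (jgen1 N) := by
  rw [W1Sq_alpha, delta1_jgen1]

/-- `u` fixes `G₁(j_r) = j_r - (α j)^r` -/
theorem W1Sq_ev_G₁ :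
    W1Sq hr hrN ((setupX1 hr hA hrN).ev (setupX1 hr hA hrN).G₁) =
      (setupX1 hr hA hrN).ev (setupX1 hr hA hrN).G₁ := by
  rw [Fermat.Agent.S43.LG1.C1.GaussPairX1.ev_G₁, map_sub, map_pow, W1Sq_jr, W1Sq_alpha_jgen1]

/-- `u` fixes `G₂(j_r) = j_r^r - α j` -/
theorem W1Sq_ev_G₂ :
    W1Sq hr hrN ((setupX1 hr hA hrN).ev (setupX1 hr hA hrN).G₂) =
      (setupX1 hr hA hrN).ev (setupX1 hr hA hrN).G₂ := by
  rw [Fermat.Agent.S43.LG1.C1.GaussPairX1.ev_G₂, map_sub, map_pow, W1Sq_jr, W1Sq_alpha_jgen1]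

/-- **`V.comap (W ∘ W)` has the type of `V`** -/
theorem isExt_comap_W1Sq {G : Polynomial ↥(gaussDatum1 N A hr hA hrN).O}
    (hG : W1Sq hr hrN ((setupX1 hr hA hrN).ev G) = (setupX1 hr hA hrN).ev G)
    {V : ValuationSubring ↥(F1pBar N r)} (hV : (setupX1 hr hA hrN).IsExt G V) :
    (setupX1 hr hA hrN).IsExt G
      (V.comap ((W1Sq hr hrN : ↥(F1pBar N r) ≃ₐ[Kb] ↥(F1pBar N r)) :
        ↥(F1pBar N r) →+* ↥(F1pBar N r))) := by
  refine ⟨?_, ?_⟩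
  · ext x
    rw [ValuationSubring.mem_comap, ValuationSubring.mem_comap, algebraMap_FE1]
    show W1Sq hr hrN (alpha1 N r Kb x) ∈ V ↔ _
    rw [W1Sq_alpha, ← delta1_mem_O1_iff hr hA hrN x, ← hV.comap, ValuationSubring.mem_comap,
      algebraMap_FE1]
  · rw [valuation_lt_one_iff_inv_not_mem]
    have h := (valuation_lt_one_iff_inv_not_mem V _).mp hV.lt
    rcases h with h | h
    · exact Or.inl h
    · refine Or.inr fun hmem => h ?_
      rw [ValuationSubring.mem_comap] at hmem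
      have h2 : W1Sq hr hrN ((setupX1 hr hA hrN).ev G)⁻¹ = ((setupX1 hr hA hrN).ev G)⁻¹ := by
        rw [map_inv₀, hG]
      have h3 : W1Sq hr hrN ((setupX1 hr hA hrN).ev G)⁻¹ ∈ V := hmem
      rwa [h2] at h3

/-- **`(W ∘ W)⁻¹ V₁ = V₁`** for every ring of type `G₁` -/
theorem comap_W1Sq_of_isExt₁ {V : ValuationSubring ↥(F1pBar N r)}
    (hV : (setupX1 hr hA hrN).IsExt (setupX1 hr hA hrN).G₁ V) :
    V.comap ((W1Sq hr hrN : ↥(F1pBar N r) ≃ₐ[Kb] ↥(F1pBar N r)) :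
      ↥(F1pBar N r) →+* ↥(F1pBar N r)) = V :=
  (setupX1 hr hA hrN).isExt₁_unique (isExt_comap_W1Sq hr hA hrN (W1Sq_ev_G₁ hr hA hrN) hV) hV

/-- **`(W ∘ W)⁻¹ V₂ = V₂`** for every ring of type `G₂` -/
theorem comap_W1Sq_of_isExt₂ {V : ValuationSubring ↥(F1pBar N r)}
    (hV : (setupX1 hr hA hrN).IsExt (setupX1 hr hA hrN).G₂ V) :
    V.comap ((W1Sq hr hrN : ↥(F1pBar N r) ≃ₐ[Kb] ↥(F1pBar N r)) :
      ↥(F1pBar N r) →+* ↥(F1pBar N r)) = V :=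
  (setupX1 hr hA hrN).isExt₂_unique (isExt_comap_W1Sq hr hA hrN (W1Sq_ev_G₂ hr hA hrN) hV) hV

/-- `W (W x) ∈ V ↔ x ∈ V` for a ring of type `G₁` -/
theorem W1_W1_mem_iff_of_isExt₁ {V : ValuationSubring ↥(F1pBar N r)}
    (hV : (setupX1 hr hA hrN).IsExt (setupX1 hr hA hrN).G₁ V) (x : ↥(F1pBar N r)) :
    W1 N r hr hrN (W1 N r hr hrN x) ∈ V ↔ x ∈ V := by
  conv_rhs => rw [← comap_W1Sq_of_isExt₁ hr hA hrN hV]
  rfl

/-- `W (W x) ∈ V ↔ x ∈ V` for a ring of type `G₂` -/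
theorem W1_W1_mem_iff_of_isExt₂ {V : ValuationSubring ↥(F1pBar N r)}
    (hV : (setupX1 hr hA hrN).IsExt (setupX1 hr hA hrN).G₂ V) (x : ↥(F1pBar N r)) :
    W1 N r hr hrN (W1 N r hr hrN x) ∈ V ↔ x ∈ V := by
  conv_rhs => rw [← comap_W1Sq_of_isExt₂ hr hA hrN hV]
  rfl

/-- **the literal `hO` of `PcgSwapTw.pc2_of_swap` / `PcgX1.hyp_X1`** -/
theorem W1_W1_mem_of_isExt₁ {V : ValuationSubring ↥(F1pBar N r)}
    (hV : (setupX1 hr hA hrN).IsExt (setupX1 hr hA hrN).G₁ V) :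
    ∀ x : ↥(F1pBar N r), x ∈ V → W1 N r hr hrN (W1 N r hr hrN x) ∈ V :=
  fun x hx => (W1_W1_mem_iff_of_isExt₁ hr hA hrN hV x).mpr hx

theorem W1_W1_mem_V1X1_iff (x : ↥(F1pBar N r)) :
    W1 N r hr hrN (W1 N r hr hrN x) ∈ V1X1 hr hA hrN ↔ x ∈ V1X1 hr hA hrN :=
  W1_W1_mem_iff_of_isExt₁ hr hA hrN (isExt_V1X1 hr hA hrN) x

theorem W1_W1_mem_V2X1_iff (x : ↥(F1pBar N r)) :
    W1 N r hr hrN (W1 N r hr hrN x) ∈ V2X1 hr hA hrN ↔ x ∈ V2X1 hr hA hrN :=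
  W1_W1_mem_iff_of_isExt₂ hr hA hrN (isExt_V2X1 hr hA hrN) x

end Fermat.Agent.S43.LG1.C1.W1SqX1
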