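/-
PROJECT R (S43), block G, brick C1 (= S34', the `X₁`-twin of S34's `X₀` instance layer), helper18:
**THE TWIN OF `S34/CoreZX0OfGeneric`**: THE RECORD `CoreZX1Assembly.Inputs1` AT `X₁(N; r)` FROM
`GenericAt`, hypothesis-free apart from `GenericX1`.

* `goodX1` : the good places (`Generic/GoodKGen.IsGood`);
* `GenericX1 hr hA hrN H` : the ONE remaining analytic input, `Generic.Compat.GenericAt` at every
  good place for the branch `Generic/BranchX1.B1X1` (third argument `Fr2X1⁻¹ Q`);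
* `inputsX1 hgen : Inputs1 hr hA hrN H` (helper16's `BranchX1` + helper7's `GoodKGen` + helper19's
  `FiniteNonGenericX1`);
* `HX1 HM` : Deuring's hypotheses at level `N` from Riemann's theorem on `κ(X₁(N))` alone
  (helper23's `HypX1`);
* `exists_nodesX1_fix`, `exists_nodesX1` : the node record (helper16's
  `EulerClosedX1.exists_nodes_closed` + helper29's `PcgX1.hyp_X1` + `W1SqX1` + helper5's
  `NodalCoreX1.one_le_card_finset_of_nc`), with the facts about the node set which the record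
  forgets: `Fr (Fr' b) = b` and `b` is not a cusp;
* `principalHyp1_of_generic`, `coreZHyp1_of_generic`.
-/
import Fermat.Agent.S43.LG1.C1.CoreZX1Build
import Fermat.Agent.S43.LG1.C1.Generic.BranchX1
import Fermat.Agent.S43.LG1.C1.Generic.GoodKGen
import Fermat.Agent.S43.LG1.C1.EulerClosedX1
import Fermat.Agent.S43.LG1.C1.PcgX1
import Fermat.Agent.S43.LG1.C1.NodalCoreX1
import Fermat.Agent.S43.LG1.C1.W1SqX1

set_option autoImplicit false
set_option linter.unusedSectionVars false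
set_option linter.style.haveILetI false
set_option synthInstance.maxHeartbeats 400000

noncomputable section

namespace Fermat.Agent.S43.LG1.C1.CoreZX1OfGeneric

open ModularCurve AlgebraicCurve IsLocalRing
open Fermat.Agent.S18.NonSpecial Fermat.Agent.S34.NodalDefs
open Fermat.Agent.S37.Deuring.Core
open Fermat.Agent.S34.Generic.Compat Fermat.Agent.S34.Generic.RestrAlong
open Fermat.Agent.S34.Generic.SmoothRedOfGeneric
open Fermat.Agent.S48.B.Defs.Model Fermat.Agent.S48.B.B1.Seams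
open Fermat.Agent.S48.B.ES.DegreeBeta1
open Fermat.Agent.S43.LG1.C1.Seam Fermat.Agent.S43.LG1.C1.Z1X1
open Fermat.Agent.S43.LG1.C1.CoreZX1Datum Fermat.Agent.S43.LG1.C1.CoreZX1Assembly
open Fermat.Agent.S43.LG1.C1.CoreZX1Build Fermat.Agent.S43.LG1.C1.ResidueFrobX1
open Fermat.Agent.S43.LG1.C1.Generic.BranchX1 Fermat.Agent.S43.LG1.C1.Generic.GoodKGen

local notation "Kb" => AlgebraicClosure ℚ

attribute [local instance] algShortcut1

/-- shortcut instances (all propositions) -/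
local instance instPDBar1 (N : ℕ) [NeZero N] : HasPrincipalDivisors Kb ↥(F1Bar N) :=
  Fermat.Agent.S48.B.Inj.Basics.hasPrincipalDivisors_L
    (Fermat.Agent.S43.LG1.C1.LevelMSurjX1.isFF_jgen1 N)

local instance instACk1 (A : ValuationSubring Kb) : IsAlgClosed (ResidueField ↥A) :=
  Fermat.Agent.S18.ResidueBasics.isAlgClosed_residueField A

variable {r : ℕ} [hrF : Fact r.Prime] {N : ℕ} [NeZero N] {A : ValuationSubring Kb} [NeZero r]
variable (hr : r.Prime) (hA : A.LiesOverPrime r) (hrN : ¬ r ∣ N)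
variable [HasPrincipalDivisors Kb ↥(F1pBar N r)]
variable [HasPrincipalDivisors (ResidueField ↥A) ↥(F1C N (ResidueField ↥A))]
variable {gL gk : ℕ} (H : Hyp (gaussDatum1 N A hr hA hrN) gL gk)
variable [CharP (ResidueField ↥A) r]

/-- the good places of `κ(A)(X₁(N))` -/
def goodX1 (A : ValuationSubring Kb) (N r : ℕ) [NeZero N] [Fact r.Prime]
    [CharP (ResidueField ↥A) r] :
    Set (Place (ResidueField ↥A) ↥(F1C N (ResidueField ↥A))) :=
  {Q | IsGood (hJ1 N (ResidueField ↥A)) r Q}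

/-- **THE remaining analytic input**: `GenericAt` at every good place. -/
def GenericX1 : Prop :=
  ∀ Q ∈ goodX1 A N r, GenericAt (r := placeMap H) (raX1 hr hrN) (rbX1 hr hrN)
    (redOneOfBranch (R := redDatum H) (B1X1 hr hA hrN) (hα hr hA hrN) (hredα hr hA hrN)
      (hβ hr hA hrN)) Q
    (FrX1 A N r Q) ((Fr2X1 hr hA hrN).symm Q)

variable {hr hA hrN H}

/-- **Record 1 at `X₁(N; r)`.** -/
def inputsX1 (hgen : GenericX1 hr hA hrN H) : Inputs1 hr hA hrN H where
  B₁ := B1X1 hr hA hrN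
  O_eq := B1X1_O hr hA hrN
  α_mem := hα hr hA hrN
  red_α := hredα hr hA hrN
  β_mem := hβ hr hA hrN
  comap_eq := by
    rw [← B1X1_O hr hA hrN, ← comap_W1Hom_eq]
    exact comap_W1Hom hr hA hrN
  good := goodX1 A N r
  generic := hgen
  finite_compl :=
    haveI := finiteDimensional_X1 hA N hrN
    finite_compl_good (hC1 N (ResidueField ↥A)) (hJ1 N (ResidueField ↥A)) r
  Fr_Fr_ne := fun Q hQ =>
    haveI := finiteDimensional_X1 hA N hrN
    Fermat.Agent.S43.LG1.C1.Generic.FiniteNonGenericX1.twisted_ne_of_generic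
      (hC1 N (ResidueField ↥A)) (hJ1 N (ResidueField ↥A)) r
      (Fermat.Agent.S43.LG1.C1.DiamondRed1.dbar1 hr hA hrN) (hdj1 hr hA hrN) Q hQ.1
  Fr_mem_iff := fun Q => isGood_Fr_iff (hC1 N (ResidueField ↥A)) (hJ1 N (ResidueField ↥A)) r Q
  D_mem_iff := fun Q => isGood_Dp_iff (hJ1 N (ResidueField ↥A)) r
    (Fermat.Agent.S43.LG1.C1.DiamondRed1.dbar1 hr hA hrN) (hdj1 hr hA hrN) Q

@[simp] theorem inputsX1_good (hgen : GenericX1 hr hA hrN H) :
    (inputsX1 hgen).good = goodX1 A N r := rfl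

@[simp] theorem inputsX1_B₁ (hgen : GenericX1 hr hA hrN H) :
    (inputsX1 hgen).B₁ = B1X1 hr hA hrN := rfl

variable (hr hA hrN) in
/-- Deuring's hypotheses at level `N`, from Riemann's theorem on `κ(X₁(N))` alone -/
theorem HX1 {gM : ℕ}
    (HM : RiemannHyp (ResidueField ↥A) ↥(F1C N (ResidueField ↥A)) gM) :
    Hyp (gaussDatum1 N A hr hA hrN) gM gM :=
  Fermat.Agent.S43.LG1.C1.HypX1.hyp_of_riemannHyp1 (igusaDegN N) hr hrN hA HM

/-- the cusps are stable under the second map -/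
theorem ord_jC_Fr2X1 (b : Place (ResidueField ↥A) ↥(F1C N (ResidueField ↥A))) :
    (Fr2X1 hr hA hrN b).ord (Fermat.Agent.S48.B.Red.Seams.jC N (ResidueField ↥A)) =
      b.ord (Fermat.Agent.S48.B.Red.Seams.jC N (ResidueField ↥A)) := by
  have h1 := Fermat.Agent.S43.LG1.C1.Generic.FiniteNonGenericX1.ord_Dp_jk
    (hJ1 N (ResidueField ↥A)) (Fermat.Agent.S43.LG1.C1.DiamondRed1.dbar1 hr hA hrN)
    (hdj1 hr hA hrN) (Fr2X1 hr hA hrN b)
  have h2 := Fermat.Agent.S43.LG1.C1.Generic.FiniteNonGenericX1.ord_Fr_jk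
    (hC1 N (ResidueField ↥A)) (hJ1 N (ResidueField ↥A)) r b
  have h3 : Fermat.Agent.S43.LG1.C1.FrobKGen.Dp
      (Fermat.Agent.S43.LG1.C1.DiamondRed1.dbar1 hr hA hrN) (Fr2X1 hr hA hrN b) =
      FrX1 A N r b := by
    rw [Fr2X1_apply]
    exact (DX1 hr hA hrN).apply_symm_apply _
  rw [h3] at h1
  exact h1.symm.trans h2

set_option maxHeartbeats 3200000 in
/-- **Record 2 at `X₁(N; r)`, with the node condition `Fr (Fr' b) = b` and `b` not a cusp.** -/
theorem exists_nodesX1_fix {gM : ℕ}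
    (HM : RiemannHyp (ResidueField ↥A) ↥(F1C N (ResidueField ↥A)) gM)
    (hgen : GenericX1 hr hA hrN (HX1 hr hA hrN HM)) :
    ∃ Y : NodesC1 (inputsX1 hgen), ∀ b ∈ Y.S,
      FrX1 A N r (Fr2X1 hr hA hrN b) = b ∧
        b ∉ Fermat.Agent.S43.LG1.C1.Euler.FrobSideX1.P0 (hJ1 N (ResidueField ↥A)) := by
  haveI : PerfectField (ResidueField ↥A) := inferInstance
  haveI := finiteDimensional_X1 hA N hrN
  obtain ⟨g, HL⟩ : ∃ g : ℕ, RiemannHyp Kb ↥(F1pBar N r) g := by
    obtain ⟨g, gM', HL, -⟩ :=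
      Fermat.Agent.S43.LG1.C1.EulerClosedX1.exists_genera (N := N) hr hrN hA
    exact ⟨g, HL⟩
  obtain ⟨S, hS, hNC, hbS⟩ :=
    Fermat.Agent.S43.LG1.C1.EulerClosedX1.exists_nodes_closed hr hA hrN HL HM
  set H := HX1 hr hA hrN HM with hH
  set X := inputsX1 hgen with hX
  -- the node condition, in the two spellings
  have hS' : ∀ b ∈ S, FrX1 A N r (Fr2X1 hr hA hrN b) = b ∧
      b ∉ Fermat.Agent.S43.LG1.C1.Euler.FrobSideX1.P0 (hJ1 N (ResidueField ↥A)) := by
    intro b hb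
    refine ⟨?_, (hS b hb).2⟩
    rw [Fr2X1_apply, ← FrX1_DX1_symm]
    exact (hS b hb).1
  have hyp := Fermat.Agent.S43.LG1.C1.PcgX1.hyp_X1 hr hA hrN H
    (Fermat.Agent.S43.LG1.C1.Generic.FibX1.isIntegral_alpha1 hr hrN)
    (Fermat.Agent.S43.LG1.C1.Generic.FibX1.isIntegral_beta1 hr hrN)
    (W1 N r hr hrN) (delta1 N r hr hrN)
    (fun g => W1_alpha hr hrN g) (fun g => W1_beta hr hrN g)
    (fun g => Fermat.Agent.S43.LG1.C1.DiamondRed1.delta1_mem_O1 hr hA hrN g.2)
    (DX1 hr hA hrN) (DX1 hr hA hrN).symm (fun P0 => placeMap_delta1 hr hA hrN H P0)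
    (fun Q => (DX1 hr hA hrN).symm_apply_apply Q) (fun Q => (DX1 hr hA hrN).apply_symm_apply Q)
    (FrX1 A N r)
    (fun b hb => by
      have h := ord_jC_Fr2X1 (hr := hr) (hA := hA) (hrN := hrN) b
      rw [Fr2X1_apply] at h
      rw [← h]
      exact hb)
    (goodX1 A N r) (R1 X) (R1_r X)
    (Fermat.Agent.S43.LG1.C1.W1SqX1.W1_W1_mem_of_isExt₁ hr hA hrN (isExt₁ hr hA hrN))
    (fun Q hQ => X.Fr2_Fr_ne Q hQ) (fun Q hQ => (X.Fr2_mem_iff Q).mpr hQ)
    (isExt₁ hr hA hrN)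
    (by
      have h := isExt_comap hr hA hrN
      rw [comap_W1Hom_eq] at h
      exact h)
    X.α_mem X.red_α X.β_mem H.riemannL H.riemannK
    (Fermat.Agent.S43.LG1.C1.EulerClosedX1.G1X1 hr hA hrN)
    (Fermat.Agent.S43.LG1.C1.EulerClosedX1.G2X1 hr hA hrN)
    (fun f h => h) (fun f h => h) (fun f h h' => rfl) (fun f h h' => rfl) S
    (fun b hb => ⟨by
      have h := (hS' b hb).1
      rw [Fr2X1_apply] at h
      exact h, (hS b hb).2⟩)
    hbS
  exact ⟨{ S := S, cuspL := _, hyp := hyp, gE := g, HL := HL, hNC := hNC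
           hcard := Fermat.Agent.S43.LG1.C1.NodalCoreX1.one_le_card_finset_of_nc hr hA hrN HL HM S
             hNC }, hS'⟩

/-- **Record 2 at `X₁(N; r)`**: the nodes. -/
theorem exists_nodesX1 {gM : ℕ}
    (HM : RiemannHyp (ResidueField ↥A) ↥(F1C N (ResidueField ↥A)) gM)
    (hgen : GenericX1 hr hA hrN (HX1 hr hA hrN HM)) :
    Nonempty (NodesC1 (inputsX1 hgen)) := by
  obtain ⟨Y, -⟩ := exists_nodesX1_fix HM hgen
  exact ⟨Y⟩

/-- Riemann's theorem on `κ(A)(X₁(N))` -/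
theorem exists_riemannHyp_k (hA : A.LiesOverPrime r) (hrN : ¬ r ∣ N) :
    ∃ gM : ℕ, RiemannHyp (ResidueField ↥A) ↥(F1C N (ResidueField ↥A)) gM := by
  haveI := finiteDimensional_X1 hA N hrN
  obtain ⟨gM, HM, -⟩ :=
    Fermat.Agent.S48.B.Inj.Basics.exists_genus_k (hJ1 N (ResidueField ↥A))
  exact ⟨gM, HM⟩

/-- **(Core-Z) at `E'' = ℚ̄(X₁(N; r))` in divisor language, from `GenericAt` at the good places.** -/
theorem principalHyp1_of_generic {N r p : ℕ} [NeZero N] [Fact r.Prime] [NeZero r] (hp : p.Prime)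
    (hpr : p ≠ r)
    (hgen : ∀ (A : ValuationSubring Kb) (hr : r.Prime) (hA : A.LiesOverPrime r) (hrN : ¬ r ∣ N),
      haveI := Fermat.Agent.S18.ResidueBasics.charP_residueField A hA
      haveI := hasPrincipalDivisors_F1pBar (N := N) hr hrN
      haveI := hasPrincipalDivisors_F1C (N := N) hr hA hrN
      ∀ (gM : ℕ) (HM : RiemannHyp (ResidueField ↥A) ↥(F1C N (ResidueField ↥A)) gM),
        GenericX1 hr hA hrN (HX1 hr hA hrN HM)) :
    Fermat.Agent.S43.LG1.C1.CoreZX1OfPrincipal.PrincipalHyp1 N r p := by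
  refine principalHyp1_of_inputsC hp hpr fun A hr hA hrN => ?_
  haveI := Fermat.Agent.S18.ResidueBasics.charP_residueField A hA
  haveI := hasPrincipalDivisors_F1pBar (N := N) hr hrN
  haveI := hasPrincipalDivisors_F1C (N := N) hr hA hrN
  obtain ⟨gM, HM⟩ := exists_riemannHyp_k (N := N) hA hrN
  exact ⟨gM, gM, HX1 hr hA hrN HM, inputsX1 (hgen A hr hA hrN gM HM), exists_nodesX1 HM _⟩

/-- **`CoreZHyp1 N r p` from `GenericAt` at the good places.** -/
theorem coreZHyp1_of_generic {N r p : ℕ} [NeZero N] [Fact r.Prime] [NeZero r] (hp : p.Prime)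
    (hpr : p ≠ r)
    (hgen : ∀ (A : ValuationSubring Kb) (hr : r.Prime) (hA : A.LiesOverPrime r) (hrN : ¬ r ∣ N),
      haveI := Fermat.Agent.S18.ResidueBasics.charP_residueField A hA
      haveI := hasPrincipalDivisors_F1pBar (N := N) hr hrN
      haveI := hasPrincipalDivisors_F1C (N := N) hr hA hrN
      ∀ (gM : ℕ) (HM : RiemannHyp (ResidueField ↥A) ↥(F1C N (ResidueField ↥A)) gM),
        GenericX1 hr hA hrN (HX1 hr hA hrN HM)) :
    Fermat.Agent.S43.LG1.C1.CoreZX1OfPrincipal.CoreZHyp1 N r p :=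
  Fermat.Agent.S43.LG1.C1.CoreZX1OfPrincipal.coreZHyp1_of_principalHyp1 hp.ne_zero
    (principalHyp1_of_generic hp hpr hgen)

end Fermat.Agent.S43.LG1.C1.CoreZX1OfGeneric
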