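/-
PROJECT R (S43), block G, brick C1 (= S34', the `X₁`-twin of S34's `X₀` instance layer), helper18:
**THE TWIN OF `S34/CoreZX0Fix`**: the node record of `CoreZX1OfGeneric` TOGETHER WITH the facts
about the node set which the record forgets: the nodes satisfy the twisted node condition
`Fr (Fr' b) = b` (`Fr' = D⁻¹ ∘ Fr`, `D` the reduced diamond on places) and are not cusps.

The statement itself is proved in `CoreZX1OfGeneric.exists_nodesX1_fix` (one proof for the record
and for its supplement); this file re-exports it under the name of the S34 file and adds the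
equivalent spellings of the node condition used by the consumers
(`EulerClosedX1.exists_nodes_closed`, `PcgX1.hyp_X1`, `FrobKGen.twisted_fixed_iff`).
-/
import Fermat.Agent.S43.LG1.C1.CoreZX1OfGeneric

set_option autoImplicit false
set_option linter.unusedSectionVars false
set_option linter.style.haveILetI false
set_option synthInstance.maxHeartbeats 400000

noncomputable section

namespace Fermat.Agent.S43.LG1.C1.CoreZX1Fix

open ModularCurve AlgebraicCurve IsLocalRing
open Fermat.Agent.S18.NonSpecial Fermat.Agent.S34.NodalDefs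
open Fermat.Agent.S37.Deuring.Core
open Fermat.Agent.S48.B.Defs.Model Fermat.Agent.S48.B.B1.Seams
open Fermat.Agent.S48.B.ES.DegreeBeta1
open Fermat.Agent.S43.LG1.C1.Seam Fermat.Agent.S43.LG1.C1.Z1X1
open Fermat.Agent.S43.LG1.C1.CoreZX1Datum Fermat.Agent.S43.LG1.C1.CoreZX1Assembly
open Fermat.Agent.S43.LG1.C1.CoreZX1Build Fermat.Agent.S43.LG1.C1.CoreZX1OfGeneric
open Fermat.Agent.S43.LG1.C1.ResidueFrobX1

local notation "Kb" => AlgebraicClosure ℚ

attribute [local instance] algShortcut1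

/-- shortcut instances (all propositions) -/
local instance instPDBar1 (N : ℕ) [NeZero N] : HasPrincipalDivisors Kb ↥(F1Bar N) :=
  Fermat.Agent.S48.B.Inj.Basics.hasPrincipalDivisors_L
    (Fermat.Agent.S43.LG1.C1.LevelMSurjX1.isFF_jgen1 N)

local instance instACk1 (A : ValuationSubring Kb) : IsAlgClosed (ResidueField ↥A) :=
  Fermat.Agent.S18.ResidueBasics.isAlgClosed_residueField A

variable {r : ℕ} [hrF : Fact r.Prime] {N : ℕ} [NeZero N] {A : ValuationSubring Kb} [NeZero r]
variable {hr : r.Prime} {hA : A.LiesOverPrime r} {hrN : ¬ r ∣ N}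
variable [HasPrincipalDivisors Kb ↥(F1pBar N r)]
variable [HasPrincipalDivisors (ResidueField ↥A) ↥(F1C N (ResidueField ↥A))]
variable [CharP (ResidueField ↥A) r]

/-! ### the spellings of the node condition -/

variable (hr hA hrN) in
/-- `Fr (Fr' b) = b ↔ Fr' (Fr b) = b` -/
theorem node_iff_comm (b : Place (ResidueField ↥A) ↥(F1C N (ResidueField ↥A))) :
    FrX1 A N r (Fr2X1 hr hA hrN b) = b ↔ Fr2X1 hr hA hrN (FrX1 A N r b) = b := by
  rw [Fr2X1_FrX1]

variable (hr hA hrN) in
/-- `Fr (Fr' b) = b ↔ Fr (Fr (D⁻¹ b)) = b` (the spelling of `EulerClosedX1`) -/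
theorem node_iff_symm (b : Place (ResidueField ↥A) ↥(F1C N (ResidueField ↥A))) :
    FrX1 A N r (Fr2X1 hr hA hrN b) = b ↔
      FrX1 A N r (FrX1 A N r ((DX1 hr hA hrN).symm b)) = b := by
  rw [Fr2X1_apply, ← FrX1_DX1_symm]

variable (hr hA hrN) in
/-- `Fr (Fr' b) = b ↔ Fr (Fr b) = D b` -/
theorem node_iff_twisted (b : Place (ResidueField ↥A) ↥(F1C N (ResidueField ↥A))) :
    FrX1 A N r (Fr2X1 hr hA hrN b) = b ↔ FrX1 A N r (FrX1 A N r b) = DX1 hr hA hrN b := by
  rw [node_iff_symm]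
  exact Fermat.Agent.S43.LG1.C1.FrobKGen.twisted_fixed_iff (hC1 N (ResidueField ↥A)) r
    (Fermat.Agent.S43.LG1.C1.DiamondRed1.dbar1 hr hA hrN) (hdpsi1 hr hA hrN) b

/-- a node is not a good place -/
theorem not_good_of_node (b : Place (ResidueField ↥A) ↥(F1C N (ResidueField ↥A)))
    (hb : FrX1 A N r (Fr2X1 hr hA hrN b) = b) : b ∉ goodX1 A N r := by
  intro hgood
  haveI := finiteDimensional_X1 hA N hrN
  exact Fermat.Agent.S43.LG1.C1.Generic.FiniteNonGenericX1.twisted_ne_of_generic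
    (hC1 N (ResidueField ↥A)) (hJ1 N (ResidueField ↥A)) r
    (Fermat.Agent.S43.LG1.C1.DiamondRed1.dbar1 hr hA hrN) (hdj1 hr hA hrN) b hgood.1
    ((node_iff_twisted hr hA hrN b).mp hb)

/-! ### the record with its supplement -/

/-- **Record 2 at `X₁(N; r)`, with the node condition and `b` not a cusp** (the twin of
`S34/CoreZX0Fix.exists_nodesX0_fix`). -/
theorem exists_nodesX1_fix {gM : ℕ}
    (HM : RiemannHyp (ResidueField ↥A) ↥(F1C N (ResidueField ↥A)) gM)
    (hgen : GenericX1 hr hA hrN (HX1 hr hA hrN HM)) :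
    ∃ Y : NodesC1 (inputsX1 hgen), ∀ b ∈ Y.S,
      FrX1 A N r (Fr2X1 hr hA hrN b) = b ∧
        b ∉ Fermat.Agent.S43.LG1.C1.Euler.FrobSideX1.P0 (hJ1 N (ResidueField ↥A)) :=
  Fermat.Agent.S43.LG1.C1.CoreZX1OfGeneric.exists_nodesX1_fix HM hgen

/-- the same with the node condition in the spelling `Fr (Fr b) = D b` -/
theorem exists_nodesX1_twisted {gM : ℕ}
    (HM : RiemannHyp (ResidueField ↥A) ↥(F1C N (ResidueField ↥A)) gM)
    (hgen : GenericX1 hr hA hrN (HX1 hr hA hrN HM)) :
    ∃ Y : NodesC1 (inputsX1 hgen), ∀ b ∈ Y.S,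
      FrX1 A N r (FrX1 A N r b) = DX1 hr hA hrN b ∧
        b ∉ Fermat.Agent.S43.LG1.C1.Euler.FrobSideX1.P0 (hJ1 N (ResidueField ↥A)) := by
  obtain ⟨Y, hY⟩ := exists_nodesX1_fix HM hgen
  exact ⟨Y, fun b hb => ⟨(node_iff_twisted hr hA hrN b).mp (hY b hb).1, (hY b hb).2⟩⟩

end Fermat.Agent.S43.LG1.C1.CoreZX1Fix
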