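/-
PROJECT R (S43), block G, brick C1 (= S34', the `X₁`-twin of S34's `X₀` instance layer), helper18:
**THE TWIN OF `S34/CoreZX0OfLift`**: (Core-Z) AT `E'' = ℚ̄(X₁(N; r))` FROM THE THREE LIFTING
STATEMENTS (Bφ), (Bψ), (Bsep) OF LEVEL `N`.

`LiftX1 hr hA hrN H` : the fields `B_φ`, `B_ψ`, `B_sep` of helper7's `Generic/DichTw.DichHyp2` at
`X₁(N; r)` for the test functions `DichRecordX1.BX1` (Gauss-integral functions of level `N`, regular
on all non-cuspidal discs).

* `genericX1_of_lift : LiftX1 hr hA hrN H → CoreZX1OfGeneric.GenericX1 hr hA hrN H`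
  (helper7's `Generic/GenericX1.generic_X1` + helper19's `Generic/DichRecordX1.dichHyp2_of`);
* `principalHyp1_of_lift`, `coreZHyp1_of_lift`;
* `exists_inputs_of_lift` : the two records with the node condition `Fr (Fr' b) = b` and `b` not a
  cusp (the exit form for the gate).
-/
import Fermat.Agent.S43.LG1.C1.CoreZX1Fix
import Fermat.Agent.S43.LG1.C1.Generic.GenericX1
import Fermat.Agent.S43.LG1.C1.Generic.DichRecordX1

set_option autoImplicit false
set_option linter.unusedSectionVars false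
set_option linter.style.haveILetI false
set_option synthInstance.maxHeartbeats 400000

noncomputable section

namespace Fermat.Agent.S43.LG1.C1.CoreZX1OfLift

open ModularCurve AlgebraicCurve IsLocalRing
open Fermat.Agent.S18.NonSpecial Fermat.Agent.S34.NodalDefs
open Fermat.Agent.S37.Deuring.Core
open Fermat.Agent.S34.Generic.Dich
open Fermat.Agent.S48.B.Defs.Model Fermat.Agent.S48.B.B1.Seams
open Fermat.Agent.S48.B.ES.DegreeBeta1
open Fermat.Agent.S48.B.Red.CoeffAut1
open Fermat.Agent.S43.LG1.C1.Seam Fermat.Agent.S43.LG1.C1.Z1X1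
open Fermat.Agent.S43.LG1.C1.CoreZX1Datum Fermat.Agent.S43.LG1.C1.CoreZX1Assembly
open Fermat.Agent.S43.LG1.C1.CoreZX1Build Fermat.Agent.S43.LG1.C1.CoreZX1OfGeneric
open Fermat.Agent.S43.LG1.C1.ResidueFrobX1
open Fermat.Agent.S43.LG1.C1.Generic.BranchX1
open Fermat.Agent.S43.LG1.C1.Generic.DichRecordX1
open Fermat.Agent.S43.LG1.C1.Generic.CompatX1 (RX1)

local notation "Kb" => AlgebraicClosure ℚ

attribute [local instance] algShortcut1

/-- shortcut instances (all propositions) -/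
local instance instPDBar1 (N : ℕ) [NeZero N] : HasPrincipalDivisors Kb ↥(F1Bar N) :=
  Fermat.Agent.S48.B.Inj.Basics.hasPrincipalDivisors_L
    (Fermat.Agent.S43.LG1.C1.LevelMSurjX1.isFF_jgen1 N)

local instance instACk1 (A : ValuationSubring Kb) : IsAlgClosed (ResidueField ↥A) :=
  Fermat.Agent.S18.ResidueBasics.isAlgClosed_residueField A

variable {r : ℕ} [hrF : Fact r.Prime] {N : ℕ} [NeZero N] {A : ValuationSubring Kb} [NeZero r]
variable (hr : r.Prime) (hA : A.LiesOverPrime r) (hrN : ¬ r ∣ N)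
variable [HasPrincipalDivisors Kb ↥(F1pBar N r)]
variable [HasPrincipalDivisors (ResidueField ↥A) ↥(F1C N (ResidueField ↥A))]
variable {gL gk : ℕ} (H : Hyp (gaussDatum1 N A hr hA hrN) gL gk)
variable [CharP (ResidueField ↥A) r]

/-- **The three lifting statements** (`B_φ`, `B_ψ`, `B_sep` of `DichTw.DichHyp2`) at level `N`. -/
def LiftX1 : Prop :=
  (∀ g ∈ BX1 hr hA hrN H, ∃ g' ∈ BX1 hr hA hrN H, (RX1 hr hA hrN H).red g' =
      (Fermat.Agent.S43.LG1.C1.FrobKGen.phi (coeffStable_F1C N (ResidueField ↥A)) r : _ →+* _)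
        ((RX1 hr hA hrN H).red g)) ∧
    (∀ g ∈ BX1 hr hA hrN H, ∃ g' ∈ BX1 hr hA hrN H, (RX1 hr hA hrN H).red g' =
      (Fermat.Agent.S43.LG1.C1.Euler.FrobSideX1.psiD (coeffStable_F1C N (ResidueField ↥A)) r
        (Fermat.Agent.S43.LG1.C1.DiamondRed1.dbar1 hr hA hrN) : _ →+* _)
        ((RX1 hr hA hrN H).red g)) ∧
    ∀ Q₁ ∈ NCX1 A N, ∀ Q₂ ∈ NCX1 A N,
      (∀ g ∈ BX1 hr hA hrN H, ∀ γ : ResidueField ↥A,
        HasVal Q₁ ((RX1 hr hA hrN H).red g) γ → HasVal Q₂ ((RX1 hr hA hrN H).red g) γ) → Q₁ = Q₂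

variable {hr hA hrN H}

/-- `GenericAt` at every good place, from the three lifting statements -/
theorem genericX1_of_lift (hL : LiftX1 hr hA hrN H) : GenericX1 hr hA hrN H := fun Q hQ =>
  Fermat.Agent.S43.LG1.C1.Generic.GenericX1.generic_X1 hr hA hrN H (B1X1 hr hA hrN)
    (isExt₁ hr hA hrN) (isExt_comap hr hA hrN) (hα hr hA hrN) (hredα hr hA hrN) (hβ hr hA hrN)
    (hredβ hr hA hrN) (dichHyp2_of hr hA hrN H hL.1 hL.2.1 hL.2.2) (fun Q hQ => mem_NCX1 Q hQ)
    (jO1_mem_BX1 hr hA hrN H) Q hQ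

/-- **(Core-Z) in divisor language, from the three lifting statements.** -/
theorem principalHyp1_of_lift {N r p : ℕ} [NeZero N] [Fact r.Prime] [NeZero r] (hp : p.Prime)
    (hpr : p ≠ r)
    (hL : ∀ (A : ValuationSubring Kb) (hr : r.Prime) (hA : A.LiesOverPrime r) (hrN : ¬ r ∣ N),
      haveI := Fermat.Agent.S18.ResidueBasics.charP_residueField A hA
      haveI := hasPrincipalDivisors_F1pBar (N := N) hr hrN
      haveI := hasPrincipalDivisors_F1C (N := N) hr hA hrN
      ∀ (gM : ℕ) (HM : RiemannHyp (ResidueField ↥A) ↥(F1C N (ResidueField ↥A)) gM),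
        LiftX1 hr hA hrN (HX1 hr hA hrN HM)) :
    Fermat.Agent.S43.LG1.C1.CoreZX1OfPrincipal.PrincipalHyp1 N r p :=
  principalHyp1_of_generic hp hpr fun A hr hA hrN =>
    haveI := Fermat.Agent.S18.ResidueBasics.charP_residueField A hA
    haveI := hasPrincipalDivisors_F1pBar (N := N) hr hrN
    haveI := hasPrincipalDivisors_F1C (N := N) hr hA hrN
    fun gM HM => genericX1_of_lift (hL A hr hA hrN gM HM)

/-- **`CoreZHyp1 N r p` from the three lifting statements.** -/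
theorem coreZHyp1_of_lift {N r p : ℕ} [NeZero N] [Fact r.Prime] [NeZero r] (hp : p.Prime)
    (hpr : p ≠ r)
    (hL : ∀ (A : ValuationSubring Kb) (hr : r.Prime) (hA : A.LiesOverPrime r) (hrN : ¬ r ∣ N),
      haveI := Fermat.Agent.S18.ResidueBasics.charP_residueField A hA
      haveI := hasPrincipalDivisors_F1pBar (N := N) hr hrN
      haveI := hasPrincipalDivisors_F1C (N := N) hr hA hrN
      ∀ (gM : ℕ) (HM : RiemannHyp (ResidueField ↥A) ↥(F1C N (ResidueField ↥A)) gM),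
        LiftX1 hr hA hrN (HX1 hr hA hrN HM)) :
    Fermat.Agent.S43.LG1.C1.CoreZX1OfPrincipal.CoreZHyp1 N r p :=
  Fermat.Agent.S43.LG1.C1.CoreZX1OfPrincipal.coreZHyp1_of_principalHyp1 hp.ne_zero
    (principalHyp1_of_lift hp hpr hL)

/-- **The two records with the node condition `Fr (Fr' b) = b` and `b` not a cusp** (the exit form
for the gate; the twin of `S34/CoreZX0OfLift.exists_inputs_of_lift`). -/
theorem exists_inputs_of_lift {gM : ℕ}
    (HM : RiemannHyp (ResidueField ↥A) ↥(F1C N (ResidueField ↥A)) gM)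
    (hL : LiftX1 hr hA hrN (HX1 hr hA hrN HM)) :
    ∃ (X : Inputs1 hr hA hrN (HX1 hr hA hrN HM)) (Y : NodesC1 X), ∀ b ∈ Y.S,
      FrX1 A N r (Fr2X1 hr hA hrN b) = b ∧
        b ∉ Fermat.Agent.S43.LG1.C1.Euler.FrobSideX1.P0 (hJ1 N (ResidueField ↥A)) := by
  obtain ⟨Y, hY⟩ :=
    Fermat.Agent.S43.LG1.C1.CoreZX1Fix.exists_nodesX1_fix HM (genericX1_of_lift hL)
  exact ⟨inputsX1 (genericX1_of_lift hL), Y, hY⟩

end Fermat.Agent.S43.LG1.C1.CoreZX1OfLift
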