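/-
PROJECT R (S43), gate (G), cut C1 = S34' (helper13): the generic twin of helper4's `S34/FrobKSep`,
on top of helper7's `C1/FrobKGen`:
**parameters and separating functions in the holomorphy rings of a coefficientwise stable
subfield `Fk ⊆ k((t))`**, with the DIAMOND TWIST.

`S` a set of places containing a place `Q0`, `holo S` the functions regular off `S`,
`hR : RiemannHyp k Fk gk`.

* `exists_holo_values`, `exists_holo_param`, `exists_holo_sep` : as in `S34/FrobKSep` (no Frobenius);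
* `exists_holo_sub_phi_phi_param`, `exists_holo_sub_phi_phi_unit`, `ord_sub_phi_phi_pos` : the
  untwisted `(G3)` inputs (`Fr² v = v`);
* THE TWIST (`d : Fk ≃ₐ[k] Fk` commuting with `psi`, as in `FrobKGen.Twist`; at `X₁(N; r)` the
  reduced diamond): `exists_holo_sub_d_phi_phi_param`, `exists_holo_sub_d_phi_phi_unit`,
  `ord_sub_d_phi_phi_pos` at the places with `Fr (Fr (D⁻¹ v)) = v` resp. `≠ v`.
-/
import Mathlib
import Fermat.Agent.S43.LG1.C1.FrobKGen
import Fermat.Agent.S34.GlueG.EvalSurj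
import Fermat.Agent.S18.NonSpecial

set_option autoImplicit false
set_option linter.unusedSectionVars false
set_option linter.style.haveILetI false

noncomputable section

namespace Fermat.Agent.S43.LG1.C1.FrobKSepGen

open AlgebraicCurve ModularCurve IntermediateField
open Fermat.Agent.S48.B.Red.CoeffAut1
open Fermat.Agent.S48.B.Inj.Basics (jC isFF_jC)
open Fermat.Agent.S43.LG1.C1.FrobKGen Fermat.Agent.S18.NonSpecial

variable {k : Type*} [Field k] {Fk : IntermediateField k (LaurentSeries k)}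

section Values

variable {gk : ℕ} (hR : RiemannHyp k ↥Fk gk)
variable {S : Set (Place k ↥Fk)} {Q0 : Place k ↥Fk} (hQ0 : Q0 ∈ S)

include hQ0 in
/-- `L(m Q0) ⊆ holo S` -/
theorem rr_single_le_holo (m : ℤ) {y : ↥Fk}
    (hy : y ∈ riemannRochSpace (Finsupp.single Q0 m : Divisor k ↥Fk)) : y ∈ holo S := by
  classical
  intro v hv
  have hne : Q0 ≠ v := fun h => hv (h ▸ hQ0)
  have h1 := hy v
  rw [Finsupp.single_apply, if_neg hne, WithZero.exp_zero] at h1
  exact (Fermat.Agent.S24.Ord.mem_iff v y).mpr h1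

include hR hQ0 in
/-- **prescribed values** at finitely many places off `S`, by a function regular off `S` -/
theorem exists_holo_values (T : Finset (Place k ↥Fk)) (hT : ∀ Q ∈ T, Q ∉ S)
    (t : Place k ↥Fk → k) :
    ∃ y ∈ holo S, ∀ Q ∈ T, Q.adicValuation (y - algebraMap k ↥Fk (t Q)) < 1 := by
  classical
  obtain ⟨c, hc⟩ := Fermat.Agent.S34.GlueG.EvalSurj.exists_eval_surjective hR
  set m : ℤ := max 0 (c + T.card) with hm
  set D : Divisor k ↥Fk := Finsupp.single Q0 m with hD
  have hDT : ∀ Q ∈ T, D Q = 0 := by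
    intro Q hQ
    have hne : Q0 ≠ Q := fun h => hT Q hQ (h ▸ hQ0)
    rw [hD, Finsupp.single_apply, if_neg hne]
  have hdeg : c + T.card ≤ Divisor.degree D := by
    rw [hD, Divisor.degree_single, hR.deg_one Q0]
    simp only [Nat.cast_one, mul_one]
    exact le_max_right _ _
  obtain ⟨y, hy, hval⟩ := hc D T hDT hdeg t
  exact ⟨y, rr_single_le_holo hQ0 m hy, hval⟩

include hR hQ0 in
/-- **separation**: for two distinct places off `S` a function regular off `S` vanishing at the
first and not at the second -/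
theorem exists_holo_sep {v w : Place k ↥Fk} (hv : v ∉ S) (hw : w ∉ S) (hvw : v ≠ w) :
    ∃ g ∈ holo S, g ≠ 0 ∧ 0 < v.ord g ∧ w.ord g = 0 := by
  classical
  obtain ⟨y, hy, hval⟩ := exists_holo_values hR hQ0 {v, w}
    (by
      intro Q hQ
      rcases Finset.mem_insert.mp hQ with rfl | hQ
      · exact hv
      · rw [Finset.mem_singleton] at hQ
        exact hQ ▸ hw)
    (fun Q => if Q = v then 0 else 1)
  have h1 := hval v (Finset.mem_insert_self _ _)
  have h2 := hval w (Finset.mem_insert_of_mem (Finset.mem_singleton_self _))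
  rw [if_pos rfl, map_zero, sub_zero] at h1
  rw [if_neg (Ne.symm hvw), map_one] at h2
  -- `y` is a unit at `w`
  have hyw : w.adicValuation y = 1 := by
    have := Valuation.map_sub_eq_of_lt_left w.adicValuation (x := (1 : ↥Fk))
      (y := 1 - y) (by
        rw [Valuation.map_one, ← Valuation.map_neg, neg_sub]
        exact h2)
    rw [sub_sub_cancel, Valuation.map_one] at this
    exact this
  have hy0 : y ≠ 0 := by
    rintro rfl
    rw [map_zero] at hyw
    exact zero_ne_one hyw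
  refine ⟨y, hy, hy0, (Fermat.Agent.S24.Ord.ord_pos_iff v hy0).mpr h1, ?_⟩
  rw [Fermat.Agent.S24.Ord.ord_eq, hyw, WithZero.log_one, neg_zero]

include hR hQ0 in
/-- **parameters**: for `v ∉ S` a function regular off `S` with a simple zero at `v` -/
theorem exists_holo_param {v : Place k ↥Fk} (hv : v ∉ S) :
    ∃ g ∈ holo S, v.ord g = 1 := by
  classical
  obtain ⟨c, hc⟩ := hR.riemann_eq
  have hne : Q0 ≠ v := fun h => hv (h ▸ hQ0)
  set m : ℤ := max 0 (c + 2) with hm
  set D1 : Divisor k ↥Fk := Finsupp.single Q0 m - Finsupp.single v 1 with hD1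
  set D2 : Divisor k ↥Fk := Finsupp.single Q0 m - Finsupp.single v 2 with hD2
  have hdeg1 : Divisor.degree D1 = m - 1 := by
    rw [hD1, map_sub, Divisor.degree_single, Divisor.degree_single, hR.deg_one, hR.deg_one]
    simp
  have hdeg2 : Divisor.degree D2 = m - 2 := by
    rw [hD2, map_sub, Divisor.degree_single, Divisor.degree_single, hR.deg_one, hR.deg_one]
    simp
  have hmc : c + 2 ≤ m := le_max_right _ _
  have he1 := hc D1 (by rw [hdeg1]; omega)
  have he2 := hc D2 (by rw [hdeg2]; omega)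
  have hle : D2 ≤ D1 := by
    rw [hD1, hD2]
    refine sub_le_sub_left ?_ _
    intro P
    rw [Finsupp.single_apply, Finsupp.single_apply]
    split_ifs <;> norm_num
  have hlt : riemannRochSpace D2 < riemannRochSpace D1 := by
    refine lt_of_le_of_ne (riemannRochSpace_mono hle) fun heq => ?_
    have : ell D2 = ell D1 := by unfold ell; rw [heq]
    rw [hdeg1] at he1
    rw [hdeg2] at he2
    omega
  obtain ⟨g, hg1, hg2⟩ := SetLike.exists_of_lt hlt
  have hg0 : g ≠ 0 := fun h => hg2 (h ▸ zero_mem _)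
  rw [mem_riemannRochSpace_iff] at hg1 hg2
  have hgv : 1 ≤ v.ord g := by
    have := (hg1 v).resolve_left hg0
    rw [hD1, Finsupp.sub_apply, Finsupp.single_apply, if_neg hne, Finsupp.single_apply,
      if_pos rfl] at this
    omega
  refine ⟨g, ?_, ?_⟩
  · intro w hw
    have hnew : Q0 ≠ w := fun h => hw (h ▸ hQ0)
    rw [Fermat.Agent.S24.Ord.mem_iff, ← Fermat.Agent.S24.Ord.ord_nonneg_iff w hg0]
    have := (hg1 w).resolve_left hg0
    rw [hD1, Finsupp.sub_apply, Finsupp.single_apply, if_neg hnew, Finsupp.single_apply] at this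
    split_ifs at this with hvw
    · subst hvw
      omega
    · omega
  · by_contra hne1
    have h2 : 2 ≤ v.ord g := by omega
    apply hg2
    intro w
    right
    have := (hg1 w).resolve_left hg0
    rw [hD1, Finsupp.sub_apply, Finsupp.single_apply, Finsupp.single_apply] at this
    rw [hD2, Finsupp.sub_apply, Finsupp.single_apply, Finsupp.single_apply]
    by_cases hvw : v = w
    · subst hvw
      rw [if_neg hne, if_pos rfl]
      rw [if_neg hne, if_pos rfl] at this
      omega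
    · rw [if_neg hvw]
      rw [if_neg hvw] at this
      exact this

end Values

/-! ### the ideal `J = span {g - φ² g}` -/

section Ideal

variable (hC : CoeffStable Fk) (hJ : jqModC k ∈ Fk)
variable (q : ℕ) [hq : Fact q.Prime] [CharP k q] [PerfectField k]
variable {gk : ℕ} (hR : RiemannHyp k ↥Fk gk)
variable {S : Set (Place k ↥Fk)} {Q0 : Place k ↥Fk} (hQ0 : Q0 ∈ S)

include hR hQ0 in
/-- at an `Fr²`-fixed place off `S`, some `g - φ² g` with `g ∈ holo S` is a parameter -/
theorem exists_holo_sub_phi_phi_param {v : Place k ↥Fk} (hv : v ∉ S)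
    (hfix : Fr hC q (Fr hC q v) = v) :
    ∃ g ∈ holo S, v.ord (g - phi hC q (phi hC q g)) = 1 := by
  obtain ⟨g, hg, hg1⟩ := exists_holo_param hR hQ0 hv
  exact ⟨g, hg, ord_sub_phi_phi hC q v hfix g hg1⟩

include hR hQ0 in
/-- at a place `v ∉ S` not fixed by `Fr²` (with `Fr² v ∉ S`), some `g - φ² g` with `g ∈ holo S`
is a unit -/
theorem exists_holo_sub_phi_phi_unit {v : Place k ↥Fk} (hv : v ∉ S)
    (hv2 : Fr hC q (Fr hC q v) ∉ S) (hfix : Fr hC q (Fr hC q v) ≠ v) :
    ∃ g ∈ holo S, g - phi hC q (phi hC q g) ≠ 0 ∧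
      v.ord (g - phi hC q (phi hC q g)) = 0 := by
  obtain ⟨g, hg, hg0, hgv, hgw⟩ := exists_holo_sep hR hQ0 hv hv2 (Ne.symm hfix)
  have h2 : v.ord (phi hC q (phi hC q g)) = 0 := by
    rw [ord_phi, ord_phi, hgw]
    ring
  have hpp0 : phi hC q (phi hC q g) ≠ 0 := phi_ne_zero hC q (phi_ne_zero hC q hg0)
  have hlt : v.ord (-(phi hC q (phi hC q g))) < v.ord g := by
    rw [Fermat.Agent.S18.CoreOrd.ord_neg', h2]
    exact hgv
  have hord : v.ord (g - phi hC q (phi hC q g)) = 0 := by
    rw [sub_eq_add_neg, add_comm,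
      Fermat.Agent.S18.CoreOrd.ord_add_eq_of_lt v (neg_ne_zero.mpr hpp0) hg0 hlt,
      Fermat.Agent.S18.CoreOrd.ord_neg', h2]
  refine ⟨g, hg, ?_, hord⟩
  intro h0
  have : g = phi hC q (phi hC q g) := sub_eq_zero.mp h0
  rw [this, h2] at hgv
  exact lt_irrefl _ hgv

/-- every `g - φ² g` with `g` regular at `v` and `Fr² v = v` vanishes at `v` -/
theorem ord_sub_phi_phi_pos [IsAlgClosed k] [FiniteDimensional k⟮jC hJ⟯ ↥Fk]
    {v : Place k ↥Fk} (hfix : Fr hC q (Fr hC q v) = v) {g : ↥Fk}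
    (hg : g ∈ v.toValuationSubring) (hne : g - phi hC q (phi hC q g) ≠ 0) :
    0 < v.ord (g - phi hC q (phi hC q g)) := by
  obtain ⟨c, hc⟩ := Fermat.Agent.S24.Ord.exists_sub_lt_one
    (isFF_jC hJ) v ((Fermat.Agent.S24.Ord.mem_iff v g).mp hg)
  set g' := g - algebraMap k ↥Fk c with hg'
  have hdiff : g - phi hC q (phi hC q g) = g' - phi hC q (phi hC q g') := by
    rw [hg', map_sub, map_sub, phi_algebraMap, phi_algebraMap]
    ring
  rw [hdiff] at hne ⊢
  rcases eq_or_ne g' 0 with h0 | h0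
  · rw [h0, map_zero, map_zero, sub_zero] at hne
    exact absurd rfl hne
  have hpos : 0 < v.ord g' := (Fermat.Agent.S24.Ord.ord_pos_iff v h0).mpr hc
  rw [ord_sub_phi_phi_of_pos hC q v hfix g' hpos]
  exact hpos

/-! ### the twisted ideal `J = span {g - d (φ² g)}` -/

variable (d : ↥Fk ≃ₐ[k] ↥Fk) (hdψ : ∀ x : ↥Fk, d (psi hC q x) = psi hC q (d x))

include hdψ

include hR hQ0 in
/-- at a twisted-fixed place off `S`, some `g - d (φ² g)` with `g ∈ holo S` is a parameter -/
theorem exists_holo_sub_d_phi_phi_param {v : Place k ↥Fk} (hv : v ∉ S)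
    (hfix : Fr hC q (Fr hC q ((Dp d).symm v)) = v) :
    ∃ g ∈ holo S, v.ord (g - d (phi hC q (phi hC q g))) = 1 := by
  obtain ⟨g, hg, hg1⟩ := exists_holo_param hR hQ0 hv
  exact ⟨g, hg, ord_sub_d_phi_phi hC q d hdψ v hfix g hg1⟩

include hR hQ0 in
/-- at a place `v ∉ S` which is not twisted-fixed (with `Fr (Fr (D⁻¹ v)) ∉ S`), some
`g - d (φ² g)` with `g ∈ holo S` is a unit -/
theorem exists_holo_sub_d_phi_phi_unit {v : Place k ↥Fk} (hv : v ∉ S)
    (hv2 : Fr hC q (Fr hC q ((Dp d).symm v)) ∉ S)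
    (hfix : Fr hC q (Fr hC q ((Dp d).symm v)) ≠ v) :
    ∃ g ∈ holo S, g - d (phi hC q (phi hC q g)) ≠ 0 ∧
      v.ord (g - d (phi hC q (phi hC q g))) = 0 := by
  obtain ⟨g, hg, hg0, hgv, hgw⟩ := exists_holo_sep hR hQ0 hv hv2 (Ne.symm hfix)
  have h2 : v.ord (d (phi hC q (phi hC q g))) = 0 := by
    rw [ord_d_phi_phi hC q d hdψ, hgw]
    ring
  have hpp0 : d (phi hC q (phi hC q g)) ≠ 0 := d_phi_phi_ne_zero hC q d hdψ hg0
  have hlt : v.ord (-(d (phi hC q (phi hC q g)))) < v.ord g := by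
    rw [Fermat.Agent.S18.CoreOrd.ord_neg', h2]
    exact hgv
  have hord : v.ord (g - d (phi hC q (phi hC q g))) = 0 := by
    rw [sub_eq_add_neg, add_comm,
      Fermat.Agent.S18.CoreOrd.ord_add_eq_of_lt v (neg_ne_zero.mpr hpp0) hg0 hlt,
      Fermat.Agent.S18.CoreOrd.ord_neg', h2]
  refine ⟨g, hg, ?_, hord⟩
  intro h0
  have : g = d (phi hC q (phi hC q g)) := sub_eq_zero.mp h0
  rw [this, h2] at hgv
  exact lt_irrefl _ hgv

/-- every `g - d (φ² g)` with `g` regular at a twisted-fixed place `v` vanishes at `v` -/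
theorem ord_sub_d_phi_phi_pos [IsAlgClosed k] [FiniteDimensional k⟮jC hJ⟯ ↥Fk]
    {v : Place k ↥Fk} (hfix : Fr hC q (Fr hC q ((Dp d).symm v)) = v) {g : ↥Fk}
    (hg : g ∈ v.toValuationSubring) (hne : g - d (phi hC q (phi hC q g)) ≠ 0) :
    0 < v.ord (g - d (phi hC q (phi hC q g))) := by
  obtain ⟨c, hc⟩ := Fermat.Agent.S24.Ord.exists_sub_lt_one
    (isFF_jC hJ) v ((Fermat.Agent.S24.Ord.mem_iff v g).mp hg)
  set g' := g - algebraMap k ↥Fk c with hg'
  have hdiff : g - d (phi hC q (phi hC q g)) = g' - d (phi hC q (phi hC q g')) := by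
    rw [hg', map_sub, map_sub, map_sub, phi_algebraMap, phi_algebraMap, AlgEquiv.commutes]
    ring
  rw [hdiff] at hne ⊢
  rcases eq_or_ne g' 0 with h0 | h0
  · rw [h0, map_zero, map_zero, map_zero, sub_zero] at hne
    exact absurd rfl hne
  have hpos : 0 < v.ord g' := (Fermat.Agent.S24.Ord.ord_pos_iff v h0).mpr hc
  rw [ord_sub_d_phi_phi_of_pos hC q d hdψ v hfix g' hpos]
  exact hpos

end Ideal

end Fermat.Agent.S43.LG1.C1.FrobKSepGen

end
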