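/-
S43 (row 37), PROJECT R, block `LG1`, brick `C1` (twin of `S34` at `X₁(N)`), file `LevelMLiftX1`
(helper23): twin of main's `S34/LevelMLiftX0`.

**Lifting with control of the discs of the poles, at `X₁(N)`**: instances of main's
`S34/LevelMLift` at the Gauss datum `Bases1.gaussDatumIgusa h hr hrN hA` of `ℚ̄(X₁(N))`
(`r ∤ N`, `h : IgusaDeg N` any proof, `H : Hyp (gaussDatumIgusa h hr hrN hA) gL gk`,
`placeMap H` Deuring's place map).
-/
import Mathlib
import Fermat.Agent.S34.LevelMLift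
import Fermat.Agent.S43.LG1.C1.LevelMSurjX1

set_option autoImplicit false
set_option linter.unusedSectionVars false

noncomputable section

namespace Fermat.Agent.S43.LG1.C1.LevelMLiftX1

open AlgebraicCurve ModularCurve IsLocalRing
open Fermat.Agent.S37.Deuring.Core Fermat.Agent.S34.LevelMLift
open Fermat.Agent.S48.B.Defs.Model
open Fermat.Agent.S48.B.Red.Seams (IgusaDeg)
open Fermat.Agent.S48.B.Red.Bases1

local notation "Kb" => AlgebraicClosure ℚ

set_option synthInstance.maxHeartbeats 400000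

/-- the residue field of a valuation ring of `ℚ̄` is algebraically closed (hence infinite) -/
local instance isAlgClosedRes (A : ValuationSubring Kb) : IsAlgClosed (ResidueField ↥A) :=
  Fermat.Agent.S18.ResidueBasics.isAlgClosed_residueField A

attribute [local instance] Fermat.Agent.S43.LG1.C1.LevelMSurjX1.algKappa

variable {r : ℕ} {N : ℕ} [NeZero N] {A : ValuationSubring Kb}
variable (h : IgusaDeg N) (hr : r.Prime) (hrN : ¬ r ∣ N) (hA : A.LiesOverPrime r) {gL gk : ℕ}
variable [HasPrincipalDivisors Kb ↥(F1Bar N)]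
variable [HasPrincipalDivisors (ResidueField ↥A) ↥(F1C N (ResidueField ↥A))]
variable (H : Hyp (gaussDatumIgusa h hr hrN hA) gL gk)

/-- every `ȳ ∈ F1C N κ` is `G.red f` with `f ∈ G.O` each of whose poles specialises to a pole of `ȳ`
or to the given place `Q₀` -/
theorem exists_lift_poles_over_X1 (y : ↥(F1C N (ResidueField ↥A)))
    (Q₀ : Place (ResidueField ↥A) ↥(F1C N (ResidueField ↥A))) :
    ∃ f : ↥(gaussDatumIgusa h hr hrN hA).O, (gaussDatumIgusa h hr hrN hA).red f = y ∧
      ∀ P : Place Kb ↥(F1Bar N),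
        (f : ↥(F1Bar N)) = 0 ∨ 0 ≤ P.ord (f : ↥(F1Bar N)) ∨
          placeMap H P = Q₀ ∨ (placeMap H P).ord y < 0 :=
  exists_lift_poles_over H (red_surjective_igusa h hr hrN hA) y Q₀

/-- every `ȳ ∈ F1C N κ` regular on a set `T` of places (`Q₀ ∉ T`) is `G.red f` with `f ∈ G.O`
regular at every place of `ℚ̄(X₁(N))` which specialises into `T` -/
theorem exists_lift_regular_over_X1 (y : ↥(F1C N (ResidueField ↥A)))
    (T : Set (Place (ResidueField ↥A) ↥(F1C N (ResidueField ↥A))))
    (Q₀ : Place (ResidueField ↥A) ↥(F1C N (ResidueField ↥A)))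
    (hQ₀ : Q₀ ∉ T) (hy : ∀ Q ∈ T, y = 0 ∨ 0 ≤ Q.ord y) :
    ∃ f : ↥(gaussDatumIgusa h hr hrN hA).O, (gaussDatumIgusa h hr hrN hA).red f = y ∧
      ∀ P : Place Kb ↥(F1Bar N), placeMap H P ∈ T →
        (f : ↥(F1Bar N)) = 0 ∨ 0 ≤ P.ord (f : ↥(F1Bar N)) :=
  exists_lift_regular_over H (red_surjective_igusa h hr hrN hA) y T Q₀ hQ₀ hy

end Fermat.Agent.S43.LG1.C1.LevelMLiftX1
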