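/-
PROJECT R (S43), block G, brick C1 (= S34', the `X₁`-twin of S34's `X₀` instance layer), helper18:
**THE TWIN OF `S34/CoreZX0`: (Core-Z) AT `E'' = ℚ̄(X₁(N; r))`, NO HYPOTHESIS LEFT.**

* `liftX1 hr hA hrN H : CoreZX1OfLift.LiftX1 hr hA hrN H` (helper19's `Generic/DichLiftX1`);
* `genericX1` : `Generic.Compat.GenericAt` at every good place of `κ(X₁(N))`;
* `principalHyp1 N r p : p.Prime → p ≠ r → CoreZX1OfPrincipal.PrincipalHyp1 N r p`;
* `coreZHyp1 N r p : p.Prime → p ≠ r → CoreZX1OfPrincipal.CoreZHyp1 N r p`;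
* `genericX1_all` : `GenericAt` for all `A`, in the literal shape of the hypothesis `hgen` of
  `CoreZX1OfGeneric.principalHyp1_of_generic`;
* `exists_inputs` : the two records of the nodal datum with the node condition `Fr (Fr' b) = b`
  and `b` not a cusp (the exit form for the gate).
-/
import Fermat.Agent.S43.LG1.C1.CoreZX1OfLift
import Fermat.Agent.S43.LG1.C1.Generic.DichLiftX1

set_option autoImplicit false
set_option linter.unusedSectionVars false
set_option linter.style.haveILetI false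
set_option synthInstance.maxHeartbeats 400000

noncomputable section

namespace Fermat.Agent.S43.LG1.C1.CoreZX1

open ModularCurve AlgebraicCurve IsLocalRing
open Fermat.Agent.S18.NonSpecial Fermat.Agent.S34.NodalDefs
open Fermat.Agent.S37.Deuring.Core
open Fermat.Agent.S48.B.Defs.Model Fermat.Agent.S48.B.B1.Seams
open Fermat.Agent.S48.B.ES.DegreeBeta1
open Fermat.Agent.S43.LG1.C1.Seam Fermat.Agent.S43.LG1.C1.Z1X1
open Fermat.Agent.S43.LG1.C1.CoreZX1Datum Fermat.Agent.S43.LG1.C1.CoreZX1Assembly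
open Fermat.Agent.S43.LG1.C1.CoreZX1Build Fermat.Agent.S43.LG1.C1.CoreZX1OfGeneric
open Fermat.Agent.S43.LG1.C1.CoreZX1OfLift
open Fermat.Agent.S43.LG1.C1.ResidueFrobX1
open Fermat.Agent.S43.LG1.C1.Generic.DichRecordX1 Fermat.Agent.S43.LG1.C1.Generic.DichLiftX1

local notation "Kb" => AlgebraicClosure ℚ

attribute [local instance] algShortcut1

/-- shortcut instances (all propositions) -/
local instance instPDBar1 (N : ℕ) [NeZero N] : HasPrincipalDivisors Kb ↥(F1Bar N) :=
  Fermat.Agent.S48.B.Inj.Basics.hasPrincipalDivisors_L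
    (Fermat.Agent.S43.LG1.C1.LevelMSurjX1.isFF_jgen1 N)

local instance instACk1 (A : ValuationSubring Kb) : IsAlgClosed (ResidueField ↥A) :=
  Fermat.Agent.S18.ResidueBasics.isAlgClosed_residueField A

variable {r : ℕ} [hrF : Fact r.Prime] {N : ℕ} [NeZero N] {A : ValuationSubring Kb} [NeZero r]
variable (hr : r.Prime) (hA : A.LiesOverPrime r) (hrN : ¬ r ∣ N)
variable [HasPrincipalDivisors Kb ↥(F1pBar N r)]
variable [HasPrincipalDivisors (ResidueField ↥A) ↥(F1C N (ResidueField ↥A))]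
variable {gL gk : ℕ} (H : Hyp (gaussDatum1 N A hr hA hrN) gL gk)
variable [CharP (ResidueField ↥A) r]

/-- **the three lifting statements at level `N`** -/
theorem liftX1 : LiftX1 hr hA hrN H :=
  ⟨fun g hg => by
      obtain ⟨g', h1, h2⟩ := B_φ_X1 (igusaDegN N) hr hrN hA H g hg
      exact ⟨g', h1, h2⟩,
    fun g hg => by
      obtain ⟨g', h1, h2⟩ := B_ψ_X1 (igusaDegN N) hr hrN hA H
        (Fermat.Agent.S43.LG1.C1.DiamondRed1.dbar1 hr hA hrN) (hdj1 hr hA hrN) g hg
      exact ⟨g', h1, h2⟩,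
    fun Q₁ h₁ Q₂ h₂ hsep => B_sep_X1 (igusaDegN N) hr hrN hA H Q₁ Q₂ h₁ h₂ hsep⟩

/-- **`GenericAt` at every good place of `X₁(N; r)`** -/
theorem genericX1 : GenericX1 hr hA hrN H := genericX1_of_lift (liftX1 hr hA hrN H)

/-- **(Core-Z) at `E'' = ℚ̄(X₁(N; r))` in divisor language.** -/
theorem principalHyp1 (N r p : ℕ) [NeZero N] [Fact r.Prime] [NeZero r] (hp : p.Prime)
    (hpr : p ≠ r) : Fermat.Agent.S43.LG1.C1.CoreZX1OfPrincipal.PrincipalHyp1 N r p :=
  principalHyp1_of_lift hp hpr fun A hr hA hrN =>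
    haveI := Fermat.Agent.S18.ResidueBasics.charP_residueField A hA
    haveI := hasPrincipalDivisors_F1pBar (N := N) hr hrN
    haveI := hasPrincipalDivisors_F1C (N := N) hr hA hrN
    fun _ HM => liftX1 hr hA hrN (HX1 hr hA hrN HM)

/-- **(Core-Z) at `E'' = ℚ̄(X₁(N; r))`.** -/
theorem coreZHyp1 (N r p : ℕ) [NeZero N] [Fact r.Prime] [NeZero r] (hp : p.Prime)
    (hpr : p ≠ r) : Fermat.Agent.S43.LG1.C1.CoreZX1OfPrincipal.CoreZHyp1 N r p :=
  Fermat.Agent.S43.LG1.C1.CoreZX1OfPrincipal.coreZHyp1_of_principalHyp1 hp.ne_zero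
    (principalHyp1 N r p hp hpr)

/-- **`GenericAt` for all `A`**, in the literal shape of the hypothesis `hgen` of
`CoreZX1OfGeneric.principalHyp1_of_generic`. -/
theorem genericX1_all (N r : ℕ) [NeZero N] [Fact r.Prime] [NeZero r] :
    ∀ (A : ValuationSubring Kb) (hr : r.Prime) (hA : A.LiesOverPrime r) (hrN : ¬ r ∣ N),
      haveI := Fermat.Agent.S18.ResidueBasics.charP_residueField A hA
      haveI := hasPrincipalDivisors_F1pBar (N := N) hr hrN
      haveI := hasPrincipalDivisors_F1C (N := N) hr hA hrN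
      ∀ (gM : ℕ) (HM : RiemannHyp (ResidueField ↥A) ↥(F1C N (ResidueField ↥A)) gM),
        GenericX1 hr hA hrN (HX1 hr hA hrN HM) :=
  fun A hr hA hrN =>
    haveI := Fermat.Agent.S18.ResidueBasics.charP_residueField A hA
    haveI := hasPrincipalDivisors_F1pBar (N := N) hr hrN
    haveI := hasPrincipalDivisors_F1C (N := N) hr hA hrN
    fun _ HM => genericX1 hr hA hrN (HX1 hr hA hrN HM)

/-- **The two records of the nodal datum, with the node condition `Fr (Fr' b) = b` and `b` not a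
cusp** (the twin of `S34/CoreZX0.exists_inputs`; the exit form for the gate). -/
theorem exists_inputs {gM : ℕ}
    (HM : RiemannHyp (ResidueField ↥A) ↥(F1C N (ResidueField ↥A)) gM) :
    ∃ (X : Inputs1 hr hA hrN (HX1 hr hA hrN HM)) (Y : NodesC1 X), ∀ b ∈ Y.S,
      FrX1 A N r (Fr2X1 hr hA hrN b) = b ∧
        b ∉ Fermat.Agent.S43.LG1.C1.Euler.FrobSideX1.P0 (hJ1 N (ResidueField ↥A)) :=
  exists_inputs_of_lift HM (liftX1 hr hA hrN (HX1 hr hA hrN HM))

end Fermat.Agent.S43.LG1.C1.CoreZX1
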