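/-
PROJECT R (S43), gate (G), cut C1 = S34' (helper13): the `X₁` twin of `S34/GaussPairBridge`.

BRIDGE between the abstract pair `Z1X1.V1X1`, `Z1X1.V2X1` (chosen from the two-extension theory; the
rings the inertia lemmas of `Z1X1` and `CoreZX1Datum.X1Datum.O1_eq / O2_eq` are stated on) and the
concrete pair `GaussPairX1.V₁`, `GaussPairX1.V₂` of helper16 (`q`-expansions), together with the
HYPOTHESIS-FREE forms of the `hδO`-lemmas of `GaussPairX1` (`hδO := DiamondRed1.delta1_smul_O1`)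
and the twisted reduction formula in terms of the reduced diamond `DiamondRed1.dbar1`:

* `V1X1_eq`, `V2X1_eq` : the valuation rings agree (uniqueness of the extension of each type);
* `alpha_mem_V₂_iff'`, `isExt_V₂'`, `V₁_ne_V₂'`, `smul_mem_V₂_iff'`, `red₂_smul'`;
* `coe_red₂_alpha' : red₂ (α x) = (d̄ (red x))(q^r)`.

(There is no `wq_eq` here: `GaussPairX1` uses `Seam.W1` itself.)
-/
import Mathlib
import Fermat.Agent.S43.LG1.C1.Z1X1
import Fermat.Agent.S43.LG1.C1.GaussPairX1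
import Fermat.Agent.S43.LG1.C1.DiamondRed1

set_option autoImplicit false
set_option linter.unusedSectionVars false
set_option linter.style.haveILetI false
set_option synthInstance.maxHeartbeats 400000

noncomputable section

namespace Fermat.Agent.S43.LG1.C1.GaussPairBridgeX1

open ModularCurve AlgebraicCurve IsLocalRing
open Fermat.Agent.S48.B.Defs.Model Fermat.Agent.S48.B.B1.Seams
open Fermat.Agent.S48.B.ES.DegreeBeta1
open Fermat.Agent.S43.LG1.C1.Seam Fermat.Agent.S43.LG1.C1.TwoGaussX1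
open Fermat.Agent.S43.LG1.C1.GaussPairX1 Fermat.Agent.S43.LG1.C1.DiamondRed1
open Fermat.Agent.S34

local notation "Kb" => AlgebraicClosure ℚ

attribute [local instance] algShortcut1

variable {r : ℕ} [hrF : Fact r.Prime] {N : ℕ} [NeZero N] {A : ValuationSubring Kb}
variable (hr : r.Prime) (hA : A.LiesOverPrime r) (hrN : ¬ r ∣ N) [NeZero r]

attribute [local instance] algFE1

/-! ### the hypothesis-free forms of the `hδO`-lemmas of `GaussPairX1` -/

theorem alpha_mem_V₂_iff' (x : ↥(F1Bar N)) :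
    alpha1 N r Kb x ∈ V₂ hr hA hrN ↔ x ∈ (gaussDatum1 N A hr hA hrN).O :=
  alpha_mem_V₂_iff hr hA hrN (delta1_smul_O1 hr hA hrN) x

/-- **`V₂` is the type-2 extension of the Gauss ring of level `N`.** -/
theorem isExt_V₂' : (setupX1 hr hA hrN).IsExt (setupX1 hr hA hrN).G₂ (V₂ hr hA hrN) :=
  isExt_V₂ hr hA hrN (delta1_smul_O1 hr hA hrN)

theorem V₁_ne_V₂' : V₁ N A hA ≠ V₂ hr hA hrN :=
  V₁_ne_V₂ hr hA hrN (delta1_smul_O1 hr hA hrN)

/-- **THE TWIST: `red₂ (α x) = (d̄ (red x))(q^r)`**, `d̄ = DiamondRed1.dbar1` the reduced diamond -/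
theorem coe_red₂_alpha' (x : ↥(gaussDatum1 N A hr hA hrN).O) :
    ((red₂ hr hA hrN ⟨alpha1 N r Kb x, (alpha_mem_V₂_iff' hr hA hrN x).mpr x.2⟩ :
      ↥(F1C N (ResidueField ↥A))) : LaurentSeries (ResidueField ↥A)) =
      qExpand (ResidueField ↥A) r ((dbar1 hr hA hrN ((gaussDatum1 N A hr hA hrN).red x) :
          ↥(F1C N (ResidueField ↥A))) : LaurentSeries (ResidueField ↥A)) := by
  rw [← red_delta1 hr hA hrN x]
  exact coe_red₂_alpha hr hA hrN (delta1_smul_O1 hr hA hrN) x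

section Inertia

variable {σ : Kb ≃ₐ[ℚ] Kb} (hσ : σ ∈ A.inertiaSubgroupIn ℚ)

include hσ in
theorem smul_mem_V₂_iff' (x : ↥(F1pBar N r)) :
    arithmeticGalois (F1p N r) σ • x ∈ V₂ hr hA hrN ↔ x ∈ V₂ hr hA hrN :=
  smul_mem_V₂_iff hr hA hrN hσ (delta1_smul_O1 hr hA hrN) x

/-- **inertia acts trivially on the residue field of `V₂`** -/
theorem red₂_smul' (x : ↥(V₂ hr hA hrN)) :
    red₂ hr hA hrN ⟨arithmeticGalois (F1p N r) σ • x.1,
      (smul_mem_V₂_iff' hr hA hrN hσ x.1).mpr x.2⟩ = red₂ hr hA hrN x :=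
  red₂_smul hr hA hrN hσ (delta1_smul_O1 hr hA hrN) x

end Inertia

/-! ### the bridge -/

/-- the abstract type-1 valuation ring is the concrete Gauss ring of `q`-expansions -/
theorem V1X1_eq : Fermat.Agent.S43.LG1.C1.Z1X1.V1X1 hr hA hrN = V₁ N A hA :=
  (setupX1 hr hA hrN).isExt₁_unique (Fermat.Agent.S43.LG1.C1.Z1X1.isExt_V1X1 hr hA hrN)
    (isExt_V₁ hr hA hrN)

/-- the abstract type-2 valuation ring is the `W`-transform of the concrete Gauss ring -/
theorem V2X1_eq : Fermat.Agent.S43.LG1.C1.Z1X1.V2X1 hr hA hrN = V₂ hr hA hrN :=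
  (setupX1 hr hA hrN).isExt₂_unique (Fermat.Agent.S43.LG1.C1.Z1X1.isExt_V2X1 hr hA hrN)
    (isExt_V₂' hr hA hrN)

/-- `V2X1` is the `W₁`-transform of `V1X1` -/
theorem V2X1_eq_comap :
    Fermat.Agent.S43.LG1.C1.Z1X1.V2X1 hr hA hrN =
      (Fermat.Agent.S43.LG1.C1.Z1X1.V1X1 hr hA hrN).comap (W1Hom N r hr hrN) := by
  rw [V2X1_eq, V1X1_eq]
  rfl

end Fermat.Agent.S43.LG1.C1.GaussPairBridgeX1

end
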