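/-
PROJECT R (S43), block G, brick C1 (= S34', the `X₁`-twin of S34's `X₀` instance layer), helper18:
**THE EXIT OF C1 TOWARDS C2 / IG**: every C1-side binder of helper10's `C2/Final.principal_cover`
(and of helper9's `C2/Exit.principal_cover_of_genus`, helper4's `H/WireC.principalPairH_of_cover`) at
the base datum `N0 := CoreZX1Build.nodalC1 X Y`, in their literal shape, and the base datum with the
record `X` EXPLICIT (so that `X.good = goodX1` is `rfl`: the clause (unr) of `GoodCoord`).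

For arbitrary `X : Inputs1 hr hA hrN H`, `Y : NodesC1 X`:
* `adm_finite` (`hadmfin`), `e1_injective`, `e2_injective` (`hinj1`, `hinj2`), `residue_surjective`
  (`hπ`), `nonempty_nodes`, `card_nodes`, `hNC_card` (`hNC` with `Fintype.card`), `one_le_card`,
  `exists_star` (`Pstar Qstar hQstar hstar`), `riemannL`, `riemannK` (`R0`, `Rκ1 = Rκ2`),
  `R1_O_eq`, `R2_O_eq`, `r1_smul`, `r2_smul` (inertia preserves the partial specialisation maps),
  `e1_apply`, `e2_apply`, `good1`, `good2`;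
* `natCast_ne_zero` : `((p ^ e : ℕ) : κ) ≠ 0` for `p ≠ r` (`hnk`).

The instance: `XOf hr hA hrN HM := inputsX1 (CoreZX1.genericX1 …)`, `XOf_good` (`rfl`),
`exists_nodes` (the node record over the explicit `XOf`, with the node condition), `unr`
(`∀ Q ∈ (XOf …).good, ∃ γ, Q.ord (jC - γ) = 1`), `good_not_cusp`.
-/
import Fermat.Agent.S43.LG1.C1.CoreZX1

set_option autoImplicit false
set_option linter.unusedSectionVars false
set_option linter.style.haveILetI false
set_option synthInstance.maxHeartbeats 400000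

noncomputable section

namespace Fermat.Agent.S43.LG1.C1.ExitC2

open ModularCurve AlgebraicCurve IsLocalRing
open Fermat.Agent.S18.NonSpecial Fermat.Agent.S34.NodalDefs
open Fermat.Agent.S37.Deuring.Core
open Fermat.Agent.S48.B.Defs.Model Fermat.Agent.S48.B.B1.Seams
open Fermat.Agent.S48.B.ES.DegreeBeta1
open Fermat.Agent.S43.LG1.C1.Seam Fermat.Agent.S43.LG1.C1.Z1X1
open Fermat.Agent.S43.LG1.C1.CoreZX1Datum Fermat.Agent.S43.LG1.C1.CoreZX1Assembly
open Fermat.Agent.S43.LG1.C1.CoreZX1Build Fermat.Agent.S43.LG1.C1.CoreZX1OfGeneric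
open Fermat.Agent.S43.LG1.C1.ResidueFrobX1

local notation "Kb" => AlgebraicClosure ℚ

attribute [local instance] algShortcut1

/-- shortcut instances (all propositions) -/
local instance instPDBar1 (N : ℕ) [NeZero N] : HasPrincipalDivisors Kb ↥(F1Bar N) :=
  Fermat.Agent.S48.B.Inj.Basics.hasPrincipalDivisors_L
    (Fermat.Agent.S43.LG1.C1.LevelMSurjX1.isFF_jgen1 N)

local instance instACk1 (A : ValuationSubring Kb) : IsAlgClosed (ResidueField ↥A) :=
  Fermat.Agent.S18.ResidueBasics.isAlgClosed_residueField A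

variable {r : ℕ} [hrF : Fact r.Prime] {N : ℕ} [NeZero N] {A : ValuationSubring Kb} [NeZero r]
variable {hr : r.Prime} {hA : A.LiesOverPrime r} {hrN : ¬ r ∣ N}
variable [HasPrincipalDivisors Kb ↥(F1pBar N r)]
variable [HasPrincipalDivisors (ResidueField ↥A) ↥(F1C N (ResidueField ↥A))]
variable {gL gk : ℕ} {H : Hyp (gaussDatum1 N A hr hA hrN) gL gk}
variable [CharP (ResidueField ↥A) r]

/-! ### the side hypotheses of the base datum, for arbitrary records -/

section Generic

variable (X : Inputs1 hr hA hrN H) (Y : NodesC1 X)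

/-- `hadmfin` -/
theorem adm_finite : ∀ T1 T2 : Set (Place (ResidueField ↥A) ↥(F1C N (ResidueField ↥A))),
    (nodalC1 X Y).Adm T1 T2 → T1.Finite ∧ T2.Finite :=
  (nodes1Of X Y).adm_finite

@[simp] theorem e1_apply (b : {b // b ∈ Y.S}) : (nodalC1 X Y).e1 b = Fr2X1 hr hA hrN b.1 := rfl

@[simp] theorem e2_apply (b : {b // b ∈ Y.S}) : (nodalC1 X Y).e2 b = b.1 := rfl

/-- `hinj2` -/
theorem e2_injective : Function.Injective (nodalC1 X Y).e2 :=
  (nodes1Of X Y).e2_injective

/-- `hinj1` -/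
theorem e1_injective : Function.Injective (nodalC1 X Y).e1 := fun _ _ h =>
  Subtype.val_injective ((Fr2X1 hr hA hrN).injective h)

omit [HasPrincipalDivisors Kb ↥(F1pBar N r)]
  [HasPrincipalDivisors (ResidueField ↥A) ↥(F1C N (ResidueField ↥A))]
  [CharP (ResidueField ↥A) r] [NeZero N] [NeZero r] hrF in
/-- `hπ` -/
theorem residue_surjective (A : ValuationSubring Kb) : Function.Surjective (residue ↥A) :=
  Ideal.Quotient.mk_surjective

theorem card_nodes : Fintype.card {b // b ∈ Y.S} = Y.S.card := Fintype.card_coe Y.S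

theorem one_le_card : 1 ≤ Fintype.card {b // b ∈ Y.S} := by
  rw [card_nodes]
  exact Y.hcard

/-- `[Nonempty ι]` -/
theorem nonempty_nodes : Nonempty {b // b ∈ Y.S} :=
  Fintype.card_pos_iff.mp (one_le_card X Y)

/-- `R0` : Riemann's theorem on `E''` -/
theorem riemannL : RiemannHyp Kb ↥(F1pBar N r) Y.gE := Y.HL

/-- `Rκ1 = Rκ2` : Riemann's theorem on `κ(X₁(N))` -/
theorem riemannK (_X : Inputs1 hr hA hrN H) :
    RiemannHyp (ResidueField ↥A) ↥(F1C N (ResidueField ↥A)) gk := H.riemannK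

/-- `hNC` in the shape of `C2/Genus.riemannGe_nodalRigid_cover` -/
theorem hNC_card : (Y.gE : ℤ) + 1 ≤ gk + gk + Fintype.card {b // b ∈ Y.S} := by
  rw [card_nodes]
  exact Y.hNC

/-- `Pstar Qstar hQstar hstar` -/
theorem exists_star : ∃ (Pstar : Place Kb ↥(F1pBar N r))
    (Qstar : Place (ResidueField ↥A) ↥(F1C N (ResidueField ↥A))),
    Qstar ∈ (nodalC1 X Y).R1.good ∧ (nodalC1 X Y).R1.r Pstar = some Qstar :=
  exists_typeOne X

theorem good1 : (nodalC1 X Y).R1.good = X.good := rfl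

theorem good2 : (nodalC1 X Y).R2.good = X.good := rfl

theorem R1_O_eq : (nodalC1 X Y).R1.O = V1X1 hr hA hrN := R1_O X

theorem R2_O_eq : (nodalC1 X Y).R2.O = V2X1 hr hA hrN := R2_O X

/-- inertia preserves the first partial specialisation map -/
theorem r1_smul : ∀ σ ∈ A.inertiaSubgroupIn ℚ, ∀ P : Place Kb ↥(F1pBar N r),
    (nodalC1 X Y).R1.r (arithmeticGalois (F1p N r) σ • P) = (nodalC1 X Y).R1.r P :=
  Fermat.Agent.S43.LG1.C1.CoreZX1Assembly.r1_smul X

/-- inertia preserves the second partial specialisation map -/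
theorem r2_smul : ∀ σ ∈ A.inertiaSubgroupIn ℚ, ∀ P : Place Kb ↥(F1pBar N r),
    (nodalC1 X Y).R2.r (arithmeticGalois (F1p N r) σ • P) = (nodalC1 X Y).R2.r P :=
  Fermat.Agent.S43.LG1.C1.CoreZX1Assembly.r2_smul X

/-- the first partial specialisation map in closed form -/
theorem R1_r_iff (P : Place Kb ↥(F1pBar N r))
    (Q : Place (ResidueField ↥A) ↥(F1C N (ResidueField ↥A))) :
    (nodalC1 X Y).R1.r P = some Q ↔ Q ∈ X.good ∧ sp1 H P = Q ∧ sp2 H P = FrX1 A N r Q :=
  R1_r_eq_some_iff X P Q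

/-- the second partial specialisation map in closed form -/
theorem R2_r_iff (P : Place Kb ↥(F1pBar N r))
    (Q : Place (ResidueField ↥A) ↥(F1C N (ResidueField ↥A))) :
    (nodalC1 X Y).R2.r P = some Q ↔ Q ∈ X.good ∧ sp2 H P = Q ∧ sp1 H P = Fr2X1 hr hA hrN Q :=
  R2_r_eq_some_iff X P Q

end Generic

omit [HasPrincipalDivisors Kb ↥(F1pBar N r)]
  [HasPrincipalDivisors (ResidueField ↥A) ↥(F1C N (ResidueField ↥A))] [NeZero N] [NeZero r] in
/-- `hnk` : `p ^ e` is invertible in `κ` for `p ≠ r` -/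
theorem natCast_ne_zero {p : ℕ} (hp : p.Prime) (hpr : p ≠ r) (e : ℕ) :
    ((p ^ e : ℕ) : ResidueField ↥A) ≠ 0 := by
  rw [Nat.cast_pow]
  refine pow_ne_zero e ?_
  intro h0
  have hdvd : r ∣ p := (CharP.cast_eq_zero_iff (ResidueField ↥A) r p).mp h0
  exact hpr ((Nat.prime_dvd_prime_iff_eq hrF.out hp).mp hdvd).symm

/-! ### the instance, with the first record explicit -/

variable (hr hA hrN)

/-- **record 1 at `X₁(N; r)`, as a term** (no hypothesis left) -/
def XOf {gM : ℕ} (HM : RiemannHyp (ResidueField ↥A) ↥(F1C N (ResidueField ↥A)) gM) :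
    Inputs1 hr hA hrN (HX1 hr hA hrN HM) :=
  inputsX1 (Fermat.Agent.S43.LG1.C1.CoreZX1.genericX1 hr hA hrN (HX1 hr hA hrN HM))

variable {gM : ℕ} (HM : RiemannHyp (ResidueField ↥A) ↥(F1C N (ResidueField ↥A)) gM)

@[simp] theorem XOf_good : (XOf hr hA hrN HM).good = goodX1 A N r := rfl

@[simp] theorem XOf_B₁ :
    (XOf hr hA hrN HM).B₁ = Fermat.Agent.S43.LG1.C1.Generic.BranchX1.B1X1 hr hA hrN := rfl

/-- **record 2 over the explicit record 1**, with the node condition and `b` not a cusp -/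
theorem exists_nodes : ∃ Y : NodesC1 (XOf hr hA hrN HM), ∀ b ∈ Y.S,
    FrX1 A N r (Fr2X1 hr hA hrN b) = b ∧
      b ∉ Fermat.Agent.S43.LG1.C1.Euler.FrobSideX1.P0 (hJ1 N (ResidueField ↥A)) :=
  Fermat.Agent.S43.LG1.C1.CoreZX1Fix.exists_nodesX1_fix HM
    (Fermat.Agent.S43.LG1.C1.CoreZX1.genericX1 hr hA hrN (HX1 hr hA hrN HM))

/-- (unr) : `j̄` is a local parameter (up to a constant) at every good place -/
theorem unr : ∀ Q ∈ (XOf hr hA hrN HM).good, ∃ γ : ResidueField ↥A,
    Q.ord (Fermat.Agent.S48.B.Red.Seams.jC N (ResidueField ↥A) -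
      algebraMap (ResidueField ↥A) ↥(F1C N (ResidueField ↥A)) γ) = 1 :=
  fun _ hQ => hQ.2

/-- no good place is a cusp -/
theorem good_not_cusp : ∀ Q ∈ (XOf hr hA hrN HM).good,
    0 ≤ Q.ord (Fermat.Agent.S48.B.Red.Seams.jC N (ResidueField ↥A)) :=
  fun _ hQ => hQ.1.1

end Fermat.Agent.S43.LG1.C1.ExitC2
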