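/-
PROJECT R (S43), block G, brick C1 (= S34', the `X₁`-twin of S34's `X₀` instance layer), helper18:
**THE NODE RECORD WITH ITS CUSP SET IDENTIFIED** (helper26's flag: under `∃ Y : NodesC1 X` the
field `Y.cuspL` is hidden, and `PcgCuspTw.Hyp2.glue0` is only as strong as `cuspL` is large).

`exists_nodesX1_cusp` re-runs the construction of `CoreZX1OfGeneric.exists_nodesX1_fix` and keeps,
next to the node condition `Fr (Fr' b) = b` and `b ∉ P0`, the description of the cusp set: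

  `∀ P : Place Kb E'', P ∈ Y.cuspL ↔ P.ord (jE1 N r) < 0`

(`Y.cuspL = {P | cuspDiv1 N (resAlong α hα P) ≠ 0}` by construction; helper29's `PcgX1.cuspL_iff`).

`exists_nodes_cusp` : the same over the explicit record `ExitC2.XOf hr hA hrN HM`;
`exists_nodes_hcuspL` : with the last clause in the literal `hcuspL` of helper26's `Ig/NodeT`.
-/
import Fermat.Agent.S43.LG1.C1.ExitC2

set_option autoImplicit false
set_option linter.unusedSectionVars false
set_option linter.style.haveILetI false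
set_option synthInstance.maxHeartbeats 400000

noncomputable section

namespace Fermat.Agent.S43.LG1.C1.NodesCuspX1

open ModularCurve AlgebraicCurve IsLocalRing
open Fermat.Agent.S18.NonSpecial Fermat.Agent.S34.NodalDefs
open Fermat.Agent.S37.Deuring.Core
open Fermat.Agent.S34.Generic.Compat Fermat.Agent.S34.Generic.RestrAlong
open Fermat.Agent.S34.Generic.SmoothRedOfGeneric
open Fermat.Agent.S48.B.Defs.Model Fermat.Agent.S48.B.B1.Seams
open Fermat.Agent.S48.B.ES.DegreeBeta1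
open Fermat.Agent.S43.LG1.C1.Seam Fermat.Agent.S43.LG1.C1.Z1X1
open Fermat.Agent.S43.LG1.C1.CoreZX1Datum Fermat.Agent.S43.LG1.C1.CoreZX1Assembly
open Fermat.Agent.S43.LG1.C1.CoreZX1Build Fermat.Agent.S43.LG1.C1.ResidueFrobX1
open Fermat.Agent.S43.LG1.C1.CoreZX1OfGeneric
open Fermat.Agent.S43.LG1.C1.Generic.BranchX1 Fermat.Agent.S43.LG1.C1.Generic.GoodKGen

local notation "Kb" => AlgebraicClosure ℚ

attribute [local instance] algShortcut1

/-- shortcut instances (all propositions) -/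
local instance instPDBar1 (N : ℕ) [NeZero N] : HasPrincipalDivisors Kb ↥(F1Bar N) :=
  Fermat.Agent.S48.B.Inj.Basics.hasPrincipalDivisors_L
    (Fermat.Agent.S43.LG1.C1.LevelMSurjX1.isFF_jgen1 N)

local instance instACk1 (A : ValuationSubring Kb) : IsAlgClosed (ResidueField ↥A) :=
  Fermat.Agent.S18.ResidueBasics.isAlgClosed_residueField A

variable {r : ℕ} [hrF : Fact r.Prime] {N : ℕ} [NeZero N] {A : ValuationSubring Kb} [NeZero r]
variable {hr : r.Prime} {hA : A.LiesOverPrime r} {hrN : ¬ r ∣ N}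
variable [HasPrincipalDivisors Kb ↥(F1pBar N r)]
variable [HasPrincipalDivisors (ResidueField ↥A) ↥(F1C N (ResidueField ↥A))]
variable [CharP (ResidueField ↥A) r]

set_option maxHeartbeats 3200000 in
/-- **Record 2 at `X₁(N; r)`, with the node condition, `b` not a cusp, and the cusp set `cuspL`
identified with the poles of `j` on `E''`.** -/
theorem exists_nodesX1_cusp {gM : ℕ}
    (HM : RiemannHyp (ResidueField ↥A) ↥(F1C N (ResidueField ↥A)) gM)
    (hgen : GenericX1 hr hA hrN (HX1 hr hA hrN HM)) :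
    ∃ Y : NodesC1 (inputsX1 hgen),
      (∀ b ∈ Y.S, FrX1 A N r (Fr2X1 hr hA hrN b) = b ∧
        b ∉ Fermat.Agent.S43.LG1.C1.Euler.FrobSideX1.P0 (hJ1 N (ResidueField ↥A))) ∧
      ∀ P : Place Kb ↥(F1pBar N r),
        P ∈ Y.cuspL ↔ P.ord (Fermat.Agent.S43.LG1.C1.CuspRegularX1.jE1 N r) < 0 := by
  haveI : PerfectField (ResidueField ↥A) := inferInstance
  haveI := finiteDimensional_X1 hA N hrN
  obtain ⟨g, HL⟩ : ∃ g : ℕ, RiemannHyp Kb ↥(F1pBar N r) g := by
    obtain ⟨g, gM', HL, -⟩ :=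
      Fermat.Agent.S43.LG1.C1.EulerClosedX1.exists_genera (N := N) hr hrN hA
    exact ⟨g, HL⟩
  obtain ⟨S, hS, hNC, hbS⟩ :=
    Fermat.Agent.S43.LG1.C1.EulerClosedX1.exists_nodes_closed hr hA hrN HL HM
  set H := HX1 hr hA hrN HM with hH
  set X := inputsX1 hgen with hX
  -- the node condition, in the two spellings
  have hS' : ∀ b ∈ S, FrX1 A N r (Fr2X1 hr hA hrN b) = b ∧
      b ∉ Fermat.Agent.S43.LG1.C1.Euler.FrobSideX1.P0 (hJ1 N (ResidueField ↥A)) := by
    intro b hb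
    refine ⟨?_, (hS b hb).2⟩
    rw [Fr2X1_apply, ← FrX1_DX1_symm]
    exact (hS b hb).1
  have hyp := Fermat.Agent.S43.LG1.C1.PcgX1.hyp_X1 hr hA hrN H
    (Fermat.Agent.S43.LG1.C1.Generic.FibX1.isIntegral_alpha1 hr hrN)
    (Fermat.Agent.S43.LG1.C1.Generic.FibX1.isIntegral_beta1 hr hrN)
    (W1 N r hr hrN) (delta1 N r hr hrN)
    (fun g => W1_alpha hr hrN g) (fun g => W1_beta hr hrN g)
    (fun g => Fermat.Agent.S43.LG1.C1.DiamondRed1.delta1_mem_O1 hr hA hrN g.2)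
    (DX1 hr hA hrN) (DX1 hr hA hrN).symm (fun P0 => placeMap_delta1 hr hA hrN H P0)
    (fun Q => (DX1 hr hA hrN).symm_apply_apply Q) (fun Q => (DX1 hr hA hrN).apply_symm_apply Q)
    (FrX1 A N r)
    (fun b hb => by
      have h := ord_jC_Fr2X1 (hr := hr) (hA := hA) (hrN := hrN) b
      rw [Fr2X1_apply] at h
      rw [← h]
      exact hb)
    (goodX1 A N r) (R1 X) (R1_r X)
    (Fermat.Agent.S43.LG1.C1.W1SqX1.W1_W1_mem_of_isExt₁ hr hA hrN (isExt₁ hr hA hrN))
    (fun Q hQ => X.Fr2_Fr_ne Q hQ) (fun Q hQ => (X.Fr2_mem_iff Q).mpr hQ)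
    (isExt₁ hr hA hrN)
    (by
      have h := isExt_comap hr hA hrN
      rw [comap_W1Hom_eq] at h
      exact h)
    X.α_mem X.red_α X.β_mem H.riemannL H.riemannK
    (Fermat.Agent.S43.LG1.C1.EulerClosedX1.G1X1 hr hA hrN)
    (Fermat.Agent.S43.LG1.C1.EulerClosedX1.G2X1 hr hA hrN)
    (fun f h => h) (fun f h => h) (fun f h h' => rfl) (fun f h h' => rfl) S
    (fun b hb => ⟨by
      have h := (hS' b hb).1
      rw [Fr2X1_apply] at h
      exact h, (hS b hb).2⟩)
    hbS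
  exact ⟨{ S := S, cuspL := _, hyp := hyp, gE := g, HL := HL, hNC := hNC
           hcard := Fermat.Agent.S43.LG1.C1.NodalCoreX1.one_le_card_finset_of_nc hr hA hrN HL HM S
             hNC }, hS',
    fun P => Fermat.Agent.S43.LG1.C1.PcgX1.cuspL_iff
      (Fermat.Agent.S43.LG1.C1.Generic.FibX1.isIntegral_alpha1 hr hrN) P⟩

variable (hr hA hrN) in
/-- **Record 2 over the explicit record 1 `ExitC2.XOf`**, with the node condition, `b` not a cusp,
and the cusp set identified. -/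
theorem exists_nodes_cusp {gM : ℕ}
    (HM : RiemannHyp (ResidueField ↥A) ↥(F1C N (ResidueField ↥A)) gM) :
    ∃ Y : NodesC1 (Fermat.Agent.S43.LG1.C1.ExitC2.XOf hr hA hrN HM),
      (∀ b ∈ Y.S, FrX1 A N r (Fr2X1 hr hA hrN b) = b ∧
        b ∉ Fermat.Agent.S43.LG1.C1.Euler.FrobSideX1.P0 (hJ1 N (ResidueField ↥A))) ∧
      ∀ P : Place Kb ↥(F1pBar N r),
        P ∈ Y.cuspL ↔ P.ord (Fermat.Agent.S43.LG1.C1.CuspRegularX1.jE1 N r) < 0 :=
  exists_nodesX1_cusp HM
    (Fermat.Agent.S43.LG1.C1.CoreZX1.genericX1 hr hA hrN (HX1 hr hA hrN HM))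

variable (hr hA hrN) in
/-- the literal `hcuspL` of helper26's `Ig/NodeT.isCoprime_ord_nodes` -/
theorem exists_nodes_hcuspL {gM : ℕ}
    (HM : RiemannHyp (ResidueField ↥A) ↥(F1C N (ResidueField ↥A)) gM) :
    ∃ Y : NodesC1 (Fermat.Agent.S43.LG1.C1.ExitC2.XOf hr hA hrN HM),
      (∀ b ∈ Y.S, FrX1 A N r (Fr2X1 hr hA hrN b) = b ∧
        b ∉ Fermat.Agent.S43.LG1.C1.Euler.FrobSideX1.P0 (hJ1 N (ResidueField ↥A))) ∧
      ∀ P : Place Kb ↥(F1pBar N r),
        P.ord (Fermat.Agent.S43.LG1.C1.CuspRegularX1.jE1 N r) < 0 → P ∈ Y.cuspL := by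
  obtain ⟨Y, h1, h2⟩ := exists_nodes_cusp hr hA hrN HM
  exact ⟨Y, h1, fun P hP => (h2 P).mpr hP⟩

end Fermat.Agent.S43.LG1.C1.NodesCuspX1
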