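/-
S43 (row 37), PROJECT R, block `LG1`, brick `C1` (twin of `S34` at `X₁(N)`), file `HoloIdealGen`
(helper23): twin of main's `S34/HoloIdeal`, GENERIC in the field (`Fk` a coefficientwise stable
subfield of `k((t))` containing `J(t)`, helper7's `C1/FrobKGen`) and TWISTED by a diamond `d`.

**Ideals of the holomorphy rings `holo S` of `Fk`**, and the producer of the radical-ideal
hypothesis of the two-map sandwich (`C1/Euler/PlacesTw`, `C1/Euler/ChartTw`).

`S` a finite set of places containing `Q0`, `hR : RiemannHyp k Fk gk`.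

* `exists_holo_unif`, `exists_holo_approx` (strong approximation in `holo S`), `mem_of_local`
  (the local-global principle for ideals of `holo S`), `mv S v`, `mv_isMaximal`, `mv_injOn`:
  as in `S34/HoloIdeal`, for any `Fk`;
* the twist: `d : Fk ≃ₐ[k] Fk` commuting with `psi` and fixing `j` (helper7's section `Twist`).
  `psiTw = phi ∘ d` with place map `FrTw v = (Dp d)⁻¹ (Fr v)` (`ord_psiTw`, `valueRule`-ready);
  `fixedOffTw S` : the finite set of places `v ∉ S` with `Fr (Fr ((Dp d)⁻¹ v)) = v` (the zeros of the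
  ideal generated by the `g - psiTw (phi g) = g - d (phi (phi g))`);
* (the local inputs `exists_holo_sub_d_phi_phi_param`, `exists_holo_sub_d_phi_phi_unit` are
  helper13's `C1/FrobKSepGen`);
* `inf_mv_le_span_of` : `⨅_{v ∈ fixedOffTw S} mv S v ≤ span {g - T g}` for ANY map `T` of `holo S`
  with `T g = d (phi (phi g))` in `Fk`; `inf_mv_le_span_tw` : the case
  `T = psiTwHolo ∘ phiHolo` (literally `hJ` of `Sandwich.exists_nodes` at `R₁ = R₂ = holo S`,
  `φ = psiTwHolo`, `ψ = phiHolo`).  `d = 1` gives back main's statements.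
-/
import Mathlib
import Fermat.Agent.S43.LG1.C1.FrobKGen
import Fermat.Agent.S43.LG1.C1.FrobKSepGen
import Fermat.Agent.S34.Sandwich
import Fermat.Agent.S18.A.RiemannBasic

set_option autoImplicit false
set_option linter.unusedSectionVars false
set_option linter.style.haveILetI false

noncomputable section

namespace Fermat.Agent.S43.LG1.C1.HoloIdealGen

open AlgebraicCurve ModularCurve IntermediateField WithZero
open Fermat.Agent.S43.LG1.C1.FrobKGen Fermat.Agent.S43.LG1.C1.FrobKSepGen Fermat.Agent.S18.NonSpecial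

/-! ### elementary facts in `ℤᵐ⁰` -/

theorem lt_one_iff_le_exp {x : ℤᵐ⁰} : x < 1 ↔ x ≤ exp (-1 : ℤ) := by
  rcases eq_or_ne x 0 with rfl | hx
  · simp
  · rw [← exp_log hx, ← exp_zero, exp_lt_exp, exp_le_exp]
    omega

theorem exp_neg_succ (n : ℕ) : exp (-((n + 1 : ℕ) : ℤ)) = exp (-(n : ℤ)) * exp (-1 : ℤ) := by
  rw [← exp_add]
  congr 1
  push_cast
  ring

theorem exp_neg_nat_le_one (n : ℕ) : exp (-(n : ℤ)) ≤ (1 : ℤᵐ⁰) := by
  rw [← exp_zero, exp_le_exp]
  omega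

variable {k : Type*} [Field k] {Fk : IntermediateField k (LaurentSeries k)}

/-- shortcut (the plain search for `Algebra k ↥Fk` goes through `IsScalarTower k k k((t))` and costs
`0.5 s` per occurrence): use as `attribute [local instance] HoloIdealGen.algFk` -/
@[reducible] def algFk (Fk : IntermediateField k (LaurentSeries k)) : Algebra k ↥Fk := inferInstance

attribute [local instance] algFk

theorem val_le_one_of_mem_holo {S : Set (Place k ↥Fk)} {g : ↥Fk} (hg : g ∈ holo S)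
    {v : Place k ↥Fk} (hv : v ∉ S) : v.adicValuation g ≤ 1 :=
  (Fermat.Agent.S24.Ord.mem_iff v g).mp (hg v hv)

theorem mem_holo_of_val {S : Set (Place k ↥Fk)} {g : ↥Fk}
    (hg : ∀ v : Place k ↥Fk, v ∉ S → v.adicValuation g ≤ 1) : g ∈ holo S :=
  fun v hv => (Fermat.Agent.S24.Ord.mem_iff v g).mpr (hg v hv)

section Approx

variable {gk : ℕ} (hR : RiemannHyp k ↥Fk gk)
variable {S : Set (Place k ↥Fk)} {Q0 : Place k ↥Fk} (hQ0 : Q0 ∈ S)

include hR hQ0 in
/-- a function regular off `S` which is a parameter at every place of a finite set off `S` -/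
theorem exists_holo_unif (T : Finset (Place k ↥Fk)) (hT : ∀ w ∈ T, w ∉ S) :
    ∃ π ∈ holo S, ∀ w ∈ T, w.adicValuation π = exp (-1 : ℤ) := by
  classical
  -- local parameters
  have h1 : ∀ w ∈ T, ∃ p ∈ holo S, w.adicValuation p = exp (-1 : ℤ) := by
    intro w hw
    obtain ⟨p, hp, hp1⟩ := exists_holo_param hR hQ0 (hT w hw)
    have hp0 : p ≠ 0 := by
      rintro rfl
      rw [Place.ord_zero] at hp1
      exact zero_ne_one hp1
    exact ⟨p, hp, by rw [Fermat.Agent.S24.Ord.adicValuation_eq w hp0, hp1]⟩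
  choose! p hp hp1 using h1
  -- partition functions
  have h2 : ∀ w ∈ T, ∃ c ∈ holo S, ∀ Q ∈ T,
      Q.adicValuation (c - algebraMap k ↥Fk (if Q = w then 1 else 0)) < 1 := by
    intro w _
    exact exists_holo_values hR hQ0 T hT (fun Q => if Q = w then 1 else 0)
  choose! c hc hc1 using h2
  refine ⟨∑ w ∈ T, c w ^ 2 * p w, ?_, ?_⟩
  · exact Subalgebra.sum_mem _ fun w hw =>
      Subalgebra.mul_mem _ (Subalgebra.pow_mem _ (hc w hw) 2) (hp w hw)
  · intro w0 hw0
    rw [← Finset.add_sum_erase T _ hw0]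
    -- the main term
    have hcw0 : w0.adicValuation (c w0) = 1 := by
      have h := hc1 w0 hw0 w0 hw0
      rw [if_pos rfl, map_one] at h
      have := Valuation.map_sub_eq_of_lt_left w0.adicValuation (x := (1 : ↥Fk)) (y := 1 - c w0) (by
        rw [Valuation.map_one, ← Valuation.map_neg, neg_sub]
        exact h)
      rw [sub_sub_cancel, Valuation.map_one] at this
      exact this
    have hmain : w0.adicValuation (c w0 ^ 2 * p w0) = exp (-1 : ℤ) := by
      rw [map_mul, map_pow, hcw0, one_pow, one_mul, hp1 w0 hw0]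
    have hrest : w0.adicValuation (∑ w ∈ T.erase w0, c w ^ 2 * p w) < exp (-1 : ℤ) := by
      refine Valuation.map_sum_lt _ exp_ne_zero fun w hw => ?_
      have hwT : w ∈ T := Finset.mem_of_mem_erase hw
      have hne : w0 ≠ w := (Finset.ne_of_mem_erase hw).symm
      have h := hc1 w hwT w0 hw0
      rw [if_neg hne, map_zero, sub_zero] at h
      have h' : w0.adicValuation (c w) ≤ exp (-1 : ℤ) := lt_one_iff_le_exp.mp h
      have hpw : w0.adicValuation (p w) ≤ 1 := val_le_one_of_mem_holo (hp w hwT) (hT w0 hw0)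
      rw [map_mul, map_pow]
      calc w0.adicValuation (c w) ^ 2 * w0.adicValuation (p w)
          ≤ exp (-1 : ℤ) ^ 2 * 1 := mul_le_mul' (pow_le_pow_left' h' 2) hpw
        _ < exp (-1 : ℤ) := by
          rw [mul_one, ← exp_nsmul, exp_lt_exp]
          norm_num
    rw [Valuation.map_add_eq_of_lt_left _ (by rw [hmain]; exact hrest), hmain]

include hR hQ0 in
/-- **Strong approximation in `holo S`.** -/
theorem exists_holo_approx (T : Finset (Place k ↥Fk)) (hT : ∀ w ∈ T, w ∉ S)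
    (t : Place k ↥Fk → ↥Fk) (ht : ∀ w ∈ T, w.adicValuation (t w) ≤ 1) (n : ℕ) :
    ∃ a ∈ holo S, ∀ w ∈ T, w.adicValuation (a - t w) ≤ exp (-(n : ℤ)) := by
  classical
  obtain ⟨π, hπ, hπ1⟩ := exists_holo_unif hR hQ0 T hT
  induction n with
  | zero =>
    refine ⟨0, Subalgebra.zero_mem _, fun w hw => ?_⟩
    rw [zero_sub, Valuation.map_neg]
    simpa using ht w hw
  | succ n ih =>
    obtain ⟨a, ha, han⟩ := ih
    -- the values of `(a - t w) / π ^ n`
    have h1 : ∀ w ∈ T, ∃ β : k,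
        w.adicValuation ((a - t w) / π ^ n - algebraMap k ↥Fk β) < 1 := by
      intro w hw
      refine Fermat.Agent.S18.A.Riemann.exists_sub_const_lt_one w (hR.deg_one w) ?_
      rw [map_div₀, map_pow, hπ1 w hw, ← exp_nsmul]
      rw [div_le_iff₀ exp_pos, one_mul]
      refine (han w hw).trans (le_of_eq ?_)
      congr 1
      simp
    choose! β hβ using h1
    obtain ⟨b, hb, hb1⟩ := exists_holo_values hR hQ0 T hT β
    refine ⟨a - b * π ^ n, Subalgebra.sub_mem _ ha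
      (Subalgebra.mul_mem _ hb (Subalgebra.pow_mem _ hπ n)), fun w hw => ?_⟩
    have hπ0 : π ≠ 0 := by
      rintro rfl
      have := hπ1 w hw
      rw [map_zero] at this
      exact exp_ne_zero this.symm
    have e : a - b * π ^ n - t w =
        π ^ n * (((a - t w) / π ^ n - algebraMap k ↥Fk (β w)) - (b - algebraMap k ↥Fk (β w))) := by
      field_simp
      ring
    rw [e, map_mul, map_pow, hπ1 w hw, exp_neg_succ, ← exp_nsmul]
    have h2 : w.adicValuation (((a - t w) / π ^ n - algebraMap k ↥Fk (β w)) -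
        (b - algebraMap k ↥Fk (β w))) ≤ exp (-1 : ℤ) :=
      lt_one_iff_le_exp.mp (Valuation.map_sub_lt _ (hβ w hw) (hb1 w hw))
    refine mul_le_mul' (le_of_eq ?_) h2
    congr 1
    simp

end Approx

/-! ### the local-global principle for ideals of `holo S` -/

section LocalGlobal

variable {gk : ℕ} (hR : RiemannHyp k ↥Fk gk)
variable [HasPrincipalDivisors k ↥Fk]
variable {S : Set (Place k ↥Fk)} {Q0 : Place k ↥Fk} (hQ0 : Q0 ∈ S)

include hR hQ0 in
/-- **Local-global principle.**  Let `J` be an ideal of `holo S` (`S` finite) and `Zs` a finite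
set of places.  If `J` contains, for every `v ∈ Zs`, an element of order `≤ 1` at `v`, and for
every `v ∉ S ∪ Zs` an element which is a unit at `v`, then `J` contains every `h ∈ holo S` which
vanishes at all places of `Zs`. -/
theorem mem_of_local (hSfin : S.Finite) (J : Ideal ↥(holo S)) (Zs : Finset (Place k ↥Fk))
    (hZ : ∀ v ∈ Zs, v ∉ S → ∃ g ∈ J, exp (-1 : ℤ) ≤ v.adicValuation ((g : ↥(holo S)) : ↥Fk))
    (hnZ : ∀ v, v ∉ S → v ∉ Zs → ∃ g ∈ J, v.adicValuation ((g : ↥(holo S)) : ↥Fk) = 1)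
    (h : ↥(holo S)) (hh : ∀ v ∈ Zs, v.adicValuation (h : ↥Fk) < 1) : h ∈ J := by
  classical
  -- the threshold
  set thr : Place k ↥Fk → ℤᵐ⁰ := fun v => if v ∈ Zs then exp (-1 : ℤ) else 1 with hthr
  have hthr0 : ∀ v, thr v ≠ 0 := by
    intro v
    simp only [hthr]
    split_ifs
    · exact exp_ne_zero
    · exact one_ne_zero
  have hloc : ∀ v, v ∉ S → ∃ g ∈ J, thr v ≤ v.adicValuation ((g : ↥(holo S)) : ↥Fk) := by
    intro v hv
    simp only [hthr]
    split_ifs with hvZ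
    · exact hZ v hvZ hv
    · obtain ⟨g, hg, hg1⟩ := hnZ v hv hvZ
      exact ⟨g, hg, hg1.ge⟩
  have hhthr : ∀ v, v ∉ S → v.adicValuation (h : ↥Fk) ≤ thr v := by
    intro v hv
    simp only [hthr]
    split_ifs with hvZ
    · exact lt_one_iff_le_exp.mp (hh v hvZ)
    · exact val_le_one_of_mem_holo h.2 hv
  -- a nonzero element of `J`
  haveI := hR.infinite
  obtain ⟨v0, hv0⟩ := hSfin.infinite_compl.nonempty
  obtain ⟨g1, hg1J, hg1v⟩ := hloc v0 hv0
  have hg10 : (g1 : ↥Fk) ≠ 0 := by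
    intro h0
    rw [h0, map_zero] at hg1v
    exact hthr0 v0 (le_zero_iff.mp hg1v)
  -- its zeros off `S`
  have hTfin : {v : Place k ↥Fk | v.ord (g1 : ↥Fk) ≠ 0}.Finite := by
    obtain ⟨D, hD, -⟩ := HasPrincipalDivisors.exists_divisor (K := k) (g1 : ↥Fk) hg10
    refine D.support.finite_toSet.subset fun v hv => ?_
    rw [Finset.mem_coe, Finsupp.mem_support_iff, hD]
    exact hv
  set T : Finset (Place k ↥Fk) := hTfin.toFinset.filter fun v => v ∉ S with hTdef
  have hT : ∀ w ∈ T, w ∉ S := fun w hw => (Finset.mem_filter.mp hw).2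
  have hnotT : ∀ v, v ∉ S → v ∉ T → v.adicValuation (g1 : ↥Fk) = 1 := by
    intro v hv hvT
    have : ¬ v.ord (g1 : ↥Fk) ≠ 0 := fun hne =>
      hvT (Finset.mem_filter.mpr ⟨hTfin.mem_toFinset.mpr hne, hv⟩)
    rw [not_not] at this
    rw [Fermat.Agent.S24.Ord.adicValuation_eq v hg10, this, neg_zero, exp_zero]
  -- a uniform bound for the order of `g1` on `T`
  obtain ⟨n, hn⟩ : ∃ n : ℕ, ∀ w ∈ T, exp (-(n : ℤ)) ≤ w.adicValuation (g1 : ↥Fk) := by
    refine ⟨T.sup fun w => (w.ord (g1 : ↥Fk)).toNat, fun w hw => ?_⟩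
    rw [Fermat.Agent.S24.Ord.adicValuation_eq w hg10, exp_le_exp]
    have h1 : (w.ord (g1 : ↥Fk)).toNat ≤ T.sup fun w => (w.ord (g1 : ↥Fk)).toNat :=
      Finset.le_sup (f := fun w => (w.ord (g1 : ↥Fk)).toNat) hw
    have h2 : w.ord (g1 : ↥Fk) ≤ ((w.ord (g1 : ↥Fk)).toNat : ℤ) := Int.self_le_toNat _
    have h3 : ((w.ord (g1 : ↥Fk)).toNat : ℤ) ≤
        ((T.sup fun w => (w.ord (g1 : ↥Fk)).toNat : ℕ) : ℤ) := by exact_mod_cast h1
    omega
  -- local generators on `T`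
  have h2 : ∀ w ∈ T, ∃ g ∈ J, thr w ≤ w.adicValuation ((g : ↥(holo S)) : ↥Fk) :=
    fun w hw => hloc w (hT w hw)
  choose! gg hggJ hggv using h2
  -- the quotients `h / gg w`
  have h3 : ∀ w ∈ T, w.adicValuation ((h : ↥Fk) / (gg w : ↥Fk)) ≤ 1 := by
    intro w hw
    have hpos : 0 < w.adicValuation (gg w : ↥Fk) :=
      lt_of_lt_of_le (zero_lt_iff.mpr (hthr0 w)) (hggv w hw)
    rw [map_div₀, div_le_iff₀ hpos, one_mul]
    exact (hhthr w (hT w hw)).trans (hggv w hw)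
  -- strong approximation
  have h4 : ∀ w, ∃ a ∈ holo S, w ∈ T → ∀ w' ∈ T,
      w'.adicValuation (a - (if w' = w then (h : ↥Fk) / (gg w : ↥Fk) else 0)) ≤ exp (-(n : ℤ)) := by
    intro w
    by_cases hw : w ∈ T
    · obtain ⟨a, ha, h5⟩ := exists_holo_approx hR hQ0 T hT
        (fun w' => if w' = w then (h : ↥Fk) / (gg w : ↥Fk) else 0) (fun w' _ => by
          split_ifs with heq
          · rw [heq]
            exact h3 w hw
          · simp) n
      exact ⟨a, ha, fun _ => h5⟩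
    · exact ⟨0, Subalgebra.zero_mem _, fun h => absurd h hw⟩
  choose a ha haT using h4
  -- the remainder
  set h' : ↥Fk := (h : ↥Fk) - ∑ w ∈ T, a w * (gg w : ↥Fk) with hh'
  have hsum_mem : ∑ w ∈ T, a w * (gg w : ↥Fk) ∈ holo S :=
    Subalgebra.sum_mem _ fun w hw => Subalgebra.mul_mem _ (ha w) (gg w).2
  have hh'mem : h' ∈ holo S := Subalgebra.sub_mem _ h.2 hsum_mem
  have hh'T : ∀ w0 ∈ T, w0.adicValuation h' ≤ exp (-(n : ℤ)) := by
    intro w0 hw0
    have e : h' = ((h : ↥Fk) - a w0 * (gg w0 : ↥Fk)) - ∑ w ∈ T.erase w0, a w * (gg w : ↥Fk) := by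
      rw [hh', ← Finset.add_sum_erase T _ hw0]
      ring
    rw [e]
    refine (Valuation.map_sub _ _ _).trans (max_le ?_ ?_)
    · have hgg0 : (gg w0 : ↥Fk) ≠ 0 := by
        intro h0
        have := hggv w0 hw0
        rw [h0, map_zero] at this
        exact hthr0 w0 (le_zero_iff.mp this)
      have e2 : (h : ↥Fk) - a w0 * (gg w0 : ↥Fk) =
          -((a w0 - (h : ↥Fk) / (gg w0 : ↥Fk)) * (gg w0 : ↥Fk)) := by
        field_simp
        ring
      rw [e2, Valuation.map_neg, map_mul]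
      have h5 := haT w0 hw0 w0 hw0
      rw [if_pos rfl] at h5
      calc w0.adicValuation (a w0 - (h : ↥Fk) / (gg w0 : ↥Fk)) * w0.adicValuation (gg w0 : ↥Fk)
          ≤ exp (-(n : ℤ)) * 1 :=
            mul_le_mul' h5 (val_le_one_of_mem_holo (gg w0).2 (hT w0 hw0))
        _ = exp (-(n : ℤ)) := mul_one _
    · refine Valuation.map_sum_le _ fun w hw => ?_
      have hwT : w ∈ T := Finset.mem_of_mem_erase hw
      have hne : w0 ≠ w := (Finset.ne_of_mem_erase hw).symm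
      have h5 := haT w hwT w0 hw0
      rw [if_neg hne, sub_zero] at h5
      rw [map_mul]
      calc w0.adicValuation (a w) * w0.adicValuation (gg w : ↥Fk)
          ≤ exp (-(n : ℤ)) * 1 :=
            mul_le_mul' h5 (val_le_one_of_mem_holo (gg w).2 (hT w0 hw0))
        _ = exp (-(n : ℤ)) := mul_one _
  -- the quotient by `g1`
  have hb : h' / (g1 : ↥Fk) ∈ holo S := by
    refine mem_holo_of_val fun v hv => ?_
    by_cases hvT : v ∈ T
    · have hpos : 0 < v.adicValuation (g1 : ↥Fk) := lt_of_lt_of_le exp_pos (hn v hvT)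
      rw [map_div₀, div_le_iff₀ hpos, one_mul]
      exact (hh'T v hvT).trans (hn v hvT)
    · rw [map_div₀, hnotT v hv hvT, div_one]
      exact val_le_one_of_mem_holo hh'mem hv
  -- conclusion
  have hfin : h = ⟨h' / (g1 : ↥Fk), hb⟩ * g1 + ∑ w ∈ T, ⟨a w, ha w⟩ * gg w := by
    apply Subtype.ext
    rw [Subalgebra.coe_add, Subalgebra.coe_mul, AddSubmonoidClass.coe_finsetSum]
    simp only [Subalgebra.coe_mul]
    rw [div_mul_cancel₀ _ hg10, hh']
    ring
  rw [hfin]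
  refine J.add_mem (J.mul_mem_left _ hg1J) (J.sum_mem fun w hw => ?_)
  exact J.mul_mem_left _ (hggJ w hw)

end LocalGlobal

/-! ### the maximal ideals `mv S v` -/

section Max

open Classical in
/-- the ideal of the functions of `holo S` vanishing at `v` (by convention `⊤` for `v ∈ S`) -/
def mv (S : Set (Place k ↥Fk)) (v : Place k ↥Fk) : Ideal ↥(holo S) :=
  if hv : v ∈ S then ⊤ else
  { carrier := {g | v.adicValuation ((g : ↥(holo S)) : ↥Fk) < 1}
    zero_mem' := by simp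
    add_mem' := fun {a b} ha hb => by
      change v.adicValuation ((a : ↥Fk) + (b : ↥Fk)) < 1
      exact Valuation.map_add_lt _ ha hb
    smul_mem' := fun c g hg => by
      change v.adicValuation ((c : ↥Fk) * (g : ↥Fk)) < 1
      rw [map_mul]
      exact lt_of_le_of_lt (mul_le_of_le_one_left' (val_le_one_of_mem_holo c.2 hv)) hg }

theorem mem_mv_iff {S : Set (Place k ↥Fk)} {v : Place k ↥Fk} (hv : v ∉ S) (g : ↥(holo S)) :
    g ∈ mv S v ↔ v.adicValuation (g : ↥Fk) < 1 := by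
  unfold mv
  rw [dif_neg hv]
  rfl

variable {gk : ℕ} (hR : RiemannHyp k ↥Fk gk)
variable {S : Set (Place k ↥Fk)} {Q0 : Place k ↥Fk} (hQ0 : Q0 ∈ S)

include hR in
/-- `mv S v` is a maximal ideal of `holo S` for `v ∉ S` (residue field `k`) -/
theorem mv_isMaximal {v : Place k ↥Fk} (hv : v ∉ S) : (mv S v).IsMaximal := by
  rw [Ideal.isMaximal_iff]
  refine ⟨?_, fun J x hle hx hxJ => ?_⟩
  · rw [mem_mv_iff hv]
    simp
  · rw [mem_mv_iff hv] at hx
    obtain ⟨c, hc⟩ := Fermat.Agent.S18.A.Riemann.exists_sub_const_lt_one v (hR.deg_one v)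
      (val_le_one_of_mem_holo x.2 hv)
    have hc0 : c ≠ 0 := by
      rintro rfl
      rw [map_zero, sub_zero] at hc
      exact hx hc
    have h1 : x - algebraMap k ↥(holo S) c ∈ J := hle ((mem_mv_iff hv _).mpr hc)
    have h2 : algebraMap k ↥(holo S) c ∈ J := by
      have := J.sub_mem hxJ h1
      rwa [sub_sub_cancel] at this
    have h3 := J.mul_mem_left (algebraMap k ↥(holo S) c⁻¹) h2
    rwa [← map_mul, inv_mul_cancel₀ hc0, map_one] at h3

include hR hQ0 in
/-- distinct places off `S` have distinct maximal ideals -/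
theorem mv_ne {v w : Place k ↥Fk} (hv : v ∉ S) (hw : w ∉ S) (hvw : v ≠ w) :
    mv S v ≠ mv S w := by
  obtain ⟨g, hg, hg0, hgv, hgw⟩ := exists_holo_sep hR hQ0 hv hw hvw
  intro heq
  have h1 : (⟨g, hg⟩ : ↥(holo S)) ∈ mv S v :=
    (mem_mv_iff hv _).mpr ((Fermat.Agent.S24.Ord.ord_pos_iff v hg0).mp hgv)
  rw [heq, mem_mv_iff hw] at h1
  have h2 := (Fermat.Agent.S24.Ord.ord_pos_iff w hg0).mpr h1
  rw [hgw] at h2
  exact lt_irrefl _ h2

include hR hQ0 in
theorem mv_injOn : Set.InjOn (mv S) Sᶜ := by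
  intro v hv w hw heq
  by_contra hne
  exact mv_ne hR hQ0 hv hw hne heq

end Max

/-! ### the twisted Frobenius ideal -/

section Frob

open Fermat.Agent.S48.B.Red.CoeffAut1 (CoeffStable)
open Fermat.Agent.S48.B.Inj.Basics (jC)

variable (hC : CoeffStable Fk) (hJ : jqModC k ∈ Fk)
variable (q : ℕ) [hq : Fact q.Prime] [CharP k q] [PerfectField k]
variable (d : ↥Fk ≃ₐ[k] ↥Fk) (hdψ : ∀ x : ↥Fk, d (psi hC q x) = psi hC q (d x))

/-- the twisted Frobenius pull-back `ψ = φ ∘ d` (`= d ∘ φ`) -/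
def psiTw : ↥Fk →ₐ[k] ↥Fk := (phi hC q).comp (d : ↥Fk →ₐ[k] ↥Fk)

theorem psiTw_apply (g : ↥Fk) : psiTw hC q d g = phi hC q (d g) := rfl

include hdψ in
theorem psiTw_eq (g : ↥Fk) : psiTw hC q d g = d (phi hC q g) :=
  (d_phi hC q d hdψ g).symm

include hdψ in
/-- `ψ (φ g) = d (φ (φ g))` -/
theorem psiTw_phi (g : ↥Fk) : psiTw hC q d (phi hC q g) = d (phi hC q (phi hC q g)) :=
  psiTw_eq hC q d hdψ _

/-- the place map of `ψ`: `FrTw v = (Dp d)⁻¹ (Fr v)` -/
def FrTw : Place k ↥Fk ≃ Place k ↥Fk := (Fr hC q).trans (Dp d).symm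

theorem FrTw_apply (v : Place k ↥Fk) : FrTw hC q d v = (Dp d).symm (Fr hC q v) := rfl

/-- **`ord_v (ψ g) = q · ord_(FrTw v) g`.** -/
theorem ord_psiTw (v : Place k ↥Fk) (g : ↥Fk) :
    v.ord (psiTw hC q d g) = (q : ℤ) * (FrTw hC q d v).ord g := by
  rw [psiTw_apply, ord_phi, ord_d, FrTw_apply]

include hdψ in
/-- `Fr (FrTw v) = Fr (Fr ((Dp d)⁻¹ v))` -/
theorem Fr_FrTw (v : Place k ↥Fk) :
    Fr hC q (FrTw hC q d v) = Fr hC q (Fr hC q ((Dp d).symm v)) := by
  rw [FrTw_apply, ← Fr_Dp_symm hC q d hdψ]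

section Stable

variable {S : Set (Place k ↥Fk)}

/-- `S` is stable under `(Dp d)⁻¹` as soon as it is stable under `Dp d` -/
theorem Dp_symm_mem_iff (hSd : ∀ w, Dp d w ∈ S ↔ w ∈ S) (w : Place k ↥Fk) :
    (Dp d).symm w ∈ S ↔ w ∈ S := by
  have := hSd ((Dp d).symm w)
  rw [Equiv.apply_symm_apply] at this
  exact this.symm

theorem FrTw_mem_iff (hS : ∀ w, Fr hC q w ∈ S ↔ w ∈ S) (hSd : ∀ w, Dp d w ∈ S ↔ w ∈ S)
    (w : Place k ↥Fk) : FrTw hC q d w ∈ S ↔ w ∈ S := by
  rw [FrTw_apply, Dp_symm_mem_iff d hSd, hS]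

/-- `d` preserves and reflects the holomorphy ring of a `Dp d`-stable set -/
theorem d_mem_holo_iff (hSd : ∀ w, Dp d w ∈ S ↔ w ∈ S) (g : ↥Fk) :
    d g ∈ holo S ↔ g ∈ holo S := by
  rw [mem_holo_iff_ord, mem_holo_iff_ord]
  constructor
  · intro h v hv
    have h1 := h (Dp d v) (fun h' => hv ((hSd v).mp h'))
    rwa [ord_Dp] at h1
  · intro h v hv
    rw [ord_d]
    exact h _ (fun h' => hv ((Dp_symm_mem_iff d hSd v).mp h'))

/-- `ψ` preserves and reflects the holomorphy ring of an `Fr`- and `Dp d`-stable set -/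
theorem psiTw_mem_holo_iff (hS : ∀ w, Fr hC q w ∈ S ↔ w ∈ S) (hSd : ∀ w, Dp d w ∈ S ↔ w ∈ S)
    (g : ↥Fk) : psiTw hC q d g ∈ holo S ↔ g ∈ holo S := by
  rw [psiTw_apply, phi_mem_holo_iff hC q hS, d_mem_holo_iff d hSd]

/-- `ψ` restricted to the holomorphy ring of an `Fr`- and `Dp d`-stable set -/
def psiTwHolo (hS : ∀ w, Fr hC q w ∈ S ↔ w ∈ S) (hSd : ∀ w, Dp d w ∈ S ↔ w ∈ S) :
    ↥(holo S) →ₐ[k] ↥(holo S) :=
  AlgHom.codRestrict ((psiTw hC q d).comp (holo S).val) (holo S)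
    (fun g => (psiTw_mem_holo_iff hC q d hS hSd g.1).mpr g.2)

theorem coe_psiTwHolo (hS : ∀ w, Fr hC q w ∈ S ↔ w ∈ S) (hSd : ∀ w, Dp d w ∈ S ↔ w ∈ S)
    (g : ↥(holo S)) :
    ((psiTwHolo hC q d hS hSd g : ↥(holo S)) : ↥Fk) = psiTw hC q d (g : ↥Fk) := rfl

include hdψ in
theorem coe_psiTwHolo_phiHolo (hS : ∀ w, Fr hC q w ∈ S ↔ w ∈ S)
    (hSd : ∀ w, Dp d w ∈ S ↔ w ∈ S) (g : ↥(holo S)) :
    ((psiTwHolo hC q d hS hSd (phiHolo hC q hS g) : ↥(holo S)) : ↥Fk) =
      d (phi hC q (phi hC q (g : ↥Fk))) := by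
  rw [coe_psiTwHolo, coe_phiHolo, psiTw_phi hC q d hdψ]

end Stable

variable {gk : ℕ} (hR : RiemannHyp k ↥Fk gk)
variable {S : Set (Place k ↥Fk)} {Q0 : Place k ↥Fk} (hQ0 : Q0 ∈ S)

variable [IsAlgClosed k] [HasPrincipalDivisors k ↥Fk] [FiniteDimensional k⟮jC hJ⟯ ↥Fk]
variable (hdj : d (jC hJ) = jC hJ)

open Classical in
/-- the finite set of the twisted-fixed places off `S` -/
def fixedOffTw (S : Set (Place k ↥Fk)) : Finset (Place k ↥Fk) :=
  (finite_twisted_fixed hC hJ q d hdψ hdj).toFinset.filter fun v => v ∉ S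

theorem mem_fixedOffTw {S : Set (Place k ↥Fk)} {v : Place k ↥Fk} :
    v ∈ fixedOffTw hC hJ q d hdψ hdj S ↔
      Fr hC q (Fr hC q ((Dp d).symm v)) = v ∧ v ∉ S := by
  classical
  unfold fixedOffTw
  rw [Finset.mem_filter, Set.Finite.mem_toFinset]
  rfl

include hR hQ0 in
/-- **The twisted Frobenius ideal contains the radical ideal of the twisted-fixed places off
`S`**, for any presentation `T` of `g ↦ d (φ (φ g))` on `holo S`. -/
theorem inf_mv_le_span_of (hS : ∀ w, Fr hC q w ∈ S ↔ w ∈ S) (hSd : ∀ w, Dp d w ∈ S ↔ w ∈ S)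
    (hSfin : S.Finite) (T : ↥(holo S) → ↥(holo S))
    (hT : ∀ g : ↥(holo S), ((T g : ↥(holo S)) : ↥Fk) = d (phi hC q (phi hC q (g : ↥Fk)))) :
    ((fixedOffTw hC hJ q d hdψ hdj S).image (mv S)).inf id ≤
      Ideal.span (Set.range fun g : ↥(holo S) => g - T g) := by
  classical
  intro h hh
  rw [Submodule.mem_finsetInf] at hh
  refine mem_of_local hR hQ0 hSfin _ (fixedOffTw hC hJ q d hdψ hdj S) ?_ ?_ h ?_
  · intro v hv hvS
    obtain ⟨g, hg, hg1⟩ := exists_holo_sub_d_phi_phi_param hC q hR hQ0 d hdψ hvS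
      ((mem_fixedOffTw hC hJ q d hdψ hdj).mp hv).1
    refine ⟨_, Ideal.subset_span ⟨⟨g, hg⟩, rfl⟩, ?_⟩
    have hne : g - d (phi hC q (phi hC q g)) ≠ 0 := by
      intro h0
      rw [h0, Place.ord_zero] at hg1
      exact zero_ne_one hg1
    change exp (-1 : ℤ) ≤ v.adicValuation (g - ((T ⟨g, hg⟩ : ↥(holo S)) : ↥Fk))
    rw [hT, Fermat.Agent.S24.Ord.adicValuation_eq v hne, hg1]
  · intro v hvS hvZ
    have hfix : Fr hC q (Fr hC q ((Dp d).symm v)) ≠ v := fun hfix =>
      hvZ ((mem_fixedOffTw hC hJ q d hdψ hdj).mpr ⟨hfix, hvS⟩)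
    have hv2 : Fr hC q (Fr hC q ((Dp d).symm v)) ∉ S := fun h2 =>
      hvS ((Dp_symm_mem_iff d hSd v).mp ((hS _).mp ((hS _).mp h2)))
    obtain ⟨g, hg, hne, hg0⟩ := exists_holo_sub_d_phi_phi_unit hC q hR hQ0 d hdψ hvS hv2 hfix
    refine ⟨_, Ideal.subset_span ⟨⟨g, hg⟩, rfl⟩, ?_⟩
    change v.adicValuation (g - ((T ⟨g, hg⟩ : ↥(holo S)) : ↥Fk)) = 1
    rw [hT, Fermat.Agent.S24.Ord.adicValuation_eq v hne, hg0, neg_zero, exp_zero]
  · intro v hv
    have hvS : v ∉ S := ((mem_fixedOffTw hC hJ q d hdψ hdj).mp hv).2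
    have := hh (mv S v) (Finset.mem_image_of_mem _ hv)
    exact (mem_mv_iff hvS h).mp this

include hR hQ0 in
/-- **The twisted Frobenius ideal**: literally the hypothesis `hJ` of `Sandwich.exists_nodes` at
`R₁ = R₂ = holo S`, `φ = psiTwHolo`, `ψ = phiHolo` (ideal generated by the `g - ψ' (φ g)`,
`ψ' = φ ∘ d`). -/
theorem inf_mv_le_span_tw (hS : ∀ w, Fr hC q w ∈ S ↔ w ∈ S) (hSd : ∀ w, Dp d w ∈ S ↔ w ∈ S)
    (hSfin : S.Finite) :
    ((fixedOffTw hC hJ q d hdψ hdj S).image (mv S)).inf id ≤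
      Ideal.span (Set.range fun g : ↥(holo S) =>
        g - psiTwHolo hC q d hS hSd (phiHolo hC q hS g)) :=
  inf_mv_le_span_of hC hJ q d hdψ hR hQ0 hdj hS hSd hSfin _
    (coe_psiTwHolo_phiHolo hC q d hdψ hS hSd)

include hR hQ0 in
/-- the same in pointwise form (the generic `HoloBridge.hJ_holo`): a function regular off `S`
vanishing at every twisted-fixed place off `S` lies in the twisted Frobenius ideal; this is the
hypothesis `hJ` of `Euler/PlacesTw.hJ_of_subalgebra2` at `R = holo S`, `φR = phiHolo`,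
`ψR = psiTwHolo`, `Z = fixedOffTw S`. -/
theorem mem_span_tw_of_vanish (hS : ∀ w, Fr hC q w ∈ S ↔ w ∈ S)
    (hSd : ∀ w, Dp d w ∈ S ↔ w ∈ S) (hSfin : S.Finite) (w : ↥(holo S))
    (hw : ∀ b ∈ fixedOffTw hC hJ q d hdψ hdj S, b.adicValuation (w : ↥Fk) < 1) :
    w ∈ Ideal.span (Set.range fun g : ↥(holo S) =>
      g - psiTwHolo hC q d hS hSd (phiHolo hC q hS g)) := by
  classical
  apply inf_mv_le_span_tw hC hJ q d hdψ hR hQ0 hdj hS hSd hSfin
  rw [Submodule.mem_finsetInf]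
  intro m hm
  obtain ⟨v, hv, rfl⟩ := Finset.mem_image.mp hm
  have hv' := (mem_fixedOffTw hC hJ q d hdψ hdj).mp hv
  change w ∈ mv S v
  rw [mem_mv_iff hv'.2]
  exact hw v hv

include hR hQ0 hJ hdψ hdj in
/-- the general pointwise form: ANY presentation `T` of `g ↦ d (φ (φ g))` on `holo S` and ANY
finite set `Z` containing the twisted-fixed places off `S` (e.g. `Euler/FrobSideX1.ZfixTw`);
literally `Euler/ChartFullCX1.HJ2` after unfolding. -/
theorem mem_span_of_vanish (hS : ∀ w, Fr hC q w ∈ S ↔ w ∈ S)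
    (hSd : ∀ w, Dp d w ∈ S ↔ w ∈ S) (hSfin : S.Finite) (T : ↥(holo S) → ↥(holo S))
    (hT : ∀ g : ↥(holo S), ((T g : ↥(holo S)) : ↥Fk) = d (phi hC q (phi hC q (g : ↥Fk))))
    (Z : Finset (Place k ↥Fk))
    (hZ : ∀ v : Place k ↥Fk, Fr hC q (Fr hC q ((Dp d).symm v)) = v → v ∉ S → v ∈ Z)
    (w : ↥(holo S)) (hw : ∀ b ∈ Z, b.adicValuation (w : ↥Fk) < 1) :
    w ∈ Ideal.span (Set.range fun g : ↥(holo S) => g - T g) := by
  classical
  apply inf_mv_le_span_of hC hJ q d hdψ hR hQ0 hdj hS hSd hSfin T hT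
  rw [Submodule.mem_finsetInf]
  intro m hm
  obtain ⟨v, hv, rfl⟩ := Finset.mem_image.mp hm
  have hv' := (mem_fixedOffTw hC hJ q d hdψ hdj).mp hv
  change w ∈ mv S v
  rw [mem_mv_iff hv'.2]
  exact hw v (hZ v hv'.1 hv'.2)

end Frob

end Fermat.Agent.S43.LG1.C1.HoloIdealGen
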